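/-
S36, block [V] (helper11): **approximation / CRT for finitely many pairwise incomparable
archimedean (rank ≤ 1, e.g. discrete) valuation subrings of a field**, and the semilocal ring
`W = ⨅ i, V i` (for `W = V20 ⊓ V11 ⊓ V02`).

Generalises `P4/TwoValApprox` (two valuation subrings, helper17) to a finite family.

* `exists_separating` : `z` with `v_i z > 1` and `v_j z < 1` for all `j ≠ i`;
* `exists_approx_idem` : approximate idempotents `e` (`x_i (e - 1)` small at `i`, `x_j e` small at
  `j ≠ i`, for arbitrary prescribed "poles" `x`);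
* `exists_approx` : **the approximation theorem**: for `a : ι → F` and `c : ι → F`, `c i ≠ 0`, there
  is `G` with `v_i (G - a i) < v_i (c i)` for all `i`;
* consequences: prescribed residues (`exists_forall_sub_mem_nonunits`), units with prescribed
  residues, elements with prescribed valuations (`exists_forall_div_sub_one_mem_nonunits`),
  the Jacobson radical of `⨅ i, V i`.

Mathlib + `P4/TwoValApprox` (itself Mathlib-only).
-/
import Mathlib
import Fermat.Agent.P4.TwoValApprox

set_option autoImplicit false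
set_option linter.unusedSectionVars false
set_option linter.unusedVariables false
set_option linter.style.haveILetI false

namespace Fermat.Agent.S36.V.SemiLocalW

open Fermat.Agent.P4.TwoValApprox

variable {F : Type*} [Field F] {ι : Type*}

/-! ### `IsArch` in terms of the valuation -/

theorem isArch_iff (V : ValuationSubring F) :
    IsArch V ↔ ∀ x e : F, V.valuation e < 1 → ∃ n : ℕ, ∀ m, n ≤ m → V.valuation (x * e ^ m) < 1 :=
  Iff.rfl

/-- A uniform bound for finitely many eventually-true statements. -/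
theorem exists_uniform (S : Finset ι) (P : ι → ℕ → Prop)
    (h : ∀ k ∈ S, ∃ n, ∀ m, n ≤ m → P k m) : ∃ N, ∀ k ∈ S, ∀ m, N ≤ m → P k m := by
  classical
  induction S using Finset.induction_on with
  | empty => exact ⟨0, fun k hk => absurd hk (Finset.notMem_empty k)⟩
  | insert a S ha ih =>
    obtain ⟨N, hN⟩ := ih (fun k hk => h k (Finset.mem_insert_of_mem hk))
    obtain ⟨n, hn⟩ := h a (Finset.mem_insert_self a S)
    refine ⟨max N n, fun k hk m hm => ?_⟩
    rcases Finset.mem_insert.mp hk with rfl | hk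
    · exact hn m (le_trans (le_max_right _ _) hm)
    · exact hN k hk m (le_trans (le_max_left _ _) hm)

variable (V : ι → ValuationSubring F)

/-! ### Separating elements -/

/-- For `i ∉ S`, `S` nonempty: `z` large at `i` and small at every `j ∈ S`. -/
theorem exists_separating_finset (hA : ∀ i, IsArch (V i))
    (hinc : ∀ i j, i ≠ j → ¬ V i ≤ V j) (i : ι) (S : Finset ι) (hS : S.Nonempty) (hi : i ∉ S) :
    ∃ z : F, 1 < (V i).valuation z ∧ ∀ j ∈ S, (V j).valuation z < 1 := by
  classical
  induction hS using Finset.Nonempty.cons_induction with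
  | singleton j =>
    have hij : i ≠ j := fun h => hi (by rw [h]; exact Finset.mem_singleton_self j)
    obtain ⟨t, ht0, ht1, ht2⟩ := exists_small_large (V j) (V i) (hinc j i hij.symm) (hinc i j hij)
    refine ⟨t, ?_, fun k hk => ?_⟩
    · have h2 : (V i).valuation t⁻¹ < 1 := ht2
      rw [map_inv₀] at h2
      have hpos : 0 < (V i).valuation t := by rw [Valuation.pos_iff]; exact ht0
      exact (inv_lt_one₀ hpos).mp h2
    · rw [Finset.mem_singleton] at hk
      subst hk
      exact ht1
  | cons j S hj hS ih =>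
    have hiS : i ∉ S := fun h => hi (Finset.mem_cons.mpr (Or.inr h))
    have hij : i ≠ j := fun h => hi (Finset.mem_cons.mpr (Or.inl h))
    obtain ⟨z, hzi, hzS⟩ := ih hiS
    have hz0 : z ≠ 0 := by
      rintro rfl
      rw [map_zero] at hzi
      exact absurd hzi (not_lt.mpr zero_le_one)
    -- an element `y` large at `i`, small at `j`
    obtain ⟨y, hy0, hy1, hy2⟩ := exists_small_large (V j) (V i) (hinc j i hij.symm) (hinc i j hij)
    have hyj : (V j).valuation y < 1 := hy1
    have hyi : 1 < (V i).valuation y := by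
      have h2 : (V i).valuation y⁻¹ < 1 := hy2
      rw [map_inv₀] at h2
      have hpos : 0 < (V i).valuation y := by rw [Valuation.pos_iff]; exact hy0
      exact (inv_lt_one₀ hpos).mp h2
    -- uniform exponent for the places in `S`
    obtain ⟨N, hN⟩ := exists_uniform S (fun k m => (V k).valuation (y * z ^ m) < 1)
      (fun k hk => hA k y z (hzS k hk))
    rcases lt_trichotomy ((V j).valuation z) 1 with hlt | heq | hgt
    · -- `z` already small at `j`
      refine ⟨z, hzi, fun k hk => ?_⟩
      rcases Finset.mem_cons.mp hk with rfl | hk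
      · exact hlt
      · exact hzS k hk
    · -- `v_j z = 1`: take `y * z ^ N`
      refine ⟨y * z ^ N, ?_, fun k hk => ?_⟩
      · rw [map_mul, map_pow]
        exact one_lt_mul_of_lt_of_le hyi (one_le_pow₀ hzi.le)
      · rcases Finset.mem_cons.mp hk with rfl | hk
        · rw [map_mul, map_pow, heq, one_pow, mul_one]
          exact hyj
        · exact hN k hk N le_rfl
    · -- `v_j z > 1`: take `y * z ^ m / (1 + z ^ m)`, `m = N + 1`
      set m := N + 1 with hm
      have hm0 : m ≠ 0 := by omega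
      have h1i : (V i).valuation (1 + z ^ m) = (V i).valuation (z ^ m) := by
        apply Valuation.map_add_eq_of_lt_right
        rw [map_one, map_pow]
        exact one_lt_pow₀ hzi hm0
      have h1j : (V j).valuation (1 + z ^ m) = (V j).valuation (z ^ m) := by
        apply Valuation.map_add_eq_of_lt_right
        rw [map_one, map_pow]
        exact one_lt_pow₀ hgt hm0
      have hzm0 : z ^ m ≠ 0 := pow_ne_zero m hz0
      have hvi0 : (V i).valuation (z ^ m) ≠ 0 := by
        rw [Valuation.ne_zero_iff]; exact hzm0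
      have hvj0 : (V j).valuation (z ^ m) ≠ 0 := by
        rw [Valuation.ne_zero_iff]; exact hzm0
      refine ⟨y * z ^ m / (1 + z ^ m), ?_, fun k hk => ?_⟩
      · rw [map_div₀, map_mul, h1i, mul_div_assoc, div_self hvi0, mul_one]
        exact hyi
      · rcases Finset.mem_cons.mp hk with rfl | hk
        · rw [map_div₀, map_mul, h1j, mul_div_assoc, div_self hvj0, mul_one]
          exact hyj
        · have hzk : (V k).valuation (z ^ m) < 1 := by
            rw [map_pow]
            exact pow_lt_one₀ zero_le (hzS k hk) hm0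
          have h1k : (V k).valuation (1 + z ^ m) = 1 := Valuation.map_one_add_of_lt _ hzk
          rw [map_div₀, h1k, div_one]
          exact hN k hk m (by omega)

variable [Finite ι]

/-- **Separating elements**: `z` with `v_i z > 1` and `v_j z < 1` for all `j ≠ i` (if there is at
least one `j ≠ i`). -/
theorem exists_separating (hA : ∀ i, IsArch (V i)) (hinc : ∀ i j, i ≠ j → ¬ V i ≤ V j) (i j₀ : ι)
    (hj₀ : j₀ ≠ i) :
    ∃ z : F, 1 < (V i).valuation z ∧ ∀ j, j ≠ i → (V j).valuation z < 1 := by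
  classical
  haveI := Fintype.ofFinite ι
  obtain ⟨z, hz, hzS⟩ := exists_separating_finset V hA hinc i (Finset.univ.erase i)
    ⟨j₀, Finset.mem_erase.mpr ⟨hj₀, Finset.mem_univ _⟩⟩ (Finset.notMem_erase i _)
  exact ⟨z, hz, fun j hj => hzS j (Finset.mem_erase.mpr ⟨hj, Finset.mem_univ _⟩)⟩

/-! ### Approximate idempotents -/

/-- **Approximate idempotents**: for prescribed `x : ι → F` there is `e` with `x i * (e - 1)` small
at `i` and `x j * e` small at every `j ≠ i`. -/
theorem exists_approx_idem (hA : ∀ i, IsArch (V i)) (hinc : ∀ i j, i ≠ j → ¬ V i ≤ V j) (i : ι)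
    (x : ι → F) :
    ∃ e : F, (V i).valuation (x i * (e - 1)) < 1 ∧ ∀ j, j ≠ i → (V j).valuation (x j * e) < 1 := by
  classical
  haveI := Fintype.ofFinite ι
  by_cases hex : ∃ j₀ : ι, j₀ ≠ i
  · obtain ⟨j₀, hj₀⟩ := hex
    obtain ⟨z, hzi, hzj⟩ := exists_separating V hA hinc i j₀ hj₀
    have hz0 : z ≠ 0 := by
      rintro rfl
      rw [map_zero] at hzi
      exact absurd hzi (not_lt.mpr zero_le_one)
    have hti : (V i).valuation z⁻¹ < 1 := by
      rw [map_inv₀]
      exact inv_lt_one_of_one_lt₀ hzi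
    -- exponents
    obtain ⟨n₁, hn₁⟩ := hA i (x i) z⁻¹ hti
    obtain ⟨N, hN⟩ := exists_uniform (Finset.univ.erase i)
      (fun k m => (V k).valuation (x k * z ^ m) < 1)
      (fun k hk => hA k (x k) z (hzj k (Finset.mem_erase.mp hk).1))
    set m := max n₁ N + 1 with hm
    have hm0 : m ≠ 0 := by omega
    have hzm0 : z ^ m ≠ 0 := pow_ne_zero m hz0
    -- `e = z^m / (1 + z^m)`
    have h1i : (V i).valuation (1 + z ^ m) = (V i).valuation (z ^ m) := by
      apply Valuation.map_add_eq_of_lt_right
      rw [map_one, map_pow]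
      exact one_lt_pow₀ hzi hm0
    have hne : (1 + z ^ m) ≠ 0 := by
      intro h
      rw [h, map_zero] at h1i
      exact hzm0 ((Valuation.zero_iff _).mp h1i.symm)
    refine ⟨z ^ m / (1 + z ^ m), ?_, fun j hj => ?_⟩
    · have e1 : z ^ m / (1 + z ^ m) - 1 = -(1 / (1 + z ^ m)) := by
        field_simp
        ring
      have e2 : x i * -(1 / (1 + z ^ m)) = -(x i * (z⁻¹) ^ m) * (z ^ m / (1 + z ^ m)) := by
        rw [inv_pow]
        field_simp
      rw [e1, e2, map_mul, Valuation.map_neg, map_div₀, h1i, div_self, mul_one]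
      · exact hn₁ m (by omega)
      · rw [Valuation.ne_zero_iff]; exact hzm0
    · have hzk : (V j).valuation (z ^ m) < 1 := by
        rw [map_pow]
        exact pow_lt_one₀ zero_le (hzj j hj) hm0
      have h1k : (V j).valuation (1 + z ^ m) = 1 := Valuation.map_one_add_of_lt _ hzk
      rw [← mul_div_assoc, map_div₀, h1k, div_one]
      exact hN j (Finset.mem_erase.mpr ⟨hj, Finset.mem_univ _⟩) m (by omega)
  · push Not at hex
    refine ⟨1, ?_, fun j hj => absurd (hex j) hj⟩
    rw [sub_self, mul_zero, map_zero]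
    exact zero_lt_one

/-! ### The approximation theorem -/

/-- **Approximation theorem** for finitely many pairwise incomparable archimedean valuation
subrings: prescribed `a i`, prescribed precision `c i ≠ 0`. -/
theorem exists_approx (hA : ∀ i, IsArch (V i)) (hinc : ∀ i j, i ≠ j → ¬ V i ≤ V j)
    (a c : ι → F) (hc : ∀ i, c i ≠ 0) :
    ∃ G : F, ∀ i, (V i).valuation (G - a i) < (V i).valuation (c i) := by
  classical
  haveI := Fintype.ofFinite ι
  -- for each `i` an approximate idempotent with poles `x^{(i)}_j = a i / c j`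
  have h := fun i => exists_approx_idem V hA hinc i (fun j => a i / c j)
  choose e he1 he2 using h
  refine ⟨∑ i, e i * a i, fun k => ?_⟩
  have hck : (V k).valuation (c k) ≠ 0 := by
    rw [Valuation.ne_zero_iff]; exact hc k
  have hpos : 0 < (V k).valuation (c k) := zero_lt_iff.mpr hck
  have key : (V k).valuation ((∑ i, e i * a i - a k) / c k) < 1 := by
    have e1 : (∑ i, e i * a i - a k) / c k =
        a k / c k * (e k - 1) + ∑ i ∈ Finset.univ.erase k, a i / c k * e i := by
      rw [← Finset.add_sum_erase Finset.univ (fun i => e i * a i) (Finset.mem_univ k),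
        Finset.sum_congr rfl (fun i _ => show a i / c k * e i = (e i * a i) / c k by ring),
        ← Finset.sum_div]
      field_simp
      ring
    rw [e1]
    refine Valuation.map_add_lt _ (he1 k) ?_
    refine Valuation.map_sum_lt _ one_ne_zero (fun i hi => ?_)
    exact he2 i k (Finset.mem_erase.mp hi).1.symm
  rw [map_div₀, div_lt_one₀ hpos] at key
  exact key

/-- Prescribed residues: `a i ∈ V i` ⇒ `G ∈ ⨅ V i` with `G ≡ a i mod 𝔪_i`. -/
theorem exists_forall_sub_mem_nonunits (hA : ∀ i, IsArch (V i))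
    (hinc : ∀ i j, i ≠ j → ¬ V i ≤ V j) (a : ι → F) (ha : ∀ i, a i ∈ V i) :
    ∃ G : F, (∀ i, G ∈ V i) ∧ ∀ i, G - a i ∈ (V i).nonunits := by
  obtain ⟨G, hG⟩ := exists_approx V hA hinc a (fun _ => 1) (fun _ => one_ne_zero)
  have h2 : ∀ i, G - a i ∈ (V i).nonunits := fun i => by
    have := hG i
    rw [map_one] at this
    exact this
  refine ⟨G, fun i => ?_, h2⟩
  have : G = (G - a i) + a i := by ring
  rw [this]
  exact (V i).add_mem _ _ ((V i).nonunits_subset (h2 i)) (ha i)

/-- Units with prescribed residues. -/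
theorem exists_unit_forall_sub_mem_nonunits (hA : ∀ i, IsArch (V i))
    (hinc : ∀ i j, i ≠ j → ¬ V i ≤ V j) (a : ι → F) (ha : ∀ i, a i ∈ V i)
    (hai : ∀ i, (a i)⁻¹ ∈ V i) (ha0 : ∀ i, a i ≠ 0) :
    ∃ G : F, (∀ i, G ∈ V i) ∧ (∀ i, G⁻¹ ∈ V i) ∧ ∀ i, G - a i ∈ (V i).nonunits := by
  obtain ⟨G, hG, hGa⟩ := exists_forall_sub_mem_nonunits V hA hinc a ha
  exact ⟨G, hG,
    fun i => (inv_mem_of_sub_mem_nonunits (V i) (ha i) (hai i) (ha0 i) (hGa i)).2, hGa⟩

/-- **Prescribed valuations (and leading residues)**: for `a i ≠ 0` there is `G ≠ 0` with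
`G / a i ≡ 1 mod 𝔪_i` for all `i`; in particular `v_i G = v_i (a i)`. -/
theorem exists_forall_div_sub_one_mem_nonunits (hA : ∀ i, IsArch (V i))
    (hinc : ∀ i j, i ≠ j → ¬ V i ≤ V j) (a : ι → F) (ha : ∀ i, a i ≠ 0) :
    ∃ G : F, ∀ i, G / a i - 1 ∈ (V i).nonunits := by
  obtain ⟨G, hG⟩ := exists_approx V hA hinc a a ha
  refine ⟨G, fun i => ?_⟩
  have hpos : 0 < (V i).valuation (a i) := by
    rw [Valuation.pos_iff]; exact ha i
  have e1 : G / a i - 1 = (G - a i) / a i := by
    field_simp [ha i]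
  rw [ValuationSubring.mem_nonunits_iff, e1, map_div₀, div_lt_one₀ hpos]
  exact hG i

theorem valuation_eq_of_div_sub_one_mem_nonunits (W : ValuationSubring F) {G a : F} (ha : a ≠ 0)
    (h : G / a - 1 ∈ W.nonunits) : W.valuation G = W.valuation a := by
  have h1 : W.valuation (G / a) = 1 := by
    have : G / a = 1 + (G / a - 1) := by ring
    rw [this]
    exact Valuation.map_one_add_of_lt _ h
  rw [map_div₀] at h1
  have hpos : W.valuation a ≠ 0 := by
    rw [Valuation.ne_zero_iff]; exact ha
  exact (div_eq_one_iff_eq hpos).mp h1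

/-! ### The semilocal ring `W = ⨅ i, V i` -/

/-- The intersection of the `V i` as a subring. -/
def infSubring : Subring F := ⨅ i, (V i).toSubring

theorem mem_infSubring {x : F} : x ∈ infSubring V ↔ ∀ i, x ∈ V i := by
  simp [infSubring, Subring.mem_iInf]

/-- `1 + w x` is a unit of `W` for `w` in all maximal ideals. -/
theorem inv_one_add_mul_mem_infSubring {w x : F} (hw : ∀ i, w ∈ (V i).nonunits)
    (hx : x ∈ infSubring V) : (1 + w * x)⁻¹ ∈ infSubring V := by
  rw [mem_infSubring] at hx ⊢
  intro i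
  have h1 : (V i).valuation (w * x) < 1 :=
    mul_mem_nonunits_of_mem_right (V i) (hw i) (hx i)
  have h2 : (V i).valuation (1 + w * x) = 1 := Valuation.map_one_add_of_lt _ h1
  rw [← ValuationSubring.valuation_le_one_iff, map_inv₀, h2, inv_one]

/-- Conversely, an element of `W` which is a unit at some `V i` is not in the Jacobson radical:
there is `x ∈ W` with `1 + w x ∈ 𝔪_i`. -/
theorem exists_one_add_mul_mem_nonunits (hA : ∀ i, IsArch (V i))
    (hinc : ∀ i j, i ≠ j → ¬ V i ≤ V j) {w : F} (hw0 : w ≠ 0) (i : ι) (hw : w ∈ V i)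
    (hwi : w⁻¹ ∈ V i) : ∃ x ∈ infSubring V, 1 + w * x ∈ (V i).nonunits := by
  classical
  obtain ⟨G, hG, hGa⟩ := exists_forall_sub_mem_nonunits V hA hinc
    (fun j => if j = i then -w⁻¹ else 0)
    (fun j => by
      by_cases hj : j = i
      · subst hj; simp only [if_true]; exact (V j).neg_mem _ hwi
      · simp only [hj, if_false]; exact (V j).zero_mem)
  refine ⟨G, (mem_infSubring V).mpr hG, ?_⟩
  have h := hGa i
  simp only [if_true] at h
  have e1 : 1 + w * G = w * (G - -w⁻¹) := by
    field_simp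
    ring
  rw [e1]
  exact mul_mem_nonunits_of_mem_left (V i) hw h

/-! ### Incomparability from distinctness -/

omit [Finite ι] in
/-- Pairwise distinct archimedean valuation subrings `≠ ⊤` are pairwise incomparable. -/
theorem incomparable_of_isArch (hA : ∀ i, IsArch (V i)) (htop : ∀ i, V i ≠ ⊤)
    (hne : ∀ i j, i ≠ j → V i ≠ V j) : ∀ i j, i ≠ j → ¬ V i ≤ V j :=
  fun i j hij => not_le_of_isArch (V i) (V j) (hA i) (hne i j hij) (htop j)

omit [Finite ι] in
/-- Pairwise distinct discrete valuation subrings are pairwise incomparable. -/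
theorem incomparable_of_dvr [∀ i, IsDiscreteValuationRing ↥(V i)]
    (hne : ∀ i j, i ≠ j → V i ≠ V j) : ∀ i j, i ≠ j → ¬ V i ≤ V j :=
  fun i j hij => not_le_of_ne (V i) (V j) (hne i j hij)

/-- **Approximation theorem for finitely many distinct discrete valuation subrings.** -/
theorem exists_approx_dvr [∀ i, IsDiscreteValuationRing ↥(V i)]
    (hne : ∀ i j, i ≠ j → V i ≠ V j) (a c : ι → F) (hc : ∀ i, c i ≠ 0) :
    ∃ G : F, ∀ i, (V i).valuation (G - a i) < (V i).valuation (c i) :=
  exists_approx V (fun i => isArch_of_dvr (V i)) (incomparable_of_dvr V hne) a c hc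

/-- **CRT for finitely many distinct discrete valuation subrings**: units of `⨅ V i` with
prescribed (unit) residues. -/
theorem exists_unit_forall_sub_mem_nonunits_dvr [∀ i, IsDiscreteValuationRing ↥(V i)]
    (hne : ∀ i j, i ≠ j → V i ≠ V j) (a : ι → F) (ha : ∀ i, a i ∈ V i)
    (hai : ∀ i, (a i)⁻¹ ∈ V i) (ha0 : ∀ i, a i ≠ 0) :
    ∃ G : F, (∀ i, G ∈ V i) ∧ (∀ i, G⁻¹ ∈ V i) ∧ ∀ i, G - a i ∈ (V i).nonunits :=
  exists_unit_forall_sub_mem_nonunits V (fun i => isArch_of_dvr (V i))
    (incomparable_of_dvr V hne) a ha hai ha0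

/-- The `hdisc` form (as in `P3G/GammaV2`, `P4/TwoValApprox.isArch_of_disc`): a common nonzero
nonunit `ϖ` with every value group generated by `v_i ϖ`. -/
theorem exists_approx_of_disc {ϖ : F} (hϖ0 : ϖ ≠ 0) (hϖ : ∀ i, ϖ ∈ (V i).nonunits)
    (hdisc : ∀ i, ∀ b : F, b ≠ 0 → ∃ n : ℤ, (V i).valuation b = (V i).valuation ϖ ^ n)
    (hne : ∀ i j, i ≠ j → V i ≠ V j) (a c : ι → F) (hc : ∀ i, c i ≠ 0) :
    ∃ G : F, ∀ i, (V i).valuation (G - a i) < (V i).valuation (c i) :=
  exists_approx V (fun i => isArch_of_disc (V i) hϖ0 (hϖ i) (hdisc i))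
    (incomparable_of_isArch V (fun i => isArch_of_disc (V i) hϖ0 (hϖ i) (hdisc i))
      (fun i => ne_top_of_mem_nonunits (V i) hϖ0 (hϖ i)) hne) a c hc

/-- `hdisc` form of the CRT with unit residues. -/
theorem exists_unit_forall_sub_mem_nonunits_of_disc {ϖ : F} (hϖ0 : ϖ ≠ 0)
    (hϖ : ∀ i, ϖ ∈ (V i).nonunits)
    (hdisc : ∀ i, ∀ b : F, b ≠ 0 → ∃ n : ℤ, (V i).valuation b = (V i).valuation ϖ ^ n)
    (hne : ∀ i j, i ≠ j → V i ≠ V j) (a : ι → F) (ha : ∀ i, a i ∈ V i)
    (hai : ∀ i, (a i)⁻¹ ∈ V i) (ha0 : ∀ i, a i ≠ 0) :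
    ∃ G : F, (∀ i, G ∈ V i) ∧ (∀ i, G⁻¹ ∈ V i) ∧ ∀ i, G - a i ∈ (V i).nonunits :=
  exists_unit_forall_sub_mem_nonunits V (fun i => isArch_of_disc (V i) hϖ0 (hϖ i) (hdisc i))
    (incomparable_of_isArch V (fun i => isArch_of_disc (V i) hϖ0 (hϖ i) (hdisc i))
      (fun i => ne_top_of_mem_nonunits (V i) hϖ0 (hϖ i)) hne) a ha hai ha0

end Fermat.Agent.S36.V.SemiLocalW
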