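/-
S36, block [V], leaf (V-ζ) (helper28): **the cyclotomic discrete valuation ring.**

`O ⊆ K` a discrete valuation ring with fraction field `K` of characteristic `0` and residue
characteristic `q`; `K' / K` a finite extension containing a primitive `q`-th root of unity `ζ`.
Then there is a discrete valuation ring `O' ⊆ K'` with fraction field `K'`, dominating `O`
(`O' ∩ K = O`), containing `ζ`, with `ζ - 1 ∈ 𝔪_{O'}` and
`q = u (ζ - 1)^(q-1)`, `u ∈ O'ˣ`, `u ≡ -1 mod 𝔪_{O'}` (Wilson).

`O'` is the localisation of the integral closure of `O` in `K'` at a maximal ideal (`P3G/LocVS`).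
-/
import Mathlib
import Fermat.Agent.P3G.LocVS

set_option autoImplicit false
set_option linter.unusedSectionVars false
set_option linter.style.haveILetI false
set_option linter.overlappingInstances false

namespace Fermat.Agent.S36.V.CycloDVR

open IsLocalRing Fermat.Agent.P3G.LocVS

section Wilson

variable {R : Type*} [CommRing R] [IsDomain R] [IsLocalRing R] {q : ℕ}

/-- In a local ring of residue characteristic `q`, a `q`-th root of unity is `≡ 1`. -/
theorem sub_one_mem_maximalIdeal (hq : q.Prime) (hqm : (q : R) ∈ maximalIdeal R) {ζ : R}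
    (hζ : ζ ^ q = 1) : ζ - 1 ∈ maximalIdeal R := by
  obtain ⟨r, hr⟩ := exists_add_pow_prime_eq hq ζ (-1 : R)
  have h1 : (1 : R) + (-1) ^ q ∈ maximalIdeal R := by
    rcases hq.eq_two_or_odd' with h2 | hodd
    · subst h2
      have : (1 : R) + (-1) ^ 2 = ((2 : ℕ) : R) := by norm_num
      rw [this]
      exact hqm
    · rw [hodd.neg_one_pow, add_neg_cancel]
      exact Ideal.zero_mem _
  have h2 : (ζ - 1) ^ q ∈ maximalIdeal R := by
    rw [sub_eq_add_neg, hr, hζ]
    exact Ideal.add_mem _ h1 (Ideal.mul_mem_right _ _ (Ideal.mul_mem_right _ _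
      (Ideal.mul_mem_right _ _ hqm)))
  exact (IsLocalRing.maximalIdeal.isMaximal R).isPrime.mem_of_pow_mem q h2

/-- **Wilson unit.** `q = u (ζ - 1)^(q-1)` with `u ≡ -1` modulo the maximal ideal. -/
theorem exists_wilson_unit (hq : q.Prime) (hqm : (q : R) ∈ maximalIdeal R) {ζ : R}
    (hζ : IsPrimitiveRoot ζ q) :
    ∃ u : R, IsUnit u ∧ (q : R) = u * (ζ - 1) ^ (q - 1) ∧ u + 1 ∈ maximalIdeal R := by
  obtain ⟨n, rfl⟩ : ∃ n, q = n + 1 := ⟨q - 1, (Nat.succ_pred_eq_of_pos hq.pos).symm⟩
  have hζ1 : ζ - 1 ∈ maximalIdeal R := sub_one_mem_maximalIdeal hq hqm hζ.pow_eq_one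
  set u : R := (-1) ^ n * ∏ k ∈ Finset.range n, ∑ i ∈ Finset.range (k + 1), ζ ^ i with hu
  have hprod : ((n + 1 : ℕ) : R) = u * (ζ - 1) ^ (n + 1 - 1) := by
    have h := hζ.prod_pow_sub_one_eq_order
    have h2 : ∏ k ∈ Finset.range n, (ζ ^ (k + 1) - 1) =
        (∏ k ∈ Finset.range n, ∑ i ∈ Finset.range (k + 1), ζ ^ i) * (ζ - 1) ^ n := by
      calc ∏ k ∈ Finset.range n, (ζ ^ (k + 1) - 1)
          = ∏ k ∈ Finset.range n, ((∑ i ∈ Finset.range (k + 1), ζ ^ i) * (ζ - 1)) :=
            Finset.prod_congr rfl fun k _ => (geom_sum_mul ζ (k + 1)).symm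
        _ = _ := by rw [Finset.prod_mul_distrib, Finset.prod_const, Finset.card_range]
    rw [h2] at h
    rw [Nat.add_sub_cancel, hu, mul_assoc, h]
    push_cast
    rfl
  have hu1 : u + 1 ∈ maximalIdeal R := by
    rw [← Ideal.Quotient.eq_zero_iff_mem]
    haveI : Nontrivial (R ⧸ maximalIdeal R) := Ideal.Quotient.nontrivial_iff.2
      (IsLocalRing.maximalIdeal.isMaximal R).ne_top
    haveI : CharP (R ⧸ maximalIdeal R) (n + 1) := (CharP.charP_iff_prime_eq_zero hq).2 (by
      have := Ideal.Quotient.eq_zero_iff_mem.2 hqm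
      rwa [map_natCast] at this)
    have hζm : Ideal.Quotient.mk (maximalIdeal R) ζ = 1 := by
      have := Ideal.Quotient.eq_zero_iff_mem.2 hζ1
      rwa [map_sub, map_one, sub_eq_zero] at this
    have hfact : ((Nat.factorial n : ℕ) : R ⧸ maximalIdeal R) = -1 := by
      haveI : Fact (n + 1).Prime := ⟨hq⟩
      have h := ZMod.wilsons_lemma (p := n + 1)
      rw [Nat.add_sub_cancel] at h
      have h' := congrArg (ZMod.castHom (dvd_refl (n + 1)) (R ⧸ maximalIdeal R)) h
      rwa [map_natCast, map_neg, map_one] at h'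
    rw [map_add, map_one, hu, map_mul, map_pow, map_neg, map_one, map_prod]
    have h3 : ∀ k ∈ Finset.range n, Ideal.Quotient.mk (maximalIdeal R)
        (∑ i ∈ Finset.range (k + 1), ζ ^ i) = ((k + 1 : ℕ) : R ⧸ maximalIdeal R) := by
      intro k _
      rw [map_sum]
      simp only [map_pow, hζm, one_pow, Finset.sum_const, Finset.card_range, nsmul_eq_mul, mul_one]
    rw [Finset.prod_congr rfl h3, ← Nat.cast_prod, Finset.prod_range_add_one_eq_factorial, hfact,
      ← pow_succ]
    rcases hq.eq_two_or_odd' with h2 | hodd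
    · have hn : n = 1 := by omega
      subst hn
      have : ((1 + 1 : ℕ) : R ⧸ maximalIdeal R) = 0 := CharP.cast_eq_zero _ _
      push_cast at this
      rw [← this]
      norm_num
    · rw [hodd.neg_one_pow, neg_add_cancel]
  have huu : IsUnit u := by
    by_contra hnu
    have hmem : u ∈ maximalIdeal R := (IsLocalRing.mem_maximalIdeal u).2 hnu
    have h1 : (1 : R) ∈ maximalIdeal R := by
      have := Ideal.sub_mem _ hu1 hmem
      rwa [add_sub_cancel_left] at this
    exact (IsLocalRing.maximalIdeal.isMaximal R).ne_top ((Ideal.eq_top_iff_one _).2 h1)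
  exact ⟨u, huu, hprod, hu1⟩

end Wilson

section Construction

variable {A K L C : Type*} [CommRing A] [IsDomain A] [IsDiscreteValuationRing A] [Field K]
  [Algebra A K] [IsFractionRing A K] [Field L] [Algebra K L] [Algebra A L] [IsScalarTower A K L]
  [FiniteDimensional K L] [Algebra.IsSeparable K L]
  [CommRing C] [IsDomain C] [Algebra C L] [Algebra A C] [IsScalarTower A C L]
  [IsIntegralClosure C A L]

variable (A K L C) in
include K L in
theorem algebraMap_injective_AC : Function.Injective (algebraMap A C) := by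
  have hinj' : Function.Injective (algebraMap A L) := by
    rw [IsScalarTower.algebraMap_eq A K L]
    exact (algebraMap K L).injective.comp (IsFractionRing.injective A K)
  rw [IsScalarTower.algebraMap_eq A C L] at hinj'
  exact Function.Injective.of_comp hinj'

variable (A K L C) in
include K L in
/-- A maximal ideal of the integral closure over the maximal ideal of the DVR. -/
theorem exists_maximal_over :
    ∃ P : Ideal C, P.IsMaximal ∧ P ≠ ⊥ ∧ P.comap (algebraMap A C) = maximalIdeal A := by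
  haveI : Algebra.IsIntegral A C := IsIntegralClosure.isIntegral_algebra A L
  have hinj := algebraMap_injective_AC A K L C
  obtain ⟨P, hP, hPc⟩ := Ideal.exists_ideal_over_maximal_of_isIntegral (S := C) (maximalIdeal A)
    (by rw [(RingHom.injective_iff_ker_eq_bot _).1 hinj]; exact bot_le)
  refine ⟨P, hP, ?_, hPc⟩
  rintro rfl
  apply IsDiscreteValuationRing.not_a_field A
  rw [← hPc, Ideal.comap_bot_of_injective _ hinj]

end Construction

section Dominate

variable {A K L C : Type*} [CommRing A] [IsDomain A] [IsDiscreteValuationRing A] [Field K]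
  [Algebra A K] [IsFractionRing A K] [Field L] [Algebra K L] [Algebra A L] [IsScalarTower A K L]
  [CommRing C] [IsDomain C] [Algebra C L] [Algebra A C] [IsScalarTower A C L]
  [IsDedekindDomain C] [IsFractionRing C L]
  (P : Ideal C) [hPm : P.IsMaximal] (hP0 : P ≠ ⊥)
  (hPc : P.comap (algebraMap A C) = maximalIdeal A)

theorem algebraMap_A_mem (a : A) : algebraMap A L a ∈ locVS (L := L) P hP0 := by
  rw [IsScalarTower.algebraMap_eq A C L]
  exact algebraMap_mem P hP0 _

include hPc in
theorem algebraMap_A_mem_nonunits {a : A} (ha : a ∈ maximalIdeal A) :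
    algebraMap A L a ∈ (locVS (L := L) P hP0).nonunits := by
  rw [Fermat.Agent.P3G.LocVS.mem_nonunits_iff]
  refine ⟨algebraMap A C a, 1, ?_, fun h => hPm.ne_top ((Ideal.eq_top_iff_one _).2 h), ?_⟩
  · rw [← hPc] at ha
    exact ha
  · rw [map_one, inv_one, mul_one, ← IsScalarTower.algebraMap_apply]

include hPc in
/-- **Domination.** `C_P ∩ K = A`. -/
theorem algebraMap_mem_locVS_iff (x : K) :
    algebraMap K L x ∈ locVS (L := L) P hP0 ↔ x ∈ (algebraMap A K).range := by
  constructor
  · intro hx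
    by_cases hx0 : x = 0
    · exact ⟨0, by rw [map_zero, hx0]⟩
    rcases ValuationRing.isInteger_or_isInteger A x with ⟨a, ha⟩ | ⟨a, ha⟩
    · exact ⟨a, ha⟩
    · by_cases hau : IsUnit a
      · obtain ⟨b, hb⟩ := hau.exists_right_inv
        refine ⟨b, ?_⟩
        have h1 : algebraMap A K a * algebraMap A K b = 1 := by rw [← map_mul, hb, map_one]
        rw [ha] at h1
        field_simp at h1
        exact h1
      · exfalso
        have ham : a ∈ maximalIdeal A := (IsLocalRing.mem_maximalIdeal a).2 hau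
        have h1 := algebraMap_A_mem_nonunits (L := L) P hP0 hPc ham
        rw [IsScalarTower.algebraMap_apply A K L, ha, map_inv₀] at h1
        have hx0' : algebraMap K L x ≠ 0 := fun h => hx0 ((map_eq_zero _).1 h)
        have h2 := (mem_nonunits_iff_inv_notMem _ (inv_ne_zero hx0')).1 h1
        rw [inv_inv] at h2
        exact h2 hx
  · rintro ⟨a, rfl⟩
    rw [← IsScalarTower.algebraMap_apply]
    exact algebraMap_A_mem P hP0 a

end Dominate

section Main

variable {K K' : Type*} [Field K] [CharZero K] [Field K'] [Algebra K K'] [FiniteDimensional K K']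
  (O : Subring K) [IsDiscreteValuationRing ↥O] [IsFractionRing ↥O K]

/-- **The cyclotomic DVR**, as a valuation subring `V'` of `K'` together with the discrete valuation
ring structure on its underlying subring. -/
theorem exists_cycloVS {q : ℕ} (hq : q.Prime) (hqO : ((q : ℕ) : ↥O) ∈ maximalIdeal ↥O) {ζ : K'}
    (hζ : IsPrimitiveRoot ζ q) :
    ∃ (V' : ValuationSubring K') (_ : IsDiscreteValuationRing ↥V'.toSubring)
      (_ : IsFractionRing ↥V'.toSubring K'),
      (∀ x : K, algebraMap K K' x ∈ V' ↔ x ∈ O) ∧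
      ∃ (hζO : ζ ∈ V'.toSubring) (u : ↥V'.toSubring), IsUnit u ∧
        ((⟨ζ, hζO⟩ : ↥V'.toSubring) - 1) ∈ maximalIdeal ↥V'.toSubring ∧
        ((q : ℕ) : ↥V'.toSubring) = u * ((⟨ζ, hζO⟩ : ↥V'.toSubring) - 1) ^ (q - 1) ∧
        u + 1 ∈ maximalIdeal ↥V'.toSubring := by
  letI : Algebra ↥O K' := ((algebraMap K K').comp (algebraMap ↥O K)).toAlgebra
  haveI : IsScalarTower ↥O K K' := IsScalarTower.of_algebraMap_eq (fun x => rfl)
  haveI : IsDedekindDomain ↥(integralClosure ↥O K') :=
    IsIntegralClosure.isDedekindDomain ↥O K K' ↥(integralClosure ↥O K')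
  haveI : IsFractionRing ↥(integralClosure ↥O K') K' :=
    IsIntegralClosure.isFractionRing_of_finite_extension ↥O K K' ↥(integralClosure ↥O K')
  obtain ⟨P, hPm, hP0, hPc⟩ := exists_maximal_over ↥O K K' ↥(integralClosure ↥O K')
  haveI := hPm
  have hdvr : IsDiscreteValuationRing ↥(locAlg (L := K') P) :=
    isDiscreteValuationRing_locAlg (L := K') P hP0
  refine ⟨locVS (L := K') P hP0, hdvr, ?_, ?_, ?_⟩
  · exact (inferInstance : IsFractionRing ↥(locAlg (L := K') P) K')
  · intro x
    have h := algebraMap_mem_locVS_iff (A := ↥O) (K := K) (L := K') P hP0 hPc x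
    rw [show x ∈ O ↔ x ∈ (algebraMap ↥O K).range from
      ⟨fun hx => ⟨⟨x, hx⟩, rfl⟩, fun ⟨a, ha⟩ => ha ▸ a.2⟩]
    exact h
  · -- `ζ` is integral
    have hζint : IsIntegral ↥O ζ := (hζ.isIntegral hq.pos).tower_top
    have hζO : ζ ∈ (locAlg (L := K') P).toSubring := by
      have h := algebraMap_mem (L := K') P hP0 (⟨ζ, hζint⟩ : ↥(integralClosure ↥O K'))
      exact h
    haveI : IsDiscreteValuationRing ↥((locAlg (L := K') P).toSubring) := hdvr
    -- `q` lies in the maximal ideal
    have hqm : ((q : ℕ) : ↥((locAlg (L := K') P).toSubring)) ∈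
        maximalIdeal ↥((locAlg (L := K') P).toSubring) := by
      rw [IsLocalRing.mem_maximalIdeal, _root_.mem_nonunits_iff]
      intro hu
      obtain ⟨b, hb⟩ := hu.exists_right_inv
      have h1 := algebraMap_A_mem_nonunits (L := K') P hP0 hPc hqO
      have h2 : algebraMap ↥O K' ((q : ℕ) : ↥O) = ((q : ℕ) : K') := by
        rw [map_natCast]
      rw [h2] at h1
      have hq0 : ((q : ℕ) : K') ≠ 0 := by
        have : ((q : ℕ) : K) ≠ 0 := Nat.cast_ne_zero.2 hq.ne_zero
        intro h
        apply this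
        have h3 : algebraMap K K' ((q : ℕ) : K) = 0 := by rw [map_natCast]; exact h
        exact (map_eq_zero _).1 h3
      have h3 := (mem_nonunits_iff_inv_notMem _ hq0).1 h1
      apply h3
      have h4 : ((q : ℕ) : K') * (b : K') = 1 := by
        have := congrArg (Subtype.val) hb
        simpa using this
      have h5 : ((q : ℕ) : K')⁻¹ = (b : K') := by
        field_simp
        exact h4.symm
      rw [h5]
      exact b.2
    have hζ' : IsPrimitiveRoot (⟨ζ, hζO⟩ : ↥((locAlg (L := K') P).toSubring)) q :=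
      IsPrimitiveRoot.of_map_of_injective (f := ((locAlg (L := K') P).toSubring).subtype)
        (by exact hζ) Subtype.val_injective
    obtain ⟨u, hu, hqu, hu1⟩ := exists_wilson_unit hq hqm hζ'
    exact ⟨hζO, u, hu, sub_one_mem_maximalIdeal hq hqm hζ'.pow_eq_one, hqu, hu1⟩

/-- **The cyclotomic DVR**, subring form. -/
theorem exists_cycloDVR {q : ℕ} (hq : q.Prime) (hqO : ((q : ℕ) : ↥O) ∈ maximalIdeal ↥O) {ζ : K'}
    (hζ : IsPrimitiveRoot ζ q) :
    ∃ (O' : Subring K') (_ : IsDiscreteValuationRing ↥O') (_ : IsFractionRing ↥O' K'),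
      (∀ x : K, algebraMap K K' x ∈ O' ↔ x ∈ O) ∧
      ∃ (hζO : ζ ∈ O') (u : ↥O'), IsUnit u ∧
        ((⟨ζ, hζO⟩ : ↥O') - 1) ∈ maximalIdeal ↥O' ∧
        ((q : ℕ) : ↥O') = u * ((⟨ζ, hζO⟩ : ↥O') - 1) ^ (q - 1) ∧ u + 1 ∈ maximalIdeal ↥O' := by
  obtain ⟨V', h1, h2, h3, h4⟩ := exists_cycloVS O hq hqO hζ
  exact ⟨V'.toSubring, h1, h2, h3, h4⟩

/-- **The cyclotomic DVR**, valuation-subring form with `nonunits`. -/
theorem exists_cycloVS' {q : ℕ} (hq : q.Prime) (hqO : ((q : ℕ) : ↥O) ∈ maximalIdeal ↥O) {ζ : K'}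
    (hζ : IsPrimitiveRoot ζ q) :
    ∃ (V' : ValuationSubring K') (_ : IsDiscreteValuationRing ↥V'.toSubring),
      (∀ x : K, algebraMap K K' x ∈ V' ↔ x ∈ O) ∧ ζ ∈ V' ∧ ζ - 1 ∈ V'.nonunits ∧
      ∃ u : K', u ∈ V' ∧ u⁻¹ ∈ V' ∧ ((q : ℕ) : K') = u * (ζ - 1) ^ (q - 1) ∧
        u + 1 ∈ V'.nonunits := by
  obtain ⟨V', h1, h2, h3, hζO, u, hu, hz, hqu, hu1⟩ := exists_cycloVS O hq hqO hζ
  have key : ∀ (x : K') (hx : x ∈ V'.toSubring),
      (⟨x, hx⟩ : ↥V'.toSubring) ∈ maximalIdeal ↥V'.toSubring → x ∈ V'.nonunits := by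
    intro x hx hm
    rw [ValuationSubring.mem_nonunits_iff_exists_mem_maximalIdeal]
    exact ⟨hx, hm⟩
  refine ⟨V', h1, h3, hζO, key _ _ hz, (u : K'), u.2, ?_, ?_, key _ _ hu1⟩
  · obtain ⟨b, hb⟩ := hu.exists_right_inv
    have h4 : (u : K') * (b : K') = 1 := by
      have := congrArg Subtype.val hb
      simpa using this
    have h5 : (u : K')⁻¹ = (b : K') := by
      have hu0 : (u : K') ≠ 0 := fun h => by rw [h, zero_mul] at h4; exact zero_ne_one h4
      field_simp
      exact h4.symm
    rw [h5]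
    exact b.2
  · have := congrArg Subtype.val hqu
    simpa using this

end Main

end Fermat.Agent.S36.V.CycloDVR
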