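/-
S36 / block [V], part (V-w) (helper24): **the Fricke involution of `FF K N` over an arbitrary
base field `K ⊆ ℂ`**, generalising helper16's `S16/Bridge/AtkinLehnerFF.wFF` (`K = ℚ`).

* `toFCK ι N : FF K N →+* FC N` (coefficientwise `ι : K →+* ℂ`);
* `wK ι N : FF K N ≃ₐ[K] FF K N` with `toFCK (wK x) = wC (toFCK x)`, `wK (jdF d) = jdF (N / d)`,
  `wK ∘ wK = id`;
* intertwiners with the level maps: `wK (N m) ∘ α = β ∘ wK N`, `wK (N m) ∘ β = α ∘ wK N`;
* `algHom_ext_jdF`: `K`-algebra homomorphisms out of `FF K N` are determined by the `j(q^d)`.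
-/
import Mathlib
import Fermat.Agent.S16.Bridge.AtkinLehnerFF
import Fermat.Agent.N4F.E.DegreeLevelRaise

set_option autoImplicit false
set_option linter.unusedSectionVars false
set_option linter.style.haveILetI false

namespace Fermat.Agent.S36.V.FrickeK

open ModularCurve Fermat.Agent.N4.Setting Fermat.Agent.S24.FieldIso Fermat.Agent.S16.Bridge
open Fermat.Agent.N4F.E.DegreeLevelRaise

variable (K : Type) [Field K] [CharZero K] (ι : K →+* ℂ) (N : ℕ) [NeZero N]

/-! ### Ring homomorphisms out of `FF K N` -/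

/-- Two ring homomorphisms out of `FF K N` into a field which agree on the constants and on the
generators `j(q^d)`, `d ∣ N`, are equal. -/
theorem ringHom_ext_jdF {L : Type*} [DivisionRing L] (f g : FF K N →+* L)
    (hc : ∀ c : K, f (algebraMap K (FF K N) c) = g (algebraMap K (FF K N) c))
    (hj : ∀ (d : ℕ) [NeZero d] (hd : d ∣ N), f (jdF K N hd) = g (jdF K N hd)) : f = g := by
  ext ⟨x, hx⟩
  induction hx using IntermediateField.adjoin_induction with
  | mem y hy =>
    obtain ⟨d, hd0, hd, rfl⟩ := hy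
    haveI := hd0
    exact hj d hd
  | algebraMap c => exact hc c
  | add y z hy hz ihy ihz =>
    have e : (⟨y + z, add_mem hy hz⟩ : FF K N) = ⟨y, hy⟩ + ⟨z, hz⟩ := rfl
    rw [e, map_add, map_add, ihy, ihz]
  | inv y hy ihy =>
    have e : (⟨y⁻¹, inv_mem hy⟩ : FF K N) = (⟨y, hy⟩ : FF K N)⁻¹ := rfl
    rw [e, map_inv₀, map_inv₀, ihy]
  | mul y z hy hz ihy ihz =>
    have e : (⟨y * z, mul_mem hy hz⟩ : FF K N) = ⟨y, hy⟩ * ⟨z, hz⟩ := rfl
    rw [e, map_mul, map_mul, ihy, ihz]

/-- `K`-algebra homomorphisms out of `FF K N` are determined by the `j(q^d)`. -/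
theorem algHom_ext_jdF {L : Type*} [Field L] [Algebra K L] (f g : FF K N →ₐ[K] L)
    (hj : ∀ (d : ℕ) [NeZero d] (hd : d ∣ N), f (jdF K N hd) = g (jdF K N hd)) : f = g := by
  apply AlgHom.coe_ringHom_injective
  apply ringHom_ext_jdF K N
  · intro c
    simp
  · intro d _ hd
    exact hj d hd

/-- Equality of generators with propositionally equal indices. -/
theorem jdF_congr {d d' : ℕ} [NeZero d] [NeZero d'] (hd : d ∣ N) (hd' : d' ∣ N) (h : d = d') :
    jdF K N hd = jdF K N hd' := by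
  subst h
  rfl

/-! ### The coefficientwise embedding `FF K N → FC N` -/

theorem coeffMap_mem_FC (x : FF K N) : coeffMap ι (x : LaurentSeries K) ∈ FC N := by
  apply coeffMap_mem_laurentBaseChange' ι (modularFunctionFieldFull N)
  rw [Fermat.Agent.N4F.E.DegreeLevelRaise.laurentBaseChange_full_eq K N]
  exact x.2

/-- The coefficientwise embedding `FF K N → FC N`. -/
noncomputable def toFCK : FF K N →+* ↥(FC N) :=
  ((coeffMap ι).comp (algebraMap (FF K N) (LaurentSeries K))).codRestrict (FC N).toSubring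
    fun x => coeffMap_mem_FC K ι N x

theorem coe_toFCK (x : FF K N) :
    ((toFCK K ι N x : ↥(FC N)) : LaurentSeries ℂ) = coeffMap ι (x : LaurentSeries K) := rfl

theorem toFCK_injective : Function.Injective (toFCK K ι N) := (toFCK K ι N).injective

theorem toFCK_algebraMap (c : K) :
    toFCK K ι N (algebraMap K (FF K N) c) = algebraMap ℂ (FC N) (ι c) := by
  apply Subtype.ext
  rw [coe_toFCK]
  exact coeffMap_algebraMap' ι c

theorem toFCK_jdF {d : ℕ} [NeZero d] (hd : d ∣ N) : toFCK K ι N (jdF K N hd) = jdC N hd := by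
  apply Subtype.ext
  rw [coe_toFCK, coe_jdF]
  show coeffMap ι (qExpand K d (jqModC K)) = qExpand ℂ d (jqModC ℂ)
  rw [coeffMap_qExpand, coeffMap_jqModC]

/-- `wC` preserves the image of `FF K N`. -/
theorem wC_toFCK_mem_range (x : FF K N) : wC N (toFCK K ι N x) ∈ (toFCK K ι N).range := by
  obtain ⟨x, hx⟩ := x
  induction hx using IntermediateField.adjoin_induction with
  | mem y hy =>
    obtain ⟨d, hd0, hd, rfl⟩ := hy
    haveI := hd0
    haveI := neZero_div N hd
    have e : (⟨qExpand K d (jqModC K), IntermediateField.subset_adjoin _ _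
        (mem_divisorExpansionsC K N hd)⟩ : FF K N) = jdF K N hd := rfl
    rw [e, toFCK_jdF, wC_jdC, ← toFCK_jdF K ι]
    exact ⟨_, rfl⟩
  | algebraMap c =>
    refine ⟨algebraMap K (FF K N) c, ?_⟩
    have h : (⟨algebraMap K (LaurentSeries K) c, IntermediateField.algebraMap_mem _ c⟩ : FF K N) =
        algebraMap K (FF K N) c := rfl
    rw [h, toFCK_algebraMap, AlgEquiv.commutes]
  | add y z hy hz ihy ihz =>
    have e : (⟨y + z, add_mem hy hz⟩ : FF K N) = ⟨y, hy⟩ + ⟨z, hz⟩ := rfl
    rw [e, map_add, map_add]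
    exact add_mem ihy ihz
  | inv y hy ihy =>
    have e : (⟨y⁻¹, inv_mem hy⟩ : FF K N) = (⟨y, hy⟩ : FF K N)⁻¹ := rfl
    rw [e, map_inv₀, map_inv₀]
    obtain ⟨u, hu⟩ := ihy
    exact ⟨u⁻¹, by rw [map_inv₀, hu]⟩
  | mul y z hy hz ihy ihz =>
    have e : (⟨y * z, mul_mem hy hz⟩ : FF K N) = ⟨y, hy⟩ * ⟨z, hz⟩ := rfl
    rw [e, map_mul, map_mul]
    exact mul_mem ihy ihz

/-- The Fricke involution on `FF K N`, as a function. -/
noncomputable def wKFun (x : FF K N) : FF K N := Classical.choose (wC_toFCK_mem_range K ι N x)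

theorem toFCK_wKFun (x : FF K N) : toFCK K ι N (wKFun K ι N x) = wC N (toFCK K ι N x) :=
  Classical.choose_spec (wC_toFCK_mem_range K ι N x)

theorem wKFun_wKFun (x : FF K N) : wKFun K ι N (wKFun K ι N x) = x := by
  apply toFCK_injective K ι N
  rw [toFCK_wKFun, toFCK_wKFun, wC_wC]

/-- **The Fricke involution of `FF K N = K(j(q^d) : d ∣ N)`.** -/
noncomputable def wK : FF K N ≃ₐ[K] FF K N where
  toFun := wKFun K ι N
  invFun := wKFun K ι N
  left_inv := wKFun_wKFun K ι N
  right_inv := wKFun_wKFun K ι N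
  map_mul' x y := by
    apply toFCK_injective K ι N
    rw [toFCK_wKFun, map_mul, map_mul, map_mul, toFCK_wKFun, toFCK_wKFun]
  map_add' x y := by
    apply toFCK_injective K ι N
    rw [toFCK_wKFun, map_add, map_add, map_add, toFCK_wKFun, toFCK_wKFun]
  commutes' c := by
    apply toFCK_injective K ι N
    rw [toFCK_wKFun, toFCK_algebraMap, AlgEquiv.commutes]

theorem toFCK_wK (x : FF K N) : toFCK K ι N (wK K ι N x) = wC N (toFCK K ι N x) :=
  toFCK_wKFun K ι N x

theorem wK_wK (x : FF K N) : wK K ι N (wK K ι N x) = x := wKFun_wKFun K ι N x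

theorem wK_symm : (wK K ι N).symm = wK K ι N := by
  apply AlgEquiv.ext
  intro x
  rw [AlgEquiv.symm_apply_eq, wK_wK]

/-- **`w (j(q^d)) = j(q^{N/d})`** in `FF K N`. -/
theorem wK_jdF {d : ℕ} [NeZero d] (hd : d ∣ N) :
    haveI := neZero_div N hd
    wK K ι N (jdF K N hd) = jdF K N (Nat.div_dvd_of_dvd hd) := by
  haveI := neZero_div N hd
  apply toFCK_injective K ι N
  rw [toFCK_wK, toFCK_jdF, wC_jdC, toFCK_jdF]

/-- `w j = j_N`. -/
theorem wK_jF : wK K ι N (jF K N) = jdF K N (dvd_refl N) := by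
  have h1 : jF K N = jdF K N (one_dvd N) := by
    apply Subtype.ext
    rw [coe_jF, coe_jdF, qExpand_one_apply]
  haveI := neZero_div N (one_dvd N)
  rw [h1, wK_jdF]
  exact jdF_congr K N _ _ (Nat.div_one N)

/-! ### Intertwiners with the level maps -/

variable (m : ℕ) [NeZero m]

/-- `w_{Nm} ∘ α = β ∘ w_N`. -/
theorem wK_alphaF (x : FF K N) :
    wK K ι (N * m) (alphaF K N m x) = betaF K N m (wK K ι N x) := by
  have h : ((wK K ι (N * m)).toAlgHom.comp (alphaF K N m)) =
      (betaF K N m).comp (wK K ι N).toAlgHom := by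
    apply algHom_ext_jdF K N
    intro d _ hd
    haveI := neZero_div N hd
    haveI := neZero_div (N * m) (hd.trans (dvd_mul_right N m))
    haveI : NeZero (m * (N / d)) := ⟨Nat.mul_ne_zero (NeZero.ne m) (NeZero.ne (N / d))⟩
    show wK K ι (N * m) (alphaF K N m (jdF K N hd)) = betaF K N m (wK K ι N (jdF K N hd))
    rw [alphaF_jdF, wK_jdF, wK_jdF, betaF_jdF]
    apply jdF_congr
    obtain ⟨c, rfl⟩ := hd
    have hd0 : 0 < d := NeZero.pos d
    rw [Nat.mul_div_cancel_left c hd0, mul_assoc, Nat.mul_div_cancel_left _ hd0, mul_comm]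
  exact congrArg (fun f : FF K N →ₐ[K] FF K (N * m) => f x) h

/-- `w_{Nm} ∘ β = α ∘ w_N`. -/
theorem wK_betaF (x : FF K N) :
    wK K ι (N * m) (betaF K N m x) = alphaF K N m (wK K ι N x) := by
  have h := wK_alphaF K ι N m (wK K ι N x)
  rw [wK_wK] at h
  rw [← h, wK_wK]

end Fermat.Agent.S36.V.FrickeK
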