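/-
S36 / block [V], part (V-σ), analytic half (helper15): **the `q`-expansion of the modular functions
of level `Γ₀(M)` at a cusp `σ(i∞)` of width one**, `σ = [[1, 0], [c, 1]]`, `M ∣ c²`.

* `conjGroup Γ σ = σ⁻¹ Γ σ`, `IsWH.comp_conj : IsWH Γ f → IsWH (conjGroup Γ σ) (f ∘ σ)`;
* `sigmaWH Γ σ : WH Γ →ₐ[ℂ] WH (conjGroup Γ σ)`, `f ↦ f ∘ σ`;
* `sigmaC M σ hT : FC M →ₐ[ℂ] LaurentSeries ℂ` (`T ∈ σ⁻¹ Γ₀(M) σ`): the expansion of
  `f ∘ σ` at `i∞`, transported to `FC M = ℂ(j(q^d) : d ∣ M)` along the `q`-expansion isomorphism;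
  `sigmaC_jdC : sigmaC (j(q^d)) = qexpFun (z ↦ j(d · σ z))`;
* `lowerU c = [[1, 0], [c, 1]]`, `T_mem_conjGroup_lowerU : M ∣ c² → T ∈ conjGroup (Γ₀(M)) (lowerU c)`;
* `sigmaC_jdC_of_dvd` : for `d ∣ c` : `sigmaC (j(q^d)) = j(q^d)`;
* `sigmaC_jdC_sq` : for `d = d₀ q²`, `c = q d₀ m`, `m b = 1 + q s` :
  `sigmaC (j(q^d)) = rootSeries (e^{2πi b/q}) d₀ = j(ζ_q^b q^{d₀})`.
-/
import Mathlib
import Fermat.Agent.S16.Bridge.AtkinLehnerFF
import Fermat.Agent.N4.QExpTranslate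

set_option autoImplicit false
set_option linter.unusedSectionVars false
set_option linter.style.haveILetI false

namespace Fermat.Agent.S36.V.MidCuspC

open UpperHalfPlane ModularForm MatrixGroups CongruenceSubgroup Filter Function
open Fermat.Agent.M2 Fermat.Agent.S24.QExp Fermat.Agent.S24.FieldIso ModularCurve
open Fermat.Agent.S16.Bridge Fermat.Agent.N4.TwistSeries
open scoped Manifold Topology

local notation "Δ" => ModularForm.discriminant
local notation "ofPS" => HahnSeries.ofPowerSeries ℤ ℂ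

/-! ### Bridge between the two Laurent `q`-expansions on main -/

theorem isPerMero_of_isMer {f : ℍ → ℂ} (hf : IsMer f) : CuspVal.IsPerMero 1 f := by
  refine ⟨hf.mdiff, ?_, ?_⟩
  · simpa using hf.periodic
  · obtain ⟨m, hm⟩ := hf.mero
    exact ⟨m, hm⟩

theorem isMer_of_isPerMero {f : ℍ → ℂ} (hf : CuspVal.IsPerMero 1 f) : IsMer f := by
  refine ⟨hf.mdiff, ?_, ?_⟩
  · simpa using hf.periodic
  · obtain ⟨m, hm⟩ := hf.mero
    exact ⟨m, hm⟩

/-- The two Laurent `q`-expansions (`S24/QExpHol` and `S24/QExpHom`) agree. -/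
theorem qexpFun_eq_hom {f : ℍ → ℂ} (hf : IsMer f) :
    qexpFun f = Fermat.Agent.S24.QExpHom.qexpFun f := by
  obtain ⟨m, hm⟩ := hf.mero
  have H : IsHol (f * Δ ^ m) := hf.isHol_mul hm
  have h1 := qexpFun_mul_ofPS hf (IsHol.discriminant.pow m) H
  have h2 := Fermat.Agent.S24.QExpHom.qexpFun_mul_pow (isPerMero_of_isMer hf) (m := m) hm
  have e1 : Fermat.Agent.S24.QExpHom.num f m = ofPS (qExpansion 1 (f * Δ ^ m)) := rfl
  have e2 : Fermat.Agent.S24.QExpHom.DL ^ m = ofPS (qExpansion 1 ((Δ : ℍ → ℂ) ^ m)) := by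
    rw [IsHol.discriminant.qExpansion_pow, map_pow]
    rfl
  rw [e1, e2, ← h1] at h2
  have hne : ofPS (qExpansion 1 ((Δ : ℍ → ℂ) ^ m)) ≠ 0 :=
    (IsHol.discriminant.pow m).ofPS_ne_zero (discriminant_pow_ne_zero m)
  exact (mul_right_cancel₀ hne h2).symm

/-! ### Conjugate subgroups and transport of weakly holomorphic functions -/

/-- The conjugate subgroup `σ⁻¹ Γ σ`. -/
def conjGroup (Γ : Subgroup SL(2, ℤ)) (σ : SL(2, ℤ)) : Subgroup SL(2, ℤ) :=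
  Γ.comap (MulAut.conj σ).toMonoidHom

theorem mem_conjGroup {Γ : Subgroup SL(2, ℤ)} {σ γ : SL(2, ℤ)} :
    γ ∈ conjGroup Γ σ ↔ σ * γ * σ⁻¹ ∈ Γ := Iff.rfl

/-- `f ∈ WH Γ ⇒ f ∘ σ ∈ WH (σ⁻¹ Γ σ)`. -/
theorem isWH_comp_conj {Γ : Subgroup SL(2, ℤ)} {f : ℍ → ℂ} (hf : IsWH Γ f) (σ : SL(2, ℤ)) :
    IsWH (conjGroup Γ σ) (fun z => f (σ • z)) := by
  refine ⟨mdiff_comp_smul hf.1 σ, fun γ hγ z => ?_, fun δ => ?_⟩
  · have h1 : σ • γ • z = (σ * γ * σ⁻¹) • σ • z := by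
      rw [← mul_smul, ← mul_smul]
      congr 1
      group
    show f (σ • γ • z) = f (σ • z)
    rw [h1]
    exact hf.2.1 _ (mem_conjGroup.mp hγ) _
  · obtain ⟨m, hm⟩ := hf.2.2 (σ * δ)
    refine ⟨m, ?_⟩
    simpa only [mul_smul] using hm

/-- Composition with `σ` as an algebra homomorphism `WH Γ → WH (σ⁻¹ Γ σ)`. -/
noncomputable def sigmaWH (Γ : Subgroup SL(2, ℤ)) (σ : SL(2, ℤ)) :
    WH Γ →ₐ[ℂ] WH (conjGroup Γ σ) where
  toFun f := ⟨fun z => (f : ℍ → ℂ) (σ • z), isWH_comp_conj f.2 σ⟩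
  map_one' := rfl
  map_mul' _ _ := rfl
  map_zero' := rfl
  map_add' _ _ := rfl
  commutes' _ := rfl

theorem sigmaWH_apply (Γ : Subgroup SL(2, ℤ)) (σ : SL(2, ℤ)) (f : WH Γ) (z : ℍ) :
    (sigmaWH Γ σ f : ℍ → ℂ) z = (f : ℍ → ℂ) (σ • z) := rfl

theorem sigmaWH_injective (Γ : Subgroup SL(2, ℤ)) (σ : SL(2, ℤ)) :
    Function.Injective (sigmaWH Γ σ) := by
  intro f g h
  apply Subtype.ext
  funext z
  have := congrFun (congrArg Subtype.val h) (σ⁻¹ • z)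
  simpa only [sigmaWH_apply, smul_inv_smul] using this

/-! ### The expansion at the cusp `σ(i∞)` on `FC M` -/

section Sigma

variable (M : ℕ) [NeZero M] (σ : SL(2, ℤ)) (hT : ModularGroup.T ∈ conjGroup (Gamma0 M) σ)

/-- `f ↦` the `q`-expansion of `f ∘ σ` on `WH (Γ₀(M))`. -/
noncomputable def sigmaQ : WH (Gamma0 M) →ₐ[ℂ] LaurentSeries ℂ :=
  (qexpOf (conjGroup (Gamma0 M) σ) hT).comp (sigmaWH (Gamma0 M) σ)

theorem sigmaQ_apply (f : WH (Gamma0 M)) :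
    sigmaQ M σ hT f = qexpFun (fun z => (f : ℍ → ℂ) (σ • z)) := rfl

theorem sigmaQ_injective : Function.Injective (sigmaQ M σ hT) :=
  (qexpOf_injective _ hT).comp (sigmaWH_injective _ σ)

/-- The extension to the field of modular functions. -/
noncomputable def sigmaField : WHField (Gamma0 M) →ₐ[ℂ] LaurentSeries ℂ :=
  IsFractionRing.liftAlgHom (K := WHField (Gamma0 M)) (g := sigmaQ M σ hT)
    (sigmaQ_injective M σ hT)

theorem sigmaField_algebraMap (f : WH (Gamma0 M)) :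
    sigmaField M σ hT (algebraMap (WH (Gamma0 M)) (WHField (Gamma0 M)) f) = sigmaQ M σ hT f := by
  rw [sigmaField, IsFractionRing.liftAlgHom_apply, IsFractionRing.lift_algebraMap]
  rfl

/-- **The expansion at the cusp `σ(i∞)`** as a `ℂ`-algebra homomorphism on
`FC M = ℂ(j(q^d) : d ∣ M)`. -/
noncomputable def sigmaC : ↥(FC M) →ₐ[ℂ] LaurentSeries ℂ :=
  (sigmaField M σ hT).comp ((fieldEquiv M).symm : ↥(FC M) →ₐ[ℂ] WHField (Gamma0 M))

theorem sigmaC_fieldEquiv (x : WHField (Gamma0 M)) :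
    sigmaC M σ hT (fieldEquiv M x) = sigmaField M σ hT x := by
  simp [sigmaC]

theorem sigmaC_injective : Function.Injective (sigmaC M σ hT) := (sigmaC M σ hT).injective

/-- The image of the generator `j(q^d)` is the expansion of `z ↦ j(d · σ z)`. -/
theorem sigmaC_jdC {d : ℕ} [NeZero d] (hd : d ∣ M) :
    sigmaC M σ hT (jdC M hd) = qexpFun (fun z => JN.jN d (σ • z)) := by
  rw [← fieldEquiv_jdWH, sigmaC_fieldEquiv, sigmaField_algebraMap, sigmaQ_apply]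
  rfl

end Sigma

/-! ### Explicit matrices -/

/-- The matrix `[[a, b], [c, d]]` of determinant one. -/
def mkSL (a b c d : ℤ) (h : a * d - b * c = 1) : SL(2, ℤ) :=
  ⟨!![a, b; c, d], by rw [Matrix.det_fin_two_of]; exact h⟩

theorem coe_mkSL_smul (a b c d : ℤ) (h : a * d - b * c = 1) (z : ℍ) :
    ((mkSL a b c d h • z : ℍ) : ℂ) = ((a : ℂ) * z + b) / ((c : ℂ) * z + d) := by
  rw [coe_specialLinearGroup_apply]
  simp [mkSL]

theorem mkSL_denom_ne (a b c d : ℤ) (h : a * d - b * c = 1) (z : ℍ) :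
    (c : ℂ) * z + d ≠ 0 := by
  have h1 := denom_ne_zero (mkSL a b c d h) z
  rw [ModularGroup.denom_apply] at h1
  simpa [mkSL] using h1

/-- `[[1, 0], [c, 1]]`. -/
def lowerU (c : ℤ) : SL(2, ℤ) := mkSL 1 0 c 1 (by ring)

theorem coe_lowerU_smul (c : ℤ) (z : ℍ) :
    ((lowerU c • z : ℍ) : ℂ) = (z : ℂ) / ((c : ℂ) * z + 1) := by
  rw [lowerU, coe_mkSL_smul]
  simp

theorem lowerU_denom_ne (c : ℤ) (z : ℍ) : (c : ℂ) * z + 1 ≠ 0 := by
  have := mkSL_denom_ne 1 0 c 1 (by ring) z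
  simpa using this

/-- `T ∈ σ⁻¹ Γ₀(M) σ` for `σ = [[1, 0], [c, 1]]` as soon as `M ∣ c²`: the cusp `σ(i∞) = 1/c` of
`Γ₀(M)` has width one. -/
theorem T_mem_conjGroup_lowerU {M : ℕ} {c : ℤ} (h : (M : ℤ) ∣ c ^ 2) :
    ModularGroup.T ∈ conjGroup (Gamma0 M) (lowerU c) := by
  rw [mem_conjGroup, Gamma0_mem, ZMod.intCast_zmod_eq_zero_iff_dvd]
  have e0 : ((lowerU c * ModularGroup.T * (lowerU c)⁻¹ : SL(2, ℤ)) : Matrix (Fin 2) (Fin 2) ℤ) =
      !![1 - c, 1; -(c ^ 2), 1 + c] := by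
    rw [Matrix.SpecialLinearGroup.coe_mul, Matrix.SpecialLinearGroup.coe_mul,
      Matrix.SpecialLinearGroup.coe_inv, ModularGroup.coe_T, lowerU, mkSL]
    simp only [Matrix.adjugate_fin_two_of]
    ext i j
    fin_cases i <;> fin_cases j <;> simp [Matrix.mul_apply, Fin.sum_univ_two] <;> ring
  have e : (lowerU c * ModularGroup.T * (lowerU c)⁻¹) 1 0 = -(c ^ 2) := by
    have := congrFun (congrFun e0 1) 0
    simpa using this
  rw [e]
  exact (dvd_neg).mpr h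

/-! ### The two scaling identities -/

/-- `d · σ_c z = σ_{c/d} (d z)` for `d ∣ c`. -/
theorem scaleH_lowerU_of_dvd (d : ℕ) [NeZero d] (c c' : ℤ) (h : c = d * c') (z : ℍ) :
    JN.scaleH d (lowerU c • z) = lowerU c' • JN.scaleH d z := by
  apply UpperHalfPlane.ext
  rw [JN.coe_scaleH, coe_lowerU_smul, coe_lowerU_smul, JN.coe_scaleH]
  have h1 := lowerU_denom_ne c z
  have h2 := lowerU_denom_ne c' (JN.scaleH d z)
  rw [JN.coe_scaleH] at h2
  subst h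
  push_cast at h1 ⊢
  field_simp

/-- `d₀ q² · σ_c z = γ' (d₀ z + b/q)` for `c = q d₀ m`, `m b = 1 + q s`,
`γ' = [[q, −b], [m, −s]]`. -/
theorem scaleH_lowerU_sq (d0 q : ℕ) [NeZero d0] [NeZero q] (c m b s : ℤ)
    (hc : c = q * d0 * m) (hdet : m * b = 1 + q * s) (z : ℍ) :
    haveI : NeZero (d0 * q * q) :=
      ⟨Nat.mul_ne_zero (Nat.mul_ne_zero (NeZero.ne d0) (NeZero.ne q)) (NeZero.ne q)⟩
    JN.scaleH (d0 * q * q) (lowerU c • z) =
      mkSL q (-b) m (-s) (by linear_combination hdet) • (((b : ℝ) / q) +ᵥ JN.scaleH d0 z) := by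
  haveI : NeZero (d0 * q * q) :=
    ⟨Nat.mul_ne_zero (Nat.mul_ne_zero (NeZero.ne d0) (NeZero.ne q)) (NeZero.ne q)⟩
  apply UpperHalfPlane.ext
  rw [JN.coe_scaleH, coe_lowerU_smul, coe_mkSL_smul, UpperHalfPlane.coe_vadd, JN.coe_scaleH]
  have h1 := lowerU_denom_ne c z
  have h2 := mkSL_denom_ne q (-b) m (-s) (by linear_combination hdet)
    (((b : ℝ) / q) +ᵥ JN.scaleH d0 z)
  rw [UpperHalfPlane.coe_vadd, JN.coe_scaleH] at h2
  have hq : (q : ℂ) ≠ 0 := Nat.cast_ne_zero.mpr (NeZero.ne q)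
  have hdetC : (m : ℂ) * b = 1 + q * s := by exact_mod_cast hdet
  subst hc
  rw [mul_div_assoc', div_eq_div_iff h1 h2]
  push_cast
  field_simp
  linear_combination ((d0 : ℂ) * q * z) * hdetC

/-! ### The images of the generators under `sigmaC` for `σ = [[1, 0], [c, 1]]` -/

section Generators

variable (M : ℕ) [NeZero M] (c : ℤ) (hT : ModularGroup.T ∈ conjGroup (Gamma0 M) (lowerU c))

theorem qexpFun_jN (d : ℕ) [NeZero d] : qexpFun (JN.jN d) = qExpand ℂ d (jqModC ℂ) :=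
  qexp_jN d d dvd_rfl (JN.jN_mem_WH d)

/-- For `d ∣ c` (and `d ∣ M`) the generator `j(q^d)` has the same expansion at the cusp `1/c`. -/
theorem sigmaC_jdC_of_dvd {d : ℕ} [NeZero d] (hd : d ∣ M) (hdc : (d : ℤ) ∣ c) :
    sigmaC M (lowerU c) hT (jdC M hd) = qExpand ℂ d (jqModC ℂ) := by
  obtain ⟨c', hc'⟩ := hdc
  rw [sigmaC_jdC]
  have e : (fun z => JN.jN d (lowerU c • z)) = JN.jN d := by
    funext z
    rw [JN.jN, scaleH_lowerU_of_dvd d c c' hc' z, jInv_smul]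
    rfl
  rw [e, qexpFun_jN]

/-- For `d = d₀ q²`, `c = q d₀ m`, `m b = 1 + q s`: the generator `j(q^d)` expands at the cusp
`1/c` as the Puiseux root `j(ζ_q^b q^{d₀})`. -/
theorem sigmaC_jdC_sq (d0 q : ℕ) [NeZero d0] [NeZero q]
    (hd : d0 * q * q ∣ M) (m b s : ℤ) (hc : c = q * d0 * m) (hdet : m * b = 1 + q * s) :
    haveI : NeZero (d0 * q * q) :=
      ⟨Nat.mul_ne_zero (Nat.mul_ne_zero (NeZero.ne d0) (NeZero.ne q)) (NeZero.ne q)⟩
    sigmaC M (lowerU c) hT (jdC M hd) =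
      rootSeries (Fermat.Agent.N4.QExpTranslate.expUnit ((b : ℝ) / q)) d0 := by
  haveI : NeZero (d0 * q * q) :=
    ⟨Nat.mul_ne_zero (Nat.mul_ne_zero (NeZero.ne d0) (NeZero.ne q)) (NeZero.ne q)⟩
  have hq : 0 < q := NeZero.pos q
  rw [sigmaC_jdC]
  have e : (fun z => JN.jN (d0 * q * q) (lowerU c • z)) =
      Fermat.Agent.S24.QExpHom.scl d0
        (Fermat.Agent.N4.QExpTranslate.trl ((b : ℝ) / q) jInv) := by
    funext z
    rw [JN.jN, scaleH_lowerU_sq d0 q c m b s hc hdet z, jInv_smul]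
    rfl
  rw [e, qexpFun_eq_hom (isMer_of_isPerMero
    (Fermat.Agent.N4.QExpTranslate.isPerMero_scl_trl_jInv d0 b q hq)),
    Fermat.Agent.N4.QExpTranslate.qexpFun_scl_trl_jInv d0 b q hq]

end Generators

/-! ### Formal lemmas on `twist`, `qExpand`, `expUnit` -/

/-- `(f(t^d))(u t) = (f(u^d ·))(t^d)`. -/
theorem twist_qExpand {R : Type*} [CommRing R] (u : Rˣ) (d : ℕ) [NeZero d] (f : LaurentSeries R) :
    twist u (qExpand R d f) = qExpand R d (twist (u ^ d) f) := by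
  ext n
  rw [twist_coeff]
  by_cases hn : (d : ℤ) ∣ n
  · obtain ⟨k, rfl⟩ := hn
    rw [qExpand_coeff_mul, qExpand_coeff_mul, twist_coeff, zpow_mul, zpow_natCast]
  · rw [qExpand_coeff_of_not_dvd d _ hn, qExpand_coeff_of_not_dvd d _ hn, mul_zero]

/-- `rootSeries (u^d) d = j((u t)^d)` is the `u`-twist of `j(t^d)`. -/
theorem rootSeries_pow_eq_twist {R : Type*} [CommRing R] (u : Rˣ) (d : ℕ) [NeZero d] :
    rootSeries (u ^ d) d = twist u (qExpand R d (jqModC R)) := by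
  rw [rootSeries, twist_qExpand]

theorem expUnit_natCast_mul (a : ℝ) (n : ℕ) :
    Fermat.Agent.N4.QExpTranslate.expUnit ((n : ℝ) * a) =
      Fermat.Agent.N4.QExpTranslate.expUnit a ^ n := by
  apply Units.ext
  rw [Units.val_pow_eq_pow_val, Fermat.Agent.N4.QExpTranslate.coe_expUnit,
    Fermat.Agent.N4.QExpTranslate.coe_expUnit, Periodic.qParam, Periodic.qParam,
    ← Complex.exp_nat_mul]
  congr 1
  push_cast
  ring

/-! ### The middle cusp of `Γ₀(M₀ q²)` -/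

section Mid

variable (M0 q : ℕ) [NeZero M0] [NeZero q] (k : ℤ)

theorem neZero_mid : NeZero (M0 * q * q) :=
  ⟨Nat.mul_ne_zero (Nat.mul_ne_zero (NeZero.ne M0) (NeZero.ne q)) (NeZero.ne q)⟩

theorem T_mem_mid :
    ModularGroup.T ∈ conjGroup (Gamma0 (M0 * q * q)) (lowerU ((q : ℤ) * M0 * k)) := by
  apply T_mem_conjGroup_lowerU
  refine ⟨(M0 : ℤ) * k ^ 2, ?_⟩
  push_cast
  ring

/-- **The expansion at the middle cusp `1/(q M₀ k)` of `Γ₀(M₀ q²)`** (width one). -/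
noncomputable def sigmaMidC :
    haveI := neZero_mid M0 q
    ↥(FC (M0 * q * q)) →ₐ[ℂ] LaurentSeries ℂ :=
  haveI := neZero_mid M0 q
  sigmaC (M0 * q * q) (lowerU ((q : ℤ) * M0 * k)) (T_mem_mid M0 q k)

/-- On the generators of level `M₀ q` the middle expansion is the expansion at `i∞`. -/
theorem sigmaMidC_jdC_of_dvd {d : ℕ} [NeZero d] (hd : d ∣ M0 * q) :
    haveI := neZero_mid M0 q
    sigmaMidC M0 q k (jdC (M0 * q * q) (hd.trans (dvd_mul_right _ _))) =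
      qExpand ℂ d (jqModC ℂ) := by
  haveI := neZero_mid M0 q
  apply sigmaC_jdC_of_dvd
  obtain ⟨e, he⟩ := hd
  refine ⟨(e : ℤ) * k, ?_⟩
  have : ((q : ℤ) * M0) = (d : ℤ) * e := by
    rw [mul_comm (q : ℤ)]
    exact_mod_cast he
  rw [this]
  ring

/-- On the generators `j(q^{d₀ q²})`, `d₀ ∣ M₀`, the middle expansion is
`j((ζ t)^{d₀})`, `ζ = e^{2πi b₀/q}`, `M₀ k b₀ ≡ 1 mod q`. -/
theorem sigmaMidC_jdC_sq {d0 : ℕ} [NeZero d0] (hd0 : d0 ∣ M0) (b0 s0 : ℤ)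
    (hk : (M0 : ℤ) * k * b0 = 1 + q * s0) :
    haveI := neZero_mid M0 q
    haveI : NeZero (d0 * q * q) := neZero_mid d0 q
    sigmaMidC M0 q k (jdC (M0 * q * q)
        (Nat.mul_dvd_mul_right (Nat.mul_dvd_mul_right hd0 q) q)) =
      twist (Fermat.Agent.N4.QExpTranslate.expUnit ((b0 : ℝ) / q))
        (qExpand ℂ d0 (jqModC ℂ)) := by
  haveI := neZero_mid M0 q
  haveI : NeZero (d0 * q * q) := neZero_mid d0 q
  obtain ⟨e, he⟩ := hd0
  have h := sigmaC_jdC_sq (M0 * q * q) ((q : ℤ) * M0 * k) (T_mem_mid M0 q k) d0 q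
    (Nat.mul_dvd_mul_right (Nat.mul_dvd_mul_right ⟨e, he⟩ q) q) ((e : ℤ) * k) (b0 * d0) s0
    (by rw [he]; push_cast; ring) (by rw [← hk, he]; push_cast; ring)
  rw [sigmaMidC, h, ← rootSeries_pow_eq_twist, ← expUnit_natCast_mul]
  congr 2
  push_cast
  ring

end Mid

end Fermat.Agent.S36.V.MidCuspC
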