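/-
S36 / block [V], part (V-σ), descent half (helper15): **the middle embedding**
`sigma11 : FF K (M₀ q²) →+* LaurentSeries K'` (expansion at the cusp `1/(q M₀ k)` of width one),
for `K ⊆ K'` fields of characteristic zero embedded in `ℂ`, `K'` containing the `q`-th roots of unity.

* `MidData`: the hypotheses (`q` prime, `ι' ∘ algebraMap = ι`, `M₀ k b₀ = 1 + q s₀`, `ι' u = e^{2πi b₀/q}`);
* `sigma11 … : FF K (M₀ q q) →+* LaurentSeries K'` with `coeffMap ι' (sigma11 x) = sigmaMidC (toFCK x)`;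
* `sigma11_algebraMap`, `sigma11_jdF_of_dvd`, `sigma11_jdF_sq`;
* `sigma11_alphaF : sigma11 (α₂ x) = coeffMap (algebraMap K K') x` for `x ∈ FF K (M₀ q)`;
* `sigma11_betaF_betaF : sigma11 (β₂ (β₁ φ)) = twist u (coeffMap (algebraMap K K') φ)` for `φ ∈ FF K M₀`;
* `exists_sigma11`: the consumer form, for ANY primitive `q`-th root of unity `u ∈ K'`.
-/
import Mathlib
import Fermat.Agent.S36.V.MidCuspC
import Fermat.Agent.S36.V.FrickeK

set_option autoImplicit false
set_option linter.unusedSectionVars false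
set_option linter.style.haveILetI false

namespace Fermat.Agent.S36.V.MidCuspK

open ModularCurve Fermat.Agent.N4.Setting Fermat.Agent.S24.FieldIso Fermat.Agent.S16.Bridge
open Fermat.Agent.N4F.E.DegreeLevelRaise Fermat.Agent.S36.V.FrickeK Fermat.Agent.S36.V.MidCuspC
open Fermat.Agent.N4.TwistSeries Fermat.Agent.N4.QExpTranslate

/-! ### Divisors of `M₀ q²` -/

theorem dvd_cases {M0 q : ℕ} (hq : q.Prime) {d : ℕ} (hd : d ∣ M0 * q * q) :
    d ∣ M0 * q ∨ ∃ d0, d0 ∣ M0 ∧ d = d0 * q * q := by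
  rw [mul_assoc, ← sq] at hd
  obtain ⟨d1, d2, h1, h2, rfl⟩ := Nat.dvd_mul.mp hd
  obtain ⟨m, hm, rfl⟩ := (Nat.dvd_prime_pow hq).mp h2
  interval_cases m
  · left
    rw [pow_zero, mul_one]
    exact h1.trans (dvd_mul_right _ _)
  · left
    rw [pow_one]
    exact Nat.mul_dvd_mul_right h1 q
  · right
    exact ⟨d1, h1, by ring⟩

section

variable (K : Type) [Field K] [CharZero K] (ι : K →+* ℂ)
  (K' : Type) [Field K'] [Algebra K K'] (ι' : K' →+* ℂ)
  (M0 q : ℕ) [NeZero M0] [NeZero q] (k b0 s0 : ℤ) (u : K'ˣ)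

/-- The hypotheses of the middle embedding. -/
structure MidData : Prop where
  prime : q.Prime
  compat : ∀ x : K, ι' (algebraMap K K' x) = ι x
  det : (M0 : ℤ) * k * b0 = 1 + q * s0
  root : ι' (u : K') = ((expUnit ((b0 : ℝ) / q) : ℂˣ) : ℂ)

/-- The expansion at the middle cusp on `FF K (M₀ q²)`, with complex coefficients. -/
noncomputable def sigmaCK : FF K (M0 * q * q) →+* LaurentSeries ℂ :=
  ((sigmaMidC M0 q k : ↥(FC (M0 * q * q)) →ₐ[ℂ] LaurentSeries ℂ) :
    ↥(FC (M0 * q * q)) →+* LaurentSeries ℂ).comp (toFCK K ι (M0 * q * q))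

theorem sigmaCK_apply (x : FF K (M0 * q * q)) :
    sigmaCK K ι M0 q k x = sigmaMidC M0 q k (toFCK K ι (M0 * q * q) x) := rfl

theorem sigmaCK_algebraMap (c : K) :
    sigmaCK K ι M0 q k (algebraMap K (FF K (M0 * q * q)) c) =
      algebraMap ℂ (LaurentSeries ℂ) (ι c) := by
  rw [sigmaCK_apply, toFCK_algebraMap, AlgHom.commutes]

theorem sigmaCK_jdF_of_dvd {d : ℕ} [NeZero d] (hd : d ∣ M0 * q) :
    sigmaCK K ι M0 q k (jdF K (M0 * q * q) (hd.trans (dvd_mul_right _ _))) =
      qExpand ℂ d (jqModC ℂ) := by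
  rw [sigmaCK_apply, toFCK_jdF]
  exact sigmaMidC_jdC_of_dvd M0 q k hd

theorem sigmaCK_jdF_sq {d0 : ℕ} [NeZero d0] (hd0 : d0 ∣ M0)
    (hk : (M0 : ℤ) * k * b0 = 1 + q * s0) :
    sigmaCK K ι M0 q k (jdF K (M0 * q * q)
        (Nat.mul_dvd_mul_right (Nat.mul_dvd_mul_right hd0 q) q)) =
      twist (expUnit ((b0 : ℝ) / q)) (qExpand ℂ d0 (jqModC ℂ)) := by
  rw [sigmaCK_apply, toFCK_jdF]
  exact sigmaMidC_jdC_sq M0 q k hd0 b0 s0 hk

variable {K ι K' ι' M0 q k b0 s0 u}

theorem coeffMap_twist_unit (h : MidData K ι K' ι' M0 q k b0 s0 u) (f : LaurentSeries K') :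
    coeffMap ι' (twist u f) = twist (expUnit ((b0 : ℝ) / q)) (coeffMap ι' f) := by
  ext n
  rw [coeffMap_coeff, twist_coeff, twist_coeff, coeffMap_coeff, map_mul]
  congr 1
  have : ι' ((u ^ n : K'ˣ) : K') = ((Units.map ι'.toMonoidHom u ^ n : ℂˣ) : ℂ) := by
    rw [← map_zpow]
    rfl
  rw [this]
  congr 2
  apply Units.ext
  exact h.root

/-- The image of every element lies in `K'((q))`. -/
theorem sigmaCK_mem_range (h : MidData K ι K' ι' M0 q k b0 s0 u) (x : FF K (M0 * q * q)) :
    sigmaCK K ι M0 q k x ∈ (coeffMap ι').range := by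
  obtain ⟨x, hx⟩ := x
  induction hx using IntermediateField.adjoin_induction with
  | mem y hy =>
    obtain ⟨d, hd0, hd, rfl⟩ := hy
    haveI := hd0
    have e : (⟨qExpand K d (jqModC K), IntermediateField.subset_adjoin _ _
        (mem_divisorExpansionsC K (M0 * q * q) hd)⟩ : FF K (M0 * q * q)) =
        jdF K (M0 * q * q) hd := rfl
    rw [e]
    rcases dvd_cases h.prime hd with h1 | ⟨d0, hd0', rfl⟩
    · rw [show jdF K (M0 * q * q) hd = jdF K (M0 * q * q) (h1.trans (dvd_mul_right _ _)) from rfl,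
        sigmaCK_jdF_of_dvd K ι M0 q k h1]
      refine ⟨qExpand K' d (jqModC K'), ?_⟩
      rw [coeffMap_qExpand, coeffMap_jqModC]
    · haveI : NeZero d0 := ⟨by
        rintro rfl
        exact NeZero.ne (0 * q * q) (by simp)⟩
      rw [show jdF K (M0 * q * q) hd = jdF K (M0 * q * q)
          (Nat.mul_dvd_mul_right (Nat.mul_dvd_mul_right hd0' q) q) from rfl,
        sigmaCK_jdF_sq K ι M0 q k b0 s0 hd0' h.det]
      refine ⟨twist u (qExpand K' d0 (jqModC K')), ?_⟩
      rw [coeffMap_twist_unit h, coeffMap_qExpand, coeffMap_jqModC]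
  | algebraMap c =>
    refine ⟨algebraMap K' (LaurentSeries K') (algebraMap K K' c), ?_⟩
    have e : (⟨algebraMap K (LaurentSeries K) c, IntermediateField.algebraMap_mem _ c⟩ :
        FF K (M0 * q * q)) = algebraMap K (FF K (M0 * q * q)) c := rfl
    rw [e, sigmaCK_algebraMap, coeffMap_algebraMap', h.compat]
  | add y z hy hz ihy ihz =>
    have e : (⟨y + z, add_mem hy hz⟩ : FF K (M0 * q * q)) = ⟨y, hy⟩ + ⟨z, hz⟩ := rfl
    rw [e, map_add]
    exact add_mem ihy ihz
  | inv y hy ihy =>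
    have e : (⟨y⁻¹, inv_mem hy⟩ : FF K (M0 * q * q)) = (⟨y, hy⟩ : FF K (M0 * q * q))⁻¹ := rfl
    rw [e, map_inv₀]
    obtain ⟨w, hw⟩ := ihy
    exact ⟨w⁻¹, by rw [map_inv₀, hw]⟩
  | mul y z hy hz ihy ihz =>
    have e : (⟨y * z, mul_mem hy hz⟩ : FF K (M0 * q * q)) = ⟨y, hy⟩ * ⟨z, hz⟩ := rfl
    rw [e, map_mul]
    exact mul_mem ihy ihz

/-! ### The middle embedding -/

theorem coeffMap_injective' : Function.Injective (coeffMap ι') := (coeffMap ι').injective

variable (h : MidData K ι K' ι' M0 q k b0 s0 u)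

/-- The middle embedding, as a function. -/
noncomputable def sigma11Fun (x : FF K (M0 * q * q)) : LaurentSeries K' :=
  Classical.choose (RingHom.mem_range.mp (sigmaCK_mem_range h x))

theorem coeffMap_sigma11Fun (x : FF K (M0 * q * q)) :
    coeffMap ι' (sigma11Fun h x) = sigmaCK K ι M0 q k x :=
  Classical.choose_spec (RingHom.mem_range.mp (sigmaCK_mem_range h x))

/-- **The middle embedding** `FF K (M₀ q²) → K'((q))`: the `q`-expansion at the cusp
`1/(q M₀ k)` (of width one). -/
noncomputable def sigma11 : FF K (M0 * q * q) →+* LaurentSeries K' where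
  toFun := sigma11Fun h
  map_one' := by
    apply coeffMap_injective' (ι' := ι')
    rw [coeffMap_sigma11Fun, map_one, map_one]
  map_mul' x y := by
    apply coeffMap_injective' (ι' := ι')
    rw [coeffMap_sigma11Fun, map_mul, map_mul, coeffMap_sigma11Fun, coeffMap_sigma11Fun]
  map_zero' := by
    apply coeffMap_injective' (ι' := ι')
    rw [coeffMap_sigma11Fun, map_zero, map_zero]
  map_add' x y := by
    apply coeffMap_injective' (ι' := ι')
    rw [coeffMap_sigma11Fun, map_add, map_add, coeffMap_sigma11Fun, coeffMap_sigma11Fun]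

theorem coeffMap_sigma11 (x : FF K (M0 * q * q)) :
    coeffMap ι' (sigma11 h x) = sigmaMidC M0 q k (toFCK K ι (M0 * q * q) x) :=
  coeffMap_sigma11Fun h x

theorem sigma11_injective : Function.Injective (sigma11 h) := (sigma11 h).injective

theorem sigma11_algebraMap (c : K) :
    sigma11 h (algebraMap K (FF K (M0 * q * q)) c) =
      algebraMap K' (LaurentSeries K') (algebraMap K K' c) := by
  apply coeffMap_injective' (ι' := ι')
  rw [coeffMap_sigma11, ← sigmaCK_apply, sigmaCK_algebraMap, coeffMap_algebraMap', h.compat]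

theorem sigma11_jdF_of_dvd {d : ℕ} [NeZero d] (hd : d ∣ M0 * q) :
    sigma11 h (jdF K (M0 * q * q) (hd.trans (dvd_mul_right _ _))) =
      qExpand K' d (jqModC K') := by
  apply coeffMap_injective' (ι' := ι')
  rw [coeffMap_sigma11, ← sigmaCK_apply, sigmaCK_jdF_of_dvd K ι M0 q k hd, coeffMap_qExpand,
    coeffMap_jqModC]

theorem sigma11_jdF_sq {d0 : ℕ} [NeZero d0] (hd0 : d0 ∣ M0) :
    sigma11 h (jdF K (M0 * q * q) (Nat.mul_dvd_mul_right (Nat.mul_dvd_mul_right hd0 q) q)) =
      twist u (qExpand K' d0 (jqModC K')) := by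
  apply coeffMap_injective' (ι' := ι')
  rw [coeffMap_sigma11, ← sigmaCK_apply, sigmaCK_jdF_sq K ι M0 q k b0 s0 hd0 h.det,
    coeffMap_twist_unit h, coeffMap_qExpand, coeffMap_jqModC]

/-- **On the subfield of level `M₀ q` the middle embedding is the expansion at `i∞`.** -/
theorem sigma11_alphaF (x : FF K (M0 * q)) :
    sigma11 h (alphaF K (M0 * q) q x) = coeffMap (algebraMap K K') (x : LaurentSeries K) := by
  have key : (sigma11 h).comp (alphaF K (M0 * q) q : FF K (M0 * q) →+* FF K (M0 * q * q)) =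
      (coeffMap (algebraMap K K')).comp (algebraMap (FF K (M0 * q)) (LaurentSeries K)) := by
    apply ringHom_ext_jdF K (M0 * q)
    · intro c
      show sigma11 h (alphaF K (M0 * q) q (algebraMap K _ c)) =
        coeffMap (algebraMap K K') (algebraMap K (LaurentSeries K) c)
      rw [AlgHom.commutes, sigma11_algebraMap, coeffMap_algebraMap']
    · intro d _ hd
      show sigma11 h (alphaF K (M0 * q) q (jdF K (M0 * q) hd)) =
        coeffMap (algebraMap K K') (qExpand K d (jqModC K))
      rw [alphaF_jdF, sigma11_jdF_of_dvd h hd, coeffMap_qExpand, coeffMap_jqModC]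
  exact congrArg (fun f : FF K (M0 * q) →+* LaurentSeries K' => f x) key

/-- **On `β₂ β₁ (FF K M₀)` the middle embedding is `φ ↦ φ(u t)`.** -/
theorem sigma11_betaF_betaF (φ : FF K M0) :
    sigma11 h (betaF K (M0 * q) q (betaF K M0 q φ)) =
      twist u (coeffMap (algebraMap K K') (φ : LaurentSeries K)) := by
  have key : (sigma11 h).comp (((betaF K (M0 * q) q).comp (betaF K M0 q) :
        FF K M0 →ₐ[K] FF K (M0 * q * q)) : FF K M0 →+* FF K (M0 * q * q)) =
      ((twist u).comp (coeffMap (algebraMap K K'))).comp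
        (algebraMap (FF K M0) (LaurentSeries K)) := by
    apply ringHom_ext_jdF K M0
    · intro c
      show sigma11 h (betaF K (M0 * q) q (betaF K M0 q (algebraMap K _ c))) =
        twist u (coeffMap (algebraMap K K') (algebraMap K (LaurentSeries K) c))
      rw [AlgHom.commutes, AlgHom.commutes, sigma11_algebraMap, coeffMap_algebraMap',
        algebraMap_laurentSeries_eq_single]
      ext n
      rw [twist_coeff, HahnSeries.coeff_single]
      split_ifs with hn
      · subst hn
        simp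
      · simp
    · intro d0 _ hd0
      show sigma11 h (betaF K (M0 * q) q (betaF K M0 q (jdF K M0 hd0))) =
        twist u (coeffMap (algebraMap K K') (qExpand K d0 (jqModC K)))
      rw [betaF_jdF, betaF_jdF, coeffMap_qExpand, coeffMap_jqModC, ← sigma11_jdF_sq h hd0]
      congr 1
      apply jdF_congr
      ring
  exact congrArg (fun f : FF K M0 →+* LaurentSeries K' => f φ) key

end

/-! ### Consumer form: any primitive `q`-th root of unity -/

/-- **The middle embedding for an arbitrary primitive `q`-th root of unity `u ∈ K'`.** -/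
theorem exists_sigma11 (K : Type) [Field K] [CharZero K] (ι : K →+* ℂ)
    (K' : Type) [Field K'] [Algebra K K'] (ι' : K' →+* ℂ)
    (hι : ∀ x : K, ι' (algebraMap K K' x) = ι x)
    (M0 q : ℕ) [NeZero M0] [NeZero q] (hq : q.Prime) (hqM : ¬ q ∣ M0)
    (u : K'ˣ) (hu : IsPrimitiveRoot (u : K') q) :
    ∃ s : FF K (M0 * q * q) →+* LaurentSeries K',
      (∀ c : K, s (algebraMap K (FF K (M0 * q * q)) c) =
        algebraMap K' (LaurentSeries K') (algebraMap K K' c)) ∧
      (∀ x : FF K (M0 * q), s (alphaF K (M0 * q) q x) =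
        coeffMap (algebraMap K K') (x : LaurentSeries K)) ∧
      (∀ φ : FF K M0, s (betaF K (M0 * q) q (betaF K M0 q φ)) =
        twist u (coeffMap (algebraMap K K') (φ : LaurentSeries K))) := by
  have hu' : IsPrimitiveRoot (ι' (u : K')) q := hu.map_of_injective ι'.injective
  obtain ⟨i, -, hiq, hi⟩ := (Complex.isPrimitiveRoot_iff _ q hq.ne_zero).mp hu'
  have hcop : Nat.Coprime (M0 * i) q :=
    Nat.Coprime.mul_left ((Nat.Prime.coprime_iff_not_dvd hq).mpr hqM).symm hiq
  obtain ⟨x, y, hxy⟩ := Nat.isCoprime_iff_coprime.mpr hcop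
  have hdata : MidData K ι K' ι' M0 q x (i : ℤ) (-y) u := by
    refine ⟨hq, hι, ?_, ?_⟩
    · push_cast at hxy
      linear_combination hxy
    · rw [← hi, coe_expUnit, Function.Periodic.qParam]
      congr 1
      push_cast
      ring
  exact ⟨sigma11 hdata, sigma11_algebraMap hdata, sigma11_alphaF hdata,
    sigma11_betaF_betaF hdata⟩

end Fermat.Agent.S36.V.MidCuspK
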