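/-
S36 / block [V], leaf (V-mid) (helper15): **the middle valuation `V11` of `FF K (M₀ q²)`** =
pull-back along the middle embedding `s = sigma11 : FF K (M₀ q²) → K'((Q))` (`V/MidCuspK`) of the
Gauss valuation of `K'((Q))` with respect to a discrete valuation ring `O' ⊆ K'` dominating `O`
and containing the `q`-th root of unity `u` (`V/CycloDVR`).

* general: `incl : O →+* O'`, `resMap : κ →+* κ'`, behaviour of `gaussRing`, `gaussField`,
  `gaussRed` under `coeffMap (K → K')` and under `twist u`;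
* `MidEmb s u` (the three properties of `sigma11`), `s x ∈ gaussField O' K'`;
* `midVS : ValuationSubring (FF K (M₀ q²))`, `midEv : midVS → κ'((Q))`, `midEv y = 0 ↔ y` nonunit;
* `α₂ G₁ ⊆ V11`, `midEv (α₂ x) = ρ (θ₁ x)`, `V11.comap α₂ = V10`;
  `β₂ β₁ G₀ ⊆ V11`, `midEv (β₂ β₁ φ) = ρ (θ₀ φ)`;
* `q ∈ V11.nonunits`, `Π = β₂β₁ j − α₂α₁ j ∈ V11.nonunits ∖ V20.nonunits`, `V11 ≠ V20`;
* the Wilson witness `q = w Π^(q−1)`, `w ∈ V11ˣ`.
-/
import Mathlib
import Fermat.Agent.N4F.E.GaussDVR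
import Fermat.Agent.S36.R3.PiSeries
import Fermat.Agent.S36.V.MidCuspK
import Fermat.Agent.P3G.SecondValuation
import Fermat.Agent.S36.V.CycloDVR

set_option autoImplicit false
set_option linter.unusedSectionVars false
set_option linter.style.haveILetI false

namespace Fermat.Agent.S36.V.MidVal

open ModularCurve Fermat.Agent.S28.Gauss Fermat.Agent.N4.Setting Fermat.Agent.N4.FibreEmbedding
open Fermat.Agent.N4F.E.DegreeLevelRaise Fermat.Agent.N4F.E.GaussDVR
open Fermat.Agent.N4.TwistSeries Fermat.Agent.S36.R3.PiSeries IsLocalRing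

/-! ### `twist` and coefficientwise maps -/

theorem coeffMap_twist {R S : Type*} [CommRing R] [CommRing S] (φ : R →+* S) (x : Rˣ)
    (f : LaurentSeries R) :
    coeffMap φ (twist x f) = twist (Units.map φ.toMonoidHom x) (coeffMap φ f) := by
  ext n
  rw [coeffMap_coeff, twist_coeff, twist_coeff, coeffMap_coeff, map_mul]
  congr 1
  rw [← map_zpow]
  rfl

/-! ### Extension of the base discrete valuation ring -/

section GaussExt

variable {K : Type*} [Field K] (O : Subring K) [IsDiscreteValuationRing ↥O] [IsFractionRing ↥O K]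
  {K' : Type*} [Field K'] [Algebra K K'] (O' : Subring K') [IsDiscreteValuationRing ↥O']
  [IsFractionRing ↥O' K'] (hdom : ∀ x : K, algebraMap K K' x ∈ O' ↔ x ∈ O)

/-- The inclusion `O → O'`. -/
def incl : ↥O →+* ↥O' :=
  ((algebraMap K K').comp O.subtype).codRestrict O' (fun x => (hdom x).2 x.2)

theorem coe_incl (a : ↥O) : ((incl O O' hdom a : ↥O') : K') = algebraMap K K' (a : K) := rfl

theorem isLocalHom_incl : IsLocalHom (incl O O' hdom) := by
  constructor
  intro a ha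
  obtain ⟨b, hb⟩ := ha.exists_right_inv
  have h1 : algebraMap K K' (a : K) * (b : K') = 1 := by
    have := congrArg Subtype.val hb
    simpa [coe_incl] using this
  have ha0 : (a : K) ≠ 0 := by
    intro h0
    rw [h0, map_zero, zero_mul] at h1
    exact zero_ne_one h1
  have h2 : algebraMap K K' ((a : K)⁻¹) = (b : K') := by
    rw [map_inv₀]
    exact (eq_inv_of_mul_eq_one_right h1).symm
  have h3 : (a : K)⁻¹ ∈ O := (hdom _).1 (by rw [h2]; exact b.2)
  exact isUnit_iff_exists_inv.mpr ⟨⟨(a : K)⁻¹, h3⟩, Subtype.ext (mul_inv_cancel₀ ha0)⟩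

/-- The induced map of residue fields. -/
noncomputable def resMap : ResidueField ↥O →+* ResidueField ↥O' :=
  haveI := isLocalHom_incl O O' hdom
  ResidueField.map (incl O O' hdom)

theorem resMap_residue (a : ↥O) :
    resMap O O' hdom (residue ↥O a) = residue ↥O' (incl O O' hdom a) := by
  haveI := isLocalHom_incl O O' hdom
  exact ResidueField.map_residue _ a

theorem emb_coeffMap_incl (a : LaurentSeries ↥O) :
    emb ↥O' K' (coeffMap (incl O O' hdom) a) = coeffMap (algebraMap K K') (emb ↥O K a) := by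
  ext n
  rfl

theorem red_coeffMap_incl (a : LaurentSeries ↥O) :
    red ↥O' (coeffMap (incl O O' hdom) a) = coeffMap (resMap O O' hdom) (red ↥O a) := by
  ext n
  rw [red_coeff, coeffMap_coeff, coeffMap_coeff, red_coeff, resMap_residue]

theorem coeffMap_resMap_ne_zero {x : LaurentSeries (ResidueField ↥O)} (hx : x ≠ 0) :
    coeffMap (resMap O O' hdom) x ≠ 0 := by
  intro h
  exact hx ((coeffMap (resMap O O' hdom)).injective (by rw [h, map_zero]))

include hdom in
/-- `coeffMap (K → K')` maps the Gauss ring of `O` into the Gauss ring of `O'`. -/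
theorem coeffMap_mem_gaussRing {x : LaurentSeries K} (hx : x ∈ gaussRing ↥O K) :
    coeffMap (algebraMap K K') x ∈ gaussRing ↥O' K' := by
  obtain ⟨a, b, hb, h⟩ := hx
  refine ⟨coeffMap (incl O O' hdom) a, coeffMap (incl O O' hdom) b, ?_, ?_⟩
  · rw [red_coeffMap_incl]
    exact coeffMap_resMap_ne_zero O O' hdom hb
  · rw [emb_coeffMap_incl, emb_coeffMap_incl, ← map_mul, h]

include hdom in
theorem coeffMap_mem_gaussField {x : LaurentSeries K} (hx : x ∈ gaussField ↥O K) :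
    coeffMap (algebraMap K K') x ∈ gaussField ↥O' K' := by
  obtain ⟨a, b, hb, h⟩ := hx
  refine ⟨coeffMap (incl O O' hdom) a, coeffMap (incl O O' hdom) b, ?_, ?_⟩
  · intro h0
    apply hb
    apply emb_injective K
    apply (coeffMap (algebraMap K K')).injective
    rw [← emb_coeffMap_incl O O' hdom, h0, map_zero, map_zero, map_zero]
  · rw [emb_coeffMap_incl, emb_coeffMap_incl, ← map_mul, h]

/-- The Gauss reduction commutes with `coeffMap (K → K')`. -/
theorem gaussRed_coeffMap (x : gaussRing ↥O K) :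
    gaussRed (⟨coeffMap (algebraMap K K') (x : LaurentSeries K),
        coeffMap_mem_gaussRing O O' hdom x.2⟩ : gaussRing ↥O' K') =
      coeffMap (resMap O O' hdom) (gaussRed x) := by
  obtain ⟨a, b, hb, h⟩ := x.2
  have hb' : red ↥O' (coeffMap (incl O O' hdom) b) ≠ 0 := by
    rw [red_coeffMap_incl]
    exact coeffMap_resMap_ne_zero O O' hdom hb
  rw [gaussRed_eq x hb h, gaussRed_eq _ (a := coeffMap (incl O O' hdom) a) hb'
    (by rw [emb_coeffMap_incl, emb_coeffMap_incl, ← map_mul, h]),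
    red_coeffMap_incl, red_coeffMap_incl, map_div₀]

include hdom in
/-- For elements of the Gauss field of `O`: `coeffMap x` lies in the Gauss ring of `O'` iff `x`
lies in the Gauss ring of `O`. -/
theorem coeffMap_mem_gaussRing_iff {x : LaurentSeries K} (hx : x ∈ gaussField ↥O K) :
    coeffMap (algebraMap K K') x ∈ gaussRing ↥O' K' ↔ x ∈ gaussRing ↥O K := by
  refine ⟨fun h => ?_, coeffMap_mem_gaussRing O O' hdom⟩
  by_contra hx'
  have hx0 : x ≠ 0 := by
    rintro rfl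
    exact hx' (gaussRing ↥O K).zero_mem
  rcases mem_gaussRing_or_inv hx hx0 with h1 | ⟨h1, h0⟩
  · exact hx' h1
  · have h2 := gaussRed_coeffMap O O' hdom ⟨x⁻¹, h1⟩
    rw [h0, map_zero] at h2
    have h3 : (⟨coeffMap (algebraMap K K') x, h⟩ : gaussRing ↥O' K') *
        ⟨coeffMap (algebraMap K K') x⁻¹, coeffMap_mem_gaussRing O O' hdom h1⟩ = 1 := by
      apply Subtype.ext
      show coeffMap (algebraMap K K') x * coeffMap (algebraMap K K') x⁻¹ = 1
      rw [← map_mul, mul_inv_cancel₀ hx0, map_one]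
    have h4 := congrArg (gaussRed (A := ↥O') (Q := K')) h3
    rw [map_mul, h2, mul_zero, map_one] at h4
    exact zero_ne_one h4

end GaussExt

/-! ### `twist` by a unit of `O'` on the Gauss ring -/

section TwistGauss

variable {K' : Type*} [Field K'] (O' : Subring K') [IsDiscreteValuationRing ↥O']
  [IsFractionRing ↥O' K'] (u : K'ˣ) (hu : (u : K') ∈ O') (hu' : ((u⁻¹ : K'ˣ) : K') ∈ O')

/-- `u` as a unit of `O'`. -/
def unitO : (↥O')ˣ :=
  ⟨⟨(u : K'), hu⟩, ⟨((u⁻¹ : K'ˣ) : K'), hu'⟩, Subtype.ext (by simp), Subtype.ext (by simp)⟩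

theorem emb_twist (a : LaurentSeries ↥O') :
    emb ↥O' K' (twist (unitO O' u hu hu') a) = twist u (emb ↥O' K' a) := by
  have h := coeffMap_twist (algebraMap ↥O' K') (unitO O' u hu hu') a
  have e : Units.map (algebraMap ↥O' K').toMonoidHom (unitO O' u hu hu') = u := Units.ext rfl
  rw [e] at h
  exact h

theorem red_twist (a : LaurentSeries ↥O') :
    red ↥O' (twist (unitO O' u hu hu') a) =
      twist (Units.map (residue ↥O').toMonoidHom (unitO O' u hu hu')) (red ↥O' a) :=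
  coeffMap_twist (residue ↥O') (unitO O' u hu hu') a

include hu hu' in
theorem twist_mem_gaussRing {x : LaurentSeries K'} (hx : x ∈ gaussRing ↥O' K') :
    twist u x ∈ gaussRing ↥O' K' := by
  obtain ⟨a, b, hb, h⟩ := hx
  refine ⟨twist (unitO O' u hu hu') a, twist (unitO O' u hu hu') b, ?_, ?_⟩
  · rw [red_twist]
    intro h0
    exact hb (twist_injective _ (by rw [h0, map_zero]))
  · rw [emb_twist, emb_twist, ← map_mul, h]

include hu hu' in
theorem twist_mem_gaussField {x : LaurentSeries K'} (hx : x ∈ gaussField ↥O' K') :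
    twist u x ∈ gaussField ↥O' K' := by
  obtain ⟨a, b, hb, h⟩ := hx
  refine ⟨twist (unitO O' u hu hu') a, twist (unitO O' u hu hu') b, ?_, ?_⟩
  · intro h0
    exact hb (twist_injective _ (by rw [h0, map_zero]))
  · rw [emb_twist, emb_twist, ← map_mul, h]

/-- If `u ≡ 1` modulo the maximal ideal then `twist u` does not change the Gauss reduction. -/
theorem gaussRed_twist (h1 : residue ↥O' (⟨(u : K'), hu⟩ : ↥O') = 1) (x : gaussRing ↥O' K') :
    gaussRed (⟨twist u (x : LaurentSeries K'), twist_mem_gaussRing O' u hu hu' x.2⟩ :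
      gaussRing ↥O' K') = gaussRed x := by
  obtain ⟨a, b, hb, h⟩ := x.2
  have e1 : Units.map (residue ↥O').toMonoidHom (unitO O' u hu hu') = 1 := Units.ext h1
  have hb' : red ↥O' (twist (unitO O' u hu hu') b) ≠ 0 := by
    rw [red_twist, e1, twist_one]
    exact hb
  rw [gaussRed_eq x hb h, gaussRed_eq _ (a := twist (unitO O' u hu hu') a) hb'
    (by rw [emb_twist, emb_twist, ← map_mul, h]), red_twist, red_twist, e1, twist_one, twist_one]

end TwistGauss

/-! ### The middle valuation -/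

section Mid

variable (K : Type) [Field K] [CharZero K] (M0 q : ℕ) [NeZero M0] [NeZero q]
  (O : Subring K) [IsDiscreteValuationRing ↥O] [IsFractionRing ↥O K]
  (K' : Type) [Field K'] [Algebra K K']
  (O' : Subring K') [IsDiscreteValuationRing ↥O'] [IsFractionRing ↥O' K']
  (s : FF K (M0 * q * q) →+* LaurentSeries K') (u : K'ˣ)

/-- The data of the middle embedding `s` (`V/MidCuspK.exists_sigma11`) and of the cyclotomic
discrete valuation ring `O'` (`V/CycloDVR.exists_cycloDVR`). -/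
structure MidEmb : Prop where
  prime : q.Prime
  const : ∀ c : K, s (algebraMap K (FF K (M0 * q * q)) c) =
    algebraMap K' (LaurentSeries K') (algebraMap K K' c)
  alpha : ∀ x : FF K (M0 * q), s (alphaF K (M0 * q) q x) =
    coeffMap (algebraMap K K') (x : LaurentSeries K)
  beta : ∀ φ : FF K M0, s (betaF K (M0 * q) q (betaF K M0 q φ)) =
    twist u (coeffMap (algebraMap K K') (φ : LaurentSeries K))
  dom : ∀ x : K, algebraMap K K' x ∈ O' ↔ x ∈ O
  u_mem : (u : K') ∈ O'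
  u_inv_mem : ((u⁻¹ : K'ˣ) : K') ∈ O'
  u_sub : (⟨(u : K'), u_mem⟩ : ↥O') - 1 ∈ maximalIdeal ↥O'
  wilson : ∃ w0 : ↥O', IsUnit w0 ∧
    ((q : ℕ) : ↥O') = w0 * ((⟨(u : K'), u_mem⟩ : ↥O') - 1) ^ (q - 1) ∧
    w0 + 1 ∈ maximalIdeal ↥O'

variable {K M0 q O K' O' s u}

theorem MidEmb.residue_u (h : MidEmb K M0 q O K' O' s u) :
    residue ↥O' (⟨(u : K'), h.u_mem⟩ : ↥O') = 1 := by
  have := (residue_eq_zero_iff _).mpr h.u_sub
  rw [map_sub, map_one, sub_eq_zero] at this
  exact this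

/-- The generators of `FF K (M₀ q²)`: either of level `M₀ q`, or `β₂ β₁` of a generator of
level `M₀`. -/
theorem jdF_cases (hq : q.Prime) {d : ℕ} [NeZero d] (hd : d ∣ M0 * q * q) :
    (∃ h1 : d ∣ M0 * q, jdF K (M0 * q * q) hd = alphaF K (M0 * q) q (jdF K (M0 * q) h1)) ∨
    (∃ (d0 : ℕ) (_ : NeZero d0) (hd0 : d0 ∣ M0),
      jdF K (M0 * q * q) hd = betaF K (M0 * q) q (betaF K M0 q (jdF K M0 hd0))) := by
  rcases MidCuspK.dvd_cases hq hd with h1 | ⟨d0, hd0, rfl⟩
  · left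
    exact ⟨h1, (alphaF_jdF K (M0 * q) q h1).symm⟩
  · right
    haveI : NeZero d0 := ⟨by
      rintro rfl
      exact NeZero.ne (0 * q * q) (by simp)⟩
    refine ⟨d0, inferInstance, hd0, ?_⟩
    rw [betaF_jdF, betaF_jdF]
    apply FrickeK.jdF_congr
    ring

/-- The image of the middle embedding lies in the Gauss field of `O'`. -/
theorem MidEmb.mem_gaussField (h : MidEmb K M0 q O K' O' s u) (x : FF K (M0 * q * q)) :
    s x ∈ gaussField ↥O' K' := by
  obtain ⟨x, hx⟩ := x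
  induction hx using IntermediateField.adjoin_induction with
  | mem y hy =>
    obtain ⟨d, hd0, hd, rfl⟩ := hy
    haveI := hd0
    have e : (⟨qExpand K d (jqModC K), IntermediateField.subset_adjoin _ _
        (mem_divisorExpansionsC K (M0 * q * q) hd)⟩ : FF K (M0 * q * q)) =
        jdF K (M0 * q * q) hd := rfl
    rw [e]
    rcases jdF_cases (K := K) h.prime hd with ⟨h1, e1⟩ | ⟨d0, _, hd0', e1⟩
    · rw [e1, h.alpha]
      exact coeffMap_mem_gaussField O O' h.dom (full_le_gaussField K (M0 * q) O (jdF K _ h1).2)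
    · rw [e1, h.beta]
      exact twist_mem_gaussField O' u h.u_mem h.u_inv_mem
        (coeffMap_mem_gaussField O O' h.dom (full_le_gaussField K M0 O (jdF K _ hd0').2))
  | algebraMap c =>
    have e : (⟨algebraMap K (LaurentSeries K) c, IntermediateField.algebraMap_mem _ c⟩ :
        FF K (M0 * q * q)) = algebraMap K (FF K (M0 * q * q)) c := rfl
    rw [e, h.const]
    exact (gaussField ↥O' K').algebraMap_mem _
  | add y z hy hz ihy ihz =>
    have e : (⟨y + z, add_mem hy hz⟩ : FF K (M0 * q * q)) = ⟨y, hy⟩ + ⟨z, hz⟩ := rfl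
    rw [e, map_add]
    exact add_mem ihy ihz
  | inv y hy ihy =>
    have e : (⟨y⁻¹, inv_mem hy⟩ : FF K (M0 * q * q)) = (⟨y, hy⟩ : FF K (M0 * q * q))⁻¹ := rfl
    rw [e, map_inv₀]
    exact inv_mem ihy
  | mul y z hy hz ihy ihz =>
    have e : (⟨y * z, mul_mem hy hz⟩ : FF K (M0 * q * q)) = ⟨y, hy⟩ * ⟨z, hz⟩ := rfl
    rw [e, map_mul]
    exact mul_mem ihy ihz

/-- **The middle valuation subring `V11`.** -/
noncomputable def midVS (h : MidEmb K M0 q O K' O' s u) : ValuationSubring (FF K (M0 * q * q)) where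
  toSubring := (gaussRing ↥O' K').comap s
  mem_or_inv_mem' x := by
    by_cases hx : x = 0
    · left
      rw [hx]
      exact Subring.zero_mem _
    · have hsx : s x ≠ 0 := (map_ne_zero s).mpr hx
      rcases mem_gaussRing_or_inv (h.mem_gaussField x) hsx with h1 | ⟨h1, -⟩
      · exact Or.inl h1
      · right
        show s x⁻¹ ∈ gaussRing ↥O' K'
        rw [map_inv₀]
        exact h1

theorem mem_midVS_iff (h : MidEmb K M0 q O K' O' s u) {x : FF K (M0 * q * q)} :
    x ∈ midVS h ↔ s x ∈ gaussRing ↥O' K' := Iff.rfl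

/-- The place of `V11`. -/
noncomputable def midEv (h : MidEmb K M0 q O K' O' s u) :
    ↥(midVS h) →+* LaurentSeries (ResidueField ↥O') :=
  (gaussRed (A := ↥O') (Q := K')).comp
    ((s.comp (midVS h).toSubring.subtype).codRestrict (gaussRing ↥O' K') fun x => x.2)

theorem midEv_apply (h : MidEmb K M0 q O K' O' s u) (x : ↥(midVS h)) :
    midEv h x = gaussRed (⟨s (x : FF K (M0 * q * q)), x.2⟩ : gaussRing ↥O' K') := rfl

theorem midEv_eq_zero_iff (h : MidEmb K M0 q O K' O' s u) (y : ↥(midVS h)) :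
    midEv h y = 0 ↔ (y : FF K (M0 * q * q)) ∈ (midVS h).nonunits := by
  by_cases hy0 : (y : FF K (M0 * q * q)) = 0
  · have : y = 0 := Subtype.ext hy0
    rw [this, map_zero]
    simp only [ZeroMemClass.coe_zero, true_iff]
    exact Fermat.Agent.P3G.LocVS.zero_mem_nonunits _
  rw [Fermat.Agent.P3G.LocVS.mem_nonunits_iff_inv_notMem _ hy0, mem_midVS_iff, map_inv₀]
  constructor
  · intro h0 hinv
    have h1 : (⟨s (y : FF K (M0 * q * q)), y.2⟩ : gaussRing ↥O' K') *
        ⟨(s (y : FF K (M0 * q * q)))⁻¹, hinv⟩ = 1 := by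
      apply Subtype.ext
      show s (y : FF K (M0 * q * q)) * (s (y : FF K (M0 * q * q)))⁻¹ = 1
      exact mul_inv_cancel₀ ((map_ne_zero s).mpr hy0)
    have h2 := congrArg (gaussRed (A := ↥O') (Q := K')) h1
    rw [map_mul, ← midEv_apply, h0, zero_mul, map_one] at h2
    exact zero_ne_one h2
  · intro hn
    by_contra hne
    exact hn (inv_mem_gaussRing_of_gaussRed_ne_zero
      (x := (⟨s (y : FF K (M0 * q * q)), y.2⟩ : gaussRing ↥O' K')) hne)

/-! ### The `α₂`-side: `V11` lies over `V10` -/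

theorem alphaF_mem_midVS_iff (h : MidEmb K M0 q O K' O' s u) (x : FF K (M0 * q)) :
    alphaF K (M0 * q) q x ∈ midVS h ↔ x ∈ gaussSubalgebra K (M0 * q) O := by
  rw [mem_midVS_iff, h.alpha, mem_gaussSubalgebra_iff]
  exact coeffMap_mem_gaussRing_iff O O' h.dom (full_le_gaussField K (M0 * q) O x.2)

theorem alphaF_mem_midVS (h : MidEmb K M0 q O K' O' s u) {x : FF K (M0 * q)}
    (hx : x ∈ gaussSubalgebra K (M0 * q) O) : alphaF K (M0 * q) q x ∈ midVS h :=
  (alphaF_mem_midVS_iff h x).mpr hx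

/-- `ev11 ∘ α₂ = ρ ∘ θ₁`. -/
theorem midEv_alphaF (h : MidEmb K M0 q O K' O' s u) {x : FF K (M0 * q)}
    (hx : x ∈ gaussSubalgebra K (M0 * q) O) :
    midEv h ⟨alphaF K (M0 * q) q x, alphaF_mem_midVS h hx⟩ =
      coeffMap (resMap O O' h.dom) (theta K (M0 * q) O ⟨x, hx⟩) := by
  rw [midEv_apply, theta_apply, ← gaussRed_coeffMap O O' h.dom]
  congr 1
  apply Subtype.ext
  exact h.alpha x

/-- **`V11 ∩ α₂ (F₁) = V10`.** -/
theorem midVS_comap_alphaF (h : MidEmb K M0 q O K' O' s u) :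
    (midVS h).comap (alphaF K (M0 * q) q : FF K (M0 * q) →+* FF K (M0 * q * q)) =
      gaussVS K (M0 * q) O := by
  ext x
  rw [ValuationSubring.mem_comap, mem_gaussVS_iff]
  exact alphaF_mem_midVS_iff h x

/-! ### The `β₂ β₁`-side -/

theorem betaF_betaF_mem_midVS_iff (h : MidEmb K M0 q O K' O' s u) (φ : FF K M0) :
    betaF K (M0 * q) q (betaF K M0 q φ) ∈ midVS h ↔ φ ∈ gaussSubalgebra K M0 O := by
  rw [mem_midVS_iff, h.beta, mem_gaussSubalgebra_iff]
  constructor
  · intro h1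
    have h2 := twist_mem_gaussRing O' u⁻¹ h.u_inv_mem (by rw [inv_inv]; exact h.u_mem) h1
    rw [twist_twist, inv_mul_cancel, twist_one] at h2
    exact (coeffMap_mem_gaussRing_iff O O' h.dom (full_le_gaussField K M0 O φ.2)).mp h2
  · intro h1
    exact twist_mem_gaussRing O' u h.u_mem h.u_inv_mem (coeffMap_mem_gaussRing O O' h.dom h1)

theorem betaF_betaF_mem_midVS (h : MidEmb K M0 q O K' O' s u) {φ : FF K M0}
    (hφ : φ ∈ gaussSubalgebra K M0 O) : betaF K (M0 * q) q (betaF K M0 q φ) ∈ midVS h :=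
  (betaF_betaF_mem_midVS_iff h φ).mpr hφ

/-- `ev11 ∘ β₂ ∘ β₁ = ρ ∘ θ₀` (the twist by `u ≡ 1` disappears in the residue field). -/
theorem midEv_betaF_betaF (h : MidEmb K M0 q O K' O' s u) {φ : FF K M0}
    (hφ : φ ∈ gaussSubalgebra K M0 O) :
    midEv h ⟨betaF K (M0 * q) q (betaF K M0 q φ), betaF_betaF_mem_midVS h hφ⟩ =
      coeffMap (resMap O O' h.dom) (theta K M0 O ⟨φ, hφ⟩) := by
  rw [midEv_apply, theta_apply, ← gaussRed_coeffMap O O' h.dom,
    ← gaussRed_twist O' u h.u_mem h.u_inv_mem h.residue_u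
      (⟨coeffMap (algebraMap K K') ((φ : FF K M0) : LaurentSeries K),
        coeffMap_mem_gaussRing O O' h.dom hφ⟩ : gaussRing ↥O' K')]
  congr 1
  apply Subtype.ext
  exact h.beta φ

/-! ### `q` is a nonunit of `V11` -/

theorem MidEmb.natCast_mem_maximalIdeal (h : MidEmb K M0 q O K' O' s u) :
    ((q : ℕ) : ↥O') ∈ maximalIdeal ↥O' := by
  obtain ⟨w0, -, hq, -⟩ := h.wilson
  rw [hq]
  apply Ideal.mul_mem_left
  have h1 : q - 1 ≠ 0 := by
    have := h.prime.two_le
    omega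
  exact Ideal.pow_mem_of_mem _ h.u_sub _ (Nat.pos_of_ne_zero h1)

variable (O') in
theorem s_natCast (n : ℕ) :
    s ((n : ℕ) : FF K (M0 * q * q)) = emb ↥O' K' ((n : ℕ) : LaurentSeries ↥O') := by
  rw [map_natCast, map_natCast]

theorem natCast_mem_midVS (h : MidEmb K M0 q O K' O' s u) (n : ℕ) :
    ((n : ℕ) : FF K (M0 * q * q)) ∈ midVS h := by
  rw [mem_midVS_iff, s_natCast O']
  exact emb_mem_gaussRing _

theorem natCast_q_mem_nonunits (h : MidEmb K M0 q O K' O' s u) :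
    ((q : ℕ) : FF K (M0 * q * q)) ∈ (midVS h).nonunits := by
  rw [← midEv_eq_zero_iff h ⟨_, natCast_mem_midVS h q⟩, midEv_apply]
  have e : (⟨s ((q : ℕ) : FF K (M0 * q * q)), natCast_mem_midVS h q⟩ : gaussRing ↥O' K') =
      ⟨emb ↥O' K' ((q : ℕ) : LaurentSeries ↥O'), emb_mem_gaussRing _⟩ :=
    Subtype.ext (s_natCast O' q)
  rw [e, gaussRed_emb, map_natCast]
  have h0 : ((q : ℕ) : ResidueField ↥O') = 0 := by
    have := (residue_eq_zero_iff _).mpr h.natCast_mem_maximalIdeal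
    rwa [map_natCast] at this
  have e2 : ((q : ℕ) : LaurentSeries (ResidueField ↥O')) =
      HahnSeries.C ((q : ℕ) : ResidueField ↥O') := (map_natCast HahnSeries.C q).symm
  rw [e2, h0, map_zero]

/-! ### The element `Π = j'' − j` -/

variable (K M0 q) in
/-- `Π = β₂ β₁ j − α₂ α₁ j = j(Q^{q²}) − j(Q)`. -/
noncomputable def PiElt : FF K (M0 * q * q) :=
  betaF K (M0 * q) q (betaF K M0 q (jF K M0)) - alphaF K (M0 * q) q (alphaF K M0 q (jF K M0))

theorem thetaL_jqModC_ne_zero (R : Type*) [CommRing R] [Nontrivial R] :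
    thetaL (jqModC R) ≠ 0 := by
  intro h0
  have h1 := congrArg (fun f : LaurentSeries R => f.coeff (-1)) h0
  simp only [thetaL_coeff, coeff_jqModC_neg_one, HahnSeries.coeff_zero, mul_one] at h1
  have h2 : (1 : R) = 0 := by
    have : ((-1 : ℤ) : R) = 0 := h1
    push_cast at this
    exact neg_eq_zero.mp this
  exact one_ne_zero h2

/-- The unit `u` of `O'`. -/
abbrev MidEmb.uO (h : MidEmb K M0 q O K' O' s u) : (↥O')ˣ := unitO O' u h.u_mem h.u_inv_mem

/-- `π = u − 1 ∈ 𝔪_{O'}`. -/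
abbrev MidEmb.piO (h : MidEmb K M0 q O K' O' s u) : ↥O' := (⟨(u : K'), h.u_mem⟩ : ↥O') - 1

/-- `g = θ j + π ψ`: the cofactor of `π` in `j(uQ) − j(Q)`. -/
noncomputable def MidEmb.gSer (h : MidEmb K M0 q O K' O' s u) : LaurentSeries ↥O' :=
  thetaL (jqModC ↥O') + HahnSeries.C h.piO * psiL h.uO (jqModC ↥O')

theorem MidEmb.red_C_piO (h : MidEmb K M0 q O K' O' s u) :
    red ↥O' (HahnSeries.C h.piO) = 0 := by
  have e : red ↥O' (HahnSeries.C h.piO) = HahnSeries.C (residue ↥O' h.piO) :=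
    coeffMap_single (residue ↥O') 0 h.piO
  rw [e, (residue_eq_zero_iff _).mpr h.u_sub, map_zero]

theorem MidEmb.red_gSer (h : MidEmb K M0 q O K' O' s u) :
    red ↥O' h.gSer = thetaL (jqModC (ResidueField ↥O')) := by
  rw [MidEmb.gSer, map_add, map_mul, h.red_C_piO, zero_mul, add_zero]
  show coeffMap (residue ↥O') (thetaL (jqModC ↥O')) = _
  rw [coeffMap_thetaL, coeffMap_jqModC]

theorem MidEmb.red_gSer_ne_zero (h : MidEmb K M0 q O K' O' s u) : red ↥O' h.gSer ≠ 0 := by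
  rw [h.red_gSer]
  exact thetaL_jqModC_ne_zero _

/-- `s Π = j(uQ) − j(Q) = π · g`. -/
theorem MidEmb.s_PiElt (h : MidEmb K M0 q O K' O' s u) :
    s (PiElt K M0 q) = emb ↥O' K' (HahnSeries.C h.piO * h.gSer) := by
  have h1 : HahnSeries.C h.piO * h.gSer = twist h.uO (jqModC ↥O') - jqModC ↥O' :=
    (twist_sub_self h.uO (jqModC ↥O')).symm
  rw [h1, map_sub, emb_twist, emb_jqModC K' O', PiElt, map_sub, h.beta, h.alpha, coe_alphaF,
    coe_jF, coeffMap_jqModC]

theorem PiElt_mem_midVS (h : MidEmb K M0 q O K' O' s u) : PiElt K M0 q ∈ midVS h := by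
  rw [mem_midVS_iff, h.s_PiElt]
  exact emb_mem_gaussRing _

/-- `Π` is a nonunit of `V11`. -/
theorem PiElt_mem_nonunits (h : MidEmb K M0 q O K' O' s u) :
    PiElt K M0 q ∈ (midVS h).nonunits := by
  rw [← midEv_eq_zero_iff h ⟨_, PiElt_mem_midVS h⟩, midEv_apply]
  have e : (⟨s (PiElt K M0 q), PiElt_mem_midVS h⟩ : gaussRing ↥O' K') =
      ⟨emb ↥O' K' (HahnSeries.C h.piO * h.gSer), emb_mem_gaussRing _⟩ :=
    Subtype.ext h.s_PiElt
  rw [e, gaussRed_emb, map_mul, h.red_C_piO, zero_mul]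

/-! ### The Wilson witness `q = w Π^(q−1)` -/

theorem MidEmb.piO_ne_zero (h : MidEmb K M0 q O K' O' s u) : h.piO ≠ 0 := by
  intro h0
  obtain ⟨w0, -, hq, -⟩ := h.wilson
  have h1 : q - 1 ≠ 0 := by
    have := h.prime.two_le
    omega
  have hq' : ((q : ℕ) : ↥O') = w0 * h.piO ^ (q - 1) := hq
  rw [h0, zero_pow h1, mul_zero] at hq'
  haveI : CharZero K' := charZero_of_injective_algebraMap (algebraMap K K').injective
  have h2 : ((q : ℕ) : K') = 0 := by
    have := congrArg (Subtype.val) hq'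
    simpa using this
  exact h.prime.ne_zero (Nat.cast_eq_zero.mp h2)

theorem MidEmb.emb_C_piO_ne_zero (h : MidEmb K M0 q O K' O' s u) :
    emb ↥O' K' (HahnSeries.C h.piO) ≠ 0 := by
  rw [Ne, emb_eq_zero_iff]
  intro h0
  exact h.piO_ne_zero (HahnSeries.C_injective (h0.trans (map_zero _).symm))

theorem MidEmb.emb_gSer_ne_zero (h : MidEmb K M0 q O K' O' s u) :
    emb ↥O' K' h.gSer ≠ 0 := by
  rw [Ne, emb_eq_zero_iff]
  exact red_ne_zero_imp_ne_zero h.red_gSer_ne_zero

theorem MidEmb.s_PiElt_ne_zero (h : MidEmb K M0 q O K' O' s u) : s (PiElt K M0 q) ≠ 0 := by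
  rw [h.s_PiElt, map_mul]
  exact mul_ne_zero h.emb_C_piO_ne_zero h.emb_gSer_ne_zero

theorem MidEmb.PiElt_ne_zero (h : MidEmb K M0 q O K' O' s u) : PiElt K M0 q ≠ 0 :=
  (map_ne_zero s).mp h.s_PiElt_ne_zero

variable (K M0 q) in
/-- The Wilson quotient `w = q / Π^(q−1)`. -/
noncomputable def wilsonElt : FF K (M0 * q * q) :=
  ((q : ℕ) : FF K (M0 * q * q)) * (PiElt K M0 q ^ (q - 1))⁻¹

theorem natCast_eq_wilsonElt_mul (h : MidEmb K M0 q O K' O' s u) :
    ((q : ℕ) : FF K (M0 * q * q)) = wilsonElt K M0 q * PiElt K M0 q ^ (q - 1) := by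
  rw [wilsonElt]
  exact (inv_mul_cancel_right₀ (pow_ne_zero _ h.PiElt_ne_zero) _).symm

/-- `s w · g^(q−1) = w₀` for the Wilson unit `w₀` of `O'`. -/
theorem MidEmb.s_wilsonElt_mul (h : MidEmb K M0 q O K' O' s u) {w0 : ↥O'}
    (hq : ((q : ℕ) : ↥O') = w0 * h.piO ^ (q - 1)) :
    s (wilsonElt K M0 q) * emb ↥O' K' (h.gSer ^ (q - 1)) = emb ↥O' K' (HahnSeries.C w0) := by
  have h1 : s ((q : ℕ) : FF K (M0 * q * q)) =
      emb ↥O' K' (HahnSeries.C w0) * emb ↥O' K' (HahnSeries.C h.piO) ^ (q - 1) := by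
    rw [s_natCast O', ← map_natCast (HahnSeries.C : ↥O' →+* LaurentSeries ↥O') q, hq, map_mul,
      map_pow, map_mul, map_pow]
  rw [wilsonElt, map_mul, map_inv₀, map_pow, h1, h.s_PiElt, map_mul, mul_pow, map_pow]
  have ha := pow_ne_zero (q - 1) h.emb_C_piO_ne_zero
  have hb := pow_ne_zero (q - 1) h.emb_gSer_ne_zero
  field_simp

/-- `w ∈ V11`. -/
theorem wilsonElt_mem_midVS (h : MidEmb K M0 q O K' O' s u) : wilsonElt K M0 q ∈ midVS h := by
  obtain ⟨w0, -, hq, -⟩ := h.wilson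
  rw [mem_midVS_iff]
  refine ⟨HahnSeries.C w0, h.gSer ^ (q - 1), ?_, h.s_wilsonElt_mul hq⟩
  rw [map_pow]
  exact pow_ne_zero _ h.red_gSer_ne_zero

/-- `w⁻¹ ∈ V11`: the Wilson quotient is a unit of `V11`. -/
theorem wilsonElt_inv_mem_midVS (h : MidEmb K M0 q O K' O' s u) :
    (wilsonElt K M0 q)⁻¹ ∈ midVS h := by
  obtain ⟨w0, hw0, hq, -⟩ := h.wilson
  rw [mem_midVS_iff, map_inv₀]
  have h1 := h.s_wilsonElt_mul hq
  have hres : red ↥O' (HahnSeries.C w0) ≠ 0 := by
    have e : red ↥O' (HahnSeries.C w0) = HahnSeries.C (residue ↥O' w0) :=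
      coeffMap_single (residue ↥O') 0 w0
    rw [e]
    intro h0
    have h2 : residue ↥O' w0 = 0 := HahnSeries.C_injective (h0.trans (map_zero _).symm)
    exact (hw0.map (residue ↥O')).ne_zero h2
  refine ⟨h.gSer ^ (q - 1), HahnSeries.C w0, hres, ?_⟩
  have hw : s (wilsonElt K M0 q) ≠ 0 := by
    intro h0
    rw [h0, zero_mul] at h1
    exact red_ne_zero_imp_ne_zero hres ((emb_eq_zero_iff K').mp h1.symm)
  rw [← h1, inv_mul_cancel_left₀ hw]

/-- The residue of the Wilson quotient: `ev11 w · (θ j̄)^(q−1) = w̄₀`. -/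
theorem midEv_wilsonElt_mul (h : MidEmb K M0 q O K' O' s u) {w0 : ↥O'}
    (hq : ((q : ℕ) : ↥O') = w0 * h.piO ^ (q - 1)) :
    midEv h ⟨wilsonElt K M0 q, wilsonElt_mem_midVS h⟩ *
        thetaL (jqModC (ResidueField ↥O')) ^ (q - 1) =
      HahnSeries.C (residue ↥O' w0) := by
  have hb : red ↥O' (h.gSer ^ (q - 1)) ≠ 0 := by
    rw [map_pow]
    exact pow_ne_zero _ h.red_gSer_ne_zero
  have key := gaussRed_eq (⟨s (wilsonElt K M0 q), wilsonElt_mem_midVS h⟩ : gaussRing ↥O' K') hb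
    (h.s_wilsonElt_mul hq)
  have hne : thetaL (jqModC (ResidueField ↥O')) ^ (q - 1) ≠ 0 :=
    pow_ne_zero _ (thetaL_jqModC_ne_zero _)
  have e : red ↥O' (HahnSeries.C w0) = HahnSeries.C (residue ↥O' w0) :=
    coeffMap_single (residue ↥O') 0 w0
  rw [midEv_apply, key, map_pow, h.red_gSer, e]
  exact div_mul_cancel₀ _ hne

/-- **The residue of the Wilson quotient is `−(θ j̄)^(1−q)`**: `ev11 w · (θ j̄)^(q−1) = −1`. -/
theorem midEv_wilsonElt (h : MidEmb K M0 q O K' O' s u) :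
    midEv h ⟨wilsonElt K M0 q, wilsonElt_mem_midVS h⟩ *
        thetaL (jqModC (ResidueField ↥O')) ^ (q - 1) = -1 := by
  obtain ⟨w0, -, hq, hw1⟩ := h.wilson
  rw [midEv_wilsonElt_mul h hq]
  have h1 : residue ↥O' w0 = -1 := by
    have := (residue_eq_zero_iff _).mpr hw1
    rw [map_add, map_one] at this
    exact eq_neg_of_add_eq_zero_left this
  rw [h1, map_neg, map_one]

/-! ### `V11 ≠ V20` -/

theorem PiElt_mem_gaussSubalgebra :
    PiElt K M0 q ∈ gaussSubalgebra K (M0 * q * q) O :=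
  Subalgebra.sub_mem _
    (betaF_mem K O (M0 * q) q (betaF_mem K O M0 q (jF_mem_gaussSubalgebra K M0 O)))
    (alphaF_mem K O (M0 * q) q (alphaF_mem K O M0 q (jF_mem_gaussSubalgebra K M0 O)))

/-- `θ₂ Π = j̄(Q^{q²}) − j̄(Q)`. -/
theorem theta_PiElt :
    theta K (M0 * q * q) O ⟨PiElt K M0 q, PiElt_mem_gaussSubalgebra⟩ =
      qExpand (ResidueField ↥O) q (qExpand (ResidueField ↥O) q (jqModC (ResidueField ↥O))) -
        jqModC (ResidueField ↥O) := by
  have e : (⟨PiElt K M0 q, PiElt_mem_gaussSubalgebra⟩ : gaussSubalgebra K (M0 * q * q) O) =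
      ⟨betaF K (M0 * q) q (betaF K M0 q (jF K M0)),
        betaF_mem K O (M0 * q) q (betaF_mem K O M0 q (jF_mem_gaussSubalgebra K M0 O))⟩ -
      ⟨alphaF K (M0 * q) q (alphaF K M0 q (jF K M0)),
        alphaF_mem K O (M0 * q) q (alphaF_mem K O M0 q (jF_mem_gaussSubalgebra K M0 O))⟩ := rfl
  rw [e, map_sub]
  have h1 := theta_betaF K O (M0 * q) q
    ⟨betaF K M0 q (jF K M0), betaF_mem K O M0 q (jF_mem_gaussSubalgebra K M0 O)⟩
  have h2 := theta_betaF K O M0 q ⟨jF K M0, jF_mem_gaussSubalgebra K M0 O⟩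
  have h3 := theta_alphaF K O (M0 * q) q
    ⟨alphaF K M0 q (jF K M0), alphaF_mem K O M0 q (jF_mem_gaussSubalgebra K M0 O)⟩
  have h4 := theta_alphaF K O M0 q ⟨jF K M0, jF_mem_gaussSubalgebra K M0 O⟩
  rw [h1, h2, h3, h4, theta_jF]

theorem theta_PiElt_ne_zero (hq : q.Prime) :
    theta K (M0 * q * q) O ⟨PiElt K M0 q, PiElt_mem_gaussSubalgebra⟩ ≠ 0 := by
  rw [theta_PiElt]
  intro h0
  have h1 := congrArg (fun f : LaurentSeries (ResidueField ↥O) => f.coeff (-1)) h0
  have hnd : ¬ ((q : ℕ) : ℤ) ∣ (-1 : ℤ) := by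
    rw [Int.dvd_neg]
    intro hd
    have : q ∣ 1 := by exact_mod_cast hd
    exact hq.one_lt.ne' (Nat.dvd_one.mp this)
  simp only [HahnSeries.coeff_sub, qExpand_coeff_of_not_dvd q _ hnd, coeff_jqModC_neg_one,
    HahnSeries.coeff_zero] at h1
  have h2 : (1 : ResidueField ↥O) = 0 := by
    have h3 : (-1 : ResidueField ↥O) = 0 := by
      rw [zero_sub] at h1
      exact h1
    exact neg_eq_zero.mp h3
  exact one_ne_zero h2

/-- **`V11 ≠ V20`**: `Π` is a unit of the Gauss valuation `V20` and a nonunit of `V11`. -/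
theorem midVS_ne_gaussVS (h : MidEmb K M0 q O K' O' s u) :
    midVS h ≠ gaussVS K (M0 * q * q) O := by
  intro heq
  have h1 := PiElt_mem_nonunits h
  rw [heq, Fermat.Agent.P3G.SecondValuation.mem_nonunits_gaussVS_iff K (M0 * q * q) O
    PiElt_mem_gaussSubalgebra] at h1
  exact theta_PiElt_ne_zero h.prime h1

end Mid

/-! ### Existence -/

/-- **The middle embedding and the cyclotomic base exist**: for `K ⊆ K'` (finite) inside `ℂ`,
`q` prime not dividing `M₀`, `O ⊆ K` a discrete valuation ring of residue characteristic `q` and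
`u ∈ K'` a primitive `q`-th root of unity. -/
theorem exists_midEmb (K : Type) [Field K] [CharZero K] (ι : K →+* ℂ)
    (K' : Type) [Field K'] [Algebra K K'] [FiniteDimensional K K'] (ι' : K' →+* ℂ)
    (hι : ∀ x : K, ι' (algebraMap K K' x) = ι x)
    (M0 q : ℕ) [NeZero M0] [NeZero q] (hq : q.Prime) (hqM : ¬ q ∣ M0)
    (O : Subring K) [IsDiscreteValuationRing ↥O] [IsFractionRing ↥O K]
    (hqO : ((q : ℕ) : ↥O) ∈ maximalIdeal ↥O)
    (u : K'ˣ) (hu : IsPrimitiveRoot (u : K') q) :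
    ∃ (O' : Subring K') (_ : IsDiscreteValuationRing ↥O') (_ : IsFractionRing ↥O' K')
      (s : FF K (M0 * q * q) →+* LaurentSeries K'), MidEmb K M0 q O K' O' s u := by
  obtain ⟨s, hs1, hs2, hs3⟩ := MidCuspK.exists_sigma11 K ι K' ι' hι M0 q hq hqM u hu
  obtain ⟨O', hdvr, hfr, hdom, huO, w0, hw0, hz, hqw, hw1⟩ :=
    CycloDVR.exists_cycloDVR O hq hqO hu
  refine ⟨O', hdvr, hfr, s, hq, hs1, hs2, hs3, hdom, huO, ?_, hz, w0, hw0, hqw, hw1⟩
  have h1 : ((u⁻¹ : K'ˣ) : K') = (u : K') ^ (q - 1) := by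
    have h2 : (u : K') * (u : K') ^ (q - 1) = 1 := by
      rw [← pow_succ', Nat.sub_add_cancel hq.one_le, hu.pow_eq_one]
    rw [Units.val_inv_eq_inv_val]
    exact inv_eq_of_mul_eq_one_right h2
  rw [h1]
  exact Subring.pow_mem _ huO _

end Fermat.Agent.S36.V.MidVal
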