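/-
S36, block [V], leaf (V-ef) (helper28): **abstract counting of the valuation subrings over a discrete
valuation ring** (`Σ e f = n`).

`A` a discrete valuation ring with fraction field `K`, uniformiser `ϖ`; `L / K` finite separable of
degree `n`; `C` the integral closure of `A` in `L`.  Given finitely many pairwise distinct valuation
subrings `V i` of `L` containing `A` with `𝔪_A ⊆ nonunits`, and witnesses
* `e' i`: `ϖ = w τ ^ (e' i)` with `τ ∈ (V i).nonunits`, `w ∈ V i`;
* `f' i`: `f' i` elements of `V i` whose residues are linearly independent over the residue field of `A`;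
with `n ≤ Σ e' i * f' i`, then: these are ALL such valuation subrings (`only`), `e' i`, `f' i` are the
ramification index and residue degree, `τ` is a uniformiser and `w` a unit of `V i` (`ram`), the
witnesses of `f' i` span the residue field (`deg`), and `⨅ i, V i` is the integral closure of `A`
(`isIntegral_of_forall_mem`).
-/
import Mathlib
import Fermat.Agent.P3G.LocVS
import Fermat.Agent.N4F.E.TwoPrimes

set_option autoImplicit false
set_option linter.unusedSectionVars false
set_option linter.style.haveILetI false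
set_option linter.overlappingInstances false

namespace Fermat.Agent.S36.V.CountEF

open IsLocalRing Fermat.Agent.P3G.LocVS Fermat.Agent.N4F.E.TwoPrimes IsDedekindDomain WithZero

section Nonunits

variable {L : Type*} [Field L] (W : ValuationSubring L)

theorem add_mem_nonunits {x y : L} (hx : x ∈ W.nonunits) (hy : y ∈ W.nonunits) :
    x + y ∈ W.nonunits := by
  rw [ValuationSubring.mem_nonunits_iff] at hx hy ⊢
  exact lt_of_le_of_lt (W.valuation.map_add x y) (max_lt hx hy)

theorem sum_mem_nonunits {ι : Type*} (s : Finset ι) (f : ι → L) (h : ∀ i ∈ s, f i ∈ W.nonunits) :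
    ∑ i ∈ s, f i ∈ W.nonunits := by
  classical
  induction s using Finset.induction_on with
  | empty => simp [zero_mem_nonunits W]
  | insert a s ha ih =>
    rw [Finset.sum_insert ha]
    exact add_mem_nonunits W (h a (Finset.mem_insert_self a s))
      (ih fun i hi => h i (Finset.mem_insert_of_mem hi))

theorem neg_mem_nonunits {x : L} (hx : x ∈ W.nonunits) : -x ∈ W.nonunits := by
  rw [ValuationSubring.mem_nonunits_iff] at hx ⊢
  rwa [Valuation.map_neg]

theorem sub_mem_nonunits {x y : L} (hx : x ∈ W.nonunits) (hy : y ∈ W.nonunits) :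
    x - y ∈ W.nonunits := by
  rw [sub_eq_add_neg]
  exact add_mem_nonunits W hx (neg_mem_nonunits W hy)

theorem mem_of_mem_nonunits {x : L} (hx : x ∈ W.nonunits) : x ∈ W := by
  rw [ValuationSubring.mem_nonunits_iff] at hx
  exact (W.valuation_le_one_iff x).1 hx.le

end Nonunits

section Val

variable {C L : Type*} [CommRing C] [IsDomain C] [IsDedekindDomain C] [Field L] [Algebra C L]
  [IsFractionRing C L] (P : Ideal C) [hPm : P.IsMaximal] (hP0 : P ≠ ⊥)

/-- `P` as a height one prime. -/
def hos : HeightOneSpectrum C := ⟨P, hPm.isPrime, hP0⟩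

/-- The `P`-adic valuation on `L`. -/
noncomputable def val : Valuation L ℤᵐ⁰ := (hos P hP0).valuation L

theorem locVS_eq : locVS (L := L) P hP0 = (val (L := L) P hP0).valuationSubring := by
  rw [val, ← HeightOneSpectrum.valuationSubringAtPrime_eq_valuationSubring (K := L) (hos P hP0)]
  apply ValuationSubring.toSubring_injective
  rfl

theorem mem_locVS_iff_val {x : L} : x ∈ locVS (L := L) P hP0 ↔ val (L := L) P hP0 x ≤ 1 := by
  rw [locVS_eq, Valuation.mem_valuationSubring_iff]

theorem mem_nonunits_iff_val {x : L} :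
    x ∈ (locVS (L := L) P hP0).nonunits ↔ val (L := L) P hP0 x < 1 := by
  rw [locVS_eq, ValuationSubring.mem_nonunits_iff,
    (Valuation.isEquiv_valuation_valuationSubring (val (L := L) P hP0)).lt_one_iff_lt_one]

theorem val_algebraMap_le_iff (c : C) (n : ℕ) :
    val (L := L) P hP0 (algebraMap C L c) ≤ exp (-(n : ℤ)) ↔ c ∈ P ^ n := by
  rw [val, HeightOneSpectrum.valuation_of_algebraMap, HeightOneSpectrum.intValuation_le_pow_iff_mem]
  rfl

theorem lt_one_iff_le_exp (x : ℤᵐ⁰) : x < 1 ↔ x ≤ exp (-1 : ℤ) := by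
  have h := lt_mul_exp_iff_le (x := x) (y := exp (-1 : ℤ)) exp_ne_zero
  rw [← exp_add] at h
  simpa using h

/-- **Lower bound for the ramification index.** -/
theorem mem_pow_of_witness {ϖ : C} {τ w : L} {e' : ℕ} (hτ : τ ∈ (locVS (L := L) P hP0).nonunits)
    (hw : w ∈ locVS (L := L) P hP0) (h : algebraMap C L ϖ = w * τ ^ e') : ϖ ∈ P ^ e' := by
  rw [← val_algebraMap_le_iff (L := L) P hP0, h, map_mul, map_pow]
  have h1 : val (L := L) P hP0 τ ≤ exp (-1 : ℤ) :=
    (lt_one_iff_le_exp _).1 ((mem_nonunits_iff_val P hP0).1 hτ)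
  have h2 : val (L := L) P hP0 w ≤ 1 := (mem_locVS_iff_val P hP0).1 hw
  calc val (L := L) P hP0 w * val (L := L) P hP0 τ ^ e' ≤ 1 * exp (-1 : ℤ) ^ e' :=
        mul_le_mul' h2 (pow_le_pow_left₀ zero_le h1 e')
    _ = exp (-(e' : ℤ)) := by
        rw [one_mul, ← exp_nsmul]
        simp

/-- **Exactness.** If moreover `ϖ ∉ P ^ (e' + 1)`, then `τ` is a uniformiser and `w` a unit. -/
theorem uniformizer_of_witness {ϖ : C} {τ w : L} {e' : ℕ} (he' : 1 ≤ e')
    (hτ : τ ∈ (locVS (L := L) P hP0).nonunits)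
    (hw : w ∈ locVS (L := L) P hP0) (h : algebraMap C L ϖ = w * τ ^ e')
    (hnot : ϖ ∉ P ^ (e' + 1)) :
    val (L := L) P hP0 τ = exp (-1 : ℤ) ∧ val (L := L) P hP0 w = 1 := by
  have hϖ0 : ϖ ≠ 0 := fun h0 => hnot (by rw [h0]; exact Ideal.zero_mem _)
  have hL0 : algebraMap C L ϖ ≠ 0 := fun h0 =>
    hϖ0 ((map_eq_zero_iff _ (IsFractionRing.injective C L)).1 h0)
  have hw0 : w ≠ 0 := fun h0 => hL0 (by rw [h, h0, zero_mul])
  have hτ0 : τ ≠ 0 := fun h0 => hL0 (by rw [h, h0, zero_pow (by omega), mul_zero])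
  have hvw : val (L := L) P hP0 w ≠ 0 := (Valuation.ne_zero_iff _).2 hw0
  have hvτ : val (L := L) P hP0 τ ≠ 0 := (Valuation.ne_zero_iff _).2 hτ0
  have hvϖ : val (L := L) P hP0 (algebraMap C L ϖ) ≠ 0 := (Valuation.ne_zero_iff _).2 hL0
  have h1 : val (L := L) P hP0 τ ≤ exp (-1 : ℤ) :=
    (lt_one_iff_le_exp _).1 ((mem_nonunits_iff_val P hP0).1 hτ)
  have h2 : val (L := L) P hP0 w ≤ 1 := (mem_locVS_iff_val P hP0).1 hw
  have h3 : ¬ val (L := L) P hP0 (algebraMap C L ϖ) ≤ exp (-((e' + 1 : ℕ) : ℤ)) := by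
    rw [val_algebraMap_le_iff]; exact hnot
  -- pass to logarithms
  have l1 : log (val (L := L) P hP0 τ) ≤ -1 := by
    rw [log_le_iff_le_exp hvτ]; exact h1
  have l2 : log (val (L := L) P hP0 w) ≤ 0 := by
    rw [log_le_iff_le_exp hvw]; simpa using h2
  have l3 : -((e' : ℤ) + 1) < log (val (L := L) P hP0 (algebraMap C L ϖ)) := by
    rw [not_le] at h3
    rw [lt_log_iff_exp_lt hvϖ]
    push_cast at h3
    exact h3
  have l4 : log (val (L := L) P hP0 (algebraMap C L ϖ)) =
      log (val (L := L) P hP0 w) + e' * log (val (L := L) P hP0 τ) := by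
    rw [h, map_mul, map_pow, log_mul hvw (pow_ne_zero _ hvτ), log_pow]
    simp
  have he'' : (1 : ℤ) ≤ e' := by exact_mod_cast he'
  have k1 : log (val (L := L) P hP0 τ) = -1 := by nlinarith
  have k2 : log (val (L := L) P hP0 w) = 0 := by nlinarith
  constructor
  · rw [← exp_log hvτ, k1]
  · rw [← exp_log hvw, k2, exp_zero]

theorem div_mem_of_val_eq {τ : L} (hτ : val (L := L) P hP0 τ = exp (-1 : ℤ)) {y : L}
    (hy : y ∈ (locVS (L := L) P hP0).nonunits) : y * τ⁻¹ ∈ locVS (L := L) P hP0 := by
  rw [mem_locVS_iff_val, map_mul, map_inv₀, hτ]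
  have h1 : val (L := L) P hP0 y ≤ exp (-1 : ℤ) :=
    (lt_one_iff_le_exp _).1 ((mem_nonunits_iff_val P hP0).1 hy)
  calc val (L := L) P hP0 y * (exp (-1 : ℤ))⁻¹ ≤ exp (-1 : ℤ) * (exp (-1 : ℤ))⁻¹ :=
        mul_le_mul_left h1 _
    _ = 1 := mul_inv_cancel₀ exp_ne_zero

theorem inv_mem_of_val_eq_one {w : L} (hw : val (L := L) P hP0 w = 1) :
    w⁻¹ ∈ locVS (L := L) P hP0 := by
  rw [mem_locVS_iff_val, map_inv₀, hw, inv_one]

/-- Every element of `C_P` is congruent to an element of `C`. -/
theorem exists_sub_mem_nonunits' {x : L} (hx : x ∈ locVS (L := L) P hP0) :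
    ∃ c : C, x - algebraMap C L c ∈ (locVS (L := L) P hP0).nonunits := by
  obtain ⟨a, s, hs, rfl⟩ := (mem_locVS_iff P hP0).1 hx
  obtain ⟨t, ht⟩ := Ideal.Quotient.exists_inv (I := P) (a := Ideal.Quotient.mk P s)
    (fun h => hs (Ideal.Quotient.eq_zero_iff_mem.1 h))
  obtain ⟨t, rfl⟩ := Ideal.Quotient.mk_surjective t
  have hp : 1 - s * t ∈ P := by
    rw [← Ideal.Quotient.eq_zero_iff_mem, map_sub, map_one, map_mul, ht, sub_self]
  refine ⟨a * t, ?_⟩
  rw [Fermat.Agent.P3G.LocVS.mem_nonunits_iff]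
  refine ⟨a * (1 - s * t), s, P.mul_mem_left _ hp, hs, ?_⟩
  have hs0 := algebraMap_ne_zero (L := L) P hs
  simp only [map_mul, map_sub, map_one]
  field_simp

end Val

section Centre

variable {A K L C : Type*} [CommRing A] [IsDomain A] [IsDiscreteValuationRing A] [Field K]
  [Algebra A K] [IsFractionRing A K] [Field L] [Algebra K L] [Algebra A L] [IsScalarTower A K L]
  [FiniteDimensional K L] [Algebra.IsSeparable K L]
  [CommRing C] [IsDomain C] [Algebra C L] [Algebra A C] [IsScalarTower A C L]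
  [IsIntegralClosure C A L]

/-- A valuation subring containing `A` contains its integral closure. -/
theorem algebraMap_C_mem (W : ValuationSubring L) (hWA : ∀ a : A, algebraMap A L a ∈ W) (c : C) :
    algebraMap C L c ∈ W := by
  have hint : IsIntegral A (algebraMap C L c) := (IsIntegralClosure.isIntegral A L c).algebraMap
  letI : Algebra A ↥W := RingHom.toAlgebra ((algebraMap A L).codRestrict W.toSubring hWA)
  haveI : IsScalarTower A ↥W L := IsScalarTower.of_algebraMap_eq (fun _ => rfl)
  have h2 : IsIntegral ↥W (algebraMap C L c) := hint.tower_top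
  obtain ⟨y, hy⟩ := IsIntegrallyClosed.isIntegral_iff.1 h2
  rw [← hy]
  exact y.2

variable (A C) in
/-- The centre on `C` of a valuation subring `W ⊇ A` of `L`. -/
def centre (W : ValuationSubring L) (hWA : ∀ a : A, algebraMap A L a ∈ W) : Ideal C :=
  Ideal.comap ((algebraMap C L).codRestrict W.toSubring (algebraMap_C_mem (A := A) W hWA))
    (IsLocalRing.maximalIdeal ↥W)

theorem mem_centre_iff (W : ValuationSubring L) (hWA : ∀ a : A, algebraMap A L a ∈ W) (c : C) :
    c ∈ centre A C W hWA ↔ algebraMap C L c ∈ W.nonunits := by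
  rw [centre, Ideal.mem_comap, ValuationSubring.mem_nonunits_iff_exists_mem_maximalIdeal]
  constructor
  · intro h
    exact ⟨algebraMap_C_mem (A := A) W hWA c, h⟩
  · rintro ⟨_, h⟩
    exact h

instance centre_isPrime (W : ValuationSubring L) (hWA : ∀ a : A, algebraMap A L a ∈ W) :
    (centre A C W hWA).IsPrime :=
  Ideal.comap_isPrime _ _

variable (K) in
include K in
theorem centre_props (W : ValuationSubring L) (hWA : ∀ a : A, algebraMap A L a ∈ W)
    (hWm : ∀ a ∈ maximalIdeal A, algebraMap A L a ∈ W.nonunits) :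
    (centre A C W hWA).IsMaximal ∧ centre A C W hWA ≠ ⊥ ∧
      (centre A C W hWA).LiesOver (maximalIdeal A) := by
  obtain ⟨hDed, -, -, -⟩ := integralClosure_structure A K L C
  have hinj : Function.Injective (algebraMap A C) := by
    have hinj' : Function.Injective (algebraMap A L) := by
      rw [IsScalarTower.algebraMap_eq A K L]
      exact (algebraMap K L).injective.comp (IsFractionRing.injective A K)
    rw [IsScalarTower.algebraMap_eq A C L] at hinj'
    exact Function.Injective.of_comp hinj'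
  have hle : ∀ a ∈ maximalIdeal A, algebraMap A C a ∈ centre A C W hWA := by
    intro a ha
    rw [mem_centre_iff, ← IsScalarTower.algebraMap_apply]
    exact hWm a ha
  have hne : centre A C W hWA ≠ ⊥ := by
    obtain ⟨ϖ, hϖ⟩ := IsDiscreteValuationRing.exists_irreducible A
    intro h
    have h1 := hle ϖ ((IsLocalRing.mem_maximalIdeal ϖ).2 hϖ.not_isUnit)
    rw [h, Ideal.mem_bot] at h1
    exact hϖ.ne_zero (hinj (by rw [h1, map_zero]))
  have hmax : (centre A C W hWA).IsMaximal :=
    Ideal.IsPrime.isMaximal (centre_isPrime W hWA) hne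
  refine ⟨hmax, hne, ⟨?_⟩⟩
  have h1 : maximalIdeal A ≤ (centre A C W hWA).comap (algebraMap A C) := fun a ha => hle a ha
  have h2 : (centre A C W hWA).comap (algebraMap A C) ≠ ⊤ :=
    (Ideal.comap_ne_top _ hmax.ne_top)
  exact ((IsLocalRing.maximalIdeal.isMaximal A).eq_of_le h2 h1)

variable (K) in
include K in
/-- A dominating valuation subring is the localisation of `C` at its centre. -/
theorem eq_locVS_centre [IsDedekindDomain C] [IsFractionRing C L] (W : ValuationSubring L)
    (hWA : ∀ a : A, algebraMap A L a ∈ W)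
    [hmax : (centre A C W hWA).IsMaximal] (hne : centre A C W hWA ≠ ⊥) :
    W = locVS (L := L) (centre A C W hWA) hne :=
  eq_locVS _ _ W (algebraMap_C_mem (A := A) W hWA) (fun c hc => (mem_centre_iff W hWA c).1 hc)

end Centre

section Bounds

variable {A K L C : Type*} [CommRing A] [IsDomain A] [IsDiscreteValuationRing A] [Field L]
  [Algebra A L]
  [CommRing C] [IsDomain C] [Algebra C L] [Algebra A C] [IsScalarTower A C L]
  [IsDedekindDomain C] [IsFractionRing C L]
  (hinjAC : Function.Injective (algebraMap A C))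
  (Q : Ideal C) [hQm : Q.IsMaximal] (hQ0 : Q ≠ ⊥) [hQo : Q.LiesOver (maximalIdeal A)]

include hinjAC in
theorem map_maximalIdeal_ne_bot :
    (maximalIdeal A).map (algebraMap A C) ≠ ⊥ := by
  obtain ⟨ϖ, hϖ⟩ := IsDiscreteValuationRing.exists_irreducible A
  intro h
  have h1 : algebraMap A C ϖ ∈ (maximalIdeal A).map (algebraMap A C) :=
    Ideal.mem_map_of_mem _ ((IsLocalRing.mem_maximalIdeal ϖ).2 hϖ.not_isUnit)
  rw [h, Ideal.mem_bot] at h1
  exact hϖ.ne_zero (hinjAC (by rw [h1, map_zero]))

include hinjAC hQ0 in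
/-- `Q ^ k ∣ 𝔪 C ↔ k ≤ e(Q)`. -/
theorem pow_dvd_iff_le_ramificationIdx {ϖ : A} (hϖ : Irreducible ϖ) (k : ℕ) :
    algebraMap A C ϖ ∈ Q ^ k ↔ k ≤ Q.ramificationIdx A := by
  have hp := map_maximalIdeal_ne_bot (C := C) hinjAC
  have hmap : (maximalIdeal A).map (algebraMap A C) = Ideal.span {algebraMap A C ϖ} := by
    rw [hϖ.maximalIdeal_eq, Ideal.map_span, Set.image_singleton]
  rw [Ideal.IsDedekindDomain.ramificationIdx_eq_multiplicity (maximalIdeal A) Q hp, hmap]
  have hfin : FiniteMultiplicity Q (Ideal.span {algebraMap A C ϖ}) :=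
    FiniteMultiplicity.of_prime_left (Ideal.prime_of_isPrime hQ0 hQm.isPrime) (by
      rw [← hmap]; exact hp)
  rw [← hfin.pow_dvd_iff_le_multiplicity, Ideal.dvd_span_singleton]

end Bounds

section Inertia

variable {A L C : Type*} [CommRing A] [IsDomain A] [IsDiscreteValuationRing A] [Field L]
  [Algebra A L]
  [CommRing C] [IsDomain C] [Algebra C L] [Algebra A C] [IsScalarTower A C L]
  [IsDedekindDomain C] [IsFractionRing C L] [Module.Finite A C]
  (Q : Ideal C) [hQm : Q.IsMaximal] (hQ0 : Q ≠ ⊥) [hQo : Q.LiesOver (maximalIdeal A)]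

theorem algebraMap_mem_nonunits_of_mem {c : C} (hc : c ∈ Q) :
    algebraMap C L c ∈ (locVS (L := L) Q hQ0).nonunits := by
  rw [Fermat.Agent.P3G.LocVS.mem_nonunits_iff]
  exact ⟨c, 1, hc, fun h => hQm.ne_top ((Ideal.eq_top_iff_one _).2 h), by
    rw [map_one, inv_one, mul_one]⟩

theorem mem_of_algebraMap_mem_nonunits {c : C}
    (hc : algebraMap C L c ∈ (locVS (L := L) Q hQ0).nonunits) : c ∈ Q := by
  by_contra hcn
  have h1 := inv_mem (L := L) Q hQ0 hcn
  have hc0 : algebraMap C L c ≠ 0 := algebraMap_ne_zero (L := L) Q hcn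
  exact (mem_nonunits_iff_inv_notMem _ hc0).1 hc h1

/-- Replace a family in `C_Q` by a family in `C` with the same residues. -/
theorem exists_lift_family {n : ℕ} (x : Fin n → L) (hx : ∀ j, x j ∈ locVS (L := L) Q hQ0) :
    ∃ c : Fin n → C, ∀ j, x j - algebraMap C L (c j) ∈ (locVS (L := L) Q hQ0).nonunits :=
  ⟨fun j => (exists_sub_mem_nonunits' Q hQ0 (hx j)).choose,
    fun j => (exists_sub_mem_nonunits' Q hQ0 (hx j)).choose_spec⟩

/-- Independence modulo `nonunits` transfers to the lifted family modulo `Q`. -/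
theorem linearIndependent_of_lift {n : ℕ} (x : Fin n → L) (c : Fin n → C)
    (hc : ∀ j, x j - algebraMap C L (c j) ∈ (locVS (L := L) Q hQ0).nonunits)
    (hind : ∀ a : Fin n → A, (∑ j, algebraMap A L (a j) * x j) ∈ (locVS (L := L) Q hQ0).nonunits →
      ∀ j, a j ∈ maximalIdeal A) :
    LinearIndependent (A ⧸ maximalIdeal A) (fun j => Ideal.Quotient.mk Q (c j)) := by
  rw [Fintype.linearIndependent_iff]
  intro g hg j
  choose a ha using fun j => Ideal.Quotient.mk_surjective (g j)
  have h1 : ∑ j, algebraMap A C (a j) * c j ∈ Q := by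
    rw [← Ideal.Quotient.eq_zero_iff_mem, map_sum, ← hg]
    refine Finset.sum_congr rfl fun j _ => ?_
    rw [← ha j, Algebra.smul_def, Ideal.Quotient.algebraMap_mk_of_liesOver, map_mul]
  have h2 : ∑ j, algebraMap A L (a j) * x j =
      algebraMap C L (∑ j, algebraMap A C (a j) * c j) +
        ∑ j, algebraMap A L (a j) * (x j - algebraMap C L (c j)) := by
    rw [map_sum, ← Finset.sum_add_distrib]
    refine Finset.sum_congr rfl fun j _ => ?_
    rw [map_mul, ← IsScalarTower.algebraMap_apply A C L]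
    ring
  have h3 := hind a (by
    rw [h2]
    refine add_mem_nonunits _ (algebraMap_mem_nonunits_of_mem Q hQ0 h1)
      (sum_mem_nonunits _ _ _ fun j _ => ?_)
    rw [mul_comm]
    refine mul_mem_nonunits _ (hc j) ?_
    rw [IsScalarTower.algebraMap_apply A C L]
    exact algebraMap_mem Q hQ0 _) j
  rw [← ha j]
  exact Ideal.Quotient.eq_zero_iff_mem.2 h3

/-- **Lower bound for the residue degree.** -/
theorem le_inertiaDeg {n : ℕ} (x : Fin n → L) (hx : ∀ j, x j ∈ locVS (L := L) Q hQ0)
    (hind : ∀ a : Fin n → A, (∑ j, algebraMap A L (a j) * x j) ∈ (locVS (L := L) Q hQ0).nonunits →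
      ∀ j, a j ∈ maximalIdeal A) :
    n ≤ Q.inertiaDeg A := by
  obtain ⟨c, hc⟩ := exists_lift_family Q hQ0 x hx
  have hli := linearIndependent_of_lift Q hQ0 x c hc hind
  rw [Ideal.inertiaDeg_eq_of_isMaximal (maximalIdeal A) Q]
  letI : Field (A ⧸ maximalIdeal A) := Ideal.Quotient.field _
  haveI : Module.Finite (A ⧸ maximalIdeal A) (C ⧸ Q) :=
    Module.Finite.of_restrictScalars_finite A _ _
  have := hli.fintype_card_le_finrank
  simpa using this

/-- **Exactness for the residue degree**: the witnesses span the residue field. -/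
theorem exists_sum_sub_mem_nonunits {n : ℕ} (x : Fin n → L)
    (hx : ∀ j, x j ∈ locVS (L := L) Q hQ0)
    (hind : ∀ a : Fin n → A, (∑ j, algebraMap A L (a j) * x j) ∈ (locVS (L := L) Q hQ0).nonunits →
      ∀ j, a j ∈ maximalIdeal A)
    (hn : Q.inertiaDeg A = n) {y : L} (hy : y ∈ locVS (L := L) Q hQ0) :
    ∃ a : Fin n → A, y - ∑ j, algebraMap A L (a j) * x j ∈ (locVS (L := L) Q hQ0).nonunits := by
  obtain ⟨c, hc⟩ := exists_lift_family Q hQ0 x hx
  have hli := linearIndependent_of_lift Q hQ0 x c hc hind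
  rw [Ideal.inertiaDeg_eq_of_isMaximal (maximalIdeal A) Q] at hn
  letI : Field (A ⧸ maximalIdeal A) := Ideal.Quotient.field _
  haveI : Module.Finite (A ⧸ maximalIdeal A) (C ⧸ Q) :=
    Module.Finite.of_restrictScalars_finite A _ _
  have hspan := hli.span_eq_top_of_card_eq_finrank' (by simpa using hn.symm)
  obtain ⟨cy, hcy⟩ := exists_sub_mem_nonunits' Q hQ0 hy
  have hmem : Ideal.Quotient.mk Q cy ∈
      Submodule.span (A ⧸ maximalIdeal A) (Set.range fun j => Ideal.Quotient.mk Q (c j)) := by
    rw [hspan]; exact Submodule.mem_top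
  obtain ⟨g, hg⟩ := (Submodule.mem_span_range_iff_exists_fun _).1 hmem
  choose a ha using fun j => Ideal.Quotient.mk_surjective (g j)
  refine ⟨a, ?_⟩
  have h1 : cy - ∑ j, algebraMap A C (a j) * c j ∈ Q := by
    rw [← Ideal.Quotient.eq_zero_iff_mem, map_sub, map_sum, ← hg, sub_eq_zero]
    refine Finset.sum_congr rfl fun j _ => ?_
    rw [← ha j, Algebra.smul_def, Ideal.Quotient.algebraMap_mk_of_liesOver, map_mul]
  have h2 : y - ∑ j, algebraMap A L (a j) * x j =
      (y - algebraMap C L cy) + algebraMap C L (cy - ∑ j, algebraMap A C (a j) * c j) -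
        ∑ j, algebraMap A L (a j) * (x j - algebraMap C L (c j)) := by
    rw [map_sub, map_sum]
    have : ∑ j, algebraMap A L (a j) * (x j - algebraMap C L (c j)) =
        ∑ j, algebraMap A L (a j) * x j - ∑ j, algebraMap C L (algebraMap A C (a j) * c j) := by
      rw [← Finset.sum_sub_distrib]
      refine Finset.sum_congr rfl fun j _ => ?_
      rw [map_mul, ← IsScalarTower.algebraMap_apply A C L]
      ring
    rw [this]
    ring
  rw [h2]
  refine sub_mem_nonunits _ (add_mem_nonunits _ hcy (algebraMap_mem_nonunits_of_mem Q hQ0 h1))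
    (sum_mem_nonunits _ _ _ fun j _ => ?_)
  rw [mul_comm]
  refine mul_mem_nonunits _ (hc j) ?_
  rw [IsScalarTower.algebraMap_apply A C L]
  exact algebraMap_mem Q hQ0 _

end Inertia

section Count

variable {A K L C : Type*} [CommRing A] [IsDomain A] [IsDiscreteValuationRing A] [Field K]
  [Algebra A K] [IsFractionRing A K] [Field L] [Algebra K L] [Algebra A L] [IsScalarTower A K L]
  [FiniteDimensional K L] [Algebra.IsSeparable K L]
  [CommRing C] [IsDomain C] [Algebra C L] [Algebra A C] [IsScalarTower A C L]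
  [IsIntegralClosure C A L]

variable (A K L C) in
include K L in
theorem algebraMap_injective_AC : Function.Injective (algebraMap A C) := by
  have hinj' : Function.Injective (algebraMap A L) := by
    rw [IsScalarTower.algebraMap_eq A K L]
    exact (algebraMap K L).injective.comp (IsFractionRing.injective A K)
  rw [IsScalarTower.algebraMap_eq A C L] at hinj'
  exact Function.Injective.of_comp hinj'

/-- The data of the counting lemma. -/
structure Witness {ι : Type*} (V : ι → ValuationSubring L) (ϖ : A) (e' f' : ι → ℕ) : Prop where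
  mem : ∀ i, ∀ a : A, algebraMap A L a ∈ V i
  dom : ∀ i, ∀ a ∈ maximalIdeal A, algebraMap A L a ∈ (V i).nonunits
  inj : Function.Injective V
  unif : Irreducible ϖ
  ram : ∀ i, ∃ τ w : L, τ ∈ (V i).nonunits ∧ w ∈ V i ∧ algebraMap A L ϖ = w * τ ^ e' i
  res : ∀ i, ∃ x : Fin (f' i) → L, (∀ j, x j ∈ V i) ∧
    ∀ a : Fin (f' i) → A, (∑ j, algebraMap A L (a j) * x j) ∈ (V i).nonunits →
      ∀ j, a j ∈ maximalIdeal A

variable {ι : Type*} [Fintype ι] {V : ι → ValuationSubring L} {ϖ : A} {e' f' : ι → ℕ}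

variable (K C) in
include K in
/-- **Counting.** If `n ≤ Σ e' f'`, the centres of the `V i` are all the primes of `C` over `𝔪_A`,
with ramification indices `e' i` and residue degrees `f' i`. -/
theorem count (h : Witness (A := A) V ϖ e' f') (hsum : Module.finrank K L ≤ ∑ i, e' i * f' i) :
    (∀ i, (centre A C (V i) (h.mem i)).ramificationIdx A = e' i ∧
      (centre A C (V i) (h.mem i)).inertiaDeg A = f' i) ∧
    ∀ Q : Ideal C, Q.IsPrime → Q.LiesOver (maximalIdeal A) →
      ∃ i, Q = centre A C (V i) (h.mem i) := by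
  classical
  obtain ⟨hDed, hfin, hfree, hrank⟩ := integralClosure_structure A K L C
  haveI := hDed
  haveI := hfin
  haveI := hfree
  haveI : IsFractionRing C L := IsIntegralClosure.isFractionRing_of_finite_extension A K L C
  have hinjAC : Function.Injective (algebraMap A C) := by
    have hinj' : Function.Injective (algebraMap A L) := by
      rw [IsScalarTower.algebraMap_eq A K L]
      exact (algebraMap K L).injective.comp (IsFractionRing.injective A K)
    rw [IsScalarTower.algebraMap_eq A C L] at hinj'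
    exact Function.Injective.of_comp hinj'
  have : Fintype ((maximalIdeal A).primesOver C) :=
    (Algebra.QuasiFinite.finite_primesOver (maximalIdeal A)).fintype
  -- the centres
  have hprops := fun i => centre_props (C := C) K (V i) (h.mem i) (h.dom i)
  let Qs : ι → (maximalIdeal A).primesOver C := fun i =>
    ⟨centre A C (V i) (h.mem i), centre_isPrime _ _, (hprops i).2.2⟩
  have hVeq : ∀ i, V i = @locVS C L _ _ _ _ _ _ (centre A C (V i) (h.mem i)) (hprops i).1
      (hprops i).2.1 := fun i => by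
    haveI := (hprops i).1
    exact eq_locVS_centre K (V i) (h.mem i) (hprops i).2.1
  have hQinj : Function.Injective Qs := by
    intro i j hij
    have hij' : centre A C (V i) (h.mem i) = centre A C (V j) (h.mem j) :=
      congrArg Subtype.val hij
    apply h.inj
    haveI := (hprops i).1
    rw [hVeq i]
    exact (eq_locVS (centre A C (V i) (h.mem i)) (hprops i).2.1 (V j)
      (algebraMap_C_mem (A := A) (V j) (h.mem j)) (fun c hc => by
        rw [hij'] at hc
        exact (mem_centre_iff (V j) (h.mem j) c).1 hc)).symm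
  -- the lower bounds
  have hle : ∀ i, e' i ≤ (Qs i).1.ramificationIdx A ∧ f' i ≤ (Qs i).1.inertiaDeg A := by
    intro i
    haveI := (hprops i).1
    haveI := (hprops i).2.2
    constructor
    · obtain ⟨τ, w, hτ, hw, hτw⟩ := h.ram i
      rw [hVeq i] at hτ hw
      rw [IsScalarTower.algebraMap_apply A C L] at hτw
      exact (pow_dvd_iff_le_ramificationIdx hinjAC _ (hprops i).2.1 h.unif _).1
        (mem_pow_of_witness _ (hprops i).2.1 hτ hw hτw)
    · obtain ⟨x, hx, hind⟩ := h.res i
      refine le_inertiaDeg _ (hprops i).2.1 x (fun j => by rw [← hVeq i]; exact hx j) ?_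
      intro a ha
      rw [← hVeq i] at ha
      exact hind a ha
  -- the fundamental identity
  have hfund := Ideal.sum_ramification_inertia_eq_finrank (maximalIdeal A) C
  rw [hrank] at hfund
  have hpos : ∀ q : (maximalIdeal A).primesOver C,
      0 < q.1.ramificationIdx A * q.1.inertiaDeg A := fun q => one_le_mul (maximalIdeal A) q
  have hchain1 : ∑ i, e' i * f' i ≤ ∑ i, (Qs i).1.ramificationIdx A * (Qs i).1.inertiaDeg A :=
    Finset.sum_le_sum fun i _ => Nat.mul_le_mul (hle i).1 (hle i).2
  have hchain2 : ∑ i, (Qs i).1.ramificationIdx A * (Qs i).1.inertiaDeg A =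
      ∑ q ∈ Finset.univ.image Qs, q.1.ramificationIdx A * q.1.inertiaDeg A := by
    rw [Finset.sum_image fun i _ j _ hij => hQinj hij]
  have hchain3 : ∑ q ∈ Finset.univ.image Qs, q.1.ramificationIdx A * q.1.inertiaDeg A ≤
      ∑ q : (maximalIdeal A).primesOver C, q.1.ramificationIdx A * q.1.inertiaDeg A :=
    Finset.sum_le_sum_of_subset (Finset.subset_univ _)
  have himage : Finset.univ.image Qs = Finset.univ := by
    by_contra hne
    obtain ⟨q, -, hq⟩ := Finset.exists_of_ssubset
      (Finset.ssubset_iff_subset_ne.2 ⟨Finset.subset_univ _, hne⟩)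
    have hlt := Finset.sum_lt_sum_of_subset (f := fun q : (maximalIdeal A).primesOver C =>
      q.1.ramificationIdx A * q.1.inertiaDeg A) (Finset.subset_univ (Finset.univ.image Qs))
      (Finset.mem_univ q) hq (hpos q) (fun _ _ _ => Nat.zero_le _)
    omega
  have hterm : ∀ i, e' i * f' i = (Qs i).1.ramificationIdx A * (Qs i).1.inertiaDeg A := by
    have heq : ∑ i, e' i * f' i = ∑ i, (Qs i).1.ramificationIdx A * (Qs i).1.inertiaDeg A := by
      omega
    intro i
    exact (Finset.sum_eq_sum_iff_of_le fun i _ => Nat.mul_le_mul (hle i).1 (hle i).2).1 heq i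
      (Finset.mem_univ i)
  refine ⟨fun i => ?_, fun Q hQp hQo => ?_⟩
  · have h1 := hterm i
    have h2 := hle i
    have h3 := hpos (Qs i)
    have he : e' i = (Qs i).1.ramificationIdx A := by
      by_contra hne
      have hlt : e' i < (Qs i).1.ramificationIdx A := lt_of_le_of_ne h2.1 hne
      have hf0 : 0 < (Qs i).1.inertiaDeg A :=
        Nat.pos_of_ne_zero (fun h0 => by rw [h0, mul_zero] at h3; exact lt_irrefl _ h3)
      have : e' i * f' i < (Qs i).1.ramificationIdx A * (Qs i).1.inertiaDeg A :=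
        Nat.mul_lt_mul_of_lt_of_le hlt h2.2 hf0
      omega
    have hf : f' i = (Qs i).1.inertiaDeg A := by
      rw [he] at h1
      have he0 : 0 < (Qs i).1.ramificationIdx A :=
        Nat.pos_of_ne_zero (fun h0 => by rw [h0, zero_mul] at h3; exact lt_irrefl _ h3)
      exact Nat.eq_of_mul_eq_mul_left he0 h1
    exact ⟨he.symm, hf.symm⟩
  · have hmem : (⟨Q, hQp, hQo⟩ : (maximalIdeal A).primesOver C) ∈ Finset.univ.image Qs := by
      rw [himage]; exact Finset.mem_univ _
    obtain ⟨i, -, hi⟩ := Finset.mem_image.1 hmem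
    exact ⟨i, (congrArg Subtype.val hi).symm⟩

variable (K) in
include K in
/-- **`only`**: every valuation subring of `L` dominating `A` is one of the `V i`. -/
theorem only (h : Witness (A := A) V ϖ e' f') (hsum : Module.finrank K L ≤ ∑ i, e' i * f' i)
    (W : ValuationSubring L) (hWA : ∀ a : A, algebraMap A L a ∈ W)
    (hWm : ∀ a ∈ maximalIdeal A, algebraMap A L a ∈ W.nonunits) : ∃ i, W = V i := by
  obtain ⟨hDed, hfin, hfree, hrank⟩ := integralClosure_structure A K L ↥(integralClosure A L)
  haveI := hDed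
  haveI : IsFractionRing ↥(integralClosure A L) L :=
    IsIntegralClosure.isFractionRing_of_finite_extension A K L ↥(integralClosure A L)
  obtain ⟨-, hall⟩ := count K ↥(integralClosure A L) h hsum
  have hW := centre_props (C := ↥(integralClosure A L)) K W hWA hWm
  obtain ⟨i, hi⟩ := hall _ (centre_isPrime W hWA) hW.2.2
  refine ⟨i, ?_⟩
  have hV := centre_props (C := ↥(integralClosure A L)) K (V i) (h.mem i) (h.dom i)
  haveI := hV.1
  rw [eq_locVS_centre K (V i) (h.mem i) hV.2.1]
  exact eq_locVS _ hV.2.1 W (algebraMap_C_mem (A := A) W hWA) (fun c hc => by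
    rw [← hi] at hc
    exact (mem_centre_iff W hWA c).1 hc)

variable (K) in
include K in
/-- **`ram`**: a witness `ϖ = w τ ^ (e' i)` has `τ` a uniformiser and `w` a unit of `V i`. -/
theorem ram (h : Witness (A := A) V ϖ e' f') (hsum : Module.finrank K L ≤ ∑ i, e' i * f' i)
    (i : ι) {τ w : L} (hτ : τ ∈ (V i).nonunits) (hw : w ∈ V i)
    (hτw : algebraMap A L ϖ = w * τ ^ e' i) :
    (∀ y ∈ (V i).nonunits, y * τ⁻¹ ∈ V i) ∧ w⁻¹ ∈ V i := by
  obtain ⟨hDed, hfin, hfree, hrank⟩ := integralClosure_structure A K L ↥(integralClosure A L)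
  haveI := hDed
  haveI := hfin
  haveI : IsFractionRing ↥(integralClosure A L) L :=
    IsIntegralClosure.isFractionRing_of_finite_extension A K L ↥(integralClosure A L)
  have hinjAC : Function.Injective (algebraMap A ↥(integralClosure A L)) :=
    algebraMap_injective_AC A K L ↥(integralClosure A L)
  obtain ⟨hef, -⟩ := count K ↥(integralClosure A L) h hsum
  have hV := centre_props (C := ↥(integralClosure A L)) K (V i) (h.mem i) (h.dom i)
  haveI := hV.1
  haveI := hV.2.2
  have hVeq := eq_locVS_centre (C := ↥(integralClosure A L)) K (V i) (h.mem i) hV.2.1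
  have he1 : 1 ≤ e' i := by
    rw [← (hef i).1]
    exact Ideal.ramificationIdx_pos _ A
  have hnot : algebraMap A ↥(integralClosure A L) ϖ ∉
      centre A ↥(integralClosure A L) (V i) (h.mem i) ^ (e' i + 1) := by
    rw [pow_dvd_iff_le_ramificationIdx hinjAC _ hV.2.1 h.unif, (hef i).1]
    omega
  rw [hVeq] at hτ hw
  rw [IsScalarTower.algebraMap_apply A ↥(integralClosure A L) L] at hτw
  obtain ⟨h1, h2⟩ := uniformizer_of_witness _ hV.2.1 he1 hτ hw hτw hnot
  rw [hVeq]
  exact ⟨fun y hy => div_mem_of_val_eq _ hV.2.1 h1 hy, inv_mem_of_val_eq_one _ hV.2.1 h2⟩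

variable (K) in
include K in
/-- **`deg`**: any `f' i` elements of `V i` with independent residues span the residue field. -/
theorem deg (h : Witness (A := A) V ϖ e' f') (hsum : Module.finrank K L ≤ ∑ i, e' i * f' i)
    (i : ι) (x : Fin (f' i) → L) (hx : ∀ j, x j ∈ V i)
    (hind : ∀ a : Fin (f' i) → A, (∑ j, algebraMap A L (a j) * x j) ∈ (V i).nonunits →
      ∀ j, a j ∈ maximalIdeal A) {y : L} (hy : y ∈ V i) :
    ∃ a : Fin (f' i) → A, y - ∑ j, algebraMap A L (a j) * x j ∈ (V i).nonunits := by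
  obtain ⟨hDed, hfin, hfree, hrank⟩ := integralClosure_structure A K L ↥(integralClosure A L)
  haveI := hDed
  haveI := hfin
  haveI : IsFractionRing ↥(integralClosure A L) L :=
    IsIntegralClosure.isFractionRing_of_finite_extension A K L ↥(integralClosure A L)
  obtain ⟨hef, -⟩ := count K ↥(integralClosure A L) h hsum
  have hV := centre_props (C := ↥(integralClosure A L)) K (V i) (h.mem i) (h.dom i)
  haveI := hV.1
  haveI := hV.2.2
  have hVeq := eq_locVS_centre (C := ↥(integralClosure A L)) K (V i) (h.mem i) hV.2.1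
  rw [hVeq] at hy
  have := exists_sum_sub_mem_nonunits _ hV.2.1 x (fun j => by rw [← hVeq]; exact hx j)
    (fun a ha => hind a (by rw [hVeq]; exact ha)) (hef i).2 hy
  rw [hVeq]
  exact this

variable (K) in
include K in
/-- **`deg_one`**: if `f' i = 1`, every element of `V i` is congruent to an element of `A`. -/
theorem deg_one (h : Witness (A := A) V ϖ e' f') (hsum : Module.finrank K L ≤ ∑ i, e' i * f' i)
    (i : ι) (hf : f' i = 1) {y : L} (hy : y ∈ V i) :
    ∃ a : A, y - algebraMap A L a ∈ (V i).nonunits := by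
  have hind : ∀ a : Fin (f' i) → A, (∑ j, algebraMap A L (a j) * (fun _ => (1 : L)) j) ∈
      (V i).nonunits → ∀ j, a j ∈ maximalIdeal A := by
    intro a ha j
    have hcard : ∀ k : Fin (f' i), k = j := by
      intro k
      apply Fin.ext
      have := k.2
      have := j.2
      omega
    have hsum1 : ∑ k, algebraMap A L (a k) * (fun _ => (1 : L)) k = algebraMap A L (a j) := by
      rw [Finset.sum_eq_single j (fun k _ hk => absurd (hcard k) hk)
        (fun hj => absurd (Finset.mem_univ j) hj), mul_one]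
    rw [hsum1] at ha
    by_contra hnot
    have hu : IsUnit (a j) := by
      by_contra hnu
      exact hnot ((IsLocalRing.mem_maximalIdeal _).2 hnu)
    obtain ⟨b, hb⟩ := hu.exists_right_inv
    have h1 : algebraMap A L (a j) * algebraMap A L b = 1 := by rw [← map_mul, hb, map_one]
    have h2 := mul_mem_nonunits (V i) ha (h.mem i b)
    rw [h1] at h2
    exact one_notMem_nonunits _ h2
  obtain ⟨a, ha⟩ := deg K h hsum i (fun _ => 1) (fun _ => (V i).one_mem) hind hy
  obtain ⟨j0, hj0⟩ : ∃ j0 : Fin (f' i), (j0 : ℕ) = 0 := ⟨⟨0, by omega⟩, rfl⟩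
  refine ⟨a j0, ?_⟩
  have hcard : ∀ k : Fin (f' i), k = j0 := by
    intro k
    apply Fin.ext
    have := k.2
    omega
  have hsum1 : ∑ k, algebraMap A L (a k) * (fun _ => (1 : L)) k = algebraMap A L (a j0) := by
    rw [Finset.sum_eq_single j0 (fun k _ hk => absurd (hcard k) hk)
      (fun hj => absurd (Finset.mem_univ j0) hj), mul_one]
  rwa [hsum1] at ha

variable (K) in
include K in
/-- **`⨅ i, V i` is the integral closure of `A`.** -/
theorem isIntegral_of_forall_mem (h : Witness (A := A) V ϖ e' f')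
    (hsum : Module.finrank K L ≤ ∑ i, e' i * f' i) {y : L} (hy : ∀ i, y ∈ V i) :
    IsIntegral A y := by
  obtain ⟨hDed, hfin, hfree, hrank⟩ := integralClosure_structure A K L ↥(integralClosure A L)
  haveI := hDed
  haveI := hfin
  haveI : IsFractionRing ↥(integralClosure A L) L :=
    IsIntegralClosure.isFractionRing_of_finite_extension A K L ↥(integralClosure A L)
  haveI : Algebra.IsIntegral A ↥(integralClosure A L) := IsIntegralClosure.isIntegral_algebra A L
  obtain ⟨-, hall⟩ := count K ↥(integralClosure A L) h hsum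
  have hmem : y ∈ (⨅ v : MaximalSpectrum ↥(integralClosure A L),
      Localization.subalgebra.ofField L _ v.asIdeal.primeCompl_le_nonZeroDivisors) := by
    rw [Algebra.mem_iInf]
    intro v
    have hvo : v.asIdeal.LiesOver (maximalIdeal A) := by
      constructor
      have hmax : (v.asIdeal.comap (algebraMap A ↥(integralClosure A L))).IsMaximal :=
        Ideal.isMaximal_comap_of_isIntegral_of_isMaximal _
      exact (IsLocalRing.eq_maximalIdeal hmax).symm
    obtain ⟨i, hi⟩ := hall v.asIdeal v.isMaximal.isPrime hvo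
    have hV := centre_props (C := ↥(integralClosure A L)) K (V i) (h.mem i) (h.dom i)
    haveI := hV.1
    have hyi := hy i
    rw [eq_locVS_centre K (V i) (h.mem i) hV.2.1, mem_locVS_iff] at hyi
    obtain ⟨a, s, hs, rfl⟩ := hyi
    haveI := v.isMaximal
    rw [← hi] at hs
    exact (mem_locAlg_iff v.asIdeal).2 ⟨a, s, hs, rfl⟩
  rw [MaximalSpectrum.iInf_localization_eq_bot, Algebra.mem_bot] at hmem
  obtain ⟨c, rfl⟩ := hmem
  exact c.2

end Count

section ResWitness

open Polynomial

variable {A L : Type*} [CommRing A] [IsLocalRing A] [Field L] [Algebra A L]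
  (W : ValuationSubring L) (hWA : ∀ a : A, algebraMap A L a ∈ W)

include hWA in
/-- The residue-degree witness for `f' = 1`. -/
theorem res_one : ∃ x : Fin 1 → L, (∀ j, x j ∈ W) ∧
    ∀ a : Fin 1 → A, (∑ j, algebraMap A L (a j) * x j) ∈ W.nonunits →
      ∀ j, a j ∈ maximalIdeal A := by
  refine ⟨fun _ => 1, fun _ => W.one_mem, fun a ha j => ?_⟩
  rw [Fin.sum_univ_one, mul_one] at ha
  have hj : j = 0 := Subsingleton.elim _ _
  subst hj
  by_contra hnot
  have hu : IsUnit (a 0) := by
    by_contra hnu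
    exact hnot ((IsLocalRing.mem_maximalIdeal _).2 hnu)
  obtain ⟨b, hb⟩ := hu.exists_right_inv
  have h1 : algebraMap A L (a 0) * algebraMap A L b = 1 := by rw [← map_mul, hb, map_one]
  have h2 := mul_mem_nonunits W ha (hWA b)
  rw [h1] at h2
  exact one_notMem_nonunits _ h2

include hWA in
/-- The residue-degree witness for `f' = q` from a purely inseparable generator:
`x ^ q ≡ t` modulo `nonunits`, `t ∈ A` not a `q`-th power modulo `𝔪_A`. -/
theorem res_pow (hWm : ∀ a ∈ maximalIdeal A, algebraMap A L a ∈ W.nonunits)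
    {q : ℕ} (hq : q.Prime) {x : L} (hx : x ∈ W) (t : A)
    (hxt : x ^ q - algebraMap A L t ∈ W.nonunits)
    (ht : ∀ b : A, b ^ q - t ∉ maximalIdeal A) :
    ∃ y : Fin q → L, (∀ j, y j ∈ W) ∧
      ∀ a : Fin q → A, (∑ j, algebraMap A L (a j) * y j) ∈ W.nonunits →
        ∀ j, a j ∈ maximalIdeal A := by
  refine ⟨fun j => x ^ (j : ℕ), fun j => W.pow_mem hx _, fun a ha j => ?_⟩
  -- the residue fields
  letI : Field (A ⧸ maximalIdeal A) := Ideal.Quotient.field _
  letI : Field (↥W ⧸ maximalIdeal ↥W) := Ideal.Quotient.field _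
  let f : A →+* ↥W := (algebraMap A L).codRestrict W.toSubring hWA
  have hf : ∀ a ∈ maximalIdeal A, f a ∈ maximalIdeal ↥W := by
    intro a ha
    have := hWm a ha
    rw [ValuationSubring.mem_nonunits_iff_exists_mem_maximalIdeal] at this
    obtain ⟨_, h⟩ := this
    exact h
  let φ : (A ⧸ maximalIdeal A) →+* (↥W ⧸ maximalIdeal ↥W) :=
    Ideal.Quotient.lift (maximalIdeal A) ((Ideal.Quotient.mk (maximalIdeal ↥W)).comp f)
      (fun a ha => Ideal.Quotient.eq_zero_iff_mem.2 (hf a ha))
  letI : Algebra (A ⧸ maximalIdeal A) (↥W ⧸ maximalIdeal ↥W) := φ.toAlgebra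
  set xb : ↥W ⧸ maximalIdeal ↥W := Ideal.Quotient.mk _ ⟨x, hx⟩ with hxb
  set tb : A ⧸ maximalIdeal A := Ideal.Quotient.mk _ t with htb
  have hroot0 : xb ^ q = algebraMap (A ⧸ maximalIdeal A) (↥W ⧸ maximalIdeal ↥W) tb := by
    show xb ^ q = φ tb
    rw [hxb, htb, ← map_pow, Ideal.Quotient.lift_mk, RingHom.comp_apply, ← sub_eq_zero, ← map_sub,
      Ideal.Quotient.eq_zero_iff_mem]
    rw [ValuationSubring.mem_nonunits_iff_exists_mem_maximalIdeal] at hxt
    obtain ⟨_, h⟩ := hxt
    exact h
  have htne : ∀ b : A ⧸ maximalIdeal A, b ^ q ≠ tb := by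
    intro b hb
    obtain ⟨b, rfl⟩ := Ideal.Quotient.mk_surjective b
    rw [htb, ← map_pow, ← sub_eq_zero, ← map_sub, Ideal.Quotient.eq_zero_iff_mem] at hb
    exact ht b hb
  have hirr : Irreducible (X ^ q - C tb : (A ⧸ maximalIdeal A)[X]) :=
    X_pow_sub_C_irreducible_of_prime hq htne
  have hmonic : (X ^ q - C tb : (A ⧸ maximalIdeal A)[X]).Monic := monic_X_pow_sub_C tb hq.ne_zero
  have hroot : aeval xb (X ^ q - C tb : (A ⧸ maximalIdeal A)[X]) = 0 := by
    simp [hroot0]
  have hmin : (X ^ q - C tb : (A ⧸ maximalIdeal A)[X]) = minpoly (A ⧸ maximalIdeal A) xb :=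
    minpoly.eq_of_irreducible_of_monic hirr hroot hmonic
  -- the polynomial with coefficients `a j`
  set p : (A ⧸ maximalIdeal A)[X] := ∑ j : Fin q, C (Ideal.Quotient.mk _ (a j)) * X ^ (j : ℕ)
    with hp
  have hpx : aeval xb p = 0 := by
    rw [hp, map_sum]
    have h1 : ∀ j : Fin q, aeval xb (C (Ideal.Quotient.mk (maximalIdeal A) (a j)) * X ^ (j : ℕ)) =
        Ideal.Quotient.mk (maximalIdeal ↥W) (f (a j) * ⟨x, hx⟩ ^ (j : ℕ)) := by
      intro j
      rw [map_mul, aeval_C, map_pow, aeval_X, map_mul, map_pow]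
      rfl
    rw [Finset.sum_congr rfl fun j _ => h1 j, ← map_sum, Ideal.Quotient.eq_zero_iff_mem]
    rw [ValuationSubring.mem_nonunits_iff_exists_mem_maximalIdeal] at ha
    obtain ⟨hmem, h⟩ := ha
    convert h using 1
    apply Subtype.ext
    simp [f]
  have hdeg : p.degree < (q : WithBot ℕ) := by
    rw [hp]
    refine lt_of_le_of_lt (Polynomial.degree_sum_le _ _) ?_
    refine (Finset.sup_lt_iff (WithBot.bot_lt_coe q)).2 ?_
    intro j _
    refine lt_of_le_of_lt (Polynomial.degree_C_mul_X_pow_le _ _) ?_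
    exact WithBot.coe_lt_coe.2 j.2
  have hp0 : p = 0 := by
    by_contra hne
    have hdvd : minpoly (A ⧸ maximalIdeal A) xb ∣ p := minpoly.dvd _ _ hpx
    rw [← hmin] at hdvd
    have h2 := Polynomial.degree_le_of_dvd hdvd hne
    rw [Polynomial.degree_X_pow_sub_C hq.pos] at h2
    exact absurd h2 (not_le.2 hdeg)
  have hcoeff : p.coeff (j : ℕ) = Ideal.Quotient.mk _ (a j) := by
    rw [hp, Polynomial.finsetSum_coeff]
    rw [Finset.sum_eq_single j]
    · rw [Polynomial.coeff_C_mul_X_pow, if_pos rfl]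
    · intro k _ hk
      rw [Polynomial.coeff_C_mul_X_pow, if_neg]
      intro h
      exact hk (Fin.ext h.symm)
    · intro h; exact absurd (Finset.mem_univ j) h
  rw [hp0, Polynomial.coeff_zero] at hcoeff
  exact Ideal.Quotient.eq_zero_iff_mem.1 hcoeff.symm

end ResWitness

end Fermat.Agent.S36.V.CountEF
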