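/-
S36 / block [V], part (V-top), Fricke transport (helper24).

Setting: `K` of characteristic zero, `O ⊆ K` a discrete valuation ring with fraction field `K`,
`ι : K →+* ℂ`, `w_N := FrickeK.wK K ι N` the Fricke involution of `FF K N`.

* (T0) `wK_mem_gaussVS_iff` : `w_N` preserves the Gauss valuation ring at every level `N` with prime
  fibre ideal (helper11's `S16/GaussUnique` (W), general base);
* (T1) `secondVal_eq_comap` : the second valuation `sv.V` of `FF K (M₀ q)` (P3-G) is the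
  `w`-transform of the Gauss valuation: `sv.V = (gaussVS K (M₀ q) O).comap w`;
* (T2) `V02 := (gaussVS K (M₀ q q) O).comap w` and the comap table
  `V20.comap α₂ = V10`, `V20.comap β₂ = V10`, `V02.comap α₂ = sv.V`, `V02.comap β₂ = sv.V`;
* (T3) generic transport lemmas along a field automorphism.
-/
import Mathlib
import Fermat.Agent.S36.V.FrickeK
import Fermat.Agent.S16.GaussUnique
import Fermat.Agent.P3G.SecondValuation
import Fermat.Agent.S36.V.CountEF

set_option autoImplicit false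
set_option linter.unusedSectionVars false
set_option linter.style.haveILetI false

open ModularCurve Fermat.Agent.S28.Gauss Fermat.Agent.N4.Chart Fermat.Agent.N4.Setting
  Fermat.Agent.N4.FibreEmbedding Fermat.Agent.N4F.E.GaussDVR Fermat.Agent.N4F.E.DegreeLevelRaise
  Fermat.Agent.S36.V.FrickeK Fermat.Agent.P3G.SecondValuation

noncomputable section

namespace Fermat.Agent.S36.V.Transport

/-! ### Generalities on `comap` of valuation subrings -/

section Comap

variable {F L : Type*} [Field F] [Field L]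

theorem mem_nonunits_comap (V : ValuationSubring L) (f : F →+* L) (x : F) :
    x ∈ (V.comap f).nonunits ↔ f x ∈ V.nonunits := by
  by_cases hx : x = 0
  · subst hx
    rw [map_zero]
    exact ⟨fun _ => Fermat.Agent.P3G.LocVS.zero_mem_nonunits _,
      fun _ => Fermat.Agent.P3G.LocVS.zero_mem_nonunits _⟩
  have hfx : f x ≠ 0 := (map_ne_zero f).mpr hx
  rw [Fermat.Agent.P3G.LocVS.mem_nonunits_iff_inv_notMem _ hx,
    Fermat.Agent.P3G.LocVS.mem_nonunits_iff_inv_notMem _ hfx, ValuationSubring.mem_comap,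
    map_inv₀]

theorem comap_comap' {E : Type*} [Field E] (V : ValuationSubring L) (f : F →+* L) (g : E →+* F) :
    (V.comap f).comap g = V.comap (f.comp g) := rfl

end Comap

/-! ### The place of a valuation subring of residue degree one over a base -/

section Place

open Fermat.Agent.S36.V.CountEF Fermat.Agent.P3G.LocVS

variable {F L Ω : Type*} [Field F] [Field L] [CommRing Ω]
  (U : ValuationSubring F) (V : ValuationSubring L) (ψ : F →+* L)
  (hUV : V.comap ψ = U)
  (hdeg : ∀ y ∈ V, ∃ a : ↥U, y - ψ (a : F) ∈ V.nonunits)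
  (evU : ↥U →+* Ω) (hker : ∀ a : ↥U, (a : F) ∈ U.nonunits → evU a = 0)

include hUV in
theorem map_mem_of_comap_eq (a : ↥U) : ψ (a : F) ∈ V := by
  have h : (a : F) ∈ V.comap ψ := by rw [hUV]; exact a.2
  exact h

include hUV in
theorem mem_nonunits_iff_of_comap_eq (x : F) : x ∈ U.nonunits ↔ ψ x ∈ V.nonunits := by
  subst hUV
  exact mem_nonunits_comap V ψ x

include hUV hker in
theorem evU_eq_of_sub_mem {a a' : ↥U} (h : ψ (a : F) - ψ (a' : F) ∈ V.nonunits) :
    evU a = evU a' := by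
  have h1 : ((a - a' : ↥U) : F) ∈ U.nonunits := by
    rw [mem_nonunits_iff_of_comap_eq U V ψ hUV]
    push_cast
    rw [map_sub]
    exact h
  have h2 := hker _ h1
  rwa [map_sub, sub_eq_zero] at h2

include hUV hker in
theorem evU_eq_of_sub_mem' {y : L} {a a' : ↥U} (h : y - ψ (a : F) ∈ V.nonunits)
    (h' : y - ψ (a' : F) ∈ V.nonunits) : evU a = evU a' := by
  apply evU_eq_of_sub_mem U V ψ hUV evU hker
  have e : ψ (a : F) - ψ (a' : F) = (y - ψ (a' : F)) - (y - ψ (a : F)) := by ring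
  rw [e]
  exact sub_mem_nonunits V h' h

include hUV hker in
theorem evU_add_of_sub_mem {y z : L} {a b c : ↥U} (hy : y - ψ (a : F) ∈ V.nonunits)
    (hz : z - ψ (b : F) ∈ V.nonunits) (hyz : y + z - ψ (c : F) ∈ V.nonunits) :
    evU c = evU a + evU b := by
  rw [← map_add evU]
  apply evU_eq_of_sub_mem' U V ψ hUV evU hker hyz
  have e : y + z - ψ ((a + b : ↥U) : F) = (y - ψ (a : F)) + (z - ψ (b : F)) := by
    push_cast
    rw [map_add]
    ring
  rw [e]
  exact add_mem_nonunits V hy hz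

include hUV hker in
theorem evU_mul_of_sub_mem {y z : L} (hzV : z ∈ V) {a b c : ↥U}
    (hy : y - ψ (a : F) ∈ V.nonunits)
    (hz : z - ψ (b : F) ∈ V.nonunits) (hyz : y * z - ψ (c : F) ∈ V.nonunits) :
    evU c = evU a * evU b := by
  rw [← map_mul evU]
  apply evU_eq_of_sub_mem' U V ψ hUV evU hker hyz
  have e : y * z - ψ ((a * b : ↥U) : F) =
      (y - ψ (a : F)) * z + (z - ψ (b : F)) * ψ (a : F) := by
    push_cast
    rw [map_mul]
    ring
  rw [e]
  exact add_mem_nonunits V (mul_mem_nonunits V hy hzV)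
    (mul_mem_nonunits V hz (map_mem_of_comap_eq U V ψ hUV _))

/-- **The place of `V` induced by the place of `U`**, for `V` of residue degree one over `U`
along `ψ`. -/
def placeOver : ↥V →+* Ω where
  toFun y := evU (Classical.choose (hdeg y y.2))
  map_one' := by
    have h := Classical.choose_spec (hdeg (1 : ↥V) (1 : ↥V).2)
    rw [← map_one evU]
    apply evU_eq_of_sub_mem' U V ψ hUV evU hker h
    simp only [OneMemClass.coe_one, map_one, sub_self]
    exact zero_mem_nonunits V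
  map_zero' := by
    have h := Classical.choose_spec (hdeg (0 : ↥V) (0 : ↥V).2)
    rw [← map_zero evU]
    apply evU_eq_of_sub_mem' U V ψ hUV evU hker h
    simp only [ZeroMemClass.coe_zero, map_zero, sub_self]
    exact zero_mem_nonunits V
  map_add' y z :=
    evU_add_of_sub_mem U V ψ hUV evU hker (Classical.choose_spec (hdeg y y.2))
      (Classical.choose_spec (hdeg z z.2)) (Classical.choose_spec (hdeg (y + z) (y + z).2))
  map_mul' y z :=
    evU_mul_of_sub_mem U V ψ hUV evU hker z.2 (Classical.choose_spec (hdeg y y.2))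
      (Classical.choose_spec (hdeg z z.2)) (Classical.choose_spec (hdeg (y * z) (y * z).2))

theorem placeOver_eq (y : ↥V) (a : ↥U) (h : (y : L) - ψ (a : F) ∈ V.nonunits) :
    placeOver U V ψ hUV hdeg evU hker y = evU a :=
  evU_eq_of_sub_mem' U V ψ hUV evU hker (Classical.choose_spec (hdeg y y.2)) h

theorem placeOver_map (a : ↥U) (h : ψ (a : F) ∈ V) :
    placeOver U V ψ hUV hdeg evU hker ⟨ψ (a : F), h⟩ = evU a := by
  apply placeOver_eq
  simp only [sub_self]
  exact zero_mem_nonunits V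

theorem placeOver_eq_zero_iff (hker' : ∀ a : ↥U, evU a = 0 → (a : F) ∈ U.nonunits) (y : ↥V) :
    placeOver U V ψ hUV hdeg evU hker y = 0 ↔ (y : L) ∈ V.nonunits := by
  obtain ⟨a, ha⟩ := hdeg y y.2
  rw [placeOver_eq U V ψ hUV hdeg evU hker y a ha]
  have hiff : (a : F) ∈ U.nonunits ↔ ψ (a : F) ∈ V.nonunits :=
    mem_nonunits_iff_of_comap_eq U V ψ hUV _
  constructor
  · intro h0
    have h1 := hiff.mp (hker' a h0)
    have e : (y : L) = ((y : L) - ψ (a : F)) + ψ (a : F) := by ring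
    rw [e]
    exact add_mem_nonunits V ha h1
  · intro hy
    apply hker
    rw [hiff]
    have e : ψ (a : F) = (y : L) - ((y : L) - ψ (a : F)) := by ring
    rw [e]
    exact sub_mem_nonunits V hy ha

end Place

variable (K : Type) [Field K] [CharZero K] (ι : K →+* ℂ) (O : Subring K)
  [IsDiscreteValuationRing ↥O] [IsFractionRing ↥O K]

set_option quotPrecheck false in
local notation "κ" => IsLocalRing.ResidueField ↥O

/-! ### (T0) The Fricke involution preserves the Gauss valuation ring -/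

section W

variable (N : ℕ) [NeZero N]

/-- The Fricke involution as a ring endomorphism. -/
def wKhom : FF K N →+* FF K N := (wK K ι N).toAlgHom.toRingHom

theorem wKhom_apply (x : FF K N) : wKhom K ι N x = wK K ι N x := rfl

theorem wKhom_wKhom (x : FF K N) : wKhom K ι N (wKhom K ι N x) = x := wK_wK K ι N x

theorem wK_algebraMap_O (a : ↥O) :
    wK K ι N (algebraMap ↥O (FF K N) a) = algebraMap ↥O (FF K N) a := by
  rw [IsScalarTower.algebraMap_apply ↥O K (FF K N), AlgEquiv.commutes]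

theorem coe_wK_jF : ((wK K ι N (jF K N) : FF K N) : LaurentSeries K) = qExpand K N (jqModC K) := by
  rw [wK_jF, coe_jdF]

theorem coe_wK_jF_emb :
    ((wK K ι N (jF K N) : FF K N) : LaurentSeries K) = emb ↥O K (qExpand ↥O N (jqModC ↥O)) := by
  rw [coe_wK_jF, emb_jd K O N]

theorem wK_jF_mem : wK K ι N (jF K N) ∈ gaussSubalgebra K N O := by
  rw [mem_gaussSubalgebra_iff, coe_wK_jF_emb K ι O N]
  exact emb_mem_gaussRing _

theorem theta_wK_jF :
    theta K N O ⟨wK K ι N (jF K N), wK_jF_mem K ι O N⟩ = qExpand κ N (jqModC κ) := by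
  rw [theta_of_emb K N O _ _ (coe_wK_jF_emb K ι O N), red_qExpand, red_jqModC]

theorem transcendental_theta_wK_jF :
    Transcendental κ (theta K N O ⟨wK K ι N (jF K N), wK_jF_mem K ι O N⟩) := by
  rw [theta_wK_jF, transcendental_iff_injective]
  exact Fermat.Agent.N4.ModPolyDescent.aeval_qExpand_jqModC_injective N

/-- **(T0) The Fricke involution preserves the Gauss valuation ring** (given `(∗)`). -/
theorem wK_mem_gaussVS_iff (hprime : (fibreIdeal K N O (Rfin K N O)).IsPrime) (x : FF K N) :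
    wK K ι N x ∈ gaussVS K N O ↔ x ∈ gaussVS K N O :=
  Fermat.Agent.S16.GaussUnique.map_mem_gaussVS_iff hprime (wKhom K ι N)
    (fun a => by rw [wKhom_apply]; exact wK_algebraMap_O K ι O N a) (wK_jF_mem K ι O N)
    (transcendental_theta_wK_jF K ι O N) x

theorem comap_wK_gaussVS (hprime : (fibreIdeal K N O (Rfin K N O)).IsPrime) :
    (gaussVS K N O).comap (wKhom K ι N) = gaussVS K N O := by
  ext x
  rw [ValuationSubring.mem_comap, wKhom_apply]
  exact wK_mem_gaussVS_iff K ι O N hprime x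

end W

/-! ### (T1) The second valuation of level `M₀ q` is the Fricke transform of the Gauss valuation -/

section T1

variable (M0 q : ℕ) [NeZero M0] [hq : Fact q.Prime] [CharP (IsLocalRing.ResidueField ↥O) q]

theorem unif_mem_nonunits (N : ℕ) [NeZero N] {ϖ : ↥O} (hϖ : Irreducible ϖ) :
    algebraMap K (FF K N) (ϖ : K) ∈ (gaussVS K N O).nonunits := by
  have hmem : algebraMap K (FF K N) (ϖ : K) ∈ gaussSubalgebra K N O :=
    (unif K N O ϖ).2
  rw [mem_nonunits_gaussVS_iff K N O hmem]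
  exact theta_unif K N O hϖ

/-- The Gauss valuation is unramified over `O`. -/
theorem ram_one_gaussVS (N : ℕ) [NeZero N] {ϖ : ↥O} (hϖ : Irreducible ϖ) :
    ∀ y ∈ (gaussVS K N O).nonunits, y * (algebraMap K (FF K N) (ϖ : K))⁻¹ ∈ gaussVS K N O := by
  intro y hy
  have hyG : y ∈ gaussSubalgebra K N O :=
    Fermat.Agent.S36.V.CountEF.mem_of_mem_nonunits (gaussVS K N O) hy
  rw [mem_nonunits_gaussVS_iff K N O hyG] at hy
  obtain ⟨z, hz⟩ := exists_eq_unif_mul K N O hϖ ⟨y, hyG⟩ hy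
  have hz' : y = algebraMap K (FF K N) (ϖ : K) * (z : FF K N) := congrArg Subtype.val hz
  have hne : algebraMap K (FF K N) (ϖ : K) ≠ 0 := by
    rw [Ne, map_eq_zero]
    exact fun h0 => hϖ.ne_zero (Subtype.ext h0)
  rw [hz', mul_comm, ← mul_assoc, inv_mul_cancel₀ hne, one_mul]
  exact z.2

/-- The distinguishing element `β j − (α j)^q` of `FF K (M₀ q)`. -/
def yDist : FF K (M0 * q) := betaF K M0 q (jF K M0) - alphaF K M0 q (jF K M0) ^ q

theorem yDist_mem : yDist K M0 q ∈ gaussSubalgebra K (M0 * q) O :=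
  (gaussSubalgebra K (M0 * q) O).sub_mem (betaF_mem K O M0 q (jF_mem_gaussSubalgebra K M0 O))
    ((gaussSubalgebra K (M0 * q) O).pow_mem
      (alphaF_mem K O M0 q (jF_mem_gaussSubalgebra K M0 O)) q)

theorem theta_yDist : theta K (M0 * q) O ⟨yDist K M0 q, yDist_mem K O M0 q⟩ = 0 := by
  have e : (⟨yDist K M0 q, yDist_mem K O M0 q⟩ : gaussSubalgebra K (M0 * q) O) =
      ⟨betaF K M0 q (jF K M0), betaF_mem K O M0 q (jF_mem_gaussSubalgebra K M0 O)⟩ -
        ⟨alphaF K M0 q (jF K M0), alphaF_mem K O M0 q (jF_mem_gaussSubalgebra K M0 O)⟩ ^ q := rfl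
  rw [e, map_sub, map_pow,
    theta_betaF K O M0 q ⟨jF K M0, jF_mem_gaussSubalgebra K M0 O⟩,
    theta_alphaF K O M0 q ⟨jF K M0, jF_mem_gaussSubalgebra K M0 O⟩, theta_jF,
    Fermat.Agent.N4F.E.BetaSide.jqModC_pow_eq K q O, sub_self]

theorem yDist_mem_nonunits : yDist K M0 q ∈ (gaussVS K (M0 * q) O).nonunits := by
  rw [mem_nonunits_gaussVS_iff K (M0 * q) O (yDist_mem K O M0 q)]
  exact theta_yDist K O M0 q

theorem wK_yDist :
    wK K ι (M0 * q) (yDist K M0 q) =
      alphaF K M0 q (wK K ι M0 (jF K M0)) - betaF K M0 q (wK K ι M0 (jF K M0)) ^ q := by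
  rw [yDist, map_sub, map_pow, wK_betaF, wK_alphaF]

theorem wK_yDist_mem : wK K ι (M0 * q) (yDist K M0 q) ∈ gaussSubalgebra K (M0 * q) O := by
  rw [wK_yDist]
  exact (gaussSubalgebra K (M0 * q) O).sub_mem (alphaF_mem K O M0 q (wK_jF_mem K ι O M0))
    ((gaussSubalgebra K (M0 * q) O).pow_mem (betaF_mem K O M0 q (wK_jF_mem K ι O M0)) q)

theorem theta_wK_yDist_ne :
    theta K (M0 * q) O ⟨wK K ι (M0 * q) (yDist K M0 q), wK_yDist_mem K ι O M0 q⟩ ≠ 0 := by
  have e : (⟨wK K ι (M0 * q) (yDist K M0 q), wK_yDist_mem K ι O M0 q⟩ :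
      gaussSubalgebra K (M0 * q) O) =
      ⟨alphaF K M0 q (wK K ι M0 (jF K M0)), alphaF_mem K O M0 q (wK_jF_mem K ι O M0)⟩ -
        ⟨betaF K M0 q (wK K ι M0 (jF K M0)), betaF_mem K O M0 q (wK_jF_mem K ι O M0)⟩ ^ q :=
    Subtype.ext (wK_yDist K ι M0 q)
  rw [e, map_sub, map_pow,
    theta_betaF K O M0 q ⟨wK K ι M0 (jF K M0), wK_jF_mem K ι O M0⟩,
    theta_alphaF K O M0 q ⟨wK K ι M0 (jF K M0), wK_jF_mem K ι O M0⟩, theta_wK_jF, ← map_pow,
    ← map_pow, Fermat.Agent.N4F.E.BetaSide.jqModC_pow_eq K q O, qExpand_qExpand, qExpand_qExpand]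
  intro h
  have h1 := congrArg (fun s : LaurentSeries κ => s.coeff ((M0 : ℤ) * (-1))) h
  simp only [HahnSeries.coeff_sub, HahnSeries.coeff_zero] at h1
  rw [qExpand_coeff_mul, coeff_jqModC_neg_one, qExpand_coeff_of_not_dvd, sub_zero] at h1
  · exact one_ne_zero h1
  · intro hdvd
    have hM0 : 0 < M0 := NeZero.pos M0
    have hq2 : 2 ≤ q := hq.out.two_le
    have h2 : ((q * M0 * q : ℕ) : ℤ) ∣ (M0 : ℤ) := by
      rw [mul_neg_one] at hdvd
      exact (dvd_neg).mp hdvd
    have h3 : q * M0 * q ∣ M0 := by exact_mod_cast h2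
    have h4 := Nat.le_of_dvd hM0 h3
    have h5 : 2 * M0 * 2 ≤ q * M0 * q := Nat.mul_le_mul (Nat.mul_le_mul hq2 le_rfl) hq2
    omega

theorem wK_yDist_notMem_nonunits :
    wK K ι (M0 * q) (yDist K M0 q) ∉ (gaussVS K (M0 * q) O).nonunits := by
  rw [mem_nonunits_gaussVS_iff K (M0 * q) O (wK_yDist_mem K ι O M0 q)]
  exact theta_wK_yDist_ne K ι O M0 q

/-- **(T1)** The second valuation of `FF K (M₀ q)` is the Fricke transform of the Gauss
valuation. -/
theorem secondVal_eq_comap (hprime : (fibreIdeal K M0 O (Rfin K M0 O)).IsPrime)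
    (sv : SecondVal K M0 q O) :
    sv.V = (gaussVS K (M0 * q) O).comap (wKhom K ι (M0 * q)) := by
  set V' := (gaussVS K (M0 * q) O).comap (wKhom K ι (M0 * q)) with hV'
  have h1 : ∀ x ∈ gaussSubalgebra K M0 O, betaF K M0 q x ∈ V' := by
    intro x hx
    rw [hV', ValuationSubring.mem_comap, wKhom_apply, wK_betaF, mem_gaussVS_iff, alphaF_mem_iff]
    exact (wK_mem_gaussVS_iff K ι O M0 hprime x).mpr hx
  have h2 : ∀ ϖ : ↥O, Irreducible ϖ → algebraMap K (FF K (M0 * q)) (ϖ : K) ∈ V'.nonunits := by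
    intro ϖ hϖ
    rw [hV', mem_nonunits_comap, wKhom_apply, AlgEquiv.commutes]
    exact unif_mem_nonunits K O (M0 * q) hϖ
  rcases sv.only_two V' h1 h2 with h | h
  · exfalso
    have h3 : yDist K M0 q ∈ V'.nonunits := by
      rw [h]
      exact yDist_mem_nonunits K O M0 q
    rw [hV', mem_nonunits_comap, wKhom_apply] at h3
    exact wK_yDist_notMem_nonunits K ι O M0 q h3
  · exact h.symm

end T1

/-! ### (T3) Generic transport along the Fricke involution -/

section T3

variable (N m : ℕ) [NeZero N] [NeZero m]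

theorem wKhom_alphaF (x : FF K N) :
    wKhom K ι (N * m) (alphaF K N m x) = betaF K N m (wKhom K ι N x) := wK_alphaF K ι N m x

theorem wKhom_betaF (x : FF K N) :
    wKhom K ι (N * m) (betaF K N m x) = alphaF K N m (wKhom K ι N x) := wK_betaF K ι N m x

theorem wKhom_algebraMap (c : K) : wKhom K ι N (algebraMap K (FF K N) c) = algebraMap K (FF K N) c :=
  (wK K ι N).commutes c

theorem comap_wKhom_comap_wKhom (B : ValuationSubring (FF K N)) :
    (B.comap (wKhom K ι N)).comap (wKhom K ι N) = B := by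
  ext x
  rw [ValuationSubring.mem_comap, ValuationSubring.mem_comap, wKhom_wKhom]

theorem comap_wKhom_injective :
    Function.Injective fun B : ValuationSubring (FF K N) => B.comap (wKhom K ι N) := by
  intro B B' h
  have h' : B.comap (wKhom K ι N) = B'.comap (wKhom K ι N) := h
  rw [← comap_wKhom_comap_wKhom K ι N B, h', comap_wKhom_comap_wKhom]

theorem comap_wKhom_eq_iff (B B' : ValuationSubring (FF K N)) :
    B.comap (wKhom K ι N) = B' ↔ B = B'.comap (wKhom K ι N) := by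
  constructor
  · intro h
    rw [← h, comap_wKhom_comap_wKhom]
  · intro h
    rw [h, comap_wKhom_comap_wKhom]

theorem mem_comap_wKhom_iff (B : ValuationSubring (FF K N)) (x : FF K N) :
    wKhom K ι N x ∈ B.comap (wKhom K ι N) ↔ x ∈ B := by
  rw [ValuationSubring.mem_comap, wKhom_wKhom]

theorem mem_nonunits_comap_wKhom_iff (B : ValuationSubring (FF K N)) (x : FF K N) :
    wKhom K ι N x ∈ (B.comap (wKhom K ι N)).nonunits ↔ x ∈ B.nonunits := by
  rw [mem_nonunits_comap, wKhom_wKhom]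

/-- `(w₂⁻¹ B) ∩ α = w₁⁻¹ (B ∩ β)`. -/
theorem comap_wKhom_comap_alphaF (B : ValuationSubring (FF K (N * m))) :
    (B.comap (wKhom K ι (N * m))).comap (alphaF K N m : FF K N →+* FF K (N * m)) =
      (B.comap (betaF K N m : FF K N →+* FF K (N * m))).comap (wKhom K ι N) := by
  ext x
  simp only [ValuationSubring.mem_comap]
  show wKhom K ι (N * m) (alphaF K N m x) ∈ B ↔ betaF K N m (wKhom K ι N x) ∈ B
  rw [wKhom_alphaF]

/-- `(w₂⁻¹ B) ∩ β = w₁⁻¹ (B ∩ α)`. -/
theorem comap_wKhom_comap_betaF (B : ValuationSubring (FF K (N * m))) :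
    (B.comap (wKhom K ι (N * m))).comap (betaF K N m : FF K N →+* FF K (N * m)) =
      (B.comap (alphaF K N m : FF K N →+* FF K (N * m))).comap (wKhom K ι N) := by
  ext x
  simp only [ValuationSubring.mem_comap]
  show wKhom K ι (N * m) (betaF K N m x) ∈ B ↔ alphaF K N m (wKhom K ι N x) ∈ B
  rw [wKhom_betaF]

/-- The uniformiser condition is `w`-invariant. -/
theorem unif_mem_nonunits_comap_wKhom_iff (B : ValuationSubring (FF K N)) (c : K) :
    algebraMap K (FF K N) c ∈ (B.comap (wKhom K ι N)).nonunits ↔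
      algebraMap K (FF K N) c ∈ B.nonunits := by
  rw [mem_nonunits_comap, wKhom_algebraMap]

/-- Transport of `ram_one`. -/
theorem ram_one_comap_wKhom (B : ValuationSubring (FF K N)) (c : K)
    (h : ∀ y ∈ B.nonunits, y * (algebraMap K (FF K N) c)⁻¹ ∈ B) :
    ∀ y ∈ (B.comap (wKhom K ι N)).nonunits,
      y * (algebraMap K (FF K N) c)⁻¹ ∈ B.comap (wKhom K ι N) := by
  intro y hy
  rw [mem_nonunits_comap] at hy
  rw [ValuationSubring.mem_comap, map_mul, map_inv₀, wKhom_algebraMap]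
  exact h _ hy

/-- Transport of a uniformiser. -/
theorem unif_comap_wKhom (B : ValuationSubring (FF K N)) (τ : FF K N)
    (h : ∀ y ∈ B.nonunits, y * τ⁻¹ ∈ B) :
    ∀ y ∈ (B.comap (wKhom K ι N)).nonunits,
      y * (wKhom K ι N τ)⁻¹ ∈ B.comap (wKhom K ι N) := by
  intro y hy
  rw [mem_nonunits_comap] at hy
  rw [ValuationSubring.mem_comap, map_mul, map_inv₀, wKhom_wKhom]
  exact h _ hy

/-- Transport of *residue degree one*: from `(α, U, B)` to `(β, w⁻¹ U, w⁻¹ B)`. -/
theorem deg_one_alpha_to_beta (U : ValuationSubring (FF K N)) (B : ValuationSubring (FF K (N * m)))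
    (h : ∀ y ∈ B, ∃ a : ↥U, y - alphaF K N m (a : FF K N) ∈ B.nonunits) :
    ∀ y ∈ B.comap (wKhom K ι (N * m)), ∃ a : ↥(U.comap (wKhom K ι N)),
      y - betaF K N m (a : FF K N) ∈ (B.comap (wKhom K ι (N * m))).nonunits := by
  intro y hy
  obtain ⟨a, ha⟩ := h _ hy
  refine ⟨⟨wKhom K ι N a, (mem_comap_wKhom_iff K ι N U a).mpr a.2⟩, ?_⟩
  rw [mem_nonunits_comap, map_sub]
  show wKhom K ι (N * m) y - wKhom K ι (N * m) (betaF K N m (wKhom K ι N a)) ∈ B.nonunits
  rw [wKhom_betaF, wKhom_wKhom]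
  exact ha

/-- Transport of *residue degree one*: from `(β, U, B)` to `(α, w⁻¹ U, w⁻¹ B)`. -/
theorem deg_one_beta_to_alpha (U : ValuationSubring (FF K N)) (B : ValuationSubring (FF K (N * m)))
    (h : ∀ y ∈ B, ∃ a : ↥U, y - betaF K N m (a : FF K N) ∈ B.nonunits) :
    ∀ y ∈ B.comap (wKhom K ι (N * m)), ∃ a : ↥(U.comap (wKhom K ι N)),
      y - alphaF K N m (a : FF K N) ∈ (B.comap (wKhom K ι (N * m))).nonunits := by
  intro y hy
  obtain ⟨a, ha⟩ := h _ hy
  refine ⟨⟨wKhom K ι N a, (mem_comap_wKhom_iff K ι N U a).mpr a.2⟩, ?_⟩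
  rw [mem_nonunits_comap, map_sub]
  show wKhom K ι (N * m) y - wKhom K ι (N * m) (alphaF K N m (wKhom K ι N a)) ∈ B.nonunits
  rw [wKhom_alphaF, wKhom_wKhom]
  exact ha

/-- Transport of the *purely inseparable* residue condition: from `(β, U, B)` to
`(α, w⁻¹ U, w⁻¹ B)`. -/
theorem insep_beta_to_alpha (e : ℕ) (U : ValuationSubring (FF K N))
    (B : ValuationSubring (FF K (N * m)))
    (h : ∀ y ∈ B, ∃ a : ↥U, y ^ e - betaF K N m (a : FF K N) ∈ B.nonunits) :
    ∀ y ∈ B.comap (wKhom K ι (N * m)), ∃ a : ↥(U.comap (wKhom K ι N)),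
      y ^ e - alphaF K N m (a : FF K N) ∈ (B.comap (wKhom K ι (N * m))).nonunits := by
  intro y hy
  obtain ⟨a, ha⟩ := h _ hy
  refine ⟨⟨wKhom K ι N a, (mem_comap_wKhom_iff K ι N U a).mpr a.2⟩, ?_⟩
  rw [mem_nonunits_comap, map_sub, map_pow]
  show wKhom K ι (N * m) y ^ e - wKhom K ι (N * m) (alphaF K N m (wKhom K ι N a)) ∈ B.nonunits
  rw [wKhom_alphaF, wKhom_wKhom]
  exact ha

/-- Transport of an *only* statement: from `(α, U)` to `(β, w⁻¹ U)`. -/
theorem only_alpha_to_beta (U : ValuationSubring (FF K N))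
    (P : ValuationSubring (FF K (N * m)) → Prop)
    (h : ∀ B : ValuationSubring (FF K (N * m)), (∀ g ∈ U, alphaF K N m g ∈ B) →
      (∀ ϖ : ↥O, Irreducible ϖ → algebraMap K (FF K (N * m)) (ϖ : K) ∈ B.nonunits) → P B) :
    ∀ B : ValuationSubring (FF K (N * m)),
      (∀ g ∈ U.comap (wKhom K ι N), betaF K N m g ∈ B) →
      (∀ ϖ : ↥O, Irreducible ϖ → algebraMap K (FF K (N * m)) (ϖ : K) ∈ B.nonunits) →
      P (B.comap (wKhom K ι (N * m))) := by
  intro B h1 h2
  apply h
  · intro g hg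
    rw [ValuationSubring.mem_comap, wKhom_alphaF]
    exact h1 _ ((mem_comap_wKhom_iff K ι N U g).mpr hg)
  · intro ϖ hϖ
    rw [unif_mem_nonunits_comap_wKhom_iff]
    exact h2 ϖ hϖ

/-- Transport of an *only* statement: from `(β, U)` to `(α, w⁻¹ U)`. -/
theorem only_beta_to_alpha (U : ValuationSubring (FF K N))
    (P : ValuationSubring (FF K (N * m)) → Prop)
    (h : ∀ B : ValuationSubring (FF K (N * m)), (∀ g ∈ U, betaF K N m g ∈ B) →
      (∀ ϖ : ↥O, Irreducible ϖ → algebraMap K (FF K (N * m)) (ϖ : K) ∈ B.nonunits) → P B) :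
    ∀ B : ValuationSubring (FF K (N * m)),
      (∀ g ∈ U.comap (wKhom K ι N), alphaF K N m g ∈ B) →
      (∀ ϖ : ↥O, Irreducible ϖ → algebraMap K (FF K (N * m)) (ϖ : K) ∈ B.nonunits) →
      P (B.comap (wKhom K ι (N * m))) := by
  intro B h1 h2
  apply h
  · intro g hg
    rw [ValuationSubring.mem_comap, wKhom_betaF]
    exact h1 _ ((mem_comap_wKhom_iff K ι N U g).mpr hg)
  · intro ϖ hϖ
    rw [unif_mem_nonunits_comap_wKhom_iff]
    exact h2 ϖ hϖ

end T3

/-! ### Transport of integrality -/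

section Integral

theorem isIntegralElem_transport {A A' L L' : Type*} [CommRing A] [CommRing A'] [CommRing L]
    [CommRing L'] (f : A →+* L) (f' : A' →+* L') (σ : L →+* L') (τ : A →+* A')
    (h : ∀ a, σ (f a) = f' (τ a)) {y : L} (hy : f.IsIntegralElem y) :
    f'.IsIntegralElem (σ y) := by
  obtain ⟨p, hm, hp⟩ := hy
  refine ⟨p.map τ, hm.map τ, ?_⟩
  rw [Polynomial.eval₂_map]
  have e : f'.comp τ = σ.comp f := RingHom.ext fun a => (h a).symm
  rw [e, ← Polynomial.hom_eval₂, hp, map_zero]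

end Integral

/-! ### (T2) `V02` and the comap table -/

section T2

variable (M0 q : ℕ) [NeZero M0] [NeZero q]

/-- The Gauss valuation of level `M₀ q²`. -/
abbrev V20 : ValuationSubring (FF K (M0 * q * q)) := gaussVS K (M0 * q * q) O

/-- **`V02`**: the Fricke transform of the Gauss valuation of level `M₀ q²`. -/
def V02 : ValuationSubring (FF K (M0 * q * q)) :=
  (gaussVS K (M0 * q * q) O).comap (wKhom K ι (M0 * q * q))

theorem mem_V02_iff (x : FF K (M0 * q * q)) :
    x ∈ V02 K ι O M0 q ↔ wK K ι (M0 * q * q) x ∈ gaussSubalgebra K (M0 * q * q) O := Iff.rfl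

theorem mem_nonunits_V02_iff (x : FF K (M0 * q * q)) :
    x ∈ (V02 K ι O M0 q).nonunits ↔
      wK K ι (M0 * q * q) x ∈ (gaussVS K (M0 * q * q) O).nonunits :=
  mem_nonunits_comap _ _ x

/-- `V20 ∩ α₂ (F₁) = V10`. -/
theorem comap_alpha_V20 :
    (gaussVS K (M0 * q * q) O).comap
      (alphaF K (M0 * q) q : FF K (M0 * q) →+* FF K (M0 * q * q)) = gaussVS K (M0 * q) O := by
  ext x
  rw [ValuationSubring.mem_comap, mem_gaussVS_iff, mem_gaussVS_iff]
  exact alphaF_mem_iff K O (M0 * q) q x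

/-- `V20 ∩ β₂ (F₁) = V10`. -/
theorem comap_beta_V20 :
    (gaussVS K (M0 * q * q) O).comap
      (betaF K (M0 * q) q : FF K (M0 * q) →+* FF K (M0 * q * q)) = gaussVS K (M0 * q) O := by
  ext x
  rw [ValuationSubring.mem_comap, mem_gaussVS_iff, mem_gaussVS_iff]
  exact betaF_mem_iff K O (M0 * q) q x

/-- `V02 ∩ α₂ (F₁) = w₁⁻¹ V10`. -/
theorem comap_alpha_V02' :
    (V02 K ι O M0 q).comap (alphaF K (M0 * q) q : FF K (M0 * q) →+* FF K (M0 * q * q)) =
      (gaussVS K (M0 * q) O).comap (wKhom K ι (M0 * q)) := by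
  ext x
  rw [ValuationSubring.mem_comap, ValuationSubring.mem_comap, wKhom_apply]
  show wK K ι (M0 * q * q) (alphaF K (M0 * q) q x) ∈ gaussSubalgebra K (M0 * q * q) O ↔ _
  rw [wK_alphaF, betaF_mem_iff]
  exact Iff.rfl

/-- `V02 ∩ β₂ (F₁) = w₁⁻¹ V10`. -/
theorem comap_beta_V02' :
    (V02 K ι O M0 q).comap (betaF K (M0 * q) q : FF K (M0 * q) →+* FF K (M0 * q * q)) =
      (gaussVS K (M0 * q) O).comap (wKhom K ι (M0 * q)) := by
  ext x
  rw [ValuationSubring.mem_comap, ValuationSubring.mem_comap, wKhom_apply]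
  show wK K ι (M0 * q * q) (betaF K (M0 * q) q x) ∈ gaussSubalgebra K (M0 * q * q) O ↔ _
  rw [wK_betaF, alphaF_mem_iff]
  exact Iff.rfl

end T2

section T2sv

variable (M0 q : ℕ) [NeZero M0] [hq : Fact q.Prime] [CharP (IsLocalRing.ResidueField ↥O) q]
  (hprime : (fibreIdeal K M0 O (Rfin K M0 O)).IsPrime) (sv : SecondVal K M0 q O)

include hprime in
/-- **`V02 ∩ α₂ (F₁) = V01`.** -/
theorem comap_alpha_V02 :
    (V02 K ι O M0 q).comap (alphaF K (M0 * q) q : FF K (M0 * q) →+* FF K (M0 * q * q)) = sv.V := by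
  rw [comap_alpha_V02', secondVal_eq_comap K ι O M0 q hprime sv]

include hprime in
/-- **`V02 ∩ β₂ (F₁) = V01`.** -/
theorem comap_beta_V02 :
    (V02 K ι O M0 q).comap (betaF K (M0 * q) q : FF K (M0 * q) →+* FF K (M0 * q * q)) = sv.V := by
  rw [comap_beta_V02', secondVal_eq_comap K ι O M0 q hprime sv]

include hprime sv in
/-- **`V02 ≠ V20`.** -/
theorem V02_ne_V20 : V02 K ι O M0 q ≠ gaussVS K (M0 * q * q) O := by
  intro h
  have h1 := comap_alpha_V02 K ι O M0 q hprime sv
  rw [h, comap_alpha_V20] at h1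
  exact sv.ne_gauss h1.symm

end T2sv

end Fermat.Agent.S36.V.Transport
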