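/-
S36 / block [V], part (V-top) (helper24): **the three valuations of `FF K (M₀ q²)` above `q`**,
packaged as a structure `ThreeVal` in the style of `P3G.SecondValuation.SecondVal`.

Setting: `K` a field of characteristic zero, `O ⊆ K` a discrete valuation ring with fraction field
`K` and residue field `κ` of characteristic `q`, `q ∤ M₀`, `sv : SecondVal K M₀ q O` the second
valuation `V01` of `F₁ = FF K (M₀ q)`; `F₂ = FF K (M₀ q²)`, `α₂ β₂ : F₁ → F₂` the two degeneracy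
maps (`alphaF/betaF K (M₀ q) q`), `α₁ β₁ : F₀ → F₁`.

* `V10 = gaussVS K (M₀ q) O`, `V01 = sv.V` : the two valuations of `F₁` (places `θ₁`, `sv.ev`);
* `V20 = gaussVS K (M₀ q²) O` (place `θ₂`), `V11`, `V02` : the three valuations of `F₂`;
  `V20, V11` lie over `V10` along `α₂`, `V02` over `V01` along `α₂`;
  `V20` over `V10` along `β₂`, `V11, V02` over `V01` along `β₂`;
* `Π = β₂ β₁ j − α₂ α₁ j` (`MidVal.PiElt`) is a uniformiser of `V11`, `q = w Π^(q-1)` with `w` a unit.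

The existence theorem `nonempty_threeVal` is in `S36/V/ThreeValExists.lean`.
-/
import Mathlib
import Fermat.Agent.S36.V.Transport
import Fermat.Agent.S36.V.MidVal

set_option autoImplicit false
set_option linter.unusedSectionVars false
set_option linter.style.haveILetI false

open ModularCurve Fermat.Agent.S28.Gauss Fermat.Agent.N4.Chart Fermat.Agent.N4.Setting
  Fermat.Agent.N4.FibreEmbedding Fermat.Agent.N4F.E.GaussDVR Fermat.Agent.N4F.E.DegreeLevelRaise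
  Fermat.Agent.P3G.SecondValuation Fermat.Agent.S36.V.MidVal Fermat.Agent.S36.R3.PiSeries

noncomputable section

namespace Fermat.Agent.S36.V.ThreeVal

variable (K : Type) [Field K] [CharZero K] (M0 q : ℕ) [NeZero M0] [hq : Fact q.Prime]
  (O : Subring K) [IsDiscreteValuationRing ↥O] [IsFractionRing ↥O K]

/-- `α₂ : F₁ → F₂` as a ring homomorphism. -/
abbrev a2 : FF K (M0 * q) →+* FF K (M0 * q * q) :=
  (alphaF K (M0 * q) q : FF K (M0 * q) →+* FF K (M0 * q * q))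

/-- `β₂ : F₁ → F₂` as a ring homomorphism. -/
abbrev b2 : FF K (M0 * q) →+* FF K (M0 * q * q) :=
  (betaF K (M0 * q) q : FF K (M0 * q) →+* FF K (M0 * q * q))

/-- **The three valuations of `FF K (M₀ q²)` above `q`.** -/
structure ThreeVal (sv : SecondVal K M0 q O) where
  /-- the middle valuation -/
  V11 : ValuationSubring (FF K (M0 * q * q))
  /-- the third valuation (the Fricke transform of the Gauss valuation `V20`) -/
  V02 : ValuationSubring (FF K (M0 * q * q))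
  /-- the place of `V11` -/
  ev11 : ↥V11 →+* LaurentSeries (IsLocalRing.ResidueField ↥O)
  /-- the place of `V02` -/
  ev02 : ↥V02 →+* LaurentSeries (IsLocalRing.ResidueField ↥O)
  ev11_eq_zero_iff : ∀ y : ↥V11, ev11 y = 0 ↔ (y : FF K (M0 * q * q)) ∈ V11.nonunits
  ev02_eq_zero_iff : ∀ y : ↥V02, ev02 y = 0 ↔ (y : FF K (M0 * q * q)) ∈ V02.nonunits
  /- (b) the comap table -/
  comap_alpha_V11 : V11.comap (a2 K M0 q) = gaussVS K (M0 * q) O
  comap_beta_V11 : V11.comap (b2 K M0 q) = sv.V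
  comap_alpha_V02 : V02.comap (a2 K M0 q) = sv.V
  comap_beta_V02 : V02.comap (b2 K M0 q) = sv.V
  /- (c) the places -/
  ev11_alpha : ∀ (x : FF K (M0 * q)) (hx : x ∈ gaussSubalgebra K (M0 * q) O)
    (hx' : alphaF K (M0 * q) q x ∈ V11),
    ev11 ⟨alphaF K (M0 * q) q x, hx'⟩ = theta K (M0 * q) O ⟨x, hx⟩
  ev11_beta : ∀ (x : FF K (M0 * q)) (hx : x ∈ sv.V) (hx' : betaF K (M0 * q) q x ∈ V11),
    ev11 ⟨betaF K (M0 * q) q x, hx'⟩ = sv.ev ⟨x, hx⟩
  ev02_beta : ∀ (x : FF K (M0 * q)) (hx : x ∈ sv.V) (hx' : betaF K (M0 * q) q x ∈ V02),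
    ev02 ⟨betaF K (M0 * q) q x, hx'⟩ = sv.ev ⟨x, hx⟩
  ev02_alpha : ∀ (x : FF K (M0 * q)) (hx : x ∈ sv.V) (hx' : alphaF K (M0 * q) q x ∈ V02),
    ev02 ⟨alphaF K (M0 * q) q x, hx'⟩ =
      qExpand (IsLocalRing.ResidueField ↥O) q (sv.ev ⟨x, hx⟩)
  /- (d) residue degree one / purely inseparable residue extensions -/
  deg_one_V20 : ∀ y ∈ gaussVS K (M0 * q * q) O, ∃ a : ↥(gaussSubalgebra K (M0 * q) O),
    y - alphaF K (M0 * q) q (a : FF K (M0 * q)) ∈ (gaussVS K (M0 * q * q) O).nonunits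
  deg_one_V11_alpha : ∀ y ∈ V11, ∃ a : ↥(gaussSubalgebra K (M0 * q) O),
    y - alphaF K (M0 * q) q (a : FF K (M0 * q)) ∈ V11.nonunits
  deg_one_V11_beta : ∀ y ∈ V11, ∃ a : ↥sv.V,
    y - betaF K (M0 * q) q (a : FF K (M0 * q)) ∈ V11.nonunits
  deg_one_V02 : ∀ y ∈ V02, ∃ a : ↥sv.V,
    y - betaF K (M0 * q) q (a : FF K (M0 * q)) ∈ V02.nonunits
  insep_V20 : ∀ y ∈ gaussVS K (M0 * q * q) O, ∃ a : ↥(gaussSubalgebra K (M0 * q) O),
    y ^ q - betaF K (M0 * q) q (a : FF K (M0 * q)) ∈ (gaussVS K (M0 * q * q) O).nonunits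
  insep_V02 : ∀ y ∈ V02, ∃ a : ↥sv.V,
    y ^ q - alphaF K (M0 * q) q (a : FF K (M0 * q)) ∈ V02.nonunits
  /- (e) ramification -/
  ram_one_V02 : ∀ ϖ : ↥O, Irreducible ϖ → ∀ y ∈ V02.nonunits,
    y * (algebraMap K (FF K (M0 * q * q)) (ϖ : K))⁻¹ ∈ V02
  Pi_mem_nonunits : PiElt K M0 q ∈ V11.nonunits
  unif_V11 : ∀ y ∈ V11.nonunits, y * (PiElt K M0 q)⁻¹ ∈ V11
  ram_V11 : ∃ w : FF K (M0 * q * q), w ∈ V11 ∧ w⁻¹ ∈ V11 ∧
    ((q : ℕ) : FF K (M0 * q * q)) = w * PiElt K M0 q ^ (q - 1)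
  Pi_unit_V02 : PiElt K M0 q ∈ V02 ∧ PiElt K M0 q ∉ V02.nonunits
  /- (f) distinctness and "only" -/
  V11_ne_V20 : V11 ≠ gaussVS K (M0 * q * q) O
  V02_ne_V20 : V02 ≠ gaussVS K (M0 * q * q) O
  V11_ne_V02 : V11 ≠ V02
  only_alpha_V10 : ∀ B : ValuationSubring (FF K (M0 * q * q)),
    (∀ g ∈ gaussSubalgebra K (M0 * q) O, alphaF K (M0 * q) q g ∈ B) →
    (∀ ϖ : ↥O, Irreducible ϖ → algebraMap K (FF K (M0 * q * q)) (ϖ : K) ∈ B.nonunits) →
    B = gaussVS K (M0 * q * q) O ∨ B = V11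
  only_beta_V10 : ∀ B : ValuationSubring (FF K (M0 * q * q)),
    (∀ g ∈ gaussSubalgebra K (M0 * q) O, betaF K (M0 * q) q g ∈ B) →
    (∀ ϖ : ↥O, Irreducible ϖ → algebraMap K (FF K (M0 * q * q)) (ϖ : K) ∈ B.nonunits) →
    B = gaussVS K (M0 * q * q) O
  only_alpha_V01 : ∀ B : ValuationSubring (FF K (M0 * q * q)),
    (∀ g ∈ sv.V, alphaF K (M0 * q) q g ∈ B) →
    (∀ ϖ : ↥O, Irreducible ϖ → algebraMap K (FF K (M0 * q * q)) (ϖ : K) ∈ B.nonunits) →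
    B = V02
  only_beta_V01 : ∀ B : ValuationSubring (FF K (M0 * q * q)),
    (∀ g ∈ sv.V, betaF K (M0 * q) q g ∈ B) →
    (∀ ϖ : ↥O, Irreducible ϖ → algebraMap K (FF K (M0 * q * q)) (ϖ : K) ∈ B.nonunits) →
    B = V11 ∨ B = V02
  only_three : ∀ B : ValuationSubring (FF K (M0 * q * q)),
    (∀ g ∈ gaussSubalgebra K M0 O, alphaF K (M0 * q) q (alphaF K M0 q g) ∈ B) →
    (∀ ϖ : ↥O, Irreducible ϖ → algebraMap K (FF K (M0 * q * q)) (ϖ : K) ∈ B.nonunits) →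
    B = gaussVS K (M0 * q * q) O ∨ B = V11 ∨ B = V02
  /- (g) integrality -/
  isIntegral_alpha_V10 : ∀ y : FF K (M0 * q * q), y ∈ gaussVS K (M0 * q * q) O → y ∈ V11 →
    ((a2 K M0 q).comp (gaussVS K (M0 * q) O).subtype).IsIntegralElem y
  isIntegral_beta_V10 : ∀ y : FF K (M0 * q * q), y ∈ gaussVS K (M0 * q * q) O →
    ((b2 K M0 q).comp (gaussVS K (M0 * q) O).subtype).IsIntegralElem y
  isIntegral_alpha_V01 : ∀ y : FF K (M0 * q * q), y ∈ V02 →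
    ((a2 K M0 q).comp sv.V.subtype).IsIntegralElem y
  isIntegral_beta_V01 : ∀ y : FF K (M0 * q * q), y ∈ V11 → y ∈ V02 →
    ((b2 K M0 q).comp sv.V.subtype).IsIntegralElem y
  /- the Wilson residue -/
  wilson : ∀ (g : FF K M0) (hg : g ∈ gaussSubalgebra K M0 O),
    ∃ hw : (betaF K (M0 * q) q (betaF K M0 q g) - alphaF K (M0 * q) q (alphaF K M0 q g)) ^ (q - 1) *
        ((q : ℕ) : FF K (M0 * q * q))⁻¹ ∈ V11,
      ev11 ⟨_, hw⟩ = -(thetaL (theta K M0 O ⟨g, hg⟩)) ^ (q - 1)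

end Fermat.Agent.S36.V.ThreeVal
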