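/-
S36 / block [V], leaf (V-mid), part 2 (helper15): **the middle valuation `V11` lies over the second
valuation `V01` along `β₂`**: `(midVS h).comap β₂ = sv.V` for every `sv : SecondVal K M₀ q O`, and
`ev11 ∘ β₂ = ρ ∘ ev01`.
-/
import Mathlib
import Fermat.Agent.S36.V.MidVal

set_option autoImplicit false
set_option linter.unusedSectionVars false
set_option linter.style.haveILetI false

namespace Fermat.Agent.S36.V.MidValBeta

open ModularCurve Fermat.Agent.S28.Gauss Fermat.Agent.N4.Setting Fermat.Agent.N4.FibreEmbedding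
open Fermat.Agent.N4F.E.DegreeLevelRaise Fermat.Agent.N4F.E.GaussDVR
open Fermat.Agent.N4.TwistSeries Fermat.Agent.S36.R3.PiSeries IsLocalRing
open Fermat.Agent.S36.V.MidVal Fermat.Agent.P3G.SecondValuation Fermat.Agent.P3G

/-! ### Nonunits of a comap -/

theorem mem_nonunits_comap_iff {F₁ F₂ : Type*} [Field F₁] [Field F₂] (φ : F₁ →+* F₂)
    (V : ValuationSubring F₂) (x : F₁) : x ∈ (V.comap φ).nonunits ↔ φ x ∈ V.nonunits := by
  by_cases hx : x = 0
  · subst hx
    rw [map_zero]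
    exact ⟨fun _ => LocVS.zero_mem_nonunits _, fun _ => LocVS.zero_mem_nonunits _⟩
  · rw [LocVS.mem_nonunits_iff_inv_notMem _ hx,
      LocVS.mem_nonunits_iff_inv_notMem _ ((map_ne_zero φ).mpr hx), ValuationSubring.mem_comap,
      map_inv₀]

section

variable {K : Type} [Field K] [CharZero K] {M0 q : ℕ} [NeZero M0] [NeZero q]
  {O : Subring K} [IsDiscreteValuationRing ↥O] [IsFractionRing ↥O K]
  {K' : Type} [Field K'] [Algebra K K']
  {O' : Subring K'} [IsDiscreteValuationRing ↥O'] [IsFractionRing ↥O' K']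
  {s : FF K (M0 * q * q) →+* LaurentSeries K'} {u : K'ˣ}

/-- `β₂ ∘ α₁ = α₂ ∘ β₁`. -/
theorem betaF_alphaF (x : FF K M0) :
    betaF K (M0 * q) q (alphaF K M0 q x) = alphaF K (M0 * q) q (betaF K M0 q x) := by
  apply Subtype.ext
  rw [coe_betaF, coe_alphaF, coe_alphaF, coe_betaF]

/-- Constants are mapped to constants. -/
theorem s_algebraMap_O (h : MidEmb K M0 q O K' O' s u) (a : ↥O) :
    s (algebraMap K (FF K (M0 * q * q)) (a : K)) =
      emb ↥O' K' (HahnSeries.C (incl O O' h.dom a)) := by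
  rw [h.const, algebraMap_laurentSeries_eq_single]
  exact (coeffMap_single (algebraMap ↥O' K') 0 (incl O O' h.dom a)).symm

/-- Nonunit constants of `O` are nonunits of `V11`. -/
theorem algebraMap_mem_nonunits (h : MidEmb K M0 q O K' O' s u) {a : ↥O} (ha : ¬ IsUnit a) :
    algebraMap K (FF K (M0 * q * q)) (a : K) ∈ (midVS h).nonunits := by
  have hmem : algebraMap K (FF K (M0 * q * q)) (a : K) ∈ midVS h := by
    rw [mem_midVS_iff, s_algebraMap_O h]
    exact emb_mem_gaussRing _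
  rw [← midEv_eq_zero_iff h ⟨_, hmem⟩, midEv_apply]
  have e : (⟨s (algebraMap K (FF K (M0 * q * q)) (a : K)), hmem⟩ : gaussRing ↥O' K') =
      ⟨emb ↥O' K' (HahnSeries.C (incl O O' h.dom a)), emb_mem_gaussRing _⟩ :=
    Subtype.ext (s_algebraMap_O h a)
  rw [e, gaussRed_emb]
  have e2 : red ↥O' (HahnSeries.C (incl O O' h.dom a)) =
      HahnSeries.C (residue ↥O' (incl O O' h.dom a)) :=
    coeffMap_single (residue ↥O') 0 _
  haveI := isLocalHom_incl O O' h.dom
  have h3 : ¬ IsUnit (incl O O' h.dom a) := fun hu => ha (isUnit_of_map_unit _ a hu)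
  rw [e2, (residue_eq_zero_iff _).mpr ((mem_maximalIdeal _).mpr h3), map_zero]

variable [hq : Fact q.Prime] [CharP (ResidueField ↥O) q]

/-- The test element `t = j^q − j'` of level `M₀ q`. -/
noncomputable def testElt (K : Type) [Field K] (M0 q : ℕ) [NeZero M0] [NeZero q] : FF K (M0 * q) :=
  alphaF K M0 q (jF K M0) ^ q - betaF K M0 q (jF K M0)

theorem testElt_mem_gaussSubalgebra : testElt K M0 q ∈ gaussSubalgebra K (M0 * q) O :=
  Subalgebra.sub_mem _
    (Subalgebra.pow_mem _ (alphaF_mem K O M0 q (jF_mem_gaussSubalgebra K M0 O)) q)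
    (betaF_mem K O M0 q (jF_mem_gaussSubalgebra K M0 O))

/-- `θ₁ t = j̄^q − j̄(Q^q) = 0` in characteristic `q`. -/
theorem theta_testElt :
    theta K (M0 * q) O ⟨testElt K M0 q, testElt_mem_gaussSubalgebra⟩ = 0 := by
  have e : (⟨testElt K M0 q, testElt_mem_gaussSubalgebra⟩ : gaussSubalgebra K (M0 * q) O) =
      ⟨alphaF K M0 q (jF K M0), alphaF_mem K O M0 q (jF_mem_gaussSubalgebra K M0 O)⟩ ^ q -
      ⟨betaF K M0 q (jF K M0), betaF_mem K O M0 q (jF_mem_gaussSubalgebra K M0 O)⟩ := rfl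
  have h1 := theta_betaF K O M0 q ⟨jF K M0, jF_mem_gaussSubalgebra K M0 O⟩
  have h2 := theta_alphaF K O M0 q ⟨jF K M0, jF_mem_gaussSubalgebra K M0 O⟩
  rw [e, map_sub, map_pow, h1, h2, theta_jF, Fermat.Agent.N4.Kronecker.pow_char_eq_qExpand q,
    coeffMap_jqModC, sub_self]

theorem testElt_mem_nonunits_gaussVS :
    testElt K M0 q ∈ (gaussVS K (M0 * q) O).nonunits :=
  (mem_nonunits_gaussVS_iff K (M0 * q) O testElt_mem_gaussSubalgebra).mpr theta_testElt

/-- The series `j̄(Q^q)^q − j̄(Q)` is nonzero (coefficient `−1` at `Q⁻¹`). -/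
theorem testSeries_ne_zero :
    qExpand (ResidueField ↥O) q (jqModC (ResidueField ↥O)) ^ q - jqModC (ResidueField ↥O) ≠ 0 := by
  intro h0
  rw [Fermat.Agent.N4.Kronecker.pow_char_eq_qExpand q] at h0
  have h1 := congrArg (fun f : LaurentSeries (ResidueField ↥O) => f.coeff (-1)) h0
  have hnd : ¬ ((q : ℕ) : ℤ) ∣ (-1 : ℤ) := by
    rw [Int.dvd_neg]
    intro hd
    have : q ∣ 1 := by exact_mod_cast hd
    exact hq.out.one_lt.ne' (Nat.dvd_one.mp this)
  simp only [HahnSeries.coeff_sub, qExpand_coeff_of_not_dvd q _ hnd, coeff_jqModC_neg_one,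
    HahnSeries.coeff_zero] at h1
  have h3 : (-1 : ResidueField ↥O) = 0 := by
    rw [zero_sub] at h1
    exact h1
  exact one_ne_zero (neg_eq_zero.mp h3)

/-- `β₂ t = (α₂ (β₁ j))^q − β₂ (β₁ j)`. -/
theorem betaF_testElt :
    betaF K (M0 * q) q (testElt K M0 q) =
      alphaF K (M0 * q) q (betaF K M0 q (jF K M0)) ^ q -
        betaF K (M0 * q) q (betaF K M0 q (jF K M0)) := by
  rw [testElt, map_sub, map_pow, betaF_alphaF]

theorem betaF_testElt_mem_midVS (h : MidEmb K M0 q O K' O' s u) :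
    betaF K (M0 * q) q (testElt K M0 q) ∈ midVS h := by
  rw [betaF_testElt]
  exact (midVS h).sub_mem
    ((midVS h).toSubring.pow_mem
      (alphaF_mem_midVS h (betaF_mem K O M0 q (jF_mem_gaussSubalgebra K M0 O))) q)
    (betaF_betaF_mem_midVS h (jF_mem_gaussSubalgebra K M0 O))

/-- `ev11 (β₂ t) = ρ (j̄(Q^q)^q − j̄(Q))`. -/
theorem midEv_betaF_testElt (h : MidEmb K M0 q O K' O' s u) :
    midEv h ⟨betaF K (M0 * q) q (testElt K M0 q), betaF_testElt_mem_midVS h⟩ =
      coeffMap (resMap O O' h.dom)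
        (qExpand (ResidueField ↥O) q (jqModC (ResidueField ↥O)) ^ q -
          jqModC (ResidueField ↥O)) := by
  have e : (⟨betaF K (M0 * q) q (testElt K M0 q), betaF_testElt_mem_midVS h⟩ : ↥(midVS h)) =
      ⟨alphaF K (M0 * q) q (betaF K M0 q (jF K M0)),
        alphaF_mem_midVS h (betaF_mem K O M0 q (jF_mem_gaussSubalgebra K M0 O))⟩ ^ q -
      ⟨betaF K (M0 * q) q (betaF K M0 q (jF K M0)),
        betaF_betaF_mem_midVS h (jF_mem_gaussSubalgebra K M0 O)⟩ :=
    Subtype.ext betaF_testElt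
  have h1 := theta_betaF K O M0 q ⟨jF K M0, jF_mem_gaussSubalgebra K M0 O⟩
  rw [e, map_sub, map_pow, midEv_alphaF h (betaF_mem K O M0 q (jF_mem_gaussSubalgebra K M0 O)),
    midEv_betaF_betaF h (jF_mem_gaussSubalgebra K M0 O), h1, theta_jF, map_sub, map_pow]

/-- `β₂ t` is a **unit** of `V11`, although `t` is a nonunit of `V10`. -/
theorem betaF_testElt_not_mem_nonunits (h : MidEmb K M0 q O K' O' s u) :
    betaF K (M0 * q) q (testElt K M0 q) ∉ (midVS h).nonunits := by
  intro hmem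
  have h1 := (midEv_eq_zero_iff h ⟨_, betaF_testElt_mem_midVS h⟩).mpr hmem
  rw [midEv_betaF_testElt] at h1
  exact coeffMap_resMap_ne_zero O O' h.dom testSeries_ne_zero h1

/-- **`V11 ∩ β₂ (F₁) = V01`**: the middle valuation lies over the second valuation along `β₂`. -/
theorem midVS_comap_betaF (h : MidEmb K M0 q O K' O' s u) (sv : SecondVal K M0 q O) :
    (midVS h).comap (betaF K (M0 * q) q : FF K (M0 * q) →+* FF K (M0 * q * q)) = sv.V := by
  have hW1 : ∀ x ∈ gaussSubalgebra K M0 O, betaF K M0 q x ∈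
      (midVS h).comap (betaF K (M0 * q) q : FF K (M0 * q) →+* FF K (M0 * q * q)) := by
    intro x hx
    rw [ValuationSubring.mem_comap]
    exact betaF_betaF_mem_midVS h hx
  have hW2 : ∀ ϖ : ↥O, Irreducible ϖ → algebraMap K (FF K (M0 * q)) (ϖ : K) ∈
      ((midVS h).comap
        (betaF K (M0 * q) q : FF K (M0 * q) →+* FF K (M0 * q * q))).nonunits := by
    intro ϖ hϖ
    rw [mem_nonunits_comap_iff]
    have e : (betaF K (M0 * q) q : FF K (M0 * q) →+* FF K (M0 * q * q))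
        (algebraMap K (FF K (M0 * q)) (ϖ : K)) = algebraMap K (FF K (M0 * q * q)) (ϖ : K) :=
      (betaF K (M0 * q) q).commutes (ϖ : K)
    rw [e]
    exact algebraMap_mem_nonunits h hϖ.not_isUnit
  rcases sv.only_two _ hW1 hW2 with h1 | h1
  · exfalso
    have h2 : testElt K M0 q ∈
        ((midVS h).comap
          (betaF K (M0 * q) q : FF K (M0 * q) →+* FF K (M0 * q * q))).nonunits := by
      rw [h1]
      exact testElt_mem_nonunits_gaussVS
    rw [mem_nonunits_comap_iff] at h2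
    exact betaF_testElt_not_mem_nonunits h h2
  · exact h1

theorem betaF_mem_midVS_iff (h : MidEmb K M0 q O K' O' s u) (sv : SecondVal K M0 q O)
    (y : FF K (M0 * q)) : betaF K (M0 * q) q y ∈ midVS h ↔ y ∈ sv.V := by
  rw [← midVS_comap_betaF h sv, ValuationSubring.mem_comap]
  rfl

theorem betaF_mem_midVS (h : MidEmb K M0 q O K' O' s u) (sv : SecondVal K M0 q O)
    {y : FF K (M0 * q)} (hy : y ∈ sv.V) : betaF K (M0 * q) q y ∈ midVS h :=
  (betaF_mem_midVS_iff h sv y).mpr hy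

theorem betaF_mem_nonunits_midVS_iff (h : MidEmb K M0 q O K' O' s u) (sv : SecondVal K M0 q O)
    (y : FF K (M0 * q)) : betaF K (M0 * q) q y ∈ (midVS h).nonunits ↔ y ∈ sv.V.nonunits := by
  rw [← midVS_comap_betaF h sv, mem_nonunits_comap_iff]
  rfl

/-- **`ev11 ∘ β₂ = ρ ∘ ev01`.** -/
theorem midEv_betaF (h : MidEmb K M0 q O K' O' s u) (sv : SecondVal K M0 q O)
    {y : FF K (M0 * q)} (hy : y ∈ sv.V) :
    midEv h ⟨betaF K (M0 * q) q y, betaF_mem_midVS h sv hy⟩ =
      coeffMap (resMap O O' h.dom) (sv.ev ⟨y, hy⟩) := by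
  obtain ⟨a, ha⟩ := sv.deg_one y hy
  have hβa : betaF K M0 q (a : FF K M0) ∈ sv.V := sv.beta_mem _ a.2
  -- `ev01 y = θ₀ a`
  have h1 : sv.ev ⟨y, hy⟩ = theta K M0 O a := by
    have h2 : sv.ev (⟨y, hy⟩ - ⟨betaF K M0 q (a : FF K M0), hβa⟩) = 0 :=
      (sv.ev_eq_zero_iff _).mpr ha
    rw [map_sub, sub_eq_zero] at h2
    rw [h2]
    exact sv.ev_beta _ a.2
  -- `ev11 (β₂ y) = ev11 (β₂ β₁ a)`
  have h3 : betaF K (M0 * q) q y - betaF K (M0 * q) q (betaF K M0 q (a : FF K M0)) ∈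
      (midVS h).nonunits := by
    rw [← map_sub, betaF_mem_nonunits_midVS_iff h sv]
    exact ha
  have h4 : midEv h (⟨betaF K (M0 * q) q y, betaF_mem_midVS h sv hy⟩ -
      ⟨betaF K (M0 * q) q (betaF K M0 q (a : FF K M0)), betaF_betaF_mem_midVS h a.2⟩) = 0 :=
    (midEv_eq_zero_iff h _).mpr h3
  rw [map_sub, sub_eq_zero] at h4
  rw [h4, midEv_betaF_betaF h a.2, h1]

end

end Fermat.Agent.S36.V.MidValBeta
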