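/-
S36 / block [V] → [CUSP] (helper15): **the six residue relations at the cusps from the fields of
`T : ThreeVal K M₀ q O sv`** (abstract `V11 = T.V11`, `V02 = T.V02`), in the exact shape of
`Cusp/Regular` / `Cusp/AllCusps` (helper17), `jj = α₂ α₁ j`, `jj'' = β₂ β₁ j` (`Cusp/ModEqFF`).
Also: `jj, jj''` are units of `T.V11` and `T.V02`, with their residues.
-/
import Mathlib
import Fermat.Agent.S36.V.ThreeVal
import Fermat.Agent.S36.V.CuspRel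

set_option autoImplicit false
set_option linter.unusedSectionVars false
set_option linter.style.haveILetI false

open ModularCurve Fermat.Agent.S28.Gauss Fermat.Agent.N4.Chart Fermat.Agent.N4.Setting
  Fermat.Agent.N4.FibreEmbedding Fermat.Agent.N4F.E.GaussDVR Fermat.Agent.N4F.E.DegreeLevelRaise
  Fermat.Agent.P3G.SecondValuation Fermat.Agent.S36.V.MidVal Fermat.Agent.S36.R3.PiSeries
  Fermat.Agent.S36.V.ThreeVal Fermat.Agent.S36.V.CuspRel Fermat.Agent.S36.Cusp.ModEqFF IsLocalRing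

namespace Fermat.Agent.S36.V.ThreeValCusp

/-! ### Abstract: units of a valuation ring with a place -/

section Abstract

variable {F Ω : Type*} [Field F] [CommRing Ω] (W : ValuationSubring F) (ev : ↥W →+* Ω)
  (hker : ∀ y : ↥W, ev y = 0 ↔ (y : F) ∈ W.nonunits)

include hker in
theorem inv_mem_of_ev_ne_zero {x : F} (hx : x ∈ W) (hne : ev ⟨x, hx⟩ ≠ 0) : x⁻¹ ∈ W := by
  by_contra hni
  have hx0 : x ≠ 0 := by
    rintro rfl
    exact hni (by rw [inv_zero]; exact W.zero_mem)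
  have : x ∈ W.nonunits := (Fermat.Agent.P3G.LocVS.mem_nonunits_iff_inv_notMem _ hx0).mpr hni
  exact hne ((hker ⟨x, hx⟩).mpr this)

end Abstract

variable (K : Type) [Field K] [CharZero K] (M0 q : ℕ) [NeZero M0] [hq : Fact q.Prime]
  (O : Subring K) [IsDiscreteValuationRing ↥O] [IsFractionRing ↥O K]
  {sv : SecondVal K M0 q O} (T : ThreeVal K M0 q O sv)

/-! ### `V11` -/

theorem alphaF_mem_V11 {x : FF K (M0 * q)} (hx : x ∈ gaussSubalgebra K (M0 * q) O) :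
    alphaF K (M0 * q) q x ∈ T.V11 := by
  have h : x ∈ T.V11.comap (a2 K M0 q) := by
    rw [T.comap_alpha_V11]
    exact hx
  exact ValuationSubring.mem_comap.mp h

theorem jj_mem_V11 : jj K M0 q ∈ T.V11 := by
  unfold jj
  exact alphaF_mem_V11 K M0 q O T (alphaF_mem K O M0 q (jF_mem_gaussSubalgebra K M0 O))

theorem ev11_jj : T.ev11 ⟨jj K M0 q, jj_mem_V11 K M0 q O T⟩ = jqModC (ResidueField ↥O) := by
  have h1 := T.ev11_alpha (alphaF K M0 q (jF K M0))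
    (alphaF_mem K O M0 q (jF_mem_gaussSubalgebra K M0 O)) (jj_mem_V11 K M0 q O T)
  have h2 := theta_alphaF K O M0 q ⟨jF K M0, jF_mem_gaussSubalgebra K M0 O⟩
  rw [h2, theta_jF] at h1
  exact h1

theorem Pi_mem_V11 : PiElt K M0 q ∈ T.V11 :=
  Fermat.Agent.S36.V.CountEF.mem_of_mem_nonunits _ T.Pi_mem_nonunits

theorem jj''_eq : jj'' K M0 q = jj K M0 q + PiElt K M0 q := by
  rw [PiElt, jj, jj'']
  ring

theorem jj''_mem_V11 : jj'' K M0 q ∈ T.V11 := by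
  rw [jj''_eq]
  exact T.V11.add_mem _ _ (jj_mem_V11 K M0 q O T) (Pi_mem_V11 K M0 q O T)

theorem ev11_jj'' : T.ev11 ⟨jj'' K M0 q, jj''_mem_V11 K M0 q O T⟩ = jqModC (ResidueField ↥O) := by
  have e : (⟨jj'' K M0 q, jj''_mem_V11 K M0 q O T⟩ : ↥T.V11) =
      ⟨jj K M0 q, jj_mem_V11 K M0 q O T⟩ + ⟨PiElt K M0 q, Pi_mem_V11 K M0 q O T⟩ :=
    Subtype.ext (jj''_eq K M0 q)
  rw [e, map_add, ev11_jj, (T.ev11_eq_zero_iff _).mpr T.Pi_mem_nonunits, add_zero]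

theorem jj_inv_mem_V11 : (jj K M0 q)⁻¹ ∈ T.V11 :=
  inv_mem_of_ev_ne_zero T.V11 T.ev11 T.ev11_eq_zero_iff (jj_mem_V11 K M0 q O T)
    (by rw [ev11_jj]; exact jq_ne_zero _)

theorem jj''_inv_mem_V11 : (jj'' K M0 q)⁻¹ ∈ T.V11 :=
  inv_mem_of_ev_ne_zero T.V11 T.ev11 T.ev11_eq_zero_iff (jj''_mem_V11 K M0 q O T)
    (by rw [ev11_jj'']; exact jq_ne_zero _)

/-- **(h11a)** -/
theorem h11a : T.V11.valuation (jj K M0 q)⁻¹ = 1 :=
  valuation_inv_eq_one _ (jj_ne_zero K M0 q) (jj_mem_V11 K M0 q O T) (jj_inv_mem_V11 K M0 q O T)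

/-- **(h11c)** -/
theorem h11c : T.V11.valuation ((jj'' K M0 q)⁻¹ - (jj K M0 q)⁻¹) < 1 := by
  apply valuation_lt_one_of_mem_nonunits
  have h1 : jj K M0 q ^ 1 - jj'' K M0 q ∈ T.V11.nonunits := by
    have e : jj K M0 q ^ 1 - jj'' K M0 q = -PiElt K M0 q := by
      rw [pow_one, jj''_eq]
      ring
    rw [e]
    exact Fermat.Agent.S36.V.CountEF.neg_mem_nonunits _ T.Pi_mem_nonunits
  have h2 := inv_sub_inv_pow_mem_nonunits T.V11 1 (jj_ne_zero K M0 q) (jj''_ne_zero K M0 q)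
    (jj_inv_mem_V11 K M0 q O T) (jj''_inv_mem_V11 K M0 q O T) h1
  rw [pow_one] at h2
  exact h2

/-! ### `V02` -/

theorem betaF_mem_V02 {x : FF K (M0 * q)} (hx : x ∈ sv.V) :
    betaF K (M0 * q) q x ∈ T.V02 := by
  have h : x ∈ T.V02.comap (b2 K M0 q) := by
    rw [T.comap_beta_V02]
    exact hx
  exact ValuationSubring.mem_comap.mp h

theorem alphaF_mem_V02 {x : FF K (M0 * q)} (hx : x ∈ sv.V) :
    alphaF K (M0 * q) q x ∈ T.V02 := by
  have h : x ∈ T.V02.comap (a2 K M0 q) := by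
    rw [T.comap_alpha_V02]
    exact hx
  exact ValuationSubring.mem_comap.mp h

theorem jj''_mem_V02 : jj'' K M0 q ∈ T.V02 := by
  unfold jj''
  exact betaF_mem_V02 K M0 q O T (sv.beta_mem _ (jF_mem_gaussSubalgebra K M0 O))

theorem ev02_jj'' : T.ev02 ⟨jj'' K M0 q, jj''_mem_V02 K M0 q O T⟩ = jqModC (ResidueField ↥O) := by
  have h1 := T.ev02_beta (betaF K M0 q (jF K M0))
    (sv.beta_mem _ (jF_mem_gaussSubalgebra K M0 O)) (jj''_mem_V02 K M0 q O T)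
  rw [sv.ev_beta _ (jF_mem_gaussSubalgebra K M0 O), theta_jF] at h1
  exact h1

theorem jj_mem_V02 : jj K M0 q ∈ T.V02 := by
  unfold jj
  exact alphaF_mem_V02 K M0 q O T (sv.alpha_mem _ (jF_mem_gaussSubalgebra K M0 O))

theorem ev02_jj : T.ev02 ⟨jj K M0 q, jj_mem_V02 K M0 q O T⟩ =
    qExpand (ResidueField ↥O) q (qExpand (ResidueField ↥O) q (jqModC (ResidueField ↥O))) := by
  have h1 := T.ev02_alpha (alphaF K M0 q (jF K M0))
    (sv.alpha_mem _ (jF_mem_gaussSubalgebra K M0 O)) (jj_mem_V02 K M0 q O T)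
  rw [sv.ev_alpha _ (jF_mem_gaussSubalgebra K M0 O), theta_jF] at h1
  exact h1

theorem jj''_inv_mem_V02 : (jj'' K M0 q)⁻¹ ∈ T.V02 :=
  inv_mem_of_ev_ne_zero T.V02 T.ev02 T.ev02_eq_zero_iff (jj''_mem_V02 K M0 q O T)
    (by rw [ev02_jj'']; exact jq_ne_zero _)

theorem jj_inv_mem_V02 : (jj K M0 q)⁻¹ ∈ T.V02 :=
  inv_mem_of_ev_ne_zero T.V02 T.ev02 T.ev02_eq_zero_iff (jj_mem_V02 K M0 q O T)
    (by
      rw [ev02_jj]
      intro h0
      exact jq_ne_zero (ResidueField ↥O) (qExpand_injective q (qExpand_injective q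
        (by rw [h0, map_zero, map_zero]))))

/-- **(h02c)** -/
theorem h02c : T.V02.valuation (jj'' K M0 q)⁻¹ = 1 :=
  valuation_inv_eq_one _ (jj''_ne_zero K M0 q) (jj''_mem_V02 K M0 q O T)
    (jj''_inv_mem_V02 K M0 q O T)

/-- `v02 (jj⁻¹) = 1`. -/
theorem h02c' : T.V02.valuation (jj K M0 q)⁻¹ = 1 :=
  valuation_inv_eq_one _ (jj_ne_zero K M0 q) (jj_mem_V02 K M0 q O T) (jj_inv_mem_V02 K M0 q O T)

variable [CharP (ResidueField ↥O) q]

theorem pow_sub_mem_nonunits_V02 :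
    jj'' K M0 q ^ (q ^ 2) - jj K M0 q ∈ T.V02.nonunits := by
  have hmem : jj'' K M0 q ^ (q ^ 2) - jj K M0 q ∈ T.V02 :=
    T.V02.sub_mem (T.V02.toSubring.pow_mem (jj''_mem_V02 K M0 q O T) _)
      (jj_mem_V02 K M0 q O T)
  rw [← T.ev02_eq_zero_iff ⟨_, hmem⟩]
  have e : (⟨_, hmem⟩ : ↥T.V02) =
      ⟨jj'' K M0 q, jj''_mem_V02 K M0 q O T⟩ ^ (q ^ 2) - ⟨jj K M0 q, jj_mem_V02 K M0 q O T⟩ := rfl
  rw [e, map_sub, map_pow, ev02_jj'', ev02_jj,
    Fermat.Agent.N4F.E.GaussResidue.qExpand_jqModC_eq_pow (ResidueField ↥O) q, map_pow,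
    Fermat.Agent.N4F.E.GaussResidue.qExpand_jqModC_eq_pow (ResidueField ↥O) q, ← pow_mul, ← pow_two, sub_self]

/-- **(h02a)** -/
theorem h02a : T.V02.valuation ((jj K M0 q)⁻¹ - (jj'' K M0 q)⁻¹ ^ (q ^ 2)) < 1 :=
  valuation_lt_one_of_mem_nonunits _
    (inv_sub_inv_pow_mem_nonunits T.V02 (q ^ 2) (jj''_ne_zero K M0 q) (jj_ne_zero K M0 q)
      (jj''_inv_mem_V02 K M0 q O T) (jj_inv_mem_V02 K M0 q O T)
      (pow_sub_mem_nonunits_V02 K M0 q O T))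

/-- **The six relations, packaged** for `V = ![V20, T.V11, T.V02]` (`Cusp/Regular` shape). -/
theorem six_relations_T (V : Fin 3 → ValuationSubring (FF K (M0 * q * q)))
    (hV : V = ![gaussVS K (M0 * q * q) O, T.V11, T.V02]) :
    (V 0).valuation (jj K M0 q)⁻¹ = 1 ∧
    (V 0).valuation ((jj'' K M0 q)⁻¹ - (jj K M0 q)⁻¹ ^ (q ^ 2)) < 1 ∧
    (V 1).valuation (jj K M0 q)⁻¹ = 1 ∧
    (V 1).valuation ((jj'' K M0 q)⁻¹ - (jj K M0 q)⁻¹) < 1 ∧
    (V 2).valuation (jj'' K M0 q)⁻¹ = 1 ∧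
    (V 2).valuation ((jj K M0 q)⁻¹ - (jj'' K M0 q)⁻¹ ^ (q ^ 2)) < 1 := by
  subst hV
  exact ⟨h20a K O M0 q, h20c K O M0 q, h11a K M0 q O T, h11c K M0 q O T, h02c K M0 q O T,
    h02a K M0 q O T⟩

end Fermat.Agent.S36.V.ThreeValCusp
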