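/-
S36, block [V] (helper28): the `α₂`-table over `V10` with the middle valuation `V11 = midVS h`
(helper15's `V/MidVal`) — `CountAlong.twoAlong_alpha` discharged.

Over `α₂(G₁)`, `G₁` the Gauss ring of level `M₀ q`, the valuation subrings of `FF K (M₀ q²)` are
exactly `V20 = gaussVS` with `(e, f) = (1, 1)` and `V11 = midVS h` with `(e, f) = (q − 1, 1)`,
uniformiser `Π = PiElt`, `q = w Π^(q−1)` with `w = wilsonElt` a unit of `V11`.
-/
import Mathlib
import Fermat.Agent.S36.V.CountAlong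
import Fermat.Agent.S36.V.MidVal

set_option autoImplicit false
set_option linter.unusedSectionVars false
set_option linter.style.haveILetI false

open ModularCurve AlgebraicCurve
open Fermat.Agent.N4.Setting Fermat.Agent.N4.FibreEmbedding
open Fermat.Agent.N4F.E.DegreeLevelRaise Fermat.Agent.N4F.E.GaussDVR
open Fermat.Agent.S36.V.CountAlong Fermat.Agent.S36.V.MidVal

noncomputable section

namespace Fermat.Agent.S36.V.CountMid

variable {K : Type} [Field K] [CharZero K] {M0 q : ℕ} [NeZero M0] [NeZero q]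
  {O : Subring K} [IsDiscreteValuationRing ↥O] [IsFractionRing ↥O K]
  {K' : Type} [Field K'] [Algebra K K']
  {O' : Subring K'} [IsDiscreteValuationRing ↥O'] [IsFractionRing ↥O' K']
  {s : FF K (M0 * q * q) →+* LaurentSeries K'} {u : K'ˣ}

theorem algebraMap_natCast_eq :
    algebraMap K (FF K (M0 * q * q)) ((((q : ℕ) : ↥O) : ↥O) : K) = ((q : ℕ) : FF K (M0 * q * q)) := by
  rw [Subring.coe_natCast, map_natCast]

/-- **The `α₂`-table over `V10`**: `{V20 (1,1), V11 (q−1,1)}`. -/
theorem twoAlong_alpha_mid (ι : K →+* ℂ) (h : MidEmb K M0 q O K' O' s u)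
    (hirr : Irreducible ((q : ℕ) : ↥O)) :
    TwoAlong (alphaF K (M0 * q) q).toRingHom (gaussVS K (M0 * q) O) (gaussVS K (M0 * q * q) O)
      (midVS h) (algebraMap K (FF K (M0 * q)) ((((q : ℕ) : ↥O) : ↥O) : K)) (q - 1) (PiElt K M0 q)
      (wilsonElt K M0 q) := by
  haveI : Fact q.Prime := ⟨h.prime⟩
  refine twoAlong_alpha K (M0 * q) q O ι (dvd_mul_left q M0) hirr (midVS h)
    (fun x hx => alphaF_mem_midVS h hx) ?_ (midVS_ne_gaussVS h) (PiElt_mem_nonunits h)
    (wilsonElt_mem_midVS h) ?_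
  · rw [algebraMap_natCast_eq]
    exact natCast_q_mem_nonunits h
  · rw [algebraMap_natCast_eq]
    exact natCast_eq_wilsonElt_mul h

variable (ι : K →+* ℂ) (h : MidEmb K M0 q O K' O' s u) (hirr : Irreducible ((q : ℕ) : ↥O))

include ι h hirr

/-- `only_alpha_V10`. -/
theorem only_alpha_mid (B : ValuationSubring (FF K (M0 * q * q)))
    (hB : ∀ g ∈ gaussSubalgebra K (M0 * q) O, alphaF K (M0 * q) q g ∈ B)
    (hϖB : ∀ ϖ : ↥O, Irreducible ϖ → algebraMap K (FF K (M0 * q * q)) (ϖ : K) ∈ B.nonunits) :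
    B = gaussVS K (M0 * q * q) O ∨ B = midVS h := by
  haveI : Fact q.Prime := ⟨h.prime⟩
  exact only_alpha K (M0 * q) q O (twoAlong_alpha_mid ι h hirr) hirr B hB hϖB

/-- `isIntegral_alpha_V10` (SecondVal shape). -/
theorem isIntegral_alpha_mid {y : FF K (M0 * q * q)} (hy : y ∈ gaussVS K (M0 * q * q) O)
    (hyb : y ∈ midVS h) :
    letI := algebraAlong (alphaF K (M0 * q) q)
    IsIntegral ↥(gaussSubalgebra K (M0 * q) O) y := by
  haveI : Fact q.Prime := ⟨h.prime⟩
  exact isIntegral_alpha K (M0 * q) q O (twoAlong_alpha_mid ι h hirr) hy hyb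

/-- `deg_one_V20`. -/
theorem deg_one_gauss_mid {y : FF K (M0 * q * q)} (hy : y ∈ gaussVS K (M0 * q * q) O) :
    ∃ a : ↥(gaussSubalgebra K (M0 * q) O),
      y - alphaF K (M0 * q) q (a : FF K (M0 * q)) ∈ (gaussVS K (M0 * q * q) O).nonunits := by
  haveI : Fact q.Prime := ⟨h.prime⟩
  exact deg_one_alpha_gauss K (M0 * q) q O (twoAlong_alpha_mid ι h hirr) hy

/-- `deg_one_V11_alpha`. -/
theorem deg_one_mid {y : FF K (M0 * q * q)} (hy : y ∈ midVS h) :
    ∃ a : ↥(gaussSubalgebra K (M0 * q) O),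
      y - alphaF K (M0 * q) q (a : FF K (M0 * q)) ∈ (midVS h).nonunits := by
  haveI : Fact q.Prime := ⟨h.prime⟩
  exact deg_one_alpha_second K (M0 * q) q O (twoAlong_alpha_mid ι h hirr) hy

/-- `unif_V11`: `Π` is a uniformiser of `V11`. -/
theorem unif_mid : ∀ y ∈ (midVS h).nonunits, y * (PiElt K M0 q)⁻¹ ∈ midVS h := by
  haveI : Fact q.Prime := ⟨h.prime⟩
  haveI := isDiscreteValuationRing_gaussVS K (M0 * q) O
  exact (twoAlong_alpha_mid ι h hirr).ramB

/-- `V11.valuation q = V11.valuation Π ^ (q − 1)`. -/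
theorem valuation_natCast_mid :
    (midVS h).valuation ((q : ℕ) : FF K (M0 * q * q)) =
      (midVS h).valuation (PiElt K M0 q) ^ (q - 1) := by
  haveI : Fact q.Prime := ⟨h.prime⟩
  haveI := isDiscreteValuationRing_gaussVS K (M0 * q) O
  have := (twoAlong_alpha_mid ι h hirr).valuation_unif
  rw [← algebraMap_natCast_eq (K := K) (M0 := M0) (q := q) (O := O)]
  convert this using 2
  exact (AlgHom.commutes (alphaF K (M0 * q) q) _).symm

/-- hdisc for `V11`: every value is a power of `v(Π)`. -/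
theorem disc_mid {x : FF K (M0 * q * q)} (hx : x ≠ 0) :
    ∃ n : ℤ, (midVS h).valuation x = (midVS h).valuation (PiElt K M0 q) ^ n := by
  haveI : Fact q.Prime := ⟨h.prime⟩
  haveI := isDiscreteValuationRing_gaussVS K (M0 * q) O
  exact (twoAlong_alpha_mid ι h hirr).discB hx

/-- `V11` is a discrete valuation ring. -/
theorem isDiscreteValuationRing_mid : IsDiscreteValuationRing ↥(midVS h) := by
  haveI : Fact q.Prime := ⟨h.prime⟩
  haveI := isDiscreteValuationRing_gaussVS K (M0 * q) O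
  exact (twoAlong_alpha_mid ι h hirr).dvrB

end Fermat.Agent.S36.V.CountMid
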