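/-
S36, block [V] (helper28): the counting tables along the two degeneracy maps at a prime `q ∣ N`.

* `dedekindPsi_mul_prime_of_dvd` : `ψ(N q) = q ψ(N)` for a prime `q ∣ N`;
* `finrank_alphaF_of_dvd`, `finrank_betaF_of_dvd` : `[FF K (N q) : α(FF K N)] = q = [FF K (N q) : β(FF K N)]`.
-/
import Mathlib
import Fermat.Agent.S36.V.CountEF
import Fermat.Agent.N4F.E.GaussDVR
import Fermat.Agent.N4F.E.BetaSide
import Fermat.Agent.P3G.SecondValuation
import Fermat.Agent.P3G.DiscreteVal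

set_option autoImplicit false
set_option linter.unusedSectionVars false
set_option linter.style.haveILetI false

open ModularCurve AlgebraicCurve
open Fermat.Agent.N4.Setting Fermat.Agent.N4.FibreEmbedding
open Fermat.Agent.N4F.E.DegreeLevelRaise Fermat.Agent.N4F.E.GaussDVR

noncomputable section

namespace Fermat.Agent.S36.V.CountAlong

/-! ### Degrees at a prime dividing the level -/

section Psi

theorem dedekindPsi_mul_prime_of_dvd {N q : ℕ} (hq : q.Prime) (hN : N ≠ 0) (h : q ∣ N) :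
    dedekindPsi (N * q) = q * dedekindPsi N := by
  obtain ⟨e, m, hm, rfl⟩ := Nat.exists_eq_pow_mul_and_not_dvd hN q hq.ne_one
  have he : e ≠ 0 := by
    rintro rfl
    rw [pow_zero, one_mul] at h
    exact hm h
  obtain ⟨k, rfl⟩ : ∃ k, e = k + 1 := ⟨e - 1, by omega⟩
  have hc : ∀ j : ℕ, (q ^ j).Coprime m := fun j =>
    Nat.Coprime.pow_left j ((Nat.Prime.coprime_iff_not_dvd hq).mpr hm)
  have e1 : q ^ (k + 1) * m * q = q ^ (k + 1 + 1) * m := by ring
  rw [e1, Fermat.Agent.M2.P1.dedekindPsi_mul (hc _), Fermat.Agent.M2.P1.dedekindPsi_mul (hc _),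
    Fermat.Agent.M2.P1.dedekindPsi_prime_pow q (k + 1) hq,
    Fermat.Agent.M2.P1.dedekindPsi_prime_pow q k hq]
  ring

end Psi

section Degrees

variable (K : Type) [Field K] [CharZero K] (N : ℕ) [NeZero N] (q : ℕ) [Fact q.Prime]

/-- **`[FF K (N q) : α(FF K N)] = q`** for a prime `q ∣ N`. -/
theorem finrank_alphaF_of_dvd (ι : K →+* ℂ) (hqN : q ∣ N) :
    Module.finrank (alphaF K N q).fieldRange (FF K (N * q)) = q := by
  have h := psi_mul_finrank_alphaF K N q ι
  rw [dedekindPsi_mul_prime_of_dvd Fact.out (NeZero.ne N) hqN, mul_comm q] at h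
  exact Nat.eq_of_mul_eq_mul_left (Fermat.Agent.N4.ModPolyShape.dedekindPsi_pos N) h

/-- **`[FF K (N q) : β(FF K N)] = q`** for a prime `q ∣ N`. -/
theorem finrank_betaF_of_dvd (ι : K →+* ℂ) (hqN : q ∣ N) :
    Module.finrank (betaF K N q).fieldRange (FF K (N * q)) = q := by
  have h := psi_mul_finrank_betaF K N q ι
  rw [dedekindPsi_mul_prime_of_dvd Fact.out (NeZero.ne N) hqN, mul_comm q] at h
  exact Nat.eq_of_mul_eq_mul_left (Fermat.Agent.N4.ModPolyShape.dedekindPsi_pos N) h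

/-- The same for any algebra structure `FF K N → FF K (N q)` given by `α`. -/
theorem finrank_of_algebraMap_eq_alphaF_of_dvd (ι : K →+* ℂ) (hqN : q ∣ N)
    [Algebra (FF K N) (FF K (N * q))]
    (h : algebraMap (FF K N) (FF K (N * q)) = (alphaF K N q).toRingHom) :
    Module.finrank (FF K N) (FF K (N * q)) = q := by
  rw [finrank_eq_finrank_fieldRange (alphaF K N q) h, finrank_alphaF_of_dvd K N q ι hqN]

/-- The same for any algebra structure `FF K N → FF K (N q)` given by `β`. -/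
theorem finrank_of_algebraMap_eq_betaF_of_dvd (ι : K →+* ℂ) (hqN : q ∣ N)
    [Algebra (FF K N) (FF K (N * q))]
    (h : algebraMap (FF K N) (FF K (N * q)) = (betaF K N q).toRingHom) :
    Module.finrank (FF K N) (FF K (N * q)) = q := by
  rw [finrank_eq_finrank_fieldRange (betaF K N q) h, finrank_betaF_of_dvd K N q ι hqN]

end Degrees

/-! ### The explicit power basis of a purely inseparable residue extension -/

section ResExplicit

open Polynomial IsLocalRing

variable {A L : Type*} [CommRing A] [IsLocalRing A] [Field L] [Algebra A L]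
  (W : ValuationSubring L) (hWA : ∀ a : A, algebraMap A L a ∈ W)

include hWA in
/-- The explicit form of `CountEF.res_pow`: the powers `1, x, …, x^(q-1)` have independent
residues. -/
theorem res_pow_explicit (hWm : ∀ a ∈ maximalIdeal A, algebraMap A L a ∈ W.nonunits)
    {q : ℕ} (hq : q.Prime) {x : L} (hx : x ∈ W) (t : A)
    (hxt : x ^ q - algebraMap A L t ∈ W.nonunits)
    (ht : ∀ b : A, b ^ q - t ∉ maximalIdeal A)
    (a : Fin q → A) (ha : (∑ j, algebraMap A L (a j) * x ^ (j : ℕ)) ∈ W.nonunits) (j : Fin q) :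
    a j ∈ maximalIdeal A := by
  -- the residue fields
  letI : Field (A ⧸ maximalIdeal A) := Ideal.Quotient.field _
  letI : Field (↥W ⧸ maximalIdeal ↥W) := Ideal.Quotient.field _
  let f : A →+* ↥W := (algebraMap A L).codRestrict W.toSubring hWA
  have hf : ∀ a ∈ maximalIdeal A, f a ∈ maximalIdeal ↥W := by
    intro a ha
    have := hWm a ha
    rw [ValuationSubring.mem_nonunits_iff_exists_mem_maximalIdeal] at this
    obtain ⟨_, h⟩ := this
    exact h
  let φ : (A ⧸ maximalIdeal A) →+* (↥W ⧸ maximalIdeal ↥W) :=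
    Ideal.Quotient.lift (maximalIdeal A) ((Ideal.Quotient.mk (maximalIdeal ↥W)).comp f)
      (fun a ha => Ideal.Quotient.eq_zero_iff_mem.2 (hf a ha))
  letI : Algebra (A ⧸ maximalIdeal A) (↥W ⧸ maximalIdeal ↥W) := φ.toAlgebra
  set xb : ↥W ⧸ maximalIdeal ↥W := Ideal.Quotient.mk _ ⟨x, hx⟩ with hxb
  set tb : A ⧸ maximalIdeal A := Ideal.Quotient.mk _ t with htb
  have hroot0 : xb ^ q = algebraMap (A ⧸ maximalIdeal A) (↥W ⧸ maximalIdeal ↥W) tb := by
    show xb ^ q = φ tb
    rw [hxb, htb, ← map_pow, Ideal.Quotient.lift_mk, RingHom.comp_apply, ← sub_eq_zero, ← map_sub,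
      Ideal.Quotient.eq_zero_iff_mem]
    rw [ValuationSubring.mem_nonunits_iff_exists_mem_maximalIdeal] at hxt
    obtain ⟨_, h⟩ := hxt
    exact h
  have htne : ∀ b : A ⧸ maximalIdeal A, b ^ q ≠ tb := by
    intro b hb
    obtain ⟨b, rfl⟩ := Ideal.Quotient.mk_surjective b
    rw [htb, ← map_pow, ← sub_eq_zero, ← map_sub, Ideal.Quotient.eq_zero_iff_mem] at hb
    exact ht b hb
  have hirr : Irreducible (X ^ q - C tb : (A ⧸ maximalIdeal A)[X]) :=
    X_pow_sub_C_irreducible_of_prime hq htne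
  have hmonic : (X ^ q - C tb : (A ⧸ maximalIdeal A)[X]).Monic := monic_X_pow_sub_C tb hq.ne_zero
  have hroot : aeval xb (X ^ q - C tb : (A ⧸ maximalIdeal A)[X]) = 0 := by
    simp [hroot0]
  have hmin : (X ^ q - C tb : (A ⧸ maximalIdeal A)[X]) = minpoly (A ⧸ maximalIdeal A) xb :=
    minpoly.eq_of_irreducible_of_monic hirr hroot hmonic
  -- the polynomial with coefficients `a j`
  set p : (A ⧸ maximalIdeal A)[X] := ∑ j : Fin q, C (Ideal.Quotient.mk _ (a j)) * X ^ (j : ℕ)
    with hp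
  have hpx : aeval xb p = 0 := by
    rw [hp, map_sum]
    have h1 : ∀ j : Fin q, aeval xb (C (Ideal.Quotient.mk (maximalIdeal A) (a j)) * X ^ (j : ℕ)) =
        Ideal.Quotient.mk (maximalIdeal ↥W) (f (a j) * ⟨x, hx⟩ ^ (j : ℕ)) := by
      intro j
      rw [map_mul, aeval_C, map_pow, aeval_X, map_mul, map_pow]
      rfl
    rw [Finset.sum_congr rfl fun j _ => h1 j, ← map_sum, Ideal.Quotient.eq_zero_iff_mem]
    rw [ValuationSubring.mem_nonunits_iff_exists_mem_maximalIdeal] at ha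
    obtain ⟨hmem, h⟩ := ha
    convert h using 1
    apply Subtype.ext
    simp [f]
  have hdeg : p.degree < (q : WithBot ℕ) := by
    rw [hp]
    refine lt_of_le_of_lt (Polynomial.degree_sum_le _ _) ?_
    refine (Finset.sup_lt_iff (WithBot.bot_lt_coe q)).2 ?_
    intro j _
    refine lt_of_le_of_lt (Polynomial.degree_C_mul_X_pow_le _ _) ?_
    exact WithBot.coe_lt_coe.2 j.2
  have hp0 : p = 0 := by
    by_contra hne
    have hdvd : minpoly (A ⧸ maximalIdeal A) xb ∣ p := minpoly.dvd _ _ hpx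
    rw [← hmin] at hdvd
    have h2 := Polynomial.degree_le_of_dvd hdvd hne
    rw [Polynomial.degree_X_pow_sub_C hq.pos] at h2
    exact absurd h2 (not_le.2 hdeg)
  have hcoeff : p.coeff (j : ℕ) = Ideal.Quotient.mk _ (a j) := by
    rw [hp, Polynomial.finsetSum_coeff]
    rw [Finset.sum_eq_single j]
    · rw [Polynomial.coeff_C_mul_X_pow, if_pos rfl]
    · intro k _ hk
      rw [Polynomial.coeff_C_mul_X_pow, if_neg]
      intro h
      exact hk (Fin.ext h.symm)
    · intro h; exact absurd (Finset.mem_univ j) h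
  rw [hp0, Polynomial.coeff_zero] at hcoeff
  exact Ideal.Quotient.eq_zero_iff_mem.1 hcoeff.symm

end ResExplicit

/-! ### The abstract tables -/

section Abstract

open IsLocalRing Fermat.Agent.S36.V.CountEF Fermat.Agent.P3G

variable {A F L : Type*} [CommRing A] [IsDomain A] [IsDiscreteValuationRing A] [Field F]
  [Algebra A F] [IsFractionRing A F] [Field L] [Algebra F L] [Algebra A L] [IsScalarTower A F L]
  [FiniteDimensional F L] [Algebra.IsSeparable F L]

theorem dom_of_unif {ϖ : A} (hϖ : Irreducible ϖ) (W : ValuationSubring L)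
    (hWA : ∀ a : A, algebraMap A L a ∈ W) (hϖW : algebraMap A L ϖ ∈ W.nonunits) :
    ∀ a ∈ maximalIdeal A, algebraMap A L a ∈ W.nonunits := by
  intro a ha
  rw [hϖ.maximalIdeal_eq, Ideal.mem_span_singleton'] at ha
  obtain ⟨b, rfl⟩ := ha
  rw [map_mul, mul_comm]
  exact LocVS.mul_mem_nonunits W hϖW (hWA b)

theorem valuation_unit_eq_one (W : ValuationSubring L) (hWA : ∀ a : A, algebraMap A L a ∈ W)
    (u : Aˣ) : W.valuation (algebraMap A L (u : A)) = 1 := by
  have h1 := (W.valuation_le_one_iff _).2 (hWA (u : A))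
  have h2 := (W.valuation_le_one_iff _).2 (hWA ((u⁻¹ : Aˣ) : A))
  have h3 : W.valuation (algebraMap A L (u : A)) * W.valuation (algebraMap A L ((u⁻¹ : Aˣ) : A))
      = 1 := by
    rw [← map_mul, ← map_mul, Units.mul_inv, map_one, map_one]
  refine le_antisymm h1 ?_
  by_contra hlt
  push Not at hlt
  have := mul_lt_one_of_lt_of_le hlt h2
  rw [h3] at this
  exact lt_irrefl _ this

include F in
theorem algebraMap_injective_AL : Function.Injective (algebraMap A L) := by
  rw [IsScalarTower.algebraMap_eq A F L]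
  exact (algebraMap F L).injective.comp (IsFractionRing.injective A F)

/-- The values of the base field are powers of the value of a uniformiser of `A`. -/
theorem exists_zpow_algebraMap {ϖ : A} (hϖ : Irreducible ϖ) (W : ValuationSubring L)
    (hWA : ∀ a : A, algebraMap A L a ∈ W) {c : F} (hc : c ≠ 0) :
    ∃ n : ℤ, W.valuation (algebraMap F L c) = W.valuation (algebraMap A L ϖ) ^ n := by
  have hinj := algebraMap_injective_AL (A := A) (F := F) (L := L)
  have hϖ0 : W.valuation (algebraMap A L ϖ) ≠ 0 := by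
    rw [Valuation.ne_zero_iff]
    exact fun h => hϖ.ne_zero (hinj (h.trans (map_zero _).symm))
  have key : ∀ a : A, a ≠ 0 → ∃ k : ℕ,
      W.valuation (algebraMap A L a) = W.valuation (algebraMap A L ϖ) ^ k := by
    intro a ha
    obtain ⟨k, u, rfl⟩ := IsDiscreteValuationRing.eq_unit_mul_pow_irreducible ha hϖ
    refine ⟨k, ?_⟩
    rw [map_mul, map_mul, valuation_unit_eq_one W hWA u, one_mul, map_pow, map_pow]
  obtain ⟨a, b, hb, rfl⟩ := IsFractionRing.div_surjective (A := A) c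
  have hb0 : b ≠ 0 := nonZeroDivisors.ne_zero hb
  have ha0 : a ≠ 0 := by
    rintro rfl
    rw [map_zero, zero_div] at hc
    exact hc rfl
  obtain ⟨k, hk⟩ := key a ha0
  obtain ⟨l, hl⟩ := key b hb0
  refine ⟨(k : ℤ) - l, ?_⟩
  rw [map_div₀, ← IsScalarTower.algebraMap_apply, ← IsScalarTower.algebraMap_apply, map_div₀, hk,
    hl, zpow_sub₀ hϖ0, zpow_natCast, zpow_natCast]

include F in
theorem exists_eval₂_eq_zero (x : L) :
    ∃ p : Polynomial F, p ≠ 0 ∧ p.eval₂ (algebraMap F L) x = 0 := by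
  obtain ⟨p, hp, hpx⟩ := Algebra.IsAlgebraic.isAlgebraic (R := F) x
  exact ⟨p, hp, by rwa [Polynomial.aeval_def] at hpx⟩

/-! #### Two valuation rings, `(e, f) = (1, 1)` and `(m, 1)` -/

variable (F) in
/-- The data of the table `{Va (1,1), Vb (m,1)}` over `A`. -/
structure TwoData (Va Vb : ValuationSubring L) (ϖ : A) (m : ℕ) (τ w : L) : Prop where
  deg : Module.finrank F L ≤ m + 1
  unif : Irreducible ϖ
  memA : ∀ a : A, algebraMap A L a ∈ Va
  memB : ∀ a : A, algebraMap A L a ∈ Vb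
  nonunitA : algebraMap A L ϖ ∈ Va.nonunits
  nonunitB : algebraMap A L ϖ ∈ Vb.nonunits
  ne : Va ≠ Vb
  tau : τ ∈ Vb.nonunits
  w_mem : w ∈ Vb
  eq : algebraMap A L ϖ = w * τ ^ m

namespace TwoData

variable {Va Vb : ValuationSubring L} {ϖ : A} {m : ℕ} {τ w : L}

theorem witness (h : TwoData F Va Vb ϖ m τ w) :
    Witness (A := A) ![Va, Vb] ϖ ![1, m] ![1, 1] where
  mem := Fin.forall_fin_two.2 ⟨h.memA, h.memB⟩
  dom := Fin.forall_fin_two.2 ⟨dom_of_unif h.unif Va h.memA h.nonunitA,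
    dom_of_unif h.unif Vb h.memB h.nonunitB⟩
  inj := by
    intro i j hij
    fin_cases i <;> fin_cases j
    · rfl
    · exact absurd hij h.ne
    · exact absurd hij.symm h.ne
    · rfl
  unif := h.unif
  ram := Fin.forall_fin_two.2 ⟨⟨algebraMap A L ϖ, 1, h.nonunitA, Va.one_mem, by
      show algebraMap A L ϖ = 1 * algebraMap A L ϖ ^ 1
      rw [one_mul, pow_one]⟩, ⟨τ, w, h.tau, h.w_mem, h.eq⟩⟩
  res := Fin.forall_fin_two.2 ⟨res_one Va h.memA, res_one Vb h.memB⟩

theorem hsum (h : TwoData F Va Vb ϖ m τ w) :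
    Module.finrank F L ≤ ∑ i : Fin 2, ![1, m] i * ![1, 1] i := by
  rw [Fin.sum_univ_two]
  show Module.finrank F L ≤ 1 * 1 + m * 1
  have := h.deg
  omega

theorem only (h : TwoData F Va Vb ϖ m τ w) (W : ValuationSubring L)
    (hWA : ∀ a : A, algebraMap A L a ∈ W) (hϖW : algebraMap A L ϖ ∈ W.nonunits) :
    W = Va ∨ W = Vb := by
  obtain ⟨i, hi⟩ := CountEF.only F h.witness h.hsum W hWA (dom_of_unif h.unif W hWA hϖW)
  fin_cases i
  · exact Or.inl hi
  · exact Or.inr hi

theorem ramA (h : TwoData F Va Vb ϖ m τ w) :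
    ∀ y ∈ Va.nonunits, y * (algebraMap A L ϖ)⁻¹ ∈ Va :=
  (CountEF.ram F h.witness h.hsum 0 (τ := algebraMap A L ϖ) (w := 1) h.nonunitA Va.one_mem (by
    show algebraMap A L ϖ = 1 * algebraMap A L ϖ ^ 1
    rw [one_mul, pow_one])).1

theorem ramB (h : TwoData F Va Vb ϖ m τ w) : ∀ y ∈ Vb.nonunits, y * τ⁻¹ ∈ Vb :=
  (CountEF.ram F h.witness h.hsum 1 h.tau h.w_mem h.eq).1

theorem w_inv_mem (h : TwoData F Va Vb ϖ m τ w) : w⁻¹ ∈ Vb :=
  (CountEF.ram F h.witness h.hsum 1 h.tau h.w_mem h.eq).2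

theorem valuation_w (h : TwoData F Va Vb ϖ m τ w) : Vb.valuation w = 1 := by
  have h1 := (Vb.valuation_le_one_iff _).2 h.w_mem
  have h2 := (Vb.valuation_le_one_iff _).2 h.w_inv_mem
  rw [map_inv₀] at h2
  refine le_antisymm h1 ?_
  by_contra hlt
  push Not at hlt
  have hw0 : Vb.valuation w ≠ 0 := by
    intro h0
    rw [h0, inv_zero] at h2
    have hz : w = 0 := (map_eq_zero _).1 h0
    have h3 := h.eq
    rw [hz, zero_mul] at h3
    exact h.unif.ne_zero (algebraMap_injective_AL (A := A) (F := F) (L := L)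
      (h3.trans (map_zero _).symm))
  have := (one_lt_inv₀ (zero_lt_iff.2 hw0)).2 hlt
  exact absurd h2 (not_le.2 this)

/-- `v_b(ϖ) = v_b(τ) ^ m`. -/
theorem valuation_unif (h : TwoData F Va Vb ϖ m τ w) :
    Vb.valuation (algebraMap A L ϖ) = Vb.valuation τ ^ m := by
  rw [h.eq, map_mul, h.valuation_w, one_mul, map_pow]

theorem degOneA (h : TwoData F Va Vb ϖ m τ w) {y : L} (hy : y ∈ Va) :
    ∃ a : A, y - algebraMap A L a ∈ Va.nonunits :=
  CountEF.deg_one F h.witness h.hsum 0 rfl hy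

theorem degOneB (h : TwoData F Va Vb ϖ m τ w) {y : L} (hy : y ∈ Vb) :
    ∃ a : A, y - algebraMap A L a ∈ Vb.nonunits :=
  CountEF.deg_one F h.witness h.hsum 1 rfl hy

theorem isIntegral (h : TwoData F Va Vb ϖ m τ w) {y : L} (hya : y ∈ Va) (hyb : y ∈ Vb) :
    IsIntegral A y :=
  CountEF.isIntegral_of_forall_mem F h.witness h.hsum (Fin.forall_fin_two.2 ⟨hya, hyb⟩)

theorem tau_ne_zero (h : TwoData F Va Vb ϖ m τ w) : τ ≠ 0 := by
  rintro rfl
  have h3 := h.eq
  rcases Nat.eq_zero_or_pos m with hm | hm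
  · subst hm
    rw [pow_zero, mul_one] at h3
    have := h.nonunitB
    rw [h3, Vb.mem_nonunits_iff, h.valuation_w] at this
    exact lt_irrefl _ this
  · rw [zero_pow hm.ne', mul_zero] at h3
    exact h.unif.ne_zero (algebraMap_injective_AL (A := A) (F := F) (L := L)
      (h3.trans (map_zero _).symm))

theorem unif_ne_zero (h : TwoData F Va Vb ϖ m τ w) : algebraMap A L ϖ ≠ 0 := fun h0 =>
  h.unif.ne_zero (algebraMap_injective_AL (A := A) (F := F) (L := L) (h0.trans (map_zero _).symm))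

/-- Discreteness of `Va`: every value is a power of `v_a(ϖ)`. -/
theorem discA (h : TwoData F Va Vb ϖ m τ w) {x : L} (hx : x ≠ 0) :
    ∃ n : ℤ, Va.valuation x = Va.valuation (algebraMap A L ϖ) ^ n :=
  DiscreteVal.exists_zpow_eq (algebraMap F L) Va h.unif_ne_zero h.nonunitA h.ramA
    (fun _ hc => exists_zpow_algebraMap h.unif Va h.memA hc) exists_eval₂_eq_zero hx

/-- Discreteness of `Vb`: every value is a power of `v_b(τ)`. -/
theorem discB (h : TwoData F Va Vb ϖ m τ w) {x : L} (hx : x ≠ 0) :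
    ∃ n : ℤ, Vb.valuation x = Vb.valuation τ ^ n := by
  refine DiscreteVal.exists_zpow_eq (algebraMap F L) Vb h.tau_ne_zero h.tau h.ramB
    (fun c hc => ?_) exists_eval₂_eq_zero hx
  obtain ⟨n, hn⟩ := exists_zpow_algebraMap h.unif Vb h.memB hc
  refine ⟨(m : ℤ) * n, ?_⟩
  rw [hn, h.valuation_unif, zpow_mul, zpow_natCast]

theorem dvrA (h : TwoData F Va Vb ϖ m τ w) : IsDiscreteValuationRing ↥Va :=
  DiscreteVal.isDiscreteValuationRing (algebraMap F L) Va h.unif_ne_zero h.nonunitA h.ramA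
    (fun _ hc => exists_zpow_algebraMap h.unif Va h.memA hc) exists_eval₂_eq_zero

theorem dvrB (h : TwoData F Va Vb ϖ m τ w) : IsDiscreteValuationRing ↥Vb := by
  refine DiscreteVal.isDiscreteValuationRing (algebraMap F L) Vb h.tau_ne_zero h.tau h.ramB
    (fun c hc => ?_) exists_eval₂_eq_zero
  obtain ⟨n, hn⟩ := exists_zpow_algebraMap h.unif Vb h.memB hc
  refine ⟨(m : ℤ) * n, ?_⟩
  rw [hn, h.valuation_unif, zpow_mul, zpow_natCast]

end TwoData

/-! #### One valuation ring, `(e, f) = (1, q)` purely inseparable -/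

variable (F) in
/-- The data of the table `{V (1, q insep)}` over `A`. -/
structure OneData (V : ValuationSubring L) (ϖ : A) (q : ℕ) (x : L) (t : A) : Prop where
  deg : Module.finrank F L ≤ q
  unif : Irreducible ϖ
  mem : ∀ a : A, algebraMap A L a ∈ V
  nonunit : algebraMap A L ϖ ∈ V.nonunits
  prime : q.Prime
  x_mem : x ∈ V
  pow : x ^ q - algebraMap A L t ∈ V.nonunits
  not_pow : ∀ b : A, b ^ q - t ∉ maximalIdeal A

namespace OneData

variable {V : ValuationSubring L} {ϖ : A} {q : ℕ} {x : L} {t : A}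

theorem dom (h : OneData F V ϖ q x t) : ∀ a ∈ maximalIdeal A, algebraMap A L a ∈ V.nonunits :=
  dom_of_unif h.unif V h.mem h.nonunit

theorem ind (h : OneData F V ϖ q x t) (a : Fin q → A)
    (ha : (∑ j, algebraMap A L (a j) * x ^ (j : ℕ)) ∈ V.nonunits) (j : Fin q) :
    a j ∈ maximalIdeal A :=
  res_pow_explicit V h.mem h.dom h.prime h.x_mem t h.pow h.not_pow a ha j

theorem witness (h : OneData F V ϖ q x t) :
    Witness (A := A) (fun _ : Unit => V) ϖ (fun _ => 1) (fun _ => q) where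
  mem := fun _ => h.mem
  dom := fun _ => h.dom
  inj := fun _ _ _ => rfl
  unif := h.unif
  ram := fun _ => ⟨algebraMap A L ϖ, 1, h.nonunit, V.one_mem, by rw [one_mul, pow_one]⟩
  res := fun _ => ⟨fun j => x ^ (j : ℕ), fun _ => V.pow_mem h.x_mem _, h.ind⟩

theorem hsum (h : OneData F V ϖ q x t) :
    Module.finrank F L ≤ ∑ _i : Unit, 1 * q := by
  rw [Fintype.sum_unique, one_mul]
  exact h.deg

theorem only (h : OneData F V ϖ q x t) (W : ValuationSubring L)
    (hWA : ∀ a : A, algebraMap A L a ∈ W) (hϖW : algebraMap A L ϖ ∈ W.nonunits) : W = V := by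
  obtain ⟨_, hi⟩ := CountEF.only F h.witness h.hsum W hWA (dom_of_unif h.unif W hWA hϖW)
  exact hi

theorem ram (h : OneData F V ϖ q x t) : ∀ y ∈ V.nonunits, y * (algebraMap A L ϖ)⁻¹ ∈ V :=
  (CountEF.ram F h.witness h.hsum () (τ := algebraMap A L ϖ) (w := 1) h.nonunit V.one_mem (by
    rw [one_mul, pow_one])).1

theorem isIntegral (h : OneData F V ϖ q x t) {y : L} (hy : y ∈ V) : IsIntegral A y :=
  CountEF.isIntegral_of_forall_mem F h.witness h.hsum (fun _ => hy)

/-- The residues of `1, x, …, x^(q-1)` span the residue field of `V` over that of `A`. -/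
theorem span (h : OneData F V ϖ q x t) {y : L} (hy : y ∈ V) :
    ∃ a : Fin q → A, y - ∑ j, algebraMap A L (a j) * x ^ (j : ℕ) ∈ V.nonunits :=
  CountEF.deg F h.witness h.hsum () (fun j => x ^ (j : ℕ)) (fun j => V.pow_mem h.x_mem _) h.ind hy

/-- **Pure inseparability in place form**: `ev y ^ q` lies in the image of the base. -/
theorem insep (h : OneData F V ϖ q x t) {Ω Ω' : Type*} [CommRing Ω] [CommRing Ω'] [CharP Ω q]
    (ev : ↥V →+* Ω) (θ : A →+* Ω') (φ : Ω' →+* Ω)
    (hev : ∀ a : A, ev ⟨algebraMap A L a, h.mem a⟩ = φ (θ a))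
    (hker : ∀ y : ↥V, (y : L) ∈ V.nonunits → ev y = 0) (y : ↥V) :
    ∃ a : A, ev y ^ q = φ (θ a) := by
  haveI : Fact q.Prime := ⟨h.prime⟩
  obtain ⟨a, ha⟩ := h.span y.2
  have hxq : ev ⟨x, h.x_mem⟩ ^ q = φ (θ t) := by
    have h0 := hker ⟨x ^ q - algebraMap A L t, V.nonunits_subset h.pow⟩ h.pow
    have e : (⟨x ^ q - algebraMap A L t, V.nonunits_subset h.pow⟩ : ↥V) =
        ⟨x, h.x_mem⟩ ^ q - ⟨algebraMap A L t, h.mem t⟩ := Subtype.ext rfl
    rw [e, map_sub, map_pow, hev, sub_eq_zero] at h0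
    exact h0
  have hy0 := hker ⟨(y : L) - ∑ j, algebraMap A L (a j) * x ^ (j : ℕ), V.nonunits_subset ha⟩ ha
  have e : (⟨(y : L) - ∑ j, algebraMap A L (a j) * x ^ (j : ℕ), V.nonunits_subset ha⟩ : ↥V) =
      y - ∑ j : Fin q, (⟨algebraMap A L (a j), h.mem (a j)⟩ : ↥V) * (⟨x, h.x_mem⟩ : ↥V) ^ (j : ℕ) := by
    apply Subtype.ext
    simp
  rw [e, map_sub, sub_eq_zero, map_sum] at hy0
  refine ⟨∑ j, a j ^ q * t ^ (j : ℕ), ?_⟩
  rw [hy0, sum_pow_char, map_sum, map_sum]
  refine Finset.sum_congr rfl fun j _ => ?_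
  rw [map_mul, map_pow, hev, mul_pow, ← pow_mul, mul_comm (j : ℕ) q, pow_mul, hxq, map_mul,
    map_mul, map_pow, map_pow, map_pow, map_pow]

theorem unif_ne_zero (h : OneData F V ϖ q x t) : algebraMap A L ϖ ≠ 0 := fun h0 =>
  h.unif.ne_zero (algebraMap_injective_AL (A := A) (F := F) (L := L) (h0.trans (map_zero _).symm))

/-- Discreteness of `V`: every value is a power of `v(ϖ)`. -/
theorem disc (h : OneData F V ϖ q x t) {y : L} (hy : y ≠ 0) :
    ∃ n : ℤ, V.valuation y = V.valuation (algebraMap A L ϖ) ^ n :=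
  DiscreteVal.exists_zpow_eq (algebraMap F L) V h.unif_ne_zero h.nonunit h.ram
    (fun _ hc => exists_zpow_algebraMap h.unif V h.mem hc) exists_eval₂_eq_zero hy

theorem dvr (h : OneData F V ϖ q x t) : IsDiscreteValuationRing ↥V :=
  DiscreteVal.isDiscreteValuationRing (algebraMap F L) V h.unif_ne_zero h.nonunit h.ram
    (fun _ hc => exists_zpow_algebraMap h.unif V h.mem hc) exists_eval₂_eq_zero

end OneData

end Abstract

/-! ### The tables along a field embedding, instance-free -/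

section Along

open IsLocalRing Fermat.Agent.P3G

variable {F L : Type*} [Field F] [Field L]

/-- A uniformiser (in the valuation-subring sense) is irreducible. -/
theorem irreducible_of_unif (U : ValuationSubring F) {ϖ : F} (hϖ : ϖ ∈ U.nonunits) (hϖ0 : ϖ ≠ 0)
    (hunif : ∀ y ∈ U.nonunits, y * ϖ⁻¹ ∈ U) :
    Irreducible (⟨ϖ, U.nonunits_subset hϖ⟩ : ↥U) := by
  have hnon : ∀ a : ↥U, ¬ IsUnit a → (a : F) ∈ U.nonunits := by
    intro a ha
    rw [U.valuation_eq_one_iff] at ha
    exact U.mem_nonunits_iff.mpr (lt_of_le_of_ne (U.valuation_le_one a) ha)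
  rw [irreducible_iff]
  refine ⟨?_, ?_⟩
  · rw [U.valuation_eq_one_iff]
    exact (U.mem_nonunits_iff.1 hϖ).ne
  · intro a b hab
    by_contra hcon
    push Not at hcon
    have hab' : ϖ = (a : F) * (b : F) := congrArg (fun z : ↥U => (z : F)) hab
    have ha0 : (a : F) ≠ 0 := by
      intro h0
      rw [h0, zero_mul] at hab'
      exact hϖ0 hab'
    have h1 := hunif (a : F) (hnon a hcon.1)
    have h2 : (a : F) * ϖ⁻¹ = (b : F)⁻¹ := by
      rw [hab', mul_inv, ← mul_assoc, mul_inv_cancel₀ ha0, one_mul]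
    rw [h2] at h1
    have hb0 : (b : F) ≠ 0 := by
      intro h0
      rw [h0, mul_zero] at hab'
      exact hϖ0 hab'
    exact (LocVS.mem_nonunits_iff_inv_notMem U hb0).1 (hnon b hcon.2) h1

variable (γ : F →+* L) (U : ValuationSubring F)

/-- The structure map `U → L` along `γ`. -/
def uMap : ↥U →+* L := γ.comp U.subtype

theorem uMap_apply (a : ↥U) : uMap γ U a = γ (a : F) := rfl

/-- The data of the table `{Va (1,1), Vb (m,1)}` over `U` along `γ`. -/
structure TwoAlong (Va Vb : ValuationSubring L) (ϖ : F) (m : ℕ) (τ w : L) : Prop where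
  deg : (letI := γ.toAlgebra; Module.finrank F L) = m + 1
  unif_mem : ϖ ∈ U.nonunits
  unif_ne : ϖ ≠ 0
  unif : ∀ y ∈ U.nonunits, y * ϖ⁻¹ ∈ U
  memA : ∀ x ∈ U, γ x ∈ Va
  memB : ∀ x ∈ U, γ x ∈ Vb
  nonunitA : γ ϖ ∈ Va.nonunits
  nonunitB : γ ϖ ∈ Vb.nonunits
  ne : Va ≠ Vb
  tau : τ ∈ Vb.nonunits
  w_mem : w ∈ Vb
  eq : γ ϖ = w * τ ^ m

/-- The data of the table `{V (1, q insep)}` over `U` along `γ`. -/
structure OneAlong (V : ValuationSubring L) (ϖ : F) (q : ℕ) (x : L) (t : F) : Prop where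
  deg : (letI := γ.toAlgebra; Module.finrank F L) = q
  unif_mem : ϖ ∈ U.nonunits
  unif_ne : ϖ ≠ 0
  unif : ∀ y ∈ U.nonunits, y * ϖ⁻¹ ∈ U
  mem : ∀ x ∈ U, γ x ∈ V
  nonunit : γ ϖ ∈ V.nonunits
  prime : q.Prime
  x_mem : x ∈ V
  t_mem : t ∈ U
  pow : x ^ q - γ t ∈ V.nonunits
  not_pow : ∀ b ∈ U, b ^ q - t ∉ U.nonunits

variable [CharZero F] [IsDiscreteValuationRing ↥U]

section Two

variable {γ U} {Va Vb : ValuationSubring L} {ϖ : F} {m : ℕ} {τ w : L}

theorem TwoAlong.toTwoData (h : TwoAlong γ U Va Vb ϖ m τ w) :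
    letI := γ.toAlgebra
    letI : Algebra ↥U L := (uMap γ U).toAlgebra
    haveI : IsScalarTower ↥U F L := IsScalarTower.of_algebraMap_eq fun _ => rfl
    haveI : FiniteDimensional F L := Module.finite_of_finrank_pos (by rw [h.deg]; omega)
    TwoData F Va Vb (⟨ϖ, U.nonunits_subset h.unif_mem⟩ : ↥U) m τ w := by
  letI := γ.toAlgebra
  letI : Algebra ↥U L := (uMap γ U).toAlgebra
  haveI : IsScalarTower ↥U F L := IsScalarTower.of_algebraMap_eq fun _ => rfl
  haveI : FiniteDimensional F L := Module.finite_of_finrank_pos (by rw [h.deg]; omega)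
  exact
    { deg := h.deg.le
      unif := irreducible_of_unif U h.unif_mem h.unif_ne h.unif
      memA := fun a => h.memA a a.2
      memB := fun a => h.memB a a.2
      nonunitA := h.nonunitA
      nonunitB := h.nonunitB
      ne := h.ne
      tau := h.tau
      w_mem := h.w_mem
      eq := h.eq }

namespace TwoAlong

theorem only (h : TwoAlong γ U Va Vb ϖ m τ w) (W : ValuationSubring L)
    (hWU : ∀ x ∈ U, γ x ∈ W) (hϖW : γ ϖ ∈ W.nonunits) : W = Va ∨ W = Vb := by
  letI := γ.toAlgebra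
  letI : Algebra ↥U L := (uMap γ U).toAlgebra
  haveI : IsScalarTower ↥U F L := IsScalarTower.of_algebraMap_eq fun _ => rfl
  haveI : FiniteDimensional F L := Module.finite_of_finrank_pos (by rw [h.deg]; omega)
  exact h.toTwoData.only W (fun a => hWU a a.2) hϖW

theorem ramA (h : TwoAlong γ U Va Vb ϖ m τ w) : ∀ y ∈ Va.nonunits, y * (γ ϖ)⁻¹ ∈ Va := by
  letI := γ.toAlgebra
  letI : Algebra ↥U L := (uMap γ U).toAlgebra
  haveI : IsScalarTower ↥U F L := IsScalarTower.of_algebraMap_eq fun _ => rfl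
  haveI : FiniteDimensional F L := Module.finite_of_finrank_pos (by rw [h.deg]; omega)
  exact h.toTwoData.ramA

theorem ramB (h : TwoAlong γ U Va Vb ϖ m τ w) : ∀ y ∈ Vb.nonunits, y * τ⁻¹ ∈ Vb := by
  letI := γ.toAlgebra
  letI : Algebra ↥U L := (uMap γ U).toAlgebra
  haveI : IsScalarTower ↥U F L := IsScalarTower.of_algebraMap_eq fun _ => rfl
  haveI : FiniteDimensional F L := Module.finite_of_finrank_pos (by rw [h.deg]; omega)
  exact h.toTwoData.ramB

theorem w_inv_mem (h : TwoAlong γ U Va Vb ϖ m τ w) : w⁻¹ ∈ Vb := by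
  letI := γ.toAlgebra
  letI : Algebra ↥U L := (uMap γ U).toAlgebra
  haveI : IsScalarTower ↥U F L := IsScalarTower.of_algebraMap_eq fun _ => rfl
  haveI : FiniteDimensional F L := Module.finite_of_finrank_pos (by rw [h.deg]; omega)
  exact h.toTwoData.w_inv_mem

theorem valuation_w (h : TwoAlong γ U Va Vb ϖ m τ w) : Vb.valuation w = 1 := by
  letI := γ.toAlgebra
  letI : Algebra ↥U L := (uMap γ U).toAlgebra
  haveI : IsScalarTower ↥U F L := IsScalarTower.of_algebraMap_eq fun _ => rfl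
  haveI : FiniteDimensional F L := Module.finite_of_finrank_pos (by rw [h.deg]; omega)
  exact h.toTwoData.valuation_w

/-- `v_b(ϖ) = v_b(τ) ^ m`. -/
theorem valuation_unif (h : TwoAlong γ U Va Vb ϖ m τ w) :
    Vb.valuation (γ ϖ) = Vb.valuation τ ^ m := by
  rw [h.eq, map_mul, h.valuation_w, one_mul, map_pow]

theorem degOneA (h : TwoAlong γ U Va Vb ϖ m τ w) {y : L} (hy : y ∈ Va) :
    ∃ a ∈ U, y - γ a ∈ Va.nonunits := by
  letI := γ.toAlgebra
  letI : Algebra ↥U L := (uMap γ U).toAlgebra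
  haveI : IsScalarTower ↥U F L := IsScalarTower.of_algebraMap_eq fun _ => rfl
  haveI : FiniteDimensional F L := Module.finite_of_finrank_pos (by rw [h.deg]; omega)
  obtain ⟨a, ha⟩ := h.toTwoData.degOneA hy
  exact ⟨a, a.2, ha⟩

theorem degOneB (h : TwoAlong γ U Va Vb ϖ m τ w) {y : L} (hy : y ∈ Vb) :
    ∃ a ∈ U, y - γ a ∈ Vb.nonunits := by
  letI := γ.toAlgebra
  letI : Algebra ↥U L := (uMap γ U).toAlgebra
  haveI : IsScalarTower ↥U F L := IsScalarTower.of_algebraMap_eq fun _ => rfl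
  haveI : FiniteDimensional F L := Module.finite_of_finrank_pos (by rw [h.deg]; omega)
  obtain ⟨a, ha⟩ := h.toTwoData.degOneB hy
  exact ⟨a, a.2, ha⟩

/-- `Va ⊓ Vb` is integral over `γ(U)`. -/
theorem isIntegralElem (h : TwoAlong γ U Va Vb ϖ m τ w) {y : L} (hya : y ∈ Va) (hyb : y ∈ Vb) :
    (uMap γ U).IsIntegralElem y := by
  letI := γ.toAlgebra
  letI : Algebra ↥U L := (uMap γ U).toAlgebra
  haveI : IsScalarTower ↥U F L := IsScalarTower.of_algebraMap_eq fun _ => rfl
  haveI : FiniteDimensional F L := Module.finite_of_finrank_pos (by rw [h.deg]; omega)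
  exact h.toTwoData.isIntegral hya hyb

theorem discA (h : TwoAlong γ U Va Vb ϖ m τ w) {x : L} (hx : x ≠ 0) :
    ∃ n : ℤ, Va.valuation x = Va.valuation (γ ϖ) ^ n := by
  letI := γ.toAlgebra
  letI : Algebra ↥U L := (uMap γ U).toAlgebra
  haveI : IsScalarTower ↥U F L := IsScalarTower.of_algebraMap_eq fun _ => rfl
  haveI : FiniteDimensional F L := Module.finite_of_finrank_pos (by rw [h.deg]; omega)
  exact h.toTwoData.discA hx

theorem discB (h : TwoAlong γ U Va Vb ϖ m τ w) {x : L} (hx : x ≠ 0) :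
    ∃ n : ℤ, Vb.valuation x = Vb.valuation τ ^ n := by
  letI := γ.toAlgebra
  letI : Algebra ↥U L := (uMap γ U).toAlgebra
  haveI : IsScalarTower ↥U F L := IsScalarTower.of_algebraMap_eq fun _ => rfl
  haveI : FiniteDimensional F L := Module.finite_of_finrank_pos (by rw [h.deg]; omega)
  exact h.toTwoData.discB hx

theorem dvrA (h : TwoAlong γ U Va Vb ϖ m τ w) : IsDiscreteValuationRing ↥Va := by
  letI := γ.toAlgebra
  letI : Algebra ↥U L := (uMap γ U).toAlgebra
  haveI : IsScalarTower ↥U F L := IsScalarTower.of_algebraMap_eq fun _ => rfl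
  haveI : FiniteDimensional F L := Module.finite_of_finrank_pos (by rw [h.deg]; omega)
  exact h.toTwoData.dvrA

theorem dvrB (h : TwoAlong γ U Va Vb ϖ m τ w) : IsDiscreteValuationRing ↥Vb := by
  letI := γ.toAlgebra
  letI : Algebra ↥U L := (uMap γ U).toAlgebra
  haveI : IsScalarTower ↥U F L := IsScalarTower.of_algebraMap_eq fun _ => rfl
  haveI : FiniteDimensional F L := Module.finite_of_finrank_pos (by rw [h.deg]; omega)
  exact h.toTwoData.dvrB

end TwoAlong

end Two

section One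

variable {γ U} {V : ValuationSubring L} {ϖ : F} {q : ℕ} {x : L} {t : F}

theorem OneAlong.toOneData (h : OneAlong γ U V ϖ q x t) :
    letI := γ.toAlgebra
    letI : Algebra ↥U L := (uMap γ U).toAlgebra
    haveI : IsScalarTower ↥U F L := IsScalarTower.of_algebraMap_eq fun _ => rfl
    haveI : FiniteDimensional F L :=
      Module.finite_of_finrank_pos (by rw [h.deg]; exact h.prime.pos)
    OneData F V (⟨ϖ, U.nonunits_subset h.unif_mem⟩ : ↥U) q x (⟨t, h.t_mem⟩ : ↥U) := by
  letI := γ.toAlgebra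
  letI : Algebra ↥U L := (uMap γ U).toAlgebra
  haveI : IsScalarTower ↥U F L := IsScalarTower.of_algebraMap_eq fun _ => rfl
  haveI : FiniteDimensional F L :=
    Module.finite_of_finrank_pos (by rw [h.deg]; exact h.prime.pos)
  exact
    { deg := h.deg.le
      unif := irreducible_of_unif U h.unif_mem h.unif_ne h.unif
      mem := fun a => h.mem a a.2
      nonunit := h.nonunit
      prime := h.prime
      x_mem := h.x_mem
      pow := h.pow
      not_pow := by
        intro b hb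
        exact h.not_pow b b.2
          ((ValuationSubring.mem_nonunits_iff_exists_mem_maximalIdeal).2
            ⟨U.toSubring.sub_mem (U.pow_mem b.2 q) h.t_mem, hb⟩) }

namespace OneAlong

theorem only (h : OneAlong γ U V ϖ q x t) (W : ValuationSubring L)
    (hWU : ∀ x ∈ U, γ x ∈ W) (hϖW : γ ϖ ∈ W.nonunits) : W = V := by
  letI := γ.toAlgebra
  letI : Algebra ↥U L := (uMap γ U).toAlgebra
  haveI : IsScalarTower ↥U F L := IsScalarTower.of_algebraMap_eq fun _ => rfl
  haveI : FiniteDimensional F L :=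
    Module.finite_of_finrank_pos (by rw [h.deg]; exact h.prime.pos)
  exact h.toOneData.only W (fun a => hWU a a.2) hϖW

theorem ram (h : OneAlong γ U V ϖ q x t) : ∀ y ∈ V.nonunits, y * (γ ϖ)⁻¹ ∈ V := by
  letI := γ.toAlgebra
  letI : Algebra ↥U L := (uMap γ U).toAlgebra
  haveI : IsScalarTower ↥U F L := IsScalarTower.of_algebraMap_eq fun _ => rfl
  haveI : FiniteDimensional F L :=
    Module.finite_of_finrank_pos (by rw [h.deg]; exact h.prime.pos)
  exact h.toOneData.ram

/-- `V` is integral over `γ(U)`. -/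
theorem isIntegralElem (h : OneAlong γ U V ϖ q x t) {y : L} (hy : y ∈ V) :
    (uMap γ U).IsIntegralElem y := by
  letI := γ.toAlgebra
  letI : Algebra ↥U L := (uMap γ U).toAlgebra
  haveI : IsScalarTower ↥U F L := IsScalarTower.of_algebraMap_eq fun _ => rfl
  haveI : FiniteDimensional F L :=
    Module.finite_of_finrank_pos (by rw [h.deg]; exact h.prime.pos)
  exact h.toOneData.isIntegral hy

/-- The residues of `1, x, …, x^(q-1)` span the residue field of `V` over that of `U`. -/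
theorem span (h : OneAlong γ U V ϖ q x t) {y : L} (hy : y ∈ V) :
    ∃ a : Fin q → F, (∀ j, a j ∈ U) ∧ y - ∑ j, γ (a j) * x ^ (j : ℕ) ∈ V.nonunits := by
  letI := γ.toAlgebra
  letI : Algebra ↥U L := (uMap γ U).toAlgebra
  haveI : IsScalarTower ↥U F L := IsScalarTower.of_algebraMap_eq fun _ => rfl
  haveI : FiniteDimensional F L :=
    Module.finite_of_finrank_pos (by rw [h.deg]; exact h.prime.pos)
  obtain ⟨a, ha⟩ := h.toOneData.span hy
  exact ⟨fun j => (a j : F), fun j => (a j).2, ha⟩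

/-- **Pure inseparability in place form.** -/
theorem insep (h : OneAlong γ U V ϖ q x t) {Ω Ω' : Type*} [CommRing Ω] [CommRing Ω'] [CharP Ω q]
    (ev : ↥V →+* Ω) (θ : ↥U →+* Ω') (φ : Ω' →+* Ω)
    (hev : ∀ a : ↥U, ev ⟨γ (a : F), h.mem a a.2⟩ = φ (θ a))
    (hker : ∀ y : ↥V, (y : L) ∈ V.nonunits → ev y = 0) (y : ↥V) :
    ∃ a : ↥U, ev y ^ q = φ (θ a) := by
  letI := γ.toAlgebra
  letI : Algebra ↥U L := (uMap γ U).toAlgebra
  haveI : IsScalarTower ↥U F L := IsScalarTower.of_algebraMap_eq fun _ => rfl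
  haveI : FiniteDimensional F L :=
    Module.finite_of_finrank_pos (by rw [h.deg]; exact h.prime.pos)
  exact h.toOneData.insep ev θ φ hev hker y

theorem disc (h : OneAlong γ U V ϖ q x t) {y : L} (hy : y ≠ 0) :
    ∃ n : ℤ, V.valuation y = V.valuation (γ ϖ) ^ n := by
  letI := γ.toAlgebra
  letI : Algebra ↥U L := (uMap γ U).toAlgebra
  haveI : IsScalarTower ↥U F L := IsScalarTower.of_algebraMap_eq fun _ => rfl
  haveI : FiniteDimensional F L :=
    Module.finite_of_finrank_pos (by rw [h.deg]; exact h.prime.pos)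
  exact h.toOneData.disc hy

theorem dvr (h : OneAlong γ U V ϖ q x t) : IsDiscreteValuationRing ↥V := by
  letI := γ.toAlgebra
  letI : Algebra ↥U L := (uMap γ U).toAlgebra
  haveI : IsScalarTower ↥U F L := IsScalarTower.of_algebraMap_eq fun _ => rfl
  haveI : FiniteDimensional F L :=
    Module.finite_of_finrank_pos (by rw [h.deg]; exact h.prime.pos)
  exact h.toOneData.dvr

end OneAlong

end One

/-- Place form of a residue-degree-one statement. -/
theorem ev_eq_of_sub_mem_nonunits {V : ValuationSubring L} {Ω : Type*} [Ring Ω] (ev : ↥V →+* Ω)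
    (hker : ∀ y : ↥V, (y : L) ∈ V.nonunits → ev y = 0) (y : ↥V) {c : L} (hc : c ∈ V)
    (hyc : (y : L) - c ∈ V.nonunits) : ev y = ev ⟨c, hc⟩ := by
  have h0 := hker (y - ⟨c, hc⟩) hyc
  rwa [map_sub, sub_eq_zero] at h0

end Along

/-! ### The Gauss base `V10 = gaussVS K N O`, `q ∣ N` -/

section GaussBase

open Fermat.Agent.P3G Fermat.Agent.P3G.SecondValuation Fermat.Agent.N4F.E

variable (K : Type) [Field K] [CharZero K] (N : ℕ) [NeZero N] (q : ℕ) [Fact q.Prime]
  (O : Subring K) [IsDiscreteValuationRing ↥O] [IsFractionRing ↥O K]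

set_option quotPrecheck false in
local notation "κ" => IsLocalRing.ResidueField ↥O

theorem isDiscreteValuationRing_gaussVS : IsDiscreteValuationRing ↥(gaussVS K N O) :=
  isDiscreteValuationRing_gauss K N O

theorem algebraMap_unif_mem {ϖ : ↥O} :
    algebraMap K (FF K N) (ϖ : K) ∈ gaussSubalgebra K N O := (unif K N O ϖ).2

theorem algebraMap_unif_mem_nonunits {ϖ : ↥O} (hϖ : Irreducible ϖ) :
    algebraMap K (FF K N) (ϖ : K) ∈ (gaussVS K N O).nonunits := by
  rw [mem_nonunits_gaussVS_iff K N O (algebraMap_unif_mem K N O)]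
  exact theta_unif K N O hϖ

theorem algebraMap_unif_ne_zero {ϖ : ↥O} (hϖ : Irreducible ϖ) :
    algebraMap K (FF K N) (ϖ : K) ≠ 0 := by
  intro h
  have : (ϖ : K) = 0 := (algebraMap K (FF K N)).injective (h.trans (map_zero _).symm)
  exact hϖ.ne_zero (Subtype.ext this)

theorem gauss_ram_one {ϖ : ↥O} (hϖ : Irreducible ϖ) :
    ∀ y ∈ (gaussVS K N O).nonunits, y * (algebraMap K (FF K N) (ϖ : K))⁻¹ ∈ gaussVS K N O := by
  intro y hy
  have hmem : y ∈ gaussSubalgebra K N O := (gaussVS K N O).nonunits_subset hy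
  obtain ⟨z, hz⟩ := exists_eq_unif_mul K N O hϖ ⟨y, hmem⟩
    ((mem_nonunits_gaussVS_iff K N O hmem).1 hy)
  have hz' : y = algebraMap K (FF K N) (ϖ : K) * (z : FF K N) := congrArg Subtype.val hz
  rw [hz', mul_comm, ← mul_assoc, inv_mul_cancel₀ (algebraMap_unif_ne_zero K N O hϖ), one_mul]
  exact z.2

/-! #### The `β`-table over the Gauss base: `V20` alone, `(e, f) = (1, q)` purely inseparable -/

variable [CharP (IsLocalRing.ResidueField ↥O) q]

/-- `θ((α j)^q − β j) = 0`. -/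
theorem alpha_j_pow_sub_mem_nonunits :
    alphaF K N q (jF K N) ^ q - betaF K N q (jF K N) ∈ (gaussVS K (N * q) O).nonunits := by
  have hj := jF_mem_gaussSubalgebra K N O
  have hα : alphaF K N q (jF K N) ∈ gaussSubalgebra K (N * q) O := alphaF_mem K O N q hj
  have hβ : betaF K N q (jF K N) ∈ gaussSubalgebra K (N * q) O := betaF_mem K O N q hj
  have hmem : alphaF K N q (jF K N) ^ q - betaF K N q (jF K N) ∈ gaussSubalgebra K (N * q) O :=
    Subalgebra.sub_mem _ (Subalgebra.pow_mem _ hα q) hβ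
  rw [mem_nonunits_gaussVS_iff K (N * q) O hmem]
  have e : (⟨alphaF K N q (jF K N) ^ q - betaF K N q (jF K N), hmem⟩ :
      gaussSubalgebra K (N * q) O) = ⟨alphaF K N q (jF K N), hα⟩ ^ q - ⟨betaF K N q (jF K N), hβ⟩ :=
    Subtype.ext rfl
  rw [e, map_sub, map_pow, theta_alphaF K O N q ⟨jF K N, hj⟩, theta_betaF K O N q ⟨jF K N, hj⟩,
    theta_jF, BetaSide.jqModC_pow_eq, sub_self]

/-- `j` is not a `q`-th power modulo the maximal ideal of the Gauss ring. -/
theorem pow_sub_j_notMem_nonunits (b : FF K N) (hb : b ∈ gaussVS K N O) :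
    b ^ q - jF K N ∉ (gaussVS K N O).nonunits := by
  have hj := jF_mem_gaussSubalgebra K N O
  have hb' : b ∈ gaussSubalgebra K N O := hb
  have hmem : b ^ q - jF K N ∈ gaussSubalgebra K N O :=
    Subalgebra.sub_mem _ (Subalgebra.pow_mem _ hb' q) hj
  rw [mem_nonunits_gaussVS_iff K N O hmem]
  have e : (⟨b ^ q - jF K N, hmem⟩ : gaussSubalgebra K N O) = ⟨b, hb'⟩ ^ q - ⟨jF K N, hj⟩ :=
    Subtype.ext rfl
  rw [e, map_sub, map_pow, theta_jF, sub_eq_zero]
  exact Integrality.jqModC_ne_pow κ q _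

/-- **The `β`-table over the Gauss base** (unconditional). -/
theorem oneAlong_beta (ι : K →+* ℂ) (hqN : q ∣ N) {ϖ : ↥O} (hϖ : Irreducible ϖ) :
    OneAlong (betaF K N q).toRingHom (gaussVS K N O) (gaussVS K (N * q) O)
      (algebraMap K (FF K N) (ϖ : K)) q (alphaF K N q (jF K N)) (jF K N) where
  deg := by
    letI : Algebra (FF K N) (FF K (N * q)) := (betaF K N q).toRingHom.toAlgebra
    exact finrank_of_algebraMap_eq_betaF_of_dvd K N q ι hqN rfl
  unif_mem := algebraMap_unif_mem_nonunits K N O hϖ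
  unif_ne := algebraMap_unif_ne_zero K N O hϖ
  unif := gauss_ram_one K N O hϖ
  mem := fun x hx => betaF_mem K O N q hx
  nonunit := by
    show betaF K N q (algebraMap K (FF K N) (ϖ : K)) ∈ _
    rw [AlgHom.commutes]
    exact algebraMap_unif_mem_nonunits K (N * q) O hϖ
  prime := Fact.out
  x_mem := alphaF_mem K O N q (jF_mem_gaussSubalgebra K N O)
  t_mem := jF_mem_gaussSubalgebra K N O
  pow := alpha_j_pow_sub_mem_nonunits K N q O
  not_pow := pow_sub_j_notMem_nonunits K N q O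

/-- **`only`**: the Gauss ring is the only valuation subring of `FF K (N q)` over `β(G_N)`. -/
theorem only_beta (ι : K →+* ℂ) (hqN : q ∣ N) (B : ValuationSubring (FF K (N * q)))
    (hB : ∀ g ∈ gaussSubalgebra K N O, betaF K N q g ∈ B)
    (hϖB : ∀ ϖ : ↥O, Irreducible ϖ → algebraMap K (FF K (N * q)) (ϖ : K) ∈ B.nonunits) :
    B = gaussVS K (N * q) O := by
  haveI := isDiscreteValuationRing_gaussVS K N O
  obtain ⟨ϖ, hϖ⟩ := IsDiscreteValuationRing.exists_irreducible ↥O
  refine (oneAlong_beta K N q O ι hqN hϖ).only B hB ?_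
  show betaF K N q (algebraMap K (FF K N) (ϖ : K)) ∈ _
  rw [AlgHom.commutes]
  exact hϖB ϖ hϖ

/-- **Integrality**: the Gauss ring of level `N q` is integral over `β(G_N)`. -/
theorem isIntegral_beta (ι : K →+* ℂ) (hqN : q ∣ N) {y : FF K (N * q)}
    (hy : y ∈ gaussVS K (N * q) O) :
    letI := algebraAlong (betaF K N q)
    IsIntegral ↥(gaussSubalgebra K N O) y := by
  haveI := isDiscreteValuationRing_gaussVS K N O
  obtain ⟨ϖ, hϖ⟩ := IsDiscreteValuationRing.exists_irreducible ↥O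
  exact (oneAlong_beta K N q O ι hqN hϖ).isIntegralElem hy

/-- **Pure inseparability, place form**: `θ(y)^q ∈ φ(θ(G_N))`. -/
theorem insep_beta_theta (ι : K →+* ℂ) (hqN : q ∣ N) (y : ↥(gaussSubalgebra K (N * q) O)) :
    ∃ a : ↥(gaussSubalgebra K N O),
      theta K (N * q) O y ^ q = qExpand κ q (theta K N O a) := by
  haveI := isDiscreteValuationRing_gaussVS K N O
  haveI : CharP (LaurentSeries κ) q := BetaSide.charP_laurent K q O
  obtain ⟨ϖ, hϖ⟩ := IsDiscreteValuationRing.exists_irreducible ↥O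
  exact (oneAlong_beta K N q O ι hqN hϖ).insep (theta K (N * q) O) (theta K N O) (qExpand κ q)
    (fun a => theta_betaF K O N q a)
    (fun z hz => (mem_nonunits_gaussVS_iff K (N * q) O z.2).1 hz) y

/-- **Pure inseparability, element form**: `y^q ≡ β a` modulo the maximal ideal. -/
theorem insep_beta (ι : K →+* ℂ) (hqN : q ∣ N) {y : FF K (N * q)}
    (hy : y ∈ gaussVS K (N * q) O) :
    ∃ a : ↥(gaussSubalgebra K N O),
      y ^ q - betaF K N q (a : FF K N) ∈ (gaussVS K (N * q) O).nonunits := by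
  have hy' : y ∈ gaussSubalgebra K (N * q) O := hy
  obtain ⟨a, ha⟩ := insep_beta_theta K N q O ι hqN ⟨y, hy'⟩
  refine ⟨a, ?_⟩
  have hβ : betaF K N q (a : FF K N) ∈ gaussSubalgebra K (N * q) O := betaF_mem K O N q a.2
  have hmem : y ^ q - betaF K N q (a : FF K N) ∈ gaussSubalgebra K (N * q) O :=
    Subalgebra.sub_mem _ (Subalgebra.pow_mem _ hy' q) hβ
  rw [mem_nonunits_gaussVS_iff K (N * q) O hmem]
  have e : (⟨y ^ q - betaF K N q (a : FF K N), hmem⟩ : gaussSubalgebra K (N * q) O) =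
      ⟨y, hy'⟩ ^ q - ⟨betaF K N q (a : FF K N), hβ⟩ := Subtype.ext rfl
  rw [e, map_sub, map_pow, ha, theta_betaF K O N q a, sub_self]

/-! #### The `α`-table over the Gauss base: `V20 (1,1)` and a second valuation ring `(q − 1, 1)` -/

omit [CharP (IsLocalRing.ResidueField ↥O) q] in
/-- **The `α`-table over the Gauss base**, for an abstract second valuation ring `Vb` with a witness
`ϖ = w τ^(q-1)`. -/
theorem twoAlong_alpha (ι : K →+* ℂ) (hqN : q ∣ N) {ϖ : ↥O} (hϖ : Irreducible ϖ)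
    (Vb : ValuationSubring (FF K (N * q)))
    (hmem : ∀ x ∈ gaussSubalgebra K N O, alphaF K N q x ∈ Vb)
    (hnon : algebraMap K (FF K (N * q)) (ϖ : K) ∈ Vb.nonunits)
    (hne : Vb ≠ gaussVS K (N * q) O) {τ w : FF K (N * q)} (hτ : τ ∈ Vb.nonunits) (hw : w ∈ Vb)
    (heq : algebraMap K (FF K (N * q)) (ϖ : K) = w * τ ^ (q - 1)) :
    TwoAlong (alphaF K N q).toRingHom (gaussVS K N O) (gaussVS K (N * q) O) Vb
      (algebraMap K (FF K N) (ϖ : K)) (q - 1) τ w where
  deg := by
    letI : Algebra (FF K N) (FF K (N * q)) := (alphaF K N q).toRingHom.toAlgebra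
    rw [Nat.sub_add_cancel (Fact.out : q.Prime).one_le]
    exact finrank_of_algebraMap_eq_alphaF_of_dvd K N q ι hqN rfl
  unif_mem := algebraMap_unif_mem_nonunits K N O hϖ
  unif_ne := algebraMap_unif_ne_zero K N O hϖ
  unif := gauss_ram_one K N O hϖ
  memA := fun x hx => alphaF_mem K O N q hx
  memB := hmem
  nonunitA := by
    show alphaF K N q (algebraMap K (FF K N) (ϖ : K)) ∈ _
    rw [AlgHom.commutes]
    exact algebraMap_unif_mem_nonunits K (N * q) O hϖ
  nonunitB := by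
    show alphaF K N q (algebraMap K (FF K N) (ϖ : K)) ∈ _
    rw [AlgHom.commutes]
    exact hnon
  ne := hne.symm
  tau := hτ
  w_mem := hw
  eq := by
    show alphaF K N q (algebraMap K (FF K N) (ϖ : K)) = _
    rw [AlgHom.commutes]
    exact heq

omit [CharP (IsLocalRing.ResidueField ↥O) q] in
/-- **`only`** along `α`: the valuation subrings over `α(G_N)` are the Gauss ring and `Vb`. -/
theorem only_alpha {ϖ : ↥O} {Vb : ValuationSubring (FF K (N * q))} {τ w : FF K (N * q)}
    (h : TwoAlong (alphaF K N q).toRingHom (gaussVS K N O) (gaussVS K (N * q) O) Vb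
      (algebraMap K (FF K N) (ϖ : K)) (q - 1) τ w) (hϖ : Irreducible ϖ)
    (B : ValuationSubring (FF K (N * q)))
    (hB : ∀ g ∈ gaussSubalgebra K N O, alphaF K N q g ∈ B)
    (hϖB : ∀ ϖ : ↥O, Irreducible ϖ → algebraMap K (FF K (N * q)) (ϖ : K) ∈ B.nonunits) :
    B = gaussVS K (N * q) O ∨ B = Vb := by
  haveI := isDiscreteValuationRing_gaussVS K N O
  refine h.only B hB ?_
  show alphaF K N q (algebraMap K (FF K N) (ϖ : K)) ∈ _
  rw [AlgHom.commutes]
  exact hϖB ϖ hϖ

omit [CharP (IsLocalRing.ResidueField ↥O) q] in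
/-- **Integrality** along `α`: `V20 ⊓ Vb` is integral over `α(G_N)`. -/
theorem isIntegral_alpha {ϖ : ↥O} {Vb : ValuationSubring (FF K (N * q))} {τ w : FF K (N * q)}
    (h : TwoAlong (alphaF K N q).toRingHom (gaussVS K N O) (gaussVS K (N * q) O) Vb
      (algebraMap K (FF K N) (ϖ : K)) (q - 1) τ w) {y : FF K (N * q)}
    (hy : y ∈ gaussVS K (N * q) O) (hyb : y ∈ Vb) :
    letI := algebraAlong (alphaF K N q)
    IsIntegral ↥(gaussSubalgebra K N O) y := by
  haveI := isDiscreteValuationRing_gaussVS K N O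
  exact h.isIntegralElem hy hyb

omit [CharP (IsLocalRing.ResidueField ↥O) q] in
/-- Residue degree one of the Gauss ring along `α`. -/
theorem deg_one_alpha_gauss {ϖ : ↥O} {Vb : ValuationSubring (FF K (N * q))} {τ w : FF K (N * q)}
    (h : TwoAlong (alphaF K N q).toRingHom (gaussVS K N O) (gaussVS K (N * q) O) Vb
      (algebraMap K (FF K N) (ϖ : K)) (q - 1) τ w) {y : FF K (N * q)}
    (hy : y ∈ gaussVS K (N * q) O) :
    ∃ a : ↥(gaussSubalgebra K N O),
      y - alphaF K N q (a : FF K N) ∈ (gaussVS K (N * q) O).nonunits := by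
  haveI := isDiscreteValuationRing_gaussVS K N O
  obtain ⟨a, ha, hya⟩ := h.degOneA hy
  exact ⟨⟨a, ha⟩, hya⟩

omit [CharP (IsLocalRing.ResidueField ↥O) q] in
/-- Residue degree one of the second valuation ring along `α`. -/
theorem deg_one_alpha_second {ϖ : ↥O} {Vb : ValuationSubring (FF K (N * q))}
    {τ w : FF K (N * q)}
    (h : TwoAlong (alphaF K N q).toRingHom (gaussVS K N O) (gaussVS K (N * q) O) Vb
      (algebraMap K (FF K N) (ϖ : K)) (q - 1) τ w) {y : FF K (N * q)} (hy : y ∈ Vb) :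
    ∃ a : ↥(gaussSubalgebra K N O), y - alphaF K N q (a : FF K N) ∈ Vb.nonunits := by
  haveI := isDiscreteValuationRing_gaussVS K N O
  obtain ⟨a, ha, hya⟩ := h.degOneB hy
  exact ⟨⟨a, ha⟩, hya⟩

end GaussBase

/-! ### The second valuation ring of level `N ℓ`, `ℓ ∤ N`, is a discrete valuation ring -/

section SecondValDVR

open Fermat.Agent.P3G Fermat.Agent.P3G.SecondValuation Fermat.Agent.N4F.E

variable (K : Type) [Field K] [CharZero K] (N : ℕ) [NeZero N] (ℓ : ℕ) [Fact ℓ.Prime]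
  (O : Subring K) [IsDiscreteValuationRing ↥O] [IsFractionRing ↥O K]

variable {K N ℓ O}

theorem secondVal_unif_mem_nonunits (sv : SecondVal K N ℓ O) {ϖ : ↥O} (hϖ : Irreducible ϖ) :
    algebraMap K (FF K (N * ℓ)) (ϖ : K) ∈ sv.V.nonunits := by
  have hmem : algebraMap K (FF K N) (ϖ : K) ∈ gaussSubalgebra K N O := (unif K N O ϖ).2
  have h1 := sv.ev_beta _ hmem
  have h2 : theta K N O ⟨algebraMap K (FF K N) (ϖ : K), hmem⟩ = 0 := theta_unif K N O hϖ
  rw [h2, sv.ev_eq_zero_iff] at h1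
  have e : betaF K N ℓ (algebraMap K (FF K N) (ϖ : K)) = algebraMap K (FF K (N * ℓ)) (ϖ : K) :=
    AlgHom.commutes _ _
  rw [← e]
  exact h1

attribute [local instance] BetaSide.algBeta BetaSide.algGL

theorem secondVal_exists_zpow_beta (ι : K →+* ℂ) (hℓN : ¬ ℓ ∣ N) (sv : SecondVal K N ℓ O)
    {ϖ : ↥O} (hϖ : Irreducible ϖ) {c : FF K N} (hc : c ≠ 0) :
    ∃ n : ℤ, sv.V.valuation (betaF K N ℓ c) =
      sv.V.valuation (algebraMap K (FF K (N * ℓ)) (ϖ : K)) ^ n := by
  haveI := BetaSide.finiteDimensional_beta K N ℓ ι hℓN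
  haveI : Algebra.IsSeparable (FF K N) (FF K (N * ℓ)) := inferInstance
  obtain ⟨n, hn⟩ := exists_zpow_algebraMap (A := ↥(gaussSubalgebra K N O)) (F := FF K N)
    (L := FF K (N * ℓ)) (irreducible_unif K N O hϖ) sv.V (fun a => sv.beta_mem a a.2) hc
  refine ⟨n, ?_⟩
  have e : algebraMap ↥(gaussSubalgebra K N O) (FF K (N * ℓ)) (unif K N O ϖ) =
      algebraMap K (FF K (N * ℓ)) (ϖ : K) := by
    show betaF K N ℓ (algebraMap K (FF K N) (ϖ : K)) = _
    rw [AlgHom.commutes]
  rw [← e]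
  exact hn

theorem secondVal_algebraMap_ne_zero {ϖ : ↥O} (hϖ : Irreducible ϖ) :
    algebraMap K (FF K (N * ℓ)) (ϖ : K) ≠ 0 := by
  intro h
  have : (ϖ : K) = 0 := (algebraMap K (FF K (N * ℓ))).injective (h.trans (map_zero _).symm)
  exact hϖ.ne_zero (Subtype.ext this)

/-- Discreteness of the second valuation: every value is a power of `v(ϖ)`. -/
theorem secondVal_disc (ι : K →+* ℂ) (hℓN : ¬ ℓ ∣ N) (sv : SecondVal K N ℓ O)
    {ϖ : ↥O} (hϖ : Irreducible ϖ) {x : FF K (N * ℓ)} (hx : x ≠ 0) :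
    ∃ n : ℤ, sv.V.valuation x = sv.V.valuation (algebraMap K (FF K (N * ℓ)) (ϖ : K)) ^ n := by
  haveI := BetaSide.finiteDimensional_beta K N ℓ ι hℓN
  haveI : Algebra.IsSeparable (FF K N) (FF K (N * ℓ)) := inferInstance
  exact DiscreteVal.exists_zpow_eq (betaF K N ℓ).toRingHom sv.V (secondVal_algebraMap_ne_zero hϖ)
    (secondVal_unif_mem_nonunits sv hϖ) (sv.ram_one ϖ hϖ)
    (fun _ hc => secondVal_exists_zpow_beta ι hℓN sv hϖ hc)
    (exists_eval₂_eq_zero (F := FF K N) (L := FF K (N * ℓ))) hx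

/-- **The second valuation ring is a discrete valuation ring.** -/
theorem isDiscreteValuationRing_secondVal (ι : K →+* ℂ) (hℓN : ¬ ℓ ∣ N)
    (sv : SecondVal K N ℓ O) : IsDiscreteValuationRing ↥sv.V := by
  haveI := BetaSide.finiteDimensional_beta K N ℓ ι hℓN
  haveI : Algebra.IsSeparable (FF K N) (FF K (N * ℓ)) := inferInstance
  obtain ⟨ϖ, hϖ⟩ := IsDiscreteValuationRing.exists_irreducible ↥O
  exact DiscreteVal.isDiscreteValuationRing (betaF K N ℓ).toRingHom sv.V
    (secondVal_algebraMap_ne_zero hϖ) (secondVal_unif_mem_nonunits sv hϖ) (sv.ram_one ϖ hϖ)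
    (fun _ hc => secondVal_exists_zpow_beta ι hℓN sv hϖ hc)
    (exists_eval₂_eq_zero (F := FF K N) (L := FF K (N * ℓ)))

end SecondValDVR

end Fermat.Agent.S36.V.CountAlong
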