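import Mathlib
import Fermat.Agent.S36.V.MidVal

/-!
# S36 / block [V]: the cyclotomic extension `K' = K(ζ_q) ⊆ ℂ` of an embedded field, ∃-closed

For a field `K` with an embedding `ι : K →+* ℂ` and `q ≠ 0`: there are a finite extension `K'` of `K`,
an embedding `ι' : K' →+* ℂ` extending `ι` and a primitive `q`-th root of unity `u ∈ K'`
(`exists_cycloExt`).  Consequently the middle embedding data `MidEmb` of `V/MidVal` exist without any
auxiliary input (`exists_midEmb_closed`).
-/

set_option autoImplicit false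
set_option linter.unusedSectionVars false
set_option linter.style.haveILetI false

namespace Fermat.Agent.S36.V.CycloExt

open ModularCurve IsLocalRing
open Fermat.Agent.N4.Setting Fermat.Agent.S36.V.MidVal

/-- **The cyclotomic extension inside `ℂ`.** -/
theorem exists_cycloExt (K : Type) [Field K] (ι : K →+* ℂ) (q : ℕ) [NeZero q] :
    ∃ (K' : Type) (_ : Field K') (_ : Algebra K K') (_ : FiniteDimensional K K')
      (ι' : K' →+* ℂ) (_ : ∀ x : K, ι' (algebraMap K K' x) = ι x) (u : K'ˣ),
      IsPrimitiveRoot (u : K') q := by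
  have hq0 : q ≠ 0 := NeZero.ne q
  set ζ : ℂ := Complex.exp (2 * Real.pi * Complex.I / q) with hζdef
  have hζ : IsPrimitiveRoot ζ q := Complex.isPrimitiveRoot_exp q hq0
  have hint : IsIntegral ι.fieldRange ζ := by
    refine ⟨Polynomial.X ^ q - 1, Polynomial.monic_X_pow_sub_C 1 hq0, ?_⟩
    rw [Polynomial.eval₂_sub, Polynomial.eval₂_pow, Polynomial.eval₂_X, Polynomial.eval₂_one,
      hζ.pow_eq_one, sub_self]
  let E : IntermediateField ι.fieldRange ℂ := IntermediateField.adjoin ι.fieldRange {ζ}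
  haveI hfin : FiniteDimensional ι.fieldRange E := IntermediateField.adjoin.finiteDimensional hint
  letI algKR : Algebra K ι.fieldRange := ι.rangeRestrictField.toAlgebra
  letI algKE : Algebra K E := ((algebraMap ι.fieldRange E).comp ι.rangeRestrictField).toAlgebra
  haveI : IsScalarTower K ι.fieldRange E := IsScalarTower.of_algebraMap_eq (fun _ => rfl)
  haveI : Module.Finite K ι.fieldRange := by
    refine Module.Finite.of_surjective (Algebra.linearMap K ι.fieldRange) ?_
    rintro ⟨y, x, rfl⟩
    exact ⟨x, rfl⟩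
  haveI : FiniteDimensional K E := Module.Finite.trans ι.fieldRange E
  have hζE : ζ ∈ E := IntermediateField.subset_adjoin _ _ (Set.mem_singleton ζ)
  have hζ' : IsPrimitiveRoot (⟨ζ, hζE⟩ : E) q :=
    IsPrimitiveRoot.of_map_of_injective (f := E.val) hζ Subtype.val_injective
  have hne : (⟨ζ, hζE⟩ : E) ≠ 0 := hζ'.ne_zero hq0
  refine ⟨E, inferInstance, algKE, inferInstance, (E.val : E →+* ℂ), fun x => rfl,
    Units.mk0 _ hne, ?_⟩
  exact hζ'

/-- **The middle embedding exists**, with no auxiliary input. -/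
theorem exists_midEmb_closed (K : Type) [Field K] [CharZero K] (ι : K →+* ℂ)
    (M0 q : ℕ) [NeZero M0] [NeZero q] (hq : q.Prime) (hqM : ¬ q ∣ M0)
    (O : Subring K) [IsDiscreteValuationRing ↥O] [IsFractionRing ↥O K]
    (hqO : ((q : ℕ) : ↥O) ∈ maximalIdeal ↥O) :
    ∃ (K' : Type) (_ : Field K') (_ : Algebra K K') (O' : Subring K')
      (_ : IsDiscreteValuationRing ↥O') (_ : IsFractionRing ↥O' K')
      (s : FF K (M0 * q * q) →+* LaurentSeries K') (u : K'ˣ),
      MidEmb K M0 q O K' O' s u ∧ IsPrimitiveRoot (u : K') q := by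
  obtain ⟨K', hF, hA, hfin, ι', hι, u, hu⟩ := exists_cycloExt K ι q
  obtain ⟨O', hdvr, hfr, s, h⟩ := exists_midEmb K ι K' ι' hι M0 q hq hqM O hqO u hu
  exact ⟨K', hF, hA, O', hdvr, hfr, s, u, h, hu⟩

end Fermat.Agent.S36.V.CycloExt
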