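import Mathlib
import Fermat.Agent.S36.V.MidValBeta
import Fermat.Agent.S36.R3.WilsonMid

/-!
# S36 / block [V]: descent of the place of `V11 = midVS` to the residue field of `O`

helper15's `midEv h : ↥(midVS h) →+* LaurentSeries κ'` takes values in Laurent series over the residue
field `κ'` of the cyclotomic discrete valuation ring `O'`.  As soon as `V11` has residue degree one
over `V10` along `α₂` (hypothesis `DegOne h`, produced by the counting argument `e(V11) ≥ q − 1`), the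
place factors uniquely through `coeffMap (resMap) : LaurentSeries κ → LaurentSeries κ'`, `κ` the
residue field of `O`:

* `ev11K h hdeg : ↥(midVS h) →+* LaurentSeries κ`, `coeffMap_ev11K : ρ (ev11K y) = midEv y`;
* `ev11K_eq_zero_iff`, `ev11K_alphaF` (`= θ₁`), `ev11K_betaF_betaF` (`= θ₀`), `ev11K_betaF` (`= sv.ev`);
* `wilson_K` : the Wilson residue `ev11K ((β₂β₁ g − α₂α₁ g)^(q-1)/q) = -(θ ḡ)^(q-1)` with values in
  `LaurentSeries κ` (+ the unit version and the case `g = j`).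

No identification `κ ≅ κ'` is needed.
-/

set_option autoImplicit false
set_option linter.unusedSectionVars false
set_option linter.style.haveILetI false

namespace Fermat.Agent.S36.V.MidEvK

open ModularCurve IsLocalRing
open Fermat.Agent.S28.Gauss Fermat.Agent.N4.Setting Fermat.Agent.N4.FibreEmbedding
open Fermat.Agent.N4F.E.DegreeLevelRaise Fermat.Agent.N4F.E.GaussDVR
open Fermat.Agent.N4.TwistSeries Fermat.Agent.S36.R3.PiSeries
open Fermat.Agent.S36.V.MidVal Fermat.Agent.S36.V.MidValBeta Fermat.Agent.S36.R3.WilsonMid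
open Fermat.Agent.P3G.SecondValuation

/-! ### Abstract core: a ring hom with values in the range of an injective hom descends -/

section Abstract

variable {R L L' : Type*} [CommRing R] [CommRing L] [CommRing L'] (ev' : R →+* L') (ρ : L →+* L')
  (hρ : Function.Injective ρ) (hrange : ∀ y : R, ev' y ∈ ρ.range)

/-- `ρ` as an isomorphism onto its range. -/
noncomputable def rangeEquiv : L ≃+* ρ.range :=
  RingEquiv.ofBijective ρ.rangeRestrict
    ⟨fun _ _ hab => hρ (congrArg Subtype.val hab), ρ.rangeRestrict_surjective⟩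

theorem coe_rangeEquiv (x : L) : ((rangeEquiv ρ hρ x : ρ.range) : L') = ρ x := rfl

/-- The descended homomorphism. -/
noncomputable def descendHom : R →+* L :=
  ((rangeEquiv ρ hρ).symm : ρ.range →+* L).comp (ev'.codRestrict ρ.range hrange)

theorem map_descendHom (y : R) : ρ (descendHom ev' ρ hρ hrange y) = ev' y := by
  have h1 : rangeEquiv ρ hρ (descendHom ev' ρ hρ hrange y) = ev'.codRestrict ρ.range hrange y := by
    show rangeEquiv ρ hρ ((rangeEquiv ρ hρ).symm (ev'.codRestrict ρ.range hrange y)) = _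
    exact (rangeEquiv ρ hρ).apply_symm_apply _
  have h2 := congrArg Subtype.val h1
  rw [coe_rangeEquiv] at h2
  exact h2

theorem descendHom_eq_of_map_eq {y : R} {x : L} (h : ev' y = ρ x) :
    descendHom ev' ρ hρ hrange y = x :=
  hρ ((map_descendHom ev' ρ hρ hrange y).trans h)

end Abstract

/-! ### The middle valuation -/

variable {K : Type} [Field K] [CharZero K] {M0 q : ℕ} [NeZero M0] [NeZero q]
  {O : Subring K} [IsDiscreteValuationRing ↥O] [IsFractionRing ↥O K]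
  {K' : Type} [Field K'] [Algebra K K']
  {O' : Subring K'} [IsDiscreteValuationRing ↥O'] [IsFractionRing ↥O' K']
  {s : FF K (M0 * q * q) →+* LaurentSeries K'} {u : K'ˣ}

/-- Residue degree one of `V11` over `V10` along `α₂` (= field `deg_one_V11_alpha` of `ThreeVal`). -/
def DegOne (h : MidEmb K M0 q O K' O' s u) : Prop :=
  ∀ y ∈ midVS h, ∃ a : ↥(gaussSubalgebra K (M0 * q) O),
    y - alphaF K (M0 * q) q (a : FF K (M0 * q)) ∈ (midVS h).nonunits

/-- The coefficientwise residue field map `ρ : κ((Q)) → κ'((Q))`. -/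
noncomputable abbrev rho (h : MidEmb K M0 q O K' O' s u) :
    LaurentSeries (ResidueField ↥O) →+* LaurentSeries (ResidueField ↥O') :=
  coeffMap (resMap O O' h.dom)

theorem rho_injective (h : MidEmb K M0 q O K' O' s u) : Function.Injective (rho h) :=
  (rho h).injective

theorem midEv_eq_of_sub_mem (h : MidEmb K M0 q O K' O' s u) {y z : FF K (M0 * q * q)}
    (hy : y ∈ midVS h) (hz : z ∈ midVS h) (hyz : y - z ∈ (midVS h).nonunits) :
    midEv h ⟨y, hy⟩ = midEv h ⟨z, hz⟩ := by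
  have h1 : midEv h (⟨y, hy⟩ - ⟨z, hz⟩) = 0 := (midEv_eq_zero_iff h _).mpr hyz
  rwa [map_sub, sub_eq_zero] at h1

theorem midEv_mem_range (h : MidEmb K M0 q O K' O' s u) (hdeg : DegOne h) (y : ↥(midVS h)) :
    midEv h y ∈ (rho h).range := by
  obtain ⟨a, ha⟩ := hdeg y y.2
  refine ⟨theta K (M0 * q) O a, ?_⟩
  have h1 := midEv_eq_of_sub_mem h y.2 (alphaF_mem_midVS h a.2) ha
  rw [midEv_alphaF h a.2] at h1
  exact h1.symm

/-- **The place of `V11` with values in `κ((Q))`.** -/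
noncomputable def ev11K (h : MidEmb K M0 q O K' O' s u) (hdeg : DegOne h) :
    ↥(midVS h) →+* LaurentSeries (ResidueField ↥O) :=
  descendHom (midEv h) (rho h) (rho_injective h) (midEv_mem_range h hdeg)

theorem coeffMap_ev11K (h : MidEmb K M0 q O K' O' s u) (hdeg : DegOne h) (y : ↥(midVS h)) :
    coeffMap (resMap O O' h.dom) (ev11K h hdeg y) = midEv h y :=
  map_descendHom (midEv h) (rho h) (rho_injective h) (midEv_mem_range h hdeg) y

theorem ev11K_eq_of_midEv_eq (h : MidEmb K M0 q O K' O' s u) (hdeg : DegOne h) {y : ↥(midVS h)}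
    {x : LaurentSeries (ResidueField ↥O)} (hx : midEv h y = coeffMap (resMap O O' h.dom) x) :
    ev11K h hdeg y = x :=
  descendHom_eq_of_map_eq (midEv h) (rho h) (rho_injective h) (midEv_mem_range h hdeg) hx

theorem ev11K_eq_zero_iff (h : MidEmb K M0 q O K' O' s u) (hdeg : DegOne h) (y : ↥(midVS h)) :
    ev11K h hdeg y = 0 ↔ (y : FF K (M0 * q * q)) ∈ (midVS h).nonunits := by
  rw [← midEv_eq_zero_iff h y, ← coeffMap_ev11K h hdeg y]
  constructor
  · intro h0
    rw [h0, map_zero]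
  · intro h0
    exact rho_injective h (by rw [h0, map_zero])

/-- `ev11 ∘ α₂ = θ₁`. -/
theorem ev11K_alphaF (h : MidEmb K M0 q O K' O' s u) (hdeg : DegOne h) {x : FF K (M0 * q)}
    (hx : x ∈ gaussSubalgebra K (M0 * q) O) :
    ev11K h hdeg ⟨alphaF K (M0 * q) q x, alphaF_mem_midVS h hx⟩ = theta K (M0 * q) O ⟨x, hx⟩ :=
  ev11K_eq_of_midEv_eq h hdeg (midEv_alphaF h hx)

/-- `ev11 ∘ β₂ ∘ β₁ = θ₀`. -/
theorem ev11K_betaF_betaF (h : MidEmb K M0 q O K' O' s u) (hdeg : DegOne h) {φ : FF K M0}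
    (hφ : φ ∈ gaussSubalgebra K M0 O) :
    ev11K h hdeg ⟨betaF K (M0 * q) q (betaF K M0 q φ), betaF_betaF_mem_midVS h hφ⟩ =
      theta K M0 O ⟨φ, hφ⟩ :=
  ev11K_eq_of_midEv_eq h hdeg (midEv_betaF_betaF h hφ)

/-- `ev11 ∘ β₂ = ev01`. -/
theorem ev11K_betaF [Fact q.Prime] [CharP (ResidueField ↥O) q]
    (h : MidEmb K M0 q O K' O' s u) (hdeg : DegOne h) (sv : SecondVal K M0 q O)
    {y : FF K (M0 * q)} (hy : y ∈ sv.V) :
    ev11K h hdeg ⟨betaF K (M0 * q) q y, betaF_mem_midVS h sv hy⟩ = sv.ev ⟨y, hy⟩ :=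
  ev11K_eq_of_midEv_eq h hdeg (midEv_betaF h sv hy)

/-- **The Wilson residue on `V11`, with values in `κ((Q))`** (= field `wilson` of `ThreeVal`). -/
theorem wilson_K (h : MidEmb K M0 q O K' O' s u) (hdeg : DegOne h) (hu : IsPrimitiveRoot (u : K') q)
    (g : FF K M0) (hg : g ∈ gaussSubalgebra K M0 O) :
    ∃ hw : (betaF K (M0 * q) q (betaF K M0 q g) - alphaF K (M0 * q) q (alphaF K M0 q g)) ^ (q - 1) *
        ((q : ℕ) : FF K (M0 * q * q))⁻¹ ∈ midVS h,
      ev11K h hdeg ⟨_, hw⟩ = -(thetaL (theta K M0 O ⟨g, hg⟩)) ^ (q - 1) := by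
  obtain ⟨hw, h1⟩ := wilson_mid h hu g hg
  refine ⟨hw, ev11K_eq_of_midEv_eq h hdeg ?_⟩
  rw [h1, map_neg, map_pow, coeffMap_thetaL]

/-- **Unit version** (cusps). -/
theorem wilson_K_unit (h : MidEmb K M0 q O K' O' s u) (hdeg : DegOne h)
    (hu : IsPrimitiveRoot (u : K') q)
    (g : FF K M0) (hg : g ∈ gaussSubalgebra K M0 O) (hg0 : theta K M0 O ⟨g, hg⟩ ≠ 0) :
    ∃ hw : (1 - alphaF K (M0 * q) q (alphaF K M0 q g) /
        betaF K (M0 * q) q (betaF K M0 q g)) ^ (q - 1) *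
        ((q : ℕ) : FF K (M0 * q * q))⁻¹ ∈ midVS h,
      ev11K h hdeg ⟨_, hw⟩ * theta K M0 O ⟨g, hg⟩ ^ (q - 1) =
        -(thetaL (theta K M0 O ⟨g, hg⟩)) ^ (q - 1) := by
  obtain ⟨hw, h1⟩ := wilson_mid_unit h hu g hg hg0
  refine ⟨hw, rho_injective h ?_⟩
  show coeffMap (resMap O O' h.dom) _ = coeffMap (resMap O O' h.dom) _
  rw [map_mul, map_pow, coeffMap_ev11K, h1, map_neg, map_pow, coeffMap_thetaL]

/-- The case `g = j`: `ev11 ((j'' − j)^(q-1)/q) = -(θ j̄)^(q-1)`. -/
theorem wilson_K_j (h : MidEmb K M0 q O K' O' s u) (hdeg : DegOne h)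
    (hu : IsPrimitiveRoot (u : K') q) :
    ∃ hw : PiElt K M0 q ^ (q - 1) * ((q : ℕ) : FF K (M0 * q * q))⁻¹ ∈ midVS h,
      ev11K h hdeg ⟨_, hw⟩ = -(thetaL (jqModC (ResidueField ↥O))) ^ (q - 1) := by
  obtain ⟨hw, h1⟩ := wilson_mid_j h hu
  refine ⟨hw, ev11K_eq_of_midEv_eq h hdeg ?_⟩
  rw [h1, map_neg, map_pow, coeffMap_thetaL, coeffMap_jqModC]

end Fermat.Agent.S36.V.MidEvK
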