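/-
S36, block [V] (helper28): three fields of `ThreeVal`, hypothesis-driven on the others —
`only_three`, `V11_ne_V02`, `Pi_unit_V02` — and the `α₁`-version of `SecondVal.only_two`.
-/
import Mathlib
import Fermat.Agent.S36.V.ThreeVal

set_option autoImplicit false
set_option linter.unusedSectionVars false
set_option linter.style.haveILetI false

open ModularCurve Fermat.Agent.S28.Gauss Fermat.Agent.N4.Chart Fermat.Agent.N4.Setting
  Fermat.Agent.N4.FibreEmbedding Fermat.Agent.N4F.E.GaussDVR Fermat.Agent.N4F.E.DegreeLevelRaise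
  Fermat.Agent.P3G.SecondValuation Fermat.Agent.S36.V.MidVal Fermat.Agent.S36.V.Transport
  Fermat.Agent.S36.V.ThreeVal

noncomputable section

namespace Fermat.Agent.S36.V.OnlyThree

variable (K : Type) [Field K] [CharZero K] (ι : K →+* ℂ) (O : Subring K)
  [IsDiscreteValuationRing ↥O] [IsFractionRing ↥O K]
  (M0 q : ℕ) [NeZero M0] [hq : Fact q.Prime] [CharP (IsLocalRing.ResidueField ↥O) q]

set_option quotPrecheck false in
local notation "κ" => IsLocalRing.ResidueField ↥O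

include ι in
/-- **The `α₁`-version of `SecondVal.only_two`**: the valuation subrings of `FF K (M₀ q)` over
`α₁(G₀)` in which the uniformisers of `O` are nonunits are the Gauss ring and `sv.V`. -/
theorem only_two_alpha (hprime : (fibreIdeal K M0 O (Rfin K M0 O)).IsPrime)
    (sv : SecondVal K M0 q O) (B : ValuationSubring (FF K (M0 * q)))
    (hB : ∀ g ∈ gaussSubalgebra K M0 O, alphaF K M0 q g ∈ B)
    (hϖB : ∀ ϖ : ↥O, Irreducible ϖ → algebraMap K (FF K (M0 * q)) (ϖ : K) ∈ B.nonunits) :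
    B = gaussVS K (M0 * q) O ∨ B = sv.V := by
  have h1 : ∀ x ∈ gaussSubalgebra K M0 O,
      betaF K M0 q x ∈ B.comap (wKhom K ι (M0 * q)) := by
    intro x hx
    rw [ValuationSubring.mem_comap, wKhom_betaF]
    refine hB _ ?_
    rw [wKhom_apply]
    exact (wK_mem_gaussVS_iff K ι O M0 hprime x).mpr hx
  have h2 : ∀ ϖ : ↥O, Irreducible ϖ →
      algebraMap K (FF K (M0 * q)) (ϖ : K) ∈ (B.comap (wKhom K ι (M0 * q))).nonunits := by
    intro ϖ hϖ
    rw [unif_mem_nonunits_comap_wKhom_iff]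
    exact hϖB ϖ hϖ
  have hsv := secondVal_eq_comap K ι O M0 q hprime sv
  rcases sv.only_two _ h1 h2 with h | h
  · right
    rw [comap_wKhom_eq_iff] at h
    rw [h, hsv]
  · left
    rw [comap_wKhom_eq_iff] at h
    rw [h, hsv, comap_wKhom_comap_wKhom]

omit [CharP (IsLocalRing.ResidueField ↥O) q] in
/-- **`only_three`** from the level-one classification and the two `α₂`-tables. -/
theorem only_three (sv : SecondVal K M0 q O) (V11 V02 : ValuationSubring (FF K (M0 * q * q)))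
    (honly1 : ∀ B : ValuationSubring (FF K (M0 * q)),
      (∀ g ∈ gaussSubalgebra K M0 O, alphaF K M0 q g ∈ B) →
      (∀ ϖ : ↥O, Irreducible ϖ → algebraMap K (FF K (M0 * q)) (ϖ : K) ∈ B.nonunits) →
      B = gaussVS K (M0 * q) O ∨ B = sv.V)
    (only_alpha_V10 : ∀ B : ValuationSubring (FF K (M0 * q * q)),
      (∀ g ∈ gaussSubalgebra K (M0 * q) O, alphaF K (M0 * q) q g ∈ B) →
      (∀ ϖ : ↥O, Irreducible ϖ → algebraMap K (FF K (M0 * q * q)) (ϖ : K) ∈ B.nonunits) →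
      B = gaussVS K (M0 * q * q) O ∨ B = V11)
    (only_alpha_V01 : ∀ B : ValuationSubring (FF K (M0 * q * q)),
      (∀ g ∈ sv.V, alphaF K (M0 * q) q g ∈ B) →
      (∀ ϖ : ↥O, Irreducible ϖ → algebraMap K (FF K (M0 * q * q)) (ϖ : K) ∈ B.nonunits) →
      B = V02)
    (B : ValuationSubring (FF K (M0 * q * q)))
    (hB : ∀ g ∈ gaussSubalgebra K M0 O, alphaF K (M0 * q) q (alphaF K M0 q g) ∈ B)
    (hϖB : ∀ ϖ : ↥O, Irreducible ϖ → algebraMap K (FF K (M0 * q * q)) (ϖ : K) ∈ B.nonunits) :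
    B = gaussVS K (M0 * q * q) O ∨ B = V11 ∨ B = V02 := by
  have h2 : ∀ ϖ : ↥O, Irreducible ϖ →
      algebraMap K (FF K (M0 * q)) (ϖ : K) ∈ (B.comap (a2 K M0 q)).nonunits := by
    intro ϖ hϖ
    rw [mem_nonunits_comap]
    show alphaF K (M0 * q) q (algebraMap K (FF K (M0 * q)) (ϖ : K)) ∈ _
    rw [AlgHom.commutes]
    exact hϖB ϖ hϖ
  rcases honly1 (B.comap (a2 K M0 q)) (fun g hg => hB g hg) h2 with h | h
  · rcases only_alpha_V10 B (fun g hg => by
        have : g ∈ B.comap (a2 K M0 q) := by rw [h]; exact hg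
        exact this) hϖB with h' | h'
    · exact Or.inl h'
    · exact Or.inr (Or.inl h')
  · exact Or.inr (Or.inr (only_alpha_V01 B (fun g hg => by
      have : g ∈ B.comap (a2 K M0 q) := by rw [h]; exact hg
      exact this) hϖB))

omit [CharP (IsLocalRing.ResidueField ↥O) q] in
/-- **`V11 ≠ V02`** from the `α₂`-row of the comap table. -/
theorem V11_ne_V02 (sv : SecondVal K M0 q O) (V11 V02 : ValuationSubring (FF K (M0 * q * q)))
    (comap_alpha_V11 : V11.comap (a2 K M0 q) = gaussVS K (M0 * q) O)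
    (comap_alpha_V02 : V02.comap (a2 K M0 q) = sv.V) : V11 ≠ V02 := by
  intro h
  rw [h, comap_alpha_V02] at comap_alpha_V11
  exact sv.ne_gauss comap_alpha_V11

omit [CharP (IsLocalRing.ResidueField ↥O) q] in
/-- **`Π` is a unit of `V02`**: `ev02 Π = j̄ − j̄(Q^{q²}) ≠ 0`. -/
theorem Pi_unit_V02 (sv : SecondVal K M0 q O) (V02 : ValuationSubring (FF K (M0 * q * q)))
    (ev02 : ↥V02 →+* LaurentSeries (IsLocalRing.ResidueField ↥O))
    (ev02_eq_zero_iff : ∀ y : ↥V02, ev02 y = 0 ↔ (y : FF K (M0 * q * q)) ∈ V02.nonunits)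
    (comap_alpha_V02 : V02.comap (a2 K M0 q) = sv.V)
    (comap_beta_V02 : V02.comap (b2 K M0 q) = sv.V)
    (ev02_beta : ∀ (x : FF K (M0 * q)) (hx : x ∈ sv.V) (hx' : betaF K (M0 * q) q x ∈ V02),
      ev02 ⟨betaF K (M0 * q) q x, hx'⟩ = sv.ev ⟨x, hx⟩)
    (ev02_alpha : ∀ (x : FF K (M0 * q)) (hx : x ∈ sv.V) (hx' : alphaF K (M0 * q) q x ∈ V02),
      ev02 ⟨alphaF K (M0 * q) q x, hx'⟩ =
        qExpand (IsLocalRing.ResidueField ↥O) q (sv.ev ⟨x, hx⟩)) :
    PiElt K M0 q ∈ V02 ∧ PiElt K M0 q ∉ V02.nonunits := by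
  have hj := jF_mem_gaussSubalgebra K M0 O
  have hb1 : betaF K M0 q (jF K M0) ∈ sv.V := sv.beta_mem _ hj
  have ha1 : alphaF K M0 q (jF K M0) ∈ sv.V := sv.alpha_mem _ hj
  have hb2 : betaF K (M0 * q) q (betaF K M0 q (jF K M0)) ∈ V02 := by
    have : betaF K M0 q (jF K M0) ∈ V02.comap (b2 K M0 q) := by rw [comap_beta_V02]; exact hb1
    exact this
  have ha2 : alphaF K (M0 * q) q (alphaF K M0 q (jF K M0)) ∈ V02 := by
    have : alphaF K M0 q (jF K M0) ∈ V02.comap (a2 K M0 q) := by rw [comap_alpha_V02]; exact ha1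
    exact this
  have hmem : PiElt K M0 q ∈ V02 := V02.toSubring.sub_mem hb2 ha2
  refine ⟨hmem, fun hnon => ?_⟩
  have h0 := (ev02_eq_zero_iff ⟨PiElt K M0 q, hmem⟩).2 hnon
  have e : (⟨PiElt K M0 q, hmem⟩ : ↥V02) =
      ⟨betaF K (M0 * q) q (betaF K M0 q (jF K M0)), hb2⟩ -
        ⟨alphaF K (M0 * q) q (alphaF K M0 q (jF K M0)), ha2⟩ := Subtype.ext rfl
  rw [e, map_sub, ev02_beta _ hb1 hb2, ev02_alpha _ ha1 ha2, sv.ev_beta _ hj, sv.ev_alpha _ hj,
    theta_jF] at h0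
  have h1 := theta_PiElt_ne_zero (K := K) (M0 := M0) (q := q) (O := O) hq.out
  rw [theta_PiElt] at h1
  apply h1
  rw [← neg_sub, h0, neg_zero]

end Fermat.Agent.S36.V.OnlyThree
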