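/-
S36, block [V] (helper28): the transported (non-place) fields of `ThreeVal` for
`V11 := MidVal.midVS h`, `V02 := Transport.V02 K ι O M0 q`.

* (T4) `midVS_comap_wK : (midVS h).comap w₂ = midVS h` (the middle valuation is Fricke-stable);
* `only_alpha_V01`, `only_beta_V01`, `deg_one_V11_beta`, `deg_one_V02`, `insep_V02`, `ram_one_V02`,
  `isIntegral_alpha_V01`, `isIntegral_beta_V01` — each in the exact field shape of
  `ThreeVal.ThreeVal`, obtained from the tables over `V10` (`CountAlong`, `CountMid`) by the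
  Fricke transport of `V/Transport`.
-/
import Mathlib
import Fermat.Agent.S36.V.ThreeVal
import Fermat.Agent.S36.V.CountMid
import Fermat.Agent.S36.V.MidValBeta
import Fermat.Agent.S36.V.OnlyThree

set_option autoImplicit false
set_option linter.unusedSectionVars false
set_option linter.style.haveILetI false

open ModularCurve Fermat.Agent.S28.Gauss Fermat.Agent.N4.Chart Fermat.Agent.N4.Setting
  Fermat.Agent.N4.FibreEmbedding Fermat.Agent.N4F.E.GaussDVR Fermat.Agent.N4F.E.DegreeLevelRaise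
  Fermat.Agent.P3G.SecondValuation Fermat.Agent.S36.V.MidVal Fermat.Agent.S36.V.Transport
  Fermat.Agent.S36.V.ThreeVal Fermat.Agent.S36.V.CountAlong Fermat.Agent.S36.V.CountMid
  Fermat.Agent.S36.V.MidValBeta

noncomputable section

namespace Fermat.Agent.S36.V.ThreeValF2

variable {K : Type} [Field K] [CharZero K] {M0 q : ℕ} [NeZero M0] [hq : Fact q.Prime]
  {O : Subring K} [IsDiscreteValuationRing ↥O] [IsFractionRing ↥O K]
  [CharP (IsLocalRing.ResidueField ↥O) q]
  {K' : Type} [Field K'] [Algebra K K']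
  {O' : Subring K'} [IsDiscreteValuationRing ↥O'] [IsFractionRing ↥O' K']
  {s : FF K (M0 * q * q) →+* LaurentSeries K'} {u : K'ˣ}
  (ι : K →+* ℂ) (h : MidEmb K M0 q O K' O' s u) (hirr : Irreducible ((q : ℕ) : ↥O))
  (hprime : (fibreIdeal K M0 O (Rfin K M0 O)).IsPrime) (sv : SecondVal K M0 q O)

include hprime in
/-- `w₁⁻¹ V10 = V01`. -/
theorem comap_wK_gauss_eq :
    (gaussVS K (M0 * q) O).comap (wKhom K ι (M0 * q)) = sv.V :=
  (secondVal_eq_comap K ι O M0 q hprime sv).symm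

include hprime in
/-- `w₁⁻¹ V01 = V10`. -/
theorem comap_wK_secondVal_eq :
    sv.V.comap (wKhom K ι (M0 * q)) = gaussVS K (M0 * q) O := by
  rw [secondVal_eq_comap K ι O M0 q hprime sv, comap_wKhom_comap_wKhom]

include hprime in
theorem mem_secondVal_iff (x : FF K (M0 * q)) :
    x ∈ sv.V ↔ wKhom K ι (M0 * q) x ∈ gaussVS K (M0 * q) O := by
  rw [secondVal_eq_comap K ι O M0 q hprime sv, ValuationSubring.mem_comap]

include hprime in
theorem wK_mem_secondVal {x : FF K (M0 * q)} (hx : x ∈ gaussVS K (M0 * q) O) :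
    wKhom K ι (M0 * q) x ∈ sv.V := by
  rw [mem_secondVal_iff ι hprime sv, wKhom_wKhom]
  exact hx

include hirr hprime sv in
/-- **(T4) The middle valuation is stable under the Fricke involution.** -/
theorem midVS_comap_wK : (midVS h).comap (wKhom K ι (M0 * q * q)) = midVS h := by
  have h1 : ((midVS h).comap (wKhom K ι (M0 * q * q))).comap
      (alphaF K (M0 * q) q : FF K (M0 * q) →+* FF K (M0 * q * q)) = gaussVS K (M0 * q) O := by
    rw [comap_wKhom_comap_alphaF, midVS_comap_betaF h sv, comap_wK_secondVal_eq ι hprime sv]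
  have hB : ∀ g ∈ gaussSubalgebra K (M0 * q) O,
      alphaF K (M0 * q) q g ∈ (midVS h).comap (wKhom K ι (M0 * q * q)) := by
    intro g hg
    have : g ∈ ((midVS h).comap (wKhom K ι (M0 * q * q))).comap
        (alphaF K (M0 * q) q : FF K (M0 * q) →+* FF K (M0 * q * q)) := by
      rw [h1]; exact hg
    exact this
  have hϖB : ∀ ϖ : ↥O, Irreducible ϖ → algebraMap K (FF K (M0 * q * q)) (ϖ : K) ∈
      ((midVS h).comap (wKhom K ι (M0 * q * q))).nonunits := by
    intro ϖ hϖ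
    rw [unif_mem_nonunits_comap_wKhom_iff]
    exact algebraMap_mem_nonunits h hϖ.not_isUnit
  rcases only_alpha_mid ι h hirr _ hB hϖB with h2 | h2
  · exfalso
    rw [comap_wKhom_eq_iff] at h2
    have h3 := midVS_comap_alphaF h
    rw [h2] at h3
    have h4 := comap_alpha_V02 K ι O M0 q hprime sv
    have h5 : sv.V = gaussVS K (M0 * q) O := h4.symm.trans h3
    exact sv.ne_gauss h5
  · exact h2

include hprime in
/-- **`only_alpha_V01`.** -/
theorem only_alpha_V01 : ∀ B : ValuationSubring (FF K (M0 * q * q)),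
    (∀ g ∈ sv.V, alphaF K (M0 * q) q g ∈ B) →
    (∀ ϖ : ↥O, Irreducible ϖ → algebraMap K (FF K (M0 * q * q)) (ϖ : K) ∈ B.nonunits) →
    B = V02 K ι O M0 q := by
  intro B hB hϖB
  have h1 := only_beta_to_alpha K ι O (M0 * q) q (gaussVS K (M0 * q) O)
    (fun B => B = gaussVS K (M0 * q * q) O)
    (fun B hB hϖB => only_beta K (M0 * q) q O ι (dvd_mul_left q M0) B hB hϖB) B
    (fun g hg => hB g (by rw [← comap_wK_gauss_eq ι hprime sv]; exact hg)) hϖB
  rw [comap_wKhom_eq_iff] at h1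
  exact h1

include hirr hprime in
/-- **`only_beta_V01`.** -/
theorem only_beta_V01 : ∀ B : ValuationSubring (FF K (M0 * q * q)),
    (∀ g ∈ sv.V, betaF K (M0 * q) q g ∈ B) →
    (∀ ϖ : ↥O, Irreducible ϖ → algebraMap K (FF K (M0 * q * q)) (ϖ : K) ∈ B.nonunits) →
    B = midVS h ∨ B = V02 K ι O M0 q := by
  intro B hB hϖB
  have h1 := only_alpha_to_beta K ι O (M0 * q) q (gaussVS K (M0 * q) O)
    (fun B => B = gaussVS K (M0 * q * q) O ∨ B = midVS h)
    (fun B hB hϖB => only_alpha_mid ι h hirr B hB hϖB) B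
    (fun g hg => hB g (by rw [← comap_wK_gauss_eq ι hprime sv]; exact hg)) hϖB
  rcases h1 with h1 | h1
  · right
    rw [comap_wKhom_eq_iff] at h1
    exact h1
  · left
    rw [comap_wKhom_eq_iff, midVS_comap_wK ι h hirr hprime sv] at h1
    exact h1

include ι hirr hprime in
/-- **`deg_one_V11_beta`.** -/
theorem deg_one_V11_beta : ∀ y ∈ midVS h, ∃ a : ↥sv.V,
    y - betaF K (M0 * q) q (a : FF K (M0 * q)) ∈ (midVS h).nonunits := by
  intro y hy
  have h1 := deg_one_alpha_to_beta K ι (M0 * q) q (gaussVS K (M0 * q) O) (midVS h)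
    (fun y hy => by
      obtain ⟨a, ha⟩ := deg_one_mid ι h hirr hy
      exact ⟨⟨a, a.2⟩, ha⟩) y (by rw [midVS_comap_wK ι h hirr hprime sv]; exact hy)
  obtain ⟨a, ha⟩ := h1
  rw [midVS_comap_wK ι h hirr hprime sv] at ha
  exact ⟨⟨a, by rw [← comap_wK_gauss_eq ι hprime sv]; exact a.2⟩, ha⟩

include h hirr hprime in
/-- **`deg_one_V02`.** -/
theorem deg_one_V02 : ∀ y ∈ V02 K ι O M0 q, ∃ a : ↥sv.V,
    y - betaF K (M0 * q) q (a : FF K (M0 * q)) ∈ (V02 K ι O M0 q).nonunits := by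
  intro y hy
  have h1 := deg_one_alpha_to_beta K ι (M0 * q) q (gaussVS K (M0 * q) O)
    (gaussVS K (M0 * q * q) O)
    (fun y hy => by
      obtain ⟨a, ha⟩ := deg_one_gauss_mid ι h hirr hy
      exact ⟨⟨a, a.2⟩, ha⟩) y hy
  obtain ⟨a, ha⟩ := h1
  exact ⟨⟨a, by rw [← comap_wK_gauss_eq ι hprime sv]; exact a.2⟩, ha⟩

include hprime in
/-- **`insep_V02`.** -/
theorem insep_V02 : ∀ y ∈ V02 K ι O M0 q, ∃ a : ↥sv.V,
    y ^ q - alphaF K (M0 * q) q (a : FF K (M0 * q)) ∈ (V02 K ι O M0 q).nonunits := by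
  intro y hy
  have h1 := insep_beta_to_alpha K ι (M0 * q) q q (gaussVS K (M0 * q) O)
    (gaussVS K (M0 * q * q) O)
    (fun y hy => by
      obtain ⟨a, ha⟩ := insep_beta K (M0 * q) q O ι (dvd_mul_left q M0) hy
      exact ⟨⟨a, a.2⟩, ha⟩) y hy
  obtain ⟨a, ha⟩ := h1
  exact ⟨⟨a, by rw [← comap_wK_gauss_eq ι hprime sv]; exact a.2⟩, ha⟩

/-- **`ram_one_V02`.** -/
theorem ram_one_V02 : ∀ ϖ : ↥O, Irreducible ϖ → ∀ y ∈ (V02 K ι O M0 q).nonunits,
    y * (algebraMap K (FF K (M0 * q * q)) (ϖ : K))⁻¹ ∈ V02 K ι O M0 q := fun ϖ hϖ =>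
  ram_one_comap_wKhom K ι (M0 * q * q) (gaussVS K (M0 * q * q) O) (ϖ : K)
    (ram_one_gaussVS K O (M0 * q * q) hϖ)

/-- The Fricke involution `V10 → V01` as a ring homomorphism. -/
def wGaussToSecond : ↥(gaussVS K (M0 * q) O) →+* ↥sv.V :=
  ((wKhom K ι (M0 * q)).comp (gaussVS K (M0 * q) O).subtype).codRestrict sv.V
    (fun x => wK_mem_secondVal ι hprime sv x.2)

theorem coe_wGaussToSecond (x : ↥(gaussVS K (M0 * q) O)) :
    ((wGaussToSecond ι hprime sv x : ↥sv.V) : FF K (M0 * q)) = wKhom K ι (M0 * q) x := rfl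

include hprime in
/-- **`isIntegral_alpha_V01`.** -/
theorem isIntegral_alpha_V01 : ∀ y : FF K (M0 * q * q), y ∈ V02 K ι O M0 q →
    ((a2 K M0 q).comp sv.V.subtype).IsIntegralElem y := by
  intro y hy
  haveI := isDiscreteValuationRing_gaussVS K (M0 * q) O
  obtain ⟨ϖ, hϖ⟩ := IsDiscreteValuationRing.exists_irreducible ↥O
  have hy' : wKhom K ι (M0 * q * q) y ∈ gaussVS K (M0 * q * q) O := hy
  have h1 : ((b2 K M0 q).comp (gaussVS K (M0 * q) O).subtype).IsIntegralElem
      (wKhom K ι (M0 * q * q) y) :=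
    (oneAlong_beta K (M0 * q) q O ι (dvd_mul_left q M0) hϖ).isIntegralElem hy'
  have h2 := isIntegralElem_transport ((b2 K M0 q).comp (gaussVS K (M0 * q) O).subtype)
    ((a2 K M0 q).comp sv.V.subtype) (wKhom K ι (M0 * q * q)) (wGaussToSecond ι hprime sv)
    (fun a => by
      show wKhom K ι (M0 * q * q) (betaF K (M0 * q) q (a : FF K (M0 * q))) =
        alphaF K (M0 * q) q (wKhom K ι (M0 * q) a)
      exact wKhom_betaF K ι (M0 * q) q _) h1
  rwa [wKhom_wKhom] at h2

include hirr hprime in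
/-- **`isIntegral_beta_V01`.** -/
theorem isIntegral_beta_V01 : ∀ y : FF K (M0 * q * q), y ∈ midVS h → y ∈ V02 K ι O M0 q →
    ((b2 K M0 q).comp sv.V.subtype).IsIntegralElem y := by
  intro y hy11 hy02
  haveI := isDiscreteValuationRing_gaussVS K (M0 * q) O
  have hy' : wKhom K ι (M0 * q * q) y ∈ gaussVS K (M0 * q * q) O := hy02
  have hy'' : wKhom K ι (M0 * q * q) y ∈ midVS h := by
    have : y ∈ (midVS h).comap (wKhom K ι (M0 * q * q)) := by
      rw [midVS_comap_wK ι h hirr hprime sv]; exact hy11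
    exact this
  have h1 : ((a2 K M0 q).comp (gaussVS K (M0 * q) O).subtype).IsIntegralElem
      (wKhom K ι (M0 * q * q) y) :=
    (twoAlong_alpha_mid ι h hirr).isIntegralElem hy' hy''
  have h2 := isIntegralElem_transport ((a2 K M0 q).comp (gaussVS K (M0 * q) O).subtype)
    ((b2 K M0 q).comp sv.V.subtype) (wKhom K ι (M0 * q * q)) (wGaussToSecond ι hprime sv)
    (fun a => by
      show wKhom K ι (M0 * q * q) (alphaF K (M0 * q) q (a : FF K (M0 * q))) =
        betaF K (M0 * q) q (wKhom K ι (M0 * q) a)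
      exact wKhom_alphaF K ι (M0 * q) q _) h1
  rwa [wKhom_wKhom] at h2

end Fermat.Agent.S36.V.ThreeValF2
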