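import Mathlib
import Fermat.Agent.S36.V.ThreeVal
import Fermat.Agent.S36.V.MidValBeta

/-!
# S36 / block [V]: the field `ev02_alpha` of `ThreeVal`, from `ev02_beta`

`V02` any valuation subring of `F₂ = FF K (M₀ q²)` with `V02.comap α₂ = V01 = sv.V`, and
`ev02 : V02 →+* κ((Q))` a place of `V02` (kernel = nonunits) normalised by `ev02 ∘ β₂ = sv.ev`.
Then `ev02 (α₂ x) = (sv.ev x)(Q^q)` for EVERY `x ∈ V01`:
both sides are places of `V01`, and modulo `𝔪(V01)` every `x` is `β₁ a`, `a ∈ G₀` (`sv.deg_one`),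
where `α₂ β₁ a = β₂ α₁ a` and `sv.ev (α₁ a) = (θ₀ a)(Q^q) = (sv.ev (β₁ a))(Q^q)`.
-/

set_option autoImplicit false
set_option linter.unusedSectionVars false

open ModularCurve Fermat.Agent.S28.Gauss Fermat.Agent.N4.Chart Fermat.Agent.N4.Setting
  Fermat.Agent.N4.FibreEmbedding Fermat.Agent.N4F.E.GaussDVR Fermat.Agent.N4F.E.DegreeLevelRaise
  Fermat.Agent.P3G.SecondValuation Fermat.Agent.S36.V.ThreeVal

namespace Fermat.Agent.S36.V.ThreeValF3

variable (K : Type) [Field K] [CharZero K] (M0 q : ℕ) [NeZero M0] [hq : Fact q.Prime]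
  (O : Subring K) [IsDiscreteValuationRing ↥O] [IsFractionRing ↥O K]

/-- **`ev02_alpha` from `ev02_beta`.** -/
theorem ev02_alpha_of_beta (sv : SecondVal K M0 q O)
    (V02 : ValuationSubring (FF K (M0 * q * q)))
    (ev02 : ↥V02 →+* LaurentSeries (IsLocalRing.ResidueField ↥O))
    (hz : ∀ y : ↥V02, (y : FF K (M0 * q * q)) ∈ V02.nonunits → ev02 y = 0)
    (hcomapα : V02.comap (a2 K M0 q) = sv.V)
    (hβ : ∀ (x : FF K (M0 * q)) (hx : x ∈ sv.V) (hx' : betaF K (M0 * q) q x ∈ V02),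
      ev02 ⟨betaF K (M0 * q) q x, hx'⟩ = sv.ev ⟨x, hx⟩)
    (x : FF K (M0 * q)) (hx : x ∈ sv.V) (hx' : alphaF K (M0 * q) q x ∈ V02) :
    ev02 ⟨alphaF K (M0 * q) q x, hx'⟩ =
      qExpand (IsLocalRing.ResidueField ↥O) q (sv.ev ⟨x, hx⟩) := by
  obtain ⟨a, ha⟩ := sv.deg_one x hx
  -- the representative `β₁ a`
  have hβa : betaF K M0 q (a : FF K M0) ∈ sv.V := sv.beta_mem _ a.2
  have hαa : alphaF K M0 q (a : FF K M0) ∈ sv.V := sv.alpha_mem _ a.2
  -- `sv.ev x = θ₀ a`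
  have h1 : sv.ev ⟨x, hx⟩ = theta K M0 O a := by
    have h0 : sv.ev (⟨x, hx⟩ - ⟨betaF K M0 q (a : FF K M0), hβa⟩) = 0 :=
      (sv.ev_eq_zero_iff _).2 ha
    rw [map_sub, sub_eq_zero] at h0
    rw [h0]
    exact sv.ev_beta _ a.2
  -- `α₂ (β₁ a) ∈ V02`
  have hmem : alphaF K (M0 * q) q (betaF K M0 q (a : FF K M0)) ∈ V02 := by
    have : betaF K M0 q (a : FF K M0) ∈ V02.comap (a2 K M0 q) := by rw [hcomapα]; exact hβa
    exact this
  -- `ev02 (α₂ x) = ev02 (α₂ β₁ a)`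
  have h2 : ev02 ⟨alphaF K (M0 * q) q x, hx'⟩ =
      ev02 ⟨alphaF K (M0 * q) q (betaF K M0 q (a : FF K M0)), hmem⟩ := by
    have hnu : alphaF K (M0 * q) q (x - betaF K M0 q (a : FF K M0)) ∈ V02.nonunits := by
      have h3 : x - betaF K M0 q (a : FF K M0) ∈ (V02.comap (a2 K M0 q)).nonunits := by
        rw [hcomapα]; exact ha
      exact (Fermat.Agent.S36.V.MidValBeta.mem_nonunits_comap_iff (a2 K M0 q) V02 _).1 h3
    have h0 : ev02 (⟨alphaF K (M0 * q) q x, hx'⟩ -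
        ⟨alphaF K (M0 * q) q (betaF K M0 q (a : FF K M0)), hmem⟩) = 0 := by
      apply hz
      have e : ((⟨alphaF K (M0 * q) q x, hx'⟩ -
          ⟨alphaF K (M0 * q) q (betaF K M0 q (a : FF K M0)), hmem⟩ : ↥V02) :
          FF K (M0 * q * q)) = alphaF K (M0 * q) q (x - betaF K M0 q (a : FF K M0)) := by
        rw [map_sub]; rfl
      rw [e]
      exact hnu
    rwa [map_sub, sub_eq_zero] at h0
  -- `α₂ β₁ a = β₂ α₁ a`
  have hcomm : alphaF K (M0 * q) q (betaF K M0 q (a : FF K M0)) =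
      betaF K (M0 * q) q (alphaF K M0 q (a : FF K M0)) :=
    (Fermat.Agent.S36.V.MidValBeta.betaF_alphaF (K := K) (M0 := M0) (q := q) (a : FF K M0)).symm
  have hmem' : betaF K (M0 * q) q (alphaF K M0 q (a : FF K M0)) ∈ V02 := hcomm ▸ hmem
  have h3 : ev02 ⟨alphaF K (M0 * q) q (betaF K M0 q (a : FF K M0)), hmem⟩ =
      ev02 ⟨betaF K (M0 * q) q (alphaF K M0 q (a : FF K M0)), hmem'⟩ := by
    congr 1
  rw [h2, h3, hβ _ hαa hmem', sv.ev_alpha _ a.2, h1]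

/-- the same for a `ThreeVal`-shaped datum, stated with `ev02_eq_zero_iff`. -/
theorem ev02_alpha_of_beta' (sv : SecondVal K M0 q O)
    (V02 : ValuationSubring (FF K (M0 * q * q)))
    (ev02 : ↥V02 →+* LaurentSeries (IsLocalRing.ResidueField ↥O))
    (hz : ∀ y : ↥V02, ev02 y = 0 ↔ (y : FF K (M0 * q * q)) ∈ V02.nonunits)
    (hcomapα : V02.comap (a2 K M0 q) = sv.V)
    (hβ : ∀ (x : FF K (M0 * q)) (hx : x ∈ sv.V) (hx' : betaF K (M0 * q) q x ∈ V02),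
      ev02 ⟨betaF K (M0 * q) q x, hx'⟩ = sv.ev ⟨x, hx⟩) :
    ∀ (x : FF K (M0 * q)) (hx : x ∈ sv.V) (hx' : alphaF K (M0 * q) q x ∈ V02),
      ev02 ⟨alphaF K (M0 * q) q x, hx'⟩ =
        qExpand (IsLocalRing.ResidueField ↥O) q (sv.ev ⟨x, hx⟩) :=
  fun x hx hx' =>
    ev02_alpha_of_beta K M0 q O sv V02 ev02 (fun y hy => (hz y).2 hy) hcomapα hβ x hx hx'

end Fermat.Agent.S36.V.ThreeValF3
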