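/-
S36 / block [V], part (V-top) (helper15; independent backup of `V/ThreeValExists`): **existence of the
three valuations** `nonempty_threeVal : Nonempty (ThreeVal K M₀ q O sv)` for `O` unramified
(`Irreducible (q : O)`), assembled from the landed producers:

* `V11 := midVS h` (`V/MidVal`, `h` from `CycloExt.exists_midEmb_closed`), `ev11 := MidEvK.ev11K`;
* `V02 := Transport.V02` (Fricke transform of the Gauss valuation), `ev02 := Transport.placeOver`
  over `sv.V` along `β₂` (`ev02_alpha` from `V/ThreeValF3`);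
* the `α₂`-table over `V10` from `V/CountMid`, the `β₂`-table over `V10` from `V/CountAlong`;
* the tables over `V01 = sv.V` by Fricke transport (`V/ThreeValF2`).
-/
import Mathlib
import Fermat.Agent.S36.V.ThreeVal
import Fermat.Agent.S36.V.CountMid
import Fermat.Agent.S36.V.MidEvK
import Fermat.Agent.S36.V.CycloExt
import Fermat.Agent.S36.V.OnlyThree
import Fermat.Agent.S36.V.ThreeValF2
import Fermat.Agent.S36.V.ThreeValF3

set_option autoImplicit false
set_option linter.unusedSectionVars false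
set_option linter.style.haveILetI false

open ModularCurve Fermat.Agent.S28.Gauss Fermat.Agent.N4.Chart Fermat.Agent.N4.Setting
  Fermat.Agent.N4.FibreEmbedding Fermat.Agent.N4F.E.GaussDVR Fermat.Agent.N4F.E.DegreeLevelRaise
  Fermat.Agent.P3G.SecondValuation Fermat.Agent.S36.V.MidVal Fermat.Agent.S36.V.MidValBeta
  Fermat.Agent.S36.V.Transport Fermat.Agent.S36.V.ThreeVal Fermat.Agent.S36.V.CountAlong
  Fermat.Agent.S36.R3.PiSeries IsLocalRing

noncomputable section

namespace Fermat.Agent.S36.V.ThreeValExistsB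

variable {K : Type} [Field K] [CharZero K] {M0 q : ℕ} [NeZero M0]
  [hq : Fact q.Prime] {O : Subring K} [IsDiscreteValuationRing ↥O] [IsFractionRing ↥O K]
  [CharP (ResidueField ↥O) q]
  {K' : Type} [Field K'] [Algebra K K']
  {O' : Subring K'} [IsDiscreteValuationRing ↥O'] [IsFractionRing ↥O' K']
  {s : FF K (M0 * q * q) →+* LaurentSeries K'} {u : K'ˣ}

/-! ### The place of `V02` -/

theorem hker02 (sv : SecondVal K M0 q O) :
    ∀ a : ↥sv.V, (a : FF K (M0 * q)) ∈ sv.V.nonunits → sv.ev a = 0 :=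
  fun a ha => (sv.ev_eq_zero_iff a).mpr ha

/-- The place of `V02`, normalised by `ev02 ∘ β₂ = sv.ev`. -/
def ev02 (ι : K →+* ℂ) (h : MidEmb K M0 q O K' O' s u) (hirr : Irreducible ((q : ℕ) : ↥O))
    (hprime : (fibreIdeal K M0 O (Rfin K M0 O)).IsPrime) (sv : SecondVal K M0 q O) :
    ↥(V02 K ι O M0 q) →+* LaurentSeries (ResidueField ↥O) :=
  placeOver sv.V (V02 K ι O M0 q) (b2 K M0 q) (comap_beta_V02 K ι O M0 q hprime sv)
    (ThreeValF2.deg_one_V02 ι h hirr hprime sv) sv.ev (hker02 sv)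

theorem ev02_eq_zero_iff (ι : K →+* ℂ) (h : MidEmb K M0 q O K' O' s u)
    (hirr : Irreducible ((q : ℕ) : ↥O))
    (hprime : (fibreIdeal K M0 O (Rfin K M0 O)).IsPrime) (sv : SecondVal K M0 q O)
    (y : ↥(V02 K ι O M0 q)) :
    ev02 ι h hirr hprime sv y = 0 ↔ (y : FF K (M0 * q * q)) ∈ (V02 K ι O M0 q).nonunits :=
  placeOver_eq_zero_iff sv.V (V02 K ι O M0 q) (b2 K M0 q) (comap_beta_V02 K ι O M0 q hprime sv)
    (ThreeValF2.deg_one_V02 ι h hirr hprime sv) sv.ev (hker02 sv)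
    (fun a h0 => (sv.ev_eq_zero_iff a).mp h0) y

theorem ev02_beta (ι : K →+* ℂ) (h : MidEmb K M0 q O K' O' s u)
    (hirr : Irreducible ((q : ℕ) : ↥O))
    (hprime : (fibreIdeal K M0 O (Rfin K M0 O)).IsPrime) (sv : SecondVal K M0 q O)
    (x : FF K (M0 * q)) (hx : x ∈ sv.V)
    (hx' : betaF K (M0 * q) q x ∈ V02 K ι O M0 q) :
    ev02 ι h hirr hprime sv ⟨betaF K (M0 * q) q x, hx'⟩ = sv.ev ⟨x, hx⟩ :=
  placeOver_map sv.V (V02 K ι O M0 q) (b2 K M0 q) (comap_beta_V02 K ι O M0 q hprime sv)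
    (ThreeValF2.deg_one_V02 ι h hirr hprime sv) sv.ev (hker02 sv) ⟨x, hx⟩ hx'

theorem ev02_alpha (ι : K →+* ℂ) (h : MidEmb K M0 q O K' O' s u)
    (hirr : Irreducible ((q : ℕ) : ↥O))
    (hprime : (fibreIdeal K M0 O (Rfin K M0 O)).IsPrime) (sv : SecondVal K M0 q O) :
    ∀ (x : FF K (M0 * q)) (hx : x ∈ sv.V) (hx' : alphaF K (M0 * q) q x ∈ V02 K ι O M0 q),
      ev02 ι h hirr hprime sv ⟨alphaF K (M0 * q) q x, hx'⟩ =
        qExpand (ResidueField ↥O) q (sv.ev ⟨x, hx⟩) :=
  ThreeValF3.ev02_alpha_of_beta' K M0 q O sv (V02 K ι O M0 q) (ev02 ι h hirr hprime sv)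
    (ev02_eq_zero_iff ι h hirr hprime sv) (comap_alpha_V02 K ι O M0 q hprime sv)
    (ev02_beta ι h hirr hprime sv)

/-! ### Assembly -/

/-- **The three valuations, from a middle embedding.** -/
def threeValOfMidEmb (ι : K →+* ℂ) (h : MidEmb K M0 q O K' O' s u)
    (hirr : Irreducible ((q : ℕ) : ↥O))
    (hprime : (fibreIdeal K M0 O (Rfin K M0 O)).IsPrime) (sv : SecondVal K M0 q O)
    (hu : IsPrimitiveRoot (u : K') q) : ThreeVal K M0 q O sv where
  V11 := midVS h
  V02 := V02 K ι O M0 q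
  ev11 := MidEvK.ev11K h (fun y hy => CountMid.deg_one_mid ι h hirr hy)
  ev02 := ev02 ι h hirr hprime sv
  ev11_eq_zero_iff := MidEvK.ev11K_eq_zero_iff h _
  ev02_eq_zero_iff := ev02_eq_zero_iff ι h hirr hprime sv
  comap_alpha_V11 := midVS_comap_alphaF h
  comap_beta_V11 := midVS_comap_betaF h sv
  comap_alpha_V02 := comap_alpha_V02 K ι O M0 q hprime sv
  comap_beta_V02 := comap_beta_V02 K ι O M0 q hprime sv
  ev11_alpha := fun x hx _ => MidEvK.ev11K_alphaF h _ hx
  ev11_beta := fun x hx _ => MidEvK.ev11K_betaF h _ sv hx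
  ev02_beta := ev02_beta ι h hirr hprime sv
  ev02_alpha := ev02_alpha ι h hirr hprime sv
  deg_one_V20 := fun y hy => CountMid.deg_one_gauss_mid ι h hirr hy
  deg_one_V11_alpha := fun y hy => CountMid.deg_one_mid ι h hirr hy
  deg_one_V11_beta := ThreeValF2.deg_one_V11_beta ι h hirr hprime sv
  deg_one_V02 := ThreeValF2.deg_one_V02 ι h hirr hprime sv
  insep_V20 := fun y hy => insep_beta K (M0 * q) q O ι (dvd_mul_left q M0) hy
  insep_V02 := ThreeValF2.insep_V02 ι hprime sv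
  ram_one_V02 := ThreeValF2.ram_one_V02 ι
  Pi_mem_nonunits := PiElt_mem_nonunits h
  unif_V11 := CountMid.unif_mid ι h hirr
  ram_V11 := ⟨wilsonElt K M0 q, wilsonElt_mem_midVS h, wilsonElt_inv_mem_midVS h,
    natCast_eq_wilsonElt_mul h⟩
  Pi_unit_V02 := OnlyThree.Pi_unit_V02 K O M0 q sv (V02 K ι O M0 q) (ev02 ι h hirr hprime sv)
    (ev02_eq_zero_iff ι h hirr hprime sv) (comap_alpha_V02 K ι O M0 q hprime sv)
    (comap_beta_V02 K ι O M0 q hprime sv) (ev02_beta ι h hirr hprime sv)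
    (ev02_alpha ι h hirr hprime sv)
  V11_ne_V20 := midVS_ne_gaussVS h
  V02_ne_V20 := V02_ne_V20 K ι O M0 q hprime sv
  V11_ne_V02 := OnlyThree.V11_ne_V02 K O M0 q sv (midVS h) (V02 K ι O M0 q)
    (midVS_comap_alphaF h) (comap_alpha_V02 K ι O M0 q hprime sv)
  only_alpha_V10 := CountMid.only_alpha_mid ι h hirr
  only_beta_V10 := only_beta K (M0 * q) q O ι (dvd_mul_left q M0)
  only_alpha_V01 := ThreeValF2.only_alpha_V01 ι hprime sv
  only_beta_V01 := ThreeValF2.only_beta_V01 ι h hirr hprime sv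
  only_three := OnlyThree.only_three K O M0 q sv (midVS h) (V02 K ι O M0 q)
    (OnlyThree.only_two_alpha K ι O M0 q hprime sv) (CountMid.only_alpha_mid ι h hirr)
    (ThreeValF2.only_alpha_V01 ι hprime sv)
  isIntegral_alpha_V10 := fun y hy hyb => by
    haveI := isDiscreteValuationRing_gaussVS K (M0 * q) O
    exact (CountMid.twoAlong_alpha_mid ι h hirr).isIntegralElem hy hyb
  isIntegral_beta_V10 := fun y hy => by
    haveI := isDiscreteValuationRing_gaussVS K (M0 * q) O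
    obtain ⟨ϖ, hϖ⟩ := IsDiscreteValuationRing.exists_irreducible ↥O
    exact (oneAlong_beta K (M0 * q) q O ι (dvd_mul_left q M0) hϖ).isIntegralElem hy
  isIntegral_alpha_V01 := ThreeValF2.isIntegral_alpha_V01 ι hprime sv
  isIntegral_beta_V01 := ThreeValF2.isIntegral_beta_V01 ι h hirr hprime sv
  wilson := MidEvK.wilson_K h _ hu

end Fermat.Agent.S36.V.ThreeValExistsB

namespace Fermat.Agent.S36.V.ThreeValExistsB

open Fermat.Agent.S36.V.CycloExt

/-- **Existence of the three valuations of `FF K (M₀ q²)` above `q`**, for `O` unramified. -/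
theorem nonempty_threeVal (K : Type) [Field K] [CharZero K] (ι : K →+* ℂ) (M0 q : ℕ) [NeZero M0]
    [hq : Fact q.Prime] (O : Subring K) [IsDiscreteValuationRing ↥O] [IsFractionRing ↥O K]
    [CharP (ResidueField ↥O) q] (hqM0 : ¬ q ∣ M0)
    (hprime : (fibreIdeal K M0 O (Rfin K M0 O)).IsPrime)
    (hirr : Irreducible ((q : ℕ) : ↥O)) (sv : SecondVal K M0 q O) :
    Nonempty (ThreeVal K M0 q O sv) := by
  have hqO : ((q : ℕ) : ↥O) ∈ maximalIdeal ↥O := (mem_maximalIdeal _).mpr hirr.not_isUnit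
  obtain ⟨K', _, _, O', _, _, s, u, h, hu⟩ := exists_midEmb_closed K ι M0 q hq.out hqM0 O hqO
  exact ⟨threeValOfMidEmb ι h hirr hprime sv hu⟩

end Fermat.Agent.S36.V.ThreeValExistsB
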