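/-
S36 / block [W-TR], part (d) NORMS (helper16): **the Fricke involutions exchange the norms along
`α` and `β`**, for EVERY pair of levels `N`, `m` (no coprimality, no primality):

  `N_β (w_{Nm} y) = w_N (N_α y)`,   `N_α (w_{Nm} y) = w_N (N_β y)`,

hence `N_β = w_N ∘ N_α ∘ w_{Nm}` and `N_α = w_N ∘ N_β ∘ w_{Nm}`.  Instances of helper12's
`S36/NormTransport.normAlong_transport` for the squares `w_{Nm} ∘ α = β ∘ w_N`,
`w_{Nm} ∘ β = α ∘ w_N` of helper24's `V/FrickeK`.

Shapes:
* `normAlong_betaF_wK`, `normAlong_alphaF_wK`, `normAlong_betaF_eq`, `normAlong_alphaF_eq` :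
  for `P4.FrobStep.normAlong`, elementwise;
* `wKmul`, `normAlong_betaF_eq_comp`, `normAlong_alphaF_eq_comp` : as monoid homomorphisms
  `FF K (N m) →* FF K N` (the `Nm : F2 →* F1` of `D/NormGlue.SplitInsep`, `NormPlumb.NormTable`);
* `algebraNorm_betaF_wK`, `algebraNorm_alphaF_wK`, `algebraNorm_betaF_eq`, `algebraNorm_alphaF_eq` :
  for `Algebra.norm` with `letI := algebraAlong _`;
* `normBetaK_wK`, `normAlphaK_wK`, `normBetaK_eq`, `normAlphaK_eq` : for
  `P4.FrobLevelStep.normAlphaK/normBetaK` at `K : IntermediateField ℚ Q̄`;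
* transport of membership statements about norms: `norm_mem_comap_iff_beta/_alpha`,
  `norm_sub_mem_nonunits_comap_beta/_alpha`.
-/
import Mathlib
import Fermat.Agent.S36.V.FrickeK
import Fermat.Agent.S36.NormTransport
import Fermat.Agent.P4.FrobLevelStep

set_option autoImplicit false
set_option linter.unusedSectionVars false
set_option linter.style.haveILetI false

noncomputable section

namespace Fermat.Agent.S36.V.FrickeNorm

open ModularCurve AlgebraicCurve Fermat.Agent.N4.Setting
open Fermat.Agent.N4F.E.DegreeLevelRaise Fermat.Agent.N4F.C.Levels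
open Fermat.Agent.S36.V.FrickeK Fermat.Agent.S36.NormTransport
open Fermat.Agent.P4.FrobStep Fermat.Agent.P4.FrobLevelStep

section General

variable (K : Type) [Field K] [CharZero K] (ι : K →+* ℂ) (N : ℕ) [NeZero N] (m : ℕ) [NeZero m]

/-! ### Elementwise, for `normAlong` -/

/-- **`N_β ∘ w_{Nm} = w_N ∘ N_α`.** -/
theorem normAlong_betaF_wK (y : FF K (N * m)) :
    normAlong (betaF K N m) (wK K ι (N * m) y) = wK K ι N (normAlong (alphaF K N m) y) :=
  normAlong_transport (alphaF K N m) (betaF K N m) (wK K ι N) (wK K ι (N * m))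
    (wK_alphaF K ι N m) y

/-- **`N_α ∘ w_{Nm} = w_N ∘ N_β`.** -/
theorem normAlong_alphaF_wK (y : FF K (N * m)) :
    normAlong (alphaF K N m) (wK K ι (N * m) y) = wK K ι N (normAlong (betaF K N m) y) :=
  normAlong_transport (betaF K N m) (alphaF K N m) (wK K ι N) (wK K ι (N * m))
    (wK_betaF K ι N m) y

/-- **`N_β = w_N ∘ N_α ∘ w_{Nm}`.** -/
theorem normAlong_betaF_eq (y : FF K (N * m)) :
    normAlong (betaF K N m) y = wK K ι N (normAlong (alphaF K N m) (wK K ι (N * m) y)) := by
  rw [normAlong_alphaF_wK, wK_wK]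

/-- **`N_α = w_N ∘ N_β ∘ w_{Nm}`.** -/
theorem normAlong_alphaF_eq (y : FF K (N * m)) :
    normAlong (alphaF K N m) y = wK K ι N (normAlong (betaF K N m) (wK K ι (N * m) y)) := by
  rw [normAlong_betaF_wK, wK_wK]

/-- `w_N (N_β y) = N_α (w_{Nm} y)`. -/
theorem wK_normAlong_betaF (y : FF K (N * m)) :
    wK K ι N (normAlong (betaF K N m) y) = normAlong (alphaF K N m) (wK K ι (N * m) y) :=
  (normAlong_alphaF_wK K ι N m y).symm

/-- `w_N (N_α y) = N_β (w_{Nm} y)`. -/
theorem wK_normAlong_alphaF (y : FF K (N * m)) :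
    wK K ι N (normAlong (alphaF K N m) y) = normAlong (betaF K N m) (wK K ι (N * m) y) :=
  (normAlong_betaF_wK K ι N m y).symm

/-! ### As monoid homomorphisms -/

/-- The Fricke involution as a monoid endomorphism. -/
def wKmul (M : ℕ) [NeZero M] : FF K M →* FF K M := ((wK K ι M : FF K M ≃ₐ[K] FF K M) : FF K M →* FF K M)

theorem wKmul_apply (M : ℕ) [NeZero M] (x : FF K M) : wKmul K ι M x = wK K ι M x := rfl

/-- **`N_β = w_N ∘ N_α ∘ w_{Nm}`** as monoid homomorphisms. -/
theorem normAlong_betaF_eq_comp :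
    normAlong (betaF K N m) =
      ((wKmul K ι N).comp (normAlong (alphaF K N m))).comp (wKmul K ι (N * m)) := by
  refine MonoidHom.ext fun y => ?_
  exact normAlong_betaF_eq K ι N m y

/-- **`N_α = w_N ∘ N_β ∘ w_{Nm}`** as monoid homomorphisms. -/
theorem normAlong_alphaF_eq_comp :
    normAlong (alphaF K N m) =
      ((wKmul K ι N).comp (normAlong (betaF K N m))).comp (wKmul K ι (N * m)) := by
  refine MonoidHom.ext fun y => ?_
  exact normAlong_alphaF_eq K ι N m y

/-! ### For `Algebra.norm` with `letI := algebraAlong _` -/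

theorem algebraNorm_betaF_wK (y : FF K (N * m)) :
    (letI := algebraAlong (betaF K N m); Algebra.norm (FF K N) (wK K ι (N * m) y)) =
      wK K ι N (letI := algebraAlong (alphaF K N m); Algebra.norm (FF K N) y) :=
  normAlong_betaF_wK K ι N m y

theorem algebraNorm_alphaF_wK (y : FF K (N * m)) :
    (letI := algebraAlong (alphaF K N m); Algebra.norm (FF K N) (wK K ι (N * m) y)) =
      wK K ι N (letI := algebraAlong (betaF K N m); Algebra.norm (FF K N) y) :=
  normAlong_alphaF_wK K ι N m y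

theorem algebraNorm_betaF_eq (y : FF K (N * m)) :
    (letI := algebraAlong (betaF K N m); Algebra.norm (FF K N) y) =
      wK K ι N (letI := algebraAlong (alphaF K N m);
        Algebra.norm (FF K N) (wK K ι (N * m) y)) :=
  normAlong_betaF_eq K ι N m y

theorem algebraNorm_alphaF_eq (y : FF K (N * m)) :
    (letI := algebraAlong (alphaF K N m); Algebra.norm (FF K N) y) =
      wK K ι N (letI := algebraAlong (betaF K N m);
        Algebra.norm (FF K N) (wK K ι (N * m) y)) :=
  normAlong_alphaF_eq K ι N m y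

/-! ### Transport of membership statements -/

/-- `N_β y ∈ U.comap w_N ↔ N_α (w_{Nm} y) ∈ U`. -/
theorem normAlong_betaF_mem_comap_iff (U : ValuationSubring (FF K N)) (y : FF K (N * m)) :
    normAlong (betaF K N m) y ∈
        U.comap (wK K ι N).toAlgHom.toRingHom ↔
      normAlong (alphaF K N m) (wK K ι (N * m) y) ∈ U := by
  rw [ValuationSubring.mem_comap]
  show wK K ι N (normAlong (betaF K N m) y) ∈ U ↔ _
  rw [wK_normAlong_betaF]

/-- `N_α y ∈ U.comap w_N ↔ N_β (w_{Nm} y) ∈ U`. -/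
theorem normAlong_alphaF_mem_comap_iff (U : ValuationSubring (FF K N)) (y : FF K (N * m)) :
    normAlong (alphaF K N m) y ∈
        U.comap (wK K ι N).toAlgHom.toRingHom ↔
      normAlong (betaF K N m) (wK K ι (N * m) y) ∈ U := by
  rw [ValuationSubring.mem_comap]
  show wK K ι N (normAlong (alphaF K N m) y) ∈ U ↔ _
  rw [wK_normAlong_alphaF]

/-- Membership in the maximal ideal of a comap along an involution. -/
theorem mem_nonunits_comap_wK_iff (M : ℕ) [NeZero M] (U : ValuationSubring (FF K M))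
    (x : FF K M) :
    x ∈ (U.comap (wK K ι M).toAlgHom.toRingHom).nonunits ↔
      wK K ι M x ∈ U.nonunits := by
  rw [ValuationSubring.mem_nonunits_iff_or, ValuationSubring.mem_nonunits_iff_or,
    ValuationSubring.mem_comap]
  have h0 : wK K ι M x = 0 ↔ x = 0 := by
    constructor
    · intro h
      exact (wK K ι M).injective (by rw [h, map_zero])
    · intro h
      rw [h, map_zero]
  have h1 : (wK K ι M).toAlgHom.toRingHom x⁻¹ = (wK K ι M x)⁻¹ :=
    map_inv₀ (wK K ι M) x
  rw [h0, h1]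

/-- **Transport of a norm congruence, `β`-form from `α`-form**: `N_β y − a` is in the maximal ideal
of `U.comap w_N` iff `N_α (w_{Nm} y) − w_N a` is in the maximal ideal of `U`. -/
theorem normAlong_betaF_sub_mem_nonunits_comap_iff (U : ValuationSubring (FF K N))
    (y : FF K (N * m)) (a : FF K N) :
    normAlong (betaF K N m) y - a ∈
        (U.comap (wK K ι N).toAlgHom.toRingHom).nonunits ↔
      normAlong (alphaF K N m) (wK K ι (N * m) y) - wK K ι N a ∈ U.nonunits := by
  rw [mem_nonunits_comap_wK_iff, map_sub, wK_normAlong_betaF]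

/-- **Transport of a norm congruence, `α`-form from `β`-form.** -/
theorem normAlong_alphaF_sub_mem_nonunits_comap_iff (U : ValuationSubring (FF K N))
    (y : FF K (N * m)) (a : FF K N) :
    normAlong (alphaF K N m) y - a ∈
        (U.comap (wK K ι N).toAlgHom.toRingHom).nonunits ↔
      normAlong (betaF K N m) (wK K ι (N * m) y) - wK K ι N a ∈ U.nonunits := by
  rw [mem_nonunits_comap_wK_iff, map_sub, wK_normAlong_alphaF]

/-! ### Transport of the norm clauses of `D/NormGlue.SplitInsep` / `NormPlumb.NormTable` -/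

/-- `w_{Nm} (y − β a) = w_{Nm} y − α (w_N a)`. -/
theorem wK_sub_betaF (y : FF K (N * m)) (a : FF K N) :
    wK K ι (N * m) (y - betaF K N m a) = wK K ι (N * m) y - alphaF K N m (wK K ι N a) := by
  rw [map_sub, wK_betaF]

/-- `w_{Nm} (y − α a) = w_{Nm} y − β (w_N a)`. -/
theorem wK_sub_alphaF (y : FF K (N * m)) (a : FF K N) :
    wK K ι (N * m) (y - alphaF K N m a) = wK K ι (N * m) y - betaF K N m (wK K ι N a) := by
  rw [map_sub, wK_alphaF]

/-- **Transport of the `norm_split` clause from the `α`-table to the `β`-table**: lower branch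
`Us ↦ Us.comap w_N`, upper branches `Va, Vb ↦ Va.comap w_{Nm}, Vb.comap w_{Nm}`. -/
theorem norm_split_beta_of_alpha (Us : ValuationSubring (FF K N))
    (Va Vb : ValuationSubring (FF K (N * m))) (e : ℕ)
    (h : ∀ (w : FF K (N * m)) (a₁ a₂ : FF K N), a₁ ∈ Us → a₂ ∈ Us →
      w - alphaF K N m a₁ ∈ Va.nonunits → w - alphaF K N m a₂ ∈ Vb.nonunits →
      normAlong (alphaF K N m) w - a₁ * a₂ ^ e ∈ Us.nonunits) :
    ∀ (w : FF K (N * m)) (a₁ a₂ : FF K N),
      a₁ ∈ Us.comap (wK K ι N).toAlgHom.toRingHom →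
      a₂ ∈ Us.comap (wK K ι N).toAlgHom.toRingHom →
      w - betaF K N m a₁ ∈ (Va.comap (wK K ι (N * m)).toAlgHom.toRingHom).nonunits →
      w - betaF K N m a₂ ∈ (Vb.comap (wK K ι (N * m)).toAlgHom.toRingHom).nonunits →
      normAlong (betaF K N m) w - a₁ * a₂ ^ e ∈
        (Us.comap (wK K ι N).toAlgHom.toRingHom).nonunits := by
  intro w a₁ a₂ h1 h2 ha hb
  rw [mem_nonunits_comap_wK_iff, wK_sub_betaF] at ha hb
  rw [normAlong_betaF_sub_mem_nonunits_comap_iff, map_mul, map_pow]
  exact h _ _ _ h1 h2 ha hb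

/-- **Transport of the `norm_split` clause from the `β`-table to the `α`-table.** -/
theorem norm_split_alpha_of_beta (Us : ValuationSubring (FF K N))
    (Va Vb : ValuationSubring (FF K (N * m))) (e : ℕ)
    (h : ∀ (w : FF K (N * m)) (a₁ a₂ : FF K N), a₁ ∈ Us → a₂ ∈ Us →
      w - betaF K N m a₁ ∈ Va.nonunits → w - betaF K N m a₂ ∈ Vb.nonunits →
      normAlong (betaF K N m) w - a₁ * a₂ ^ e ∈ Us.nonunits) :
    ∀ (w : FF K (N * m)) (a₁ a₂ : FF K N),
      a₁ ∈ Us.comap (wK K ι N).toAlgHom.toRingHom →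
      a₂ ∈ Us.comap (wK K ι N).toAlgHom.toRingHom →
      w - alphaF K N m a₁ ∈ (Va.comap (wK K ι (N * m)).toAlgHom.toRingHom).nonunits →
      w - alphaF K N m a₂ ∈ (Vb.comap (wK K ι (N * m)).toAlgHom.toRingHom).nonunits →
      normAlong (alphaF K N m) w - a₁ * a₂ ^ e ∈
        (Us.comap (wK K ι N).toAlgHom.toRingHom).nonunits := by
  intro w a₁ a₂ h1 h2 ha hb
  rw [mem_nonunits_comap_wK_iff, wK_sub_alphaF] at ha hb
  rw [normAlong_alphaF_sub_mem_nonunits_comap_iff, map_mul, map_pow]
  exact h _ _ _ h1 h2 ha hb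

/-- **Transport of the `norm_insep` clause from the `α`-table to the `β`-table.** -/
theorem norm_insep_beta_of_alpha (Ui : ValuationSubring (FF K N))
    (Vc : ValuationSubring (FF K (N * m))) (r : ℕ)
    (h : ∀ (w : FF K (N * m)) (a : FF K N), a ∈ Ui →
      w ^ r - alphaF K N m a ∈ Vc.nonunits → normAlong (alphaF K N m) w - a ∈ Ui.nonunits) :
    ∀ (w : FF K (N * m)) (a : FF K N), a ∈ Ui.comap (wK K ι N).toAlgHom.toRingHom →
      w ^ r - betaF K N m a ∈ (Vc.comap (wK K ι (N * m)).toAlgHom.toRingHom).nonunits →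
      normAlong (betaF K N m) w - a ∈ (Ui.comap (wK K ι N).toAlgHom.toRingHom).nonunits := by
  intro w a h1 ha
  rw [mem_nonunits_comap_wK_iff, wK_sub_betaF, map_pow] at ha
  rw [normAlong_betaF_sub_mem_nonunits_comap_iff]
  exact h _ _ h1 ha

/-- **Transport of the `norm_insep` clause from the `β`-table to the `α`-table.** -/
theorem norm_insep_alpha_of_beta (Ui : ValuationSubring (FF K N))
    (Vc : ValuationSubring (FF K (N * m))) (r : ℕ)
    (h : ∀ (w : FF K (N * m)) (a : FF K N), a ∈ Ui →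
      w ^ r - betaF K N m a ∈ Vc.nonunits → normAlong (betaF K N m) w - a ∈ Ui.nonunits) :
    ∀ (w : FF K (N * m)) (a : FF K N), a ∈ Ui.comap (wK K ι N).toAlgHom.toRingHom →
      w ^ r - alphaF K N m a ∈ (Vc.comap (wK K ι (N * m)).toAlgHom.toRingHom).nonunits →
      normAlong (alphaF K N m) w - a ∈ (Ui.comap (wK K ι N).toAlgHom.toRingHom).nonunits := by
  intro w a h1 ha
  rw [mem_nonunits_comap_wK_iff, wK_sub_alphaF, map_pow] at ha
  rw [normAlong_alphaF_sub_mem_nonunits_comap_iff]
  exact h _ _ h1 ha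

/-- Comap along the involution twice is the identity. -/
theorem comap_wK_comap_wK (M : ℕ) [NeZero M] (U : ValuationSubring (FF K M)) :
    (U.comap (wK K ι M).toAlgHom.toRingHom).comap (wK K ι M).toAlgHom.toRingHom = U := by
  ext x
  rw [ValuationSubring.mem_comap, ValuationSubring.mem_comap]
  show wK K ι M (wK K ι M x) ∈ U ↔ _
  rw [wK_wK]

end General

/-! ### At a level `K : IntermediateField ℚ Q̄` -/

section Level

local notation "Qbar" => AlgebraicClosure ℚ

variable (K : IntermediateField ℚ Qbar) (ι : Lvl K →+* ℂ) (N q : ℕ) [NeZero N] [NeZero q]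

/-- **`normBetaK ∘ w_{Nq} = w_N ∘ normAlphaK`.** -/
theorem normBetaK_wK (y : FF (Lvl K) (N * q)) :
    normBetaK K N q (wK (Lvl K) ι (N * q) y) = wK (Lvl K) ι N (normAlphaK K N q y) :=
  normAlong_betaF_wK (Lvl K) ι N q y

/-- **`normAlphaK ∘ w_{Nq} = w_N ∘ normBetaK`.** -/
theorem normAlphaK_wK (y : FF (Lvl K) (N * q)) :
    normAlphaK K N q (wK (Lvl K) ι (N * q) y) = wK (Lvl K) ι N (normBetaK K N q y) :=
  normAlong_alphaF_wK (Lvl K) ι N q y

/-- **`normBetaK = w_N ∘ normAlphaK ∘ w_{Nq}`.** -/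
theorem normBetaK_eq (y : FF (Lvl K) (N * q)) :
    normBetaK K N q y = wK (Lvl K) ι N (normAlphaK K N q (wK (Lvl K) ι (N * q) y)) :=
  normAlong_betaF_eq (Lvl K) ι N q y

/-- **`normAlphaK = w_N ∘ normBetaK ∘ w_{Nq}`.** -/
theorem normAlphaK_eq (y : FF (Lvl K) (N * q)) :
    normAlphaK K N q y = wK (Lvl K) ι N (normBetaK K N q (wK (Lvl K) ι (N * q) y)) :=
  normAlong_alphaF_eq (Lvl K) ι N q y

end Level

end Fermat.Agent.S36.V.FrickeNorm
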