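/-
S36 / block [V] → [CUSP] (helper15): **the six residue relations at the cusps** for the three
valuations `V20 = gaussVS K (M₀ q²) O`, `V11 = midVS h`, `V02 = Transport.V02` of `FF K (M₀ q²)`, in the
exact shape of `Cusp/Regular` / `Cusp/AllCusps` (helper17), with `jj = α₂ α₁ j`, `jj'' = β₂ β₁ j`
(`Cusp/ModEqFF`):

* `V20 : v(jj⁻¹) = 1`, `v(jj''⁻¹ − (jj⁻¹)^(q²)) < 1`   (`j̄(Q^{q²}) = j̄^{q²}` in characteristic `q`);
* `V11 : v(jj⁻¹) = 1`, `v(jj''⁻¹ − jj⁻¹) < 1`           (`jj'' − jj = Π ∈ 𝔪_{V11}`);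
* `V02 : v(jj''⁻¹) = 1`, `v(jj⁻¹ − (jj''⁻¹)^(q²)) < 1`  (Fricke transform of the first line).

All six are unconditional (no counting argument is needed).
-/
import Mathlib
import Fermat.Agent.S36.V.MidVal
import Fermat.Agent.S36.V.Transport
import Fermat.Agent.S36.Cusp.ModEqFF
import Fermat.Agent.N4F.E.GaussResidue

set_option autoImplicit false
set_option linter.unusedSectionVars false
set_option linter.style.haveILetI false

namespace Fermat.Agent.S36.V.CuspRel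

open ModularCurve Fermat.Agent.S28.Gauss Fermat.Agent.N4.Setting Fermat.Agent.N4.FibreEmbedding
open Fermat.Agent.N4F.E.DegreeLevelRaise Fermat.Agent.N4F.E.GaussDVR IsLocalRing
open Fermat.Agent.S36.V.MidVal Fermat.Agent.S36.V.Transport Fermat.Agent.S36.V.FrickeK
open Fermat.Agent.S36.Cusp.ModEqFF Fermat.Agent.P3G.SecondValuation

/-! ### Abstract valuation-ring lemmas -/

section Abstract

variable {F : Type*} [Field F] (W : ValuationSubring F)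

theorem valuation_inv_eq_one {x : F} (hx0 : x ≠ 0) (hx : x ∈ W) (hxi : x⁻¹ ∈ W) :
    W.valuation x⁻¹ = 1 := by
  have hu : IsUnit (⟨x⁻¹, hxi⟩ : ↥W) := by
    refine IsUnit.of_mul_eq_one (⟨x, hx⟩ : ↥W) ?_
    apply Subtype.ext
    show x⁻¹ * x = 1
    exact inv_mul_cancel₀ hx0
  exact (W.valuation_eq_one_iff ⟨x⁻¹, hxi⟩).mp hu

theorem mul_mem_nonunits_left {a b : F} (ha : a ∈ W.nonunits) (hb : b ∈ W) :
    a * b ∈ W.nonunits := by
  rw [W.mem_nonunits_iff] at ha ⊢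
  rw [map_mul]
  have hb' : W.valuation b ≤ 1 := (W.valuation_le_one_iff b).mpr hb
  calc W.valuation a * W.valuation b ≤ W.valuation a * 1 := mul_le_mul' le_rfl hb'
    _ = W.valuation a := mul_one _
    _ < 1 := ha

/-- If `x, y` are units of `W` and `x ^ n − y ∈ 𝔪_W`, then `y⁻¹ − (x⁻¹) ^ n ∈ 𝔪_W`. -/
theorem inv_sub_inv_pow_mem_nonunits {x y : F} (n : ℕ) (hx0 : x ≠ 0) (hy0 : y ≠ 0)
    (hxi : x⁻¹ ∈ W) (hyi : y⁻¹ ∈ W) (h : x ^ n - y ∈ W.nonunits) :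
    y⁻¹ - (x⁻¹) ^ n ∈ W.nonunits := by
  have e : y⁻¹ - (x⁻¹) ^ n = (x ^ n - y) * (y⁻¹ * (x⁻¹) ^ n) := by
    have hxn : x ^ n ≠ 0 := pow_ne_zero n hx0
    rw [inv_pow]
    field_simp
  rw [e]
  exact mul_mem_nonunits_left W h (W.mul_mem _ _ hyi (W.toSubring.pow_mem hxi n))

theorem valuation_lt_one_of_mem_nonunits {x : F} (hx : x ∈ W.nonunits) : W.valuation x < 1 :=
  (W.mem_nonunits_iff).mp hx

end Abstract

theorem jq_ne_zero (k : Type*) [Field k] : jqModC k ≠ 0 := by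
  intro h
  have h1 := coeff_jqModC_neg_one k
  rw [h, HahnSeries.coeff_zero] at h1
  exact zero_ne_one h1

/-! ### The Gauss valuation `V20` (and its Fricke transform) -/

section Gauss

variable (K : Type) [Field K] [CharZero K] (O : Subring K)
  [IsDiscreteValuationRing ↥O] [IsFractionRing ↥O K]
  (M0 q : ℕ) [NeZero M0] [hq : Fact q.Prime] [CharP (ResidueField ↥O) q]

/-- `α₂ α₁ g ∈ G₂`. -/
theorem aa_mem {g : FF K M0} (hg : g ∈ gaussSubalgebra K M0 O) :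
    alphaF K (M0 * q) q (alphaF K M0 q g) ∈ gaussSubalgebra K (M0 * q * q) O :=
  alphaF_mem K O (M0 * q) q (alphaF_mem K O M0 q hg)

/-- `β₂ β₁ g ∈ G₂`. -/
theorem bb_mem {g : FF K M0} (hg : g ∈ gaussSubalgebra K M0 O) :
    betaF K (M0 * q) q (betaF K M0 q g) ∈ gaussSubalgebra K (M0 * q * q) O :=
  betaF_mem K O (M0 * q) q (betaF_mem K O M0 q hg)

theorem theta_aa {g : FF K M0} (hg : g ∈ gaussSubalgebra K M0 O) :
    theta K (M0 * q * q) O ⟨_, aa_mem K O M0 q hg⟩ = theta K M0 O ⟨g, hg⟩ := by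
  have h1 := theta_alphaF K O (M0 * q) q ⟨alphaF K M0 q g, alphaF_mem K O M0 q hg⟩
  have h2 := theta_alphaF K O M0 q ⟨g, hg⟩
  exact h1.trans h2

theorem theta_bb {g : FF K M0} (hg : g ∈ gaussSubalgebra K M0 O) :
    theta K (M0 * q * q) O ⟨_, bb_mem K O M0 q hg⟩ =
      qExpand (ResidueField ↥O) q (qExpand (ResidueField ↥O) q (theta K M0 O ⟨g, hg⟩)) := by
  have h1 := theta_betaF K O (M0 * q) q ⟨betaF K M0 q g, betaF_mem K O M0 q hg⟩
  have h2 := theta_betaF K O M0 q ⟨g, hg⟩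
  rw [h2] at h1
  exact h1

/-- **The key congruence**: if `θ₀ g` has coefficients in `𝔽_q` (i.e. `(θ₀ g)(Q^q) = (θ₀ g)^q`),
then `(α₂ α₁ g)^(q²) ≡ β₂ β₁ g` modulo `𝔪_{V20}`. -/
theorem pow_sub_mem_nonunits {g : FF K M0} (hg : g ∈ gaussSubalgebra K M0 O)
    (hfrob : qExpand (ResidueField ↥O) q (theta K M0 O ⟨g, hg⟩) = theta K M0 O ⟨g, hg⟩ ^ q) :
    alphaF K (M0 * q) q (alphaF K M0 q g) ^ (q ^ 2) - betaF K (M0 * q) q (betaF K M0 q g) ∈
      (gaussVS K (M0 * q * q) O).nonunits := by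
  have hmem : alphaF K (M0 * q) q (alphaF K M0 q g) ^ (q ^ 2) -
      betaF K (M0 * q) q (betaF K M0 q g) ∈ gaussSubalgebra K (M0 * q * q) O :=
    Subalgebra.sub_mem _ (Subalgebra.pow_mem _ (aa_mem K O M0 q hg) _) (bb_mem K O M0 q hg)
  rw [mem_nonunits_gaussVS_iff K (M0 * q * q) O hmem]
  have e : (⟨_, hmem⟩ : gaussSubalgebra K (M0 * q * q) O) =
      ⟨_, aa_mem K O M0 q hg⟩ ^ (q ^ 2) - ⟨_, bb_mem K O M0 q hg⟩ := rfl
  rw [e, map_sub, map_pow, theta_aa K O M0 q hg, theta_bb K O M0 q hg, hfrob, map_pow, hfrob,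
    ← pow_mul, ← pow_two, sub_self]

/-- `(β₂ β₁ g)⁻¹ ≡ ((α₂ α₁ g)⁻¹)^(q²)` modulo `𝔪_{V20}`, for `θ₀ g ≠ 0` with coefficients in
`𝔽_q`. -/
theorem inv_sub_inv_pow_mem {g : FF K M0} (hg : g ∈ gaussSubalgebra K M0 O)
    (hfrob : qExpand (ResidueField ↥O) q (theta K M0 O ⟨g, hg⟩) = theta K M0 O ⟨g, hg⟩ ^ q)
    (hg0 : theta K M0 O ⟨g, hg⟩ ≠ 0) :
    (betaF K (M0 * q) q (betaF K M0 q g))⁻¹ -
        ((alphaF K (M0 * q) q (alphaF K M0 q g))⁻¹) ^ (q ^ 2) ∈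
      (gaussVS K (M0 * q * q) O).nonunits := by
  have hgne : g ≠ 0 := by
    rintro rfl
    apply hg0
    have : (⟨0, hg⟩ : gaussSubalgebra K M0 O) = 0 := rfl
    rw [this, map_zero]
  have hx0 : alphaF K (M0 * q) q (alphaF K M0 q g) ≠ 0 :=
    (map_ne_zero _).mpr ((map_ne_zero _).mpr hgne)
  have hy0 : betaF K (M0 * q) q (betaF K M0 q g) ≠ 0 :=
    (map_ne_zero _).mpr ((map_ne_zero _).mpr hgne)
  have hxi : (alphaF K (M0 * q) q (alphaF K M0 q g))⁻¹ ∈ gaussVS K (M0 * q * q) O :=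
    inv_mem_of_theta_ne_zero K (M0 * q * q) O ⟨_, aa_mem K O M0 q hg⟩
      (by rw [theta_aa K O M0 q hg]; exact hg0)
  have hyi : (betaF K (M0 * q) q (betaF K M0 q g))⁻¹ ∈ gaussVS K (M0 * q * q) O :=
    inv_mem_of_theta_ne_zero K (M0 * q * q) O ⟨_, bb_mem K O M0 q hg⟩
      (by
        rw [theta_bb K O M0 q hg]
        intro h0
        exact hg0 (qExpand_injective q
          (qExpand_injective q (by rw [h0, map_zero, map_zero]))))
  exact inv_sub_inv_pow_mem_nonunits _ (q ^ 2) hx0 hy0 hxi hyi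
    (pow_sub_mem_nonunits K O M0 q hg hfrob)

/-- `v20 ((α₂ α₁ g)⁻¹) = 1` for `θ₀ g ≠ 0`. -/
theorem valuation_aa_inv {g : FF K M0} (hg : g ∈ gaussSubalgebra K M0 O)
    (hg0 : theta K M0 O ⟨g, hg⟩ ≠ 0) :
    (gaussVS K (M0 * q * q) O).valuation (alphaF K (M0 * q) q (alphaF K M0 q g))⁻¹ = 1 := by
  have hgne : g ≠ 0 := by
    rintro rfl
    apply hg0
    have : (⟨0, hg⟩ : gaussSubalgebra K M0 O) = 0 := rfl
    rw [this, map_zero]
  exact valuation_inv_eq_one _ ((map_ne_zero _).mpr ((map_ne_zero _).mpr hgne))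
    (aa_mem K O M0 q hg)
    (inv_mem_of_theta_ne_zero K (M0 * q * q) O ⟨_, aa_mem K O M0 q hg⟩
      (by rw [theta_aa K O M0 q hg]; exact hg0))

/-! #### `g = j` -/

theorem frob_jF :
    qExpand (ResidueField ↥O) q (theta K M0 O ⟨jF K M0, jF_mem_gaussSubalgebra K M0 O⟩) =
      theta K M0 O ⟨jF K M0, jF_mem_gaussSubalgebra K M0 O⟩ ^ q := by
  rw [theta_jF]
  exact Fermat.Agent.N4F.E.GaussResidue.qExpand_jqModC_eq_pow (ResidueField ↥O) q

theorem theta_jF_ne_zero :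
    theta K M0 O ⟨jF K M0, jF_mem_gaussSubalgebra K M0 O⟩ ≠ 0 := by
  rw [theta_jF]
  exact jq_ne_zero _

/-- **(h20a)** -/
theorem h20a : (gaussVS K (M0 * q * q) O).valuation (jj K M0 q)⁻¹ = 1 :=
  valuation_aa_inv K O M0 q (jF_mem_gaussSubalgebra K M0 O) (theta_jF_ne_zero K O M0)

/-- **(h20c)** -/
theorem h20c :
    (gaussVS K (M0 * q * q) O).valuation ((jj'' K M0 q)⁻¹ - (jj K M0 q)⁻¹ ^ (q ^ 2)) < 1 :=
  valuation_lt_one_of_mem_nonunits _
    (inv_sub_inv_pow_mem K O M0 q (jF_mem_gaussSubalgebra K M0 O) (frob_jF K O M0 q)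
      (theta_jF_ne_zero K O M0))

/-! #### `g = w₀ j = j(Q^{M₀})`: the Fricke transform `V02` -/

variable (ι : K →+* ℂ)

theorem frob_wK_jF :
    qExpand (ResidueField ↥O) q (theta K M0 O ⟨wK K ι M0 (jF K M0), wK_jF_mem K ι O M0⟩) =
      theta K M0 O ⟨wK K ι M0 (jF K M0), wK_jF_mem K ι O M0⟩ ^ q := by
  rw [theta_wK_jF]
  exact Fermat.Agent.N4F.E.GaussResidue.qExpand_qExpand_jqModC_eq_pow (ResidueField ↥O) q M0

theorem theta_wK_jF_ne_zero :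
    theta K M0 O ⟨wK K ι M0 (jF K M0), wK_jF_mem K ι O M0⟩ ≠ 0 := by
  rw [theta_wK_jF]
  intro h0
  exact jq_ne_zero (ResidueField ↥O)
    (qExpand_injective M0 (by rw [h0, map_zero]))

theorem wK_jj :
    wK K ι (M0 * q * q) (jj K M0 q) =
      betaF K (M0 * q) q (betaF K M0 q (wK K ι M0 (jF K M0))) := by
  unfold jj
  rw [wK_alphaF, wK_alphaF]

theorem wK_jj'' :
    wK K ι (M0 * q * q) (jj'' K M0 q) =
      alphaF K (M0 * q) q (alphaF K M0 q (wK K ι M0 (jF K M0))) := by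
  unfold jj''
  rw [wK_betaF, wK_betaF]

/-- **(h02c)** -/
theorem h02c : (V02 K ι O M0 q).valuation (jj'' K M0 q)⁻¹ = 1 := by
  have hmem : jj'' K M0 q ∈ V02 K ι O M0 q := by
    rw [mem_V02_iff, wK_jj'']
    exact aa_mem K O M0 q (wK_jF_mem K ι O M0)
  have hinv : (jj'' K M0 q)⁻¹ ∈ V02 K ι O M0 q := by
    rw [mem_V02_iff, map_inv₀, wK_jj'']
    exact inv_mem_of_theta_ne_zero K (M0 * q * q) O ⟨_, aa_mem K O M0 q (wK_jF_mem K ι O M0)⟩
      (by rw [theta_aa K O M0 q (wK_jF_mem K ι O M0)]; exact theta_wK_jF_ne_zero K O M0 ι)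
  exact valuation_inv_eq_one _ (jj''_ne_zero K M0 q) hmem hinv

/-- **(h02a)** -/
theorem h02a :
    (V02 K ι O M0 q).valuation ((jj K M0 q)⁻¹ - (jj'' K M0 q)⁻¹ ^ (q ^ 2)) < 1 := by
  apply valuation_lt_one_of_mem_nonunits
  rw [mem_nonunits_V02_iff, map_sub, map_pow, map_inv₀, map_inv₀, wK_jj, wK_jj'']
  exact inv_sub_inv_pow_mem K O M0 q (wK_jF_mem K ι O M0) (frob_wK_jF K O M0 q ι)
    (theta_wK_jF_ne_zero K O M0 ι)

end Gauss

/-! ### The middle valuation `V11 = midVS h` -/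

section Mid

variable {K : Type} [Field K] [CharZero K] {M0 q : ℕ} [NeZero M0] [NeZero q]
  {O : Subring K} [IsDiscreteValuationRing ↥O] [IsFractionRing ↥O K]
  {K' : Type} [Field K'] [Algebra K K']
  {O' : Subring K'} [IsDiscreteValuationRing ↥O'] [IsFractionRing ↥O' K']
  {s : FF K (M0 * q * q) →+* LaurentSeries K'} {u : K'ˣ}

theorem jj_mem_midVS (h : MidEmb K M0 q O K' O' s u) : jj K M0 q ∈ midVS h :=
  alphaF_mem_midVS h (alphaF_mem K O M0 q (jF_mem_gaussSubalgebra K M0 O))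

theorem jj''_mem_midVS (h : MidEmb K M0 q O K' O' s u) : jj'' K M0 q ∈ midVS h :=
  betaF_betaF_mem_midVS h (jF_mem_gaussSubalgebra K M0 O)

theorem midEv_jj (h : MidEmb K M0 q O K' O' s u) :
    midEv h ⟨jj K M0 q, jj_mem_midVS h⟩ = jqModC (ResidueField ↥O') := by
  have h1 := midEv_alphaF h (alphaF_mem K O M0 q (jF_mem_gaussSubalgebra K M0 O))
  have h2 := theta_alphaF K O M0 q ⟨jF K M0, jF_mem_gaussSubalgebra K M0 O⟩
  rw [h2, theta_jF, coeffMap_jqModC] at h1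
  exact h1

theorem midEv_jj'' (h : MidEmb K M0 q O K' O' s u) :
    midEv h ⟨jj'' K M0 q, jj''_mem_midVS h⟩ = jqModC (ResidueField ↥O') := by
  have h1 := midEv_betaF_betaF h (jF_mem_gaussSubalgebra K M0 O)
  rw [theta_jF, coeffMap_jqModC] at h1
  exact h1

theorem inv_mem_midVS_of_midEv_ne_zero (h : MidEmb K M0 q O K' O' s u) {x : FF K (M0 * q * q)}
    (hx : x ∈ midVS h) (hne : midEv h ⟨x, hx⟩ ≠ 0) : x⁻¹ ∈ midVS h := by
  by_contra hni
  have hx0 : x ≠ 0 := by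
    rintro rfl
    exact hni (by rw [inv_zero]; exact (midVS h).zero_mem)
  have : x ∈ (midVS h).nonunits :=
    (Fermat.Agent.P3G.LocVS.mem_nonunits_iff_inv_notMem _ hx0).mpr hni
  exact hne ((midEv_eq_zero_iff h ⟨x, hx⟩).mpr this)

theorem jj_inv_mem_midVS (h : MidEmb K M0 q O K' O' s u) : (jj K M0 q)⁻¹ ∈ midVS h :=
  inv_mem_midVS_of_midEv_ne_zero h (jj_mem_midVS h)
    (by rw [midEv_jj]; exact jq_ne_zero _)

theorem jj''_inv_mem_midVS (h : MidEmb K M0 q O K' O' s u) : (jj'' K M0 q)⁻¹ ∈ midVS h :=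
  inv_mem_midVS_of_midEv_ne_zero h (jj''_mem_midVS h)
    (by rw [midEv_jj'']; exact jq_ne_zero _)

/-- **(h11a)** -/
theorem h11a (h : MidEmb K M0 q O K' O' s u) : (midVS h).valuation (jj K M0 q)⁻¹ = 1 :=
  valuation_inv_eq_one _ (jj_ne_zero K M0 q) (jj_mem_midVS h) (jj_inv_mem_midVS h)

/-- `v11 (jj''⁻¹) = 1`. -/
theorem h11a'' (h : MidEmb K M0 q O K' O' s u) : (midVS h).valuation (jj'' K M0 q)⁻¹ = 1 :=
  valuation_inv_eq_one _ (jj''_ne_zero K M0 q) (jj''_mem_midVS h) (jj''_inv_mem_midVS h)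

/-- **(h11c)** -/
theorem h11c (h : MidEmb K M0 q O K' O' s u) :
    (midVS h).valuation ((jj'' K M0 q)⁻¹ - (jj K M0 q)⁻¹) < 1 := by
  apply valuation_lt_one_of_mem_nonunits
  have h1 : jj K M0 q ^ 1 - jj'' K M0 q ∈ (midVS h).nonunits := by
    have e : jj K M0 q ^ 1 - jj'' K M0 q = -PiElt K M0 q := by
      rw [pow_one, PiElt, jj, jj'']
      ring
    rw [e]
    exact Fermat.Agent.S36.V.CountEF.neg_mem_nonunits _ (PiElt_mem_nonunits h)
  have h2 := inv_sub_inv_pow_mem_nonunits (midVS h) 1 (jj_ne_zero K M0 q) (jj''_ne_zero K M0 q)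
    (jj_inv_mem_midVS h) (jj''_inv_mem_midVS h) h1
  rw [pow_one] at h2
  exact h2

/-- **The six relations, packaged** for the family `![V20, V11, V02]` (`Cusp/Regular` shape). -/
theorem six_relations [hq : Fact q.Prime] [CharP (ResidueField ↥O) q] (ι : K →+* ℂ)
    (h : MidEmb K M0 q O K' O' s u)
    (V : Fin 3 → ValuationSubring (FF K (M0 * q * q)))
    (hV : V = ![gaussVS K (M0 * q * q) O, midVS h, V02 K ι O M0 q]) :
    (V 0).valuation (jj K M0 q)⁻¹ = 1 ∧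
    (V 0).valuation ((jj'' K M0 q)⁻¹ - (jj K M0 q)⁻¹ ^ (q ^ 2)) < 1 ∧
    (V 1).valuation (jj K M0 q)⁻¹ = 1 ∧
    (V 1).valuation ((jj'' K M0 q)⁻¹ - (jj K M0 q)⁻¹) < 1 ∧
    (V 2).valuation (jj'' K M0 q)⁻¹ = 1 ∧
    (V 2).valuation ((jj K M0 q)⁻¹ - (jj'' K M0 q)⁻¹ ^ (q ^ 2)) < 1 := by
  subst hV
  exact ⟨h20a K O M0 q, h20c K O M0 q, h11a h, h11c h, h02c K O M0 q ι, h02a K O M0 q ι⟩

end Mid

end Fermat.Agent.S36.V.CuspRel
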