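/-
S36 leaf [W-TR] "Fricke transport" (helper18).

**Part 0.**  nonunits of a comap of a valuation subring.

**Part S (generic).**  `σ : F ≃+* F'` an isomorphism of fields, `L ⊆ F`, `L' ⊆ F'` subalgebras (over
possibly different base rings) with `x ∈ L ↔ σ x ∈ L'`: `subEquiv : L ≃+* L'`, transport of
`LocalRoot.centre`, of factoriality and of `IsPrincipalIdealRing (L ⧸ centre)`.

**Part A (charts with an automorphism).**  `e : R ≃+* R'` compatible with `σ`.  For a prime `𝔫'` of `R'`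
the TWIN prime is `𝔫'.comap e` and `x ∈ locAt (𝔫'.comap e) ↔ σ x ∈ locAt 𝔫'`, `locAtEquiv`,
`vCentre (V'.comap σ) = (vCentre V').comap e`, ...

**Part B (charts).**  An `O`-algebra automorphism `σ` of `F` with `σ S ⊆ chartAlg O F S` and
`σ⁻¹ S ⊆ chartAlg O F S` restricts to an automorphism `chartEquiv` of the chart; for the Fricke
involution `wK` of `FF K N` and the FINITE chart (`w j = j_N ∈ Rfin`): `wK_mem_Rfin_iff`, `wRfin`,
`twinFin`.

**Part T (twin points WITHOUT a chart automorphism — the chart at infinity).**  `wK` does NOT preserve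
`Rinf` (it maps `{j ≠ 0}` to `{j_N ≠ 0}`), but it maps cusps to cusps: for a prime `𝔫` of
`Rinf = chartAlg O F {c⁻¹}` with `c⁻¹ ∈ 𝔫` (`c = j`, `d = w c = j_N`, `c` integral over `O[d]`):
`d⁻¹ ∈ 𝔪 (R_𝔫)`, `w R ⊆ R_𝔫`, the twin prime `twin 𝔫 = {r | w r ∈ 𝔪 (R_𝔫)}` contains `c⁻¹`, and
`x ∈ locAt (twin 𝔫) ↔ w x ∈ locAt 𝔫`.
-/
import Mathlib
import Fermat.Agent.S36.V.FrickeK
import Fermat.Agent.N4F.C.ChartFibre
import Fermat.Agent.N4.FibreCharts
import Fermat.Agent.N4.Cover.Globalize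
import Fermat.Agent.P3G.Krull
import Fermat.Agent.S36.Local.LocalRoot

set_option autoImplicit false
set_option linter.unusedSectionVars false
set_option linter.style.haveILetI false

open Fermat.Agent.N4.Cover.Globalize Fermat.Agent.P3G.Krull Fermat.Agent.S36.Local
open Fermat.Agent.N4.Chart Fermat.Agent.N4.Setting

noncomputable section

namespace Fermat.Agent.S36.V.FrickeTransport

/-! ### Part 0: valuation subrings under a field isomorphism -/

section Val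

variable {F F' : Type*} [Field F] [Field F']

/-- `x ∈ V.nonunits ↔ x = 0 ∨ x⁻¹ ∉ V`. -/
theorem mem_nonunits_iff_inv_notMem (V : ValuationSubring F) (x : F) :
    x ∈ V.nonunits ↔ x = 0 ∨ x⁻¹ ∉ V := by
  rw [ValuationSubring.mem_nonunits_iff]
  constructor
  · intro h
    by_cases hx : x = 0
    · exact Or.inl hx
    · right
      intro hinv
      have h1 := (V.valuation_le_one_iff x⁻¹).2 hinv
      have h2 : V.valuation x * V.valuation x⁻¹ = 1 := by
        rw [← map_mul, mul_inv_cancel₀ hx, map_one]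
      have h3 : V.valuation x * V.valuation x⁻¹ < 1 := mul_lt_one_of_lt_of_le h h1
      rw [h2] at h3
      exact lt_irrefl _ h3
  · rintro (rfl | h)
    · rw [map_zero]; exact zero_lt_one
    · by_contra hlt
      rw [not_lt] at hlt
      apply h
      rw [← V.valuation_le_one_iff, map_inv₀]
      exact inv_le_one_of_one_le₀ hlt

/-- nonunits of a comap along a ring homomorphism of fields. -/
theorem mem_nonunits_comap_iff' (V' : ValuationSubring F') (σ : F →+* F') (x : F) :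
    x ∈ (V'.comap σ).nonunits ↔ σ x ∈ V'.nonunits := by
  rw [mem_nonunits_iff_inv_notMem, mem_nonunits_iff_inv_notMem, ValuationSubring.mem_comap,
    map_inv₀, map_eq_zero]

/-- elementwise form: if `σ y ∈ V' ↔ y ∈ V` then the same for nonunits. -/
theorem mem_nonunits_iff_of_mem_iff {V : ValuationSubring F} {V' : ValuationSubring F'}
    (σ : F →+* F') (h : ∀ y, σ y ∈ V' ↔ y ∈ V) (y : F) : σ y ∈ V'.nonunits ↔ y ∈ V.nonunits := by
  have hV : V = V'.comap σ := by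
    ext z
    rw [ValuationSubring.mem_comap, h]
  rw [hV, mem_nonunits_comap_iff']

end Val

/-! ### Part S: two subalgebras identified by a field isomorphism -/

section Sub

variable {R R' F F' : Type*} [CommRing R] [CommRing R'] [Field F] [Field F'] [Algebra R F]
  [Algebra R' F'] (σ : F ≃+* F') (L : Subalgebra R F) (L' : Subalgebra R' F')
  (h : ∀ x, x ∈ L ↔ σ x ∈ L')

/-- The isomorphism `L ≃ L'` induced by `σ`. -/
def subEquiv : ↥L ≃+* ↥L' where
  toFun x := ⟨σ x, (h x).1 x.2⟩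
  invFun y := ⟨σ.symm y, (h _).2 (by rw [σ.apply_symm_apply]; exact y.2)⟩
  left_inv _ := Subtype.ext (σ.symm_apply_apply _)
  right_inv _ := Subtype.ext (σ.apply_symm_apply _)
  map_mul' _ _ := Subtype.ext (map_mul σ _ _)
  map_add' _ _ := Subtype.ext (map_add σ _ _)

@[simp] theorem coe_subEquiv (x : ↥L) : ((subEquiv σ L L' h x : ↥L') : F') = σ (x : F) := rfl

@[simp] theorem coe_subEquiv_symm (y : ↥L') :
    (((subEquiv σ L L' h).symm y : ↥L) : F) = σ.symm (y : F') := rfl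

include h in
theorem algebraMap_mem_comap_sub (V' : ValuationSubring F')
    (hV' : ∀ b : ↥L', algebraMap ↥L' F' b ∈ V') (b : ↥L) :
    algebraMap ↥L F b ∈ V'.comap (σ : F →+* F') := by
  rw [ValuationSubring.mem_comap]
  exact hV' (subEquiv σ L L' h b)

/-- The centre of the transported valuation ring. -/
theorem centre_comap_sub (V' : ValuationSubring F')
    (hV' : ∀ b : ↥L', algebraMap ↥L' F' b ∈ V')
    (hV : ∀ b : ↥L, algebraMap ↥L F b ∈ V'.comap (σ : F →+* F')) :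
    LocalRoot.centre (V'.comap (σ : F →+* F')) hV =
      (LocalRoot.centre V' hV').comap (subEquiv σ L L' h) := by
  ext b
  rw [Ideal.mem_comap, LocalRoot.mem_centre, LocalRoot.mem_centre, mem_nonunits_comap_iff']
  rfl

theorem centre_map_sub (V' : ValuationSubring F')
    (hV' : ∀ b : ↥L', algebraMap ↥L' F' b ∈ V')
    (hV : ∀ b : ↥L, algebraMap ↥L F b ∈ V'.comap (σ : F →+* F')) :
    (LocalRoot.centre (V'.comap (σ : F →+* F')) hV).map
        ((subEquiv σ L L' h : ↥L ≃+* ↥L') : ↥L →+* ↥L') = LocalRoot.centre V' hV' := by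
  rw [centre_comap_sub σ L L' h V' hV' hV]
  exact Ideal.map_comap_of_surjective _ (subEquiv σ L L' h).surjective _

/-- The quotients by the centres are isomorphic. -/
def quotientCentreEquiv (V' : ValuationSubring F')
    (hV' : ∀ b : ↥L', algebraMap ↥L' F' b ∈ V')
    (hV : ∀ b : ↥L, algebraMap ↥L F b ∈ V'.comap (σ : F →+* F')) :
    (↥L ⧸ LocalRoot.centre (V'.comap (σ : F →+* F')) hV) ≃+* (↥L' ⧸ LocalRoot.centre V' hV') :=
  Ideal.quotientEquiv _ _ (subEquiv σ L L' h) (centre_map_sub σ L L' h V' hV' hV).symm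

include h in
/-- **`(R-b)` transported.** -/
theorem isPrincipalIdealRing_quotient_centre_sub_iff (V' : ValuationSubring F')
    (hV' : ∀ b : ↥L', algebraMap ↥L' F' b ∈ V')
    (hV : ∀ b : ↥L, algebraMap ↥L F b ∈ V'.comap (σ : F →+* F')) :
    IsPrincipalIdealRing (↥L ⧸ LocalRoot.centre (V'.comap (σ : F →+* F')) hV) ↔
      IsPrincipalIdealRing (↥L' ⧸ LocalRoot.centre V' hV') := by
  let E := quotientCentreEquiv σ L L' h V' hV' hV
  constructor
  · intro hP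
    exact IsPrincipalIdealRing.of_surjective E.toRingHom E.surjective
  · intro hP
    exact IsPrincipalIdealRing.of_surjective E.symm.toRingHom E.symm.surjective

include σ h in
/-- **`(R-a)` transported.** -/
theorem uniqueFactorizationMonoid_sub_iff :
    UniqueFactorizationMonoid ↥L ↔ UniqueFactorizationMonoid ↥L' :=
  ⟨fun hU => (subEquiv σ L L' h).toMulEquiv.uniqueFactorizationMonoid hU,
    fun hU => (subEquiv σ L L' h).symm.toMulEquiv.uniqueFactorizationMonoid hU⟩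

theorem prime_subEquiv_iff (x : ↥L) : Prime (subEquiv σ L L' h x) ↔ Prime x :=
  MulEquiv.prime_iff (subEquiv σ L L' h).toMulEquiv

/-- spans of corresponding elements. -/
theorem centre_eq_span_sub_iff (V' : ValuationSubring F')
    (hV' : ∀ b : ↥L', algebraMap ↥L' F' b ∈ V')
    (hV : ∀ b : ↥L, algebraMap ↥L F b ∈ V'.comap (σ : F →+* F')) (x : ↥L) :
    LocalRoot.centre (V'.comap (σ : F →+* F')) hV = Ideal.span {x} ↔
      LocalRoot.centre V' hV' = Ideal.span {subEquiv σ L L' h x} := by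
  have hspan : (Ideal.span {x}).map ((subEquiv σ L L' h : ↥L ≃+* ↥L') : ↥L →+* ↥L') =
      Ideal.span {subEquiv σ L L' h x} := by
    rw [Ideal.map_span, Set.image_singleton]
    rfl
  constructor
  · intro hc
    rw [← centre_map_sub σ L L' h V' hV' hV, hc, hspan]
  · intro hc
    rw [centre_comap_sub σ L L' h V' hV' hV, hc, ← hspan]
    exact Ideal.comap_map_of_bijective _ (subEquiv σ L L' h).bijective

end Sub

/-! ### Part A: localisations and centres under an isomorphism `(R, F) ≃ (R', F')` -/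

section Abstract

variable {R R' F F' : Type*} [CommRing R] [IsDomain R] [Field F] [Algebra R F] [IsFractionRing R F]
  [CommRing R'] [IsDomain R'] [Field F'] [Algebra R' F'] [IsFractionRing R' F']
  (σ : F ≃+* F') (e : R ≃+* R') (hσ : ∀ r, σ (algebraMap R F r) = algebraMap R' F' (e r))

/-- The twin of a maximal ideal is maximal. -/
theorem isMaximal_comap_equiv (𝔫' : Ideal R') [h : 𝔫'.IsMaximal] : (𝔫'.comap e).IsMaximal :=
  Ideal.comap_isMaximal_of_surjective e e.surjective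

include hσ in
/-- **The local ring of the twin point**: `x ∈ R_{e⁻¹ 𝔫'} ↔ σ x ∈ R'_{𝔫'}`. -/
theorem mem_locAt_comap_iff (𝔫' : Ideal R') [𝔫'.IsPrime] (x : F) :
    x ∈ locAt (F := F) (𝔫'.comap e) ↔ σ x ∈ locAt (F := F') 𝔫' := by
  rw [mem_locAt_iff, mem_locAt_iff]
  constructor
  · rintro ⟨a, s, hs, h⟩
    refine ⟨e a, e s, hs, ?_⟩
    rw [← hσ, ← hσ, ← map_mul, h]
  · rintro ⟨a', s', hs', h⟩
    refine ⟨e.symm a', e.symm s', ?_, ?_⟩
    · rw [Ideal.mem_comap, e.apply_symm_apply]; exact hs'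
    · apply σ.injective
      rw [map_mul, hσ, hσ, e.apply_symm_apply, e.apply_symm_apply, h]

/-- The induced isomorphism of the local rings `R_{e⁻¹ 𝔫'} ≃ R'_{𝔫'}` (`= subEquiv`). -/
def locAtEquiv (𝔫' : Ideal R') [𝔫'.IsPrime] :
    ↥(locAt (F := F) (𝔫'.comap e)) ≃+* ↥(locAt (F := F') 𝔫') :=
  subEquiv σ (locAt (F := F) (𝔫'.comap e)) (locAt (F := F') 𝔫') (mem_locAt_comap_iff σ e hσ 𝔫')

@[simp] theorem coe_locAtEquiv (𝔫' : Ideal R') [𝔫'.IsPrime]
    (x : ↥(locAt (F := F) (𝔫'.comap e))) :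
    ((locAtEquiv σ e hσ 𝔫' x : ↥(locAt (F := F') 𝔫')) : F') = σ (x : F) := rfl

@[simp] theorem coe_locAtEquiv_symm (𝔫' : Ideal R') [𝔫'.IsPrime] (y : ↥(locAt (F := F') 𝔫')) :
    (((locAtEquiv σ e hσ 𝔫').symm y : ↥(locAt (F := F) (𝔫'.comap e))) : F) =
      σ.symm (y : F') := rfl

theorem locAtEquiv_algebraMap (𝔫' : Ideal R') [𝔫'.IsPrime] (r : R) :
    locAtEquiv σ e hσ 𝔫' (algebraMap R ↥(locAt (F := F) (𝔫'.comap e)) r) =
      algebraMap R' ↥(locAt (F := F') 𝔫') (e r) :=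
  Subtype.ext (hσ r)

include σ hσ in
/-- Factoriality of the local ring at the twin point. -/
theorem uniqueFactorizationMonoid_locAt_comap_iff (𝔫' : Ideal R') [𝔫'.IsPrime] :
    UniqueFactorizationMonoid ↥(locAt (F := F) (𝔫'.comap e)) ↔
      UniqueFactorizationMonoid ↥(locAt (F := F') 𝔫') :=
  uniqueFactorizationMonoid_sub_iff σ _ _ (mem_locAt_comap_iff σ e hσ 𝔫')

include σ hσ in
/-- Prime elements at the twin point. -/
theorem prime_algebraMap_locAt_comap_iff (𝔫' : Ideal R') [𝔫'.IsPrime] (r : R) :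
    Prime (algebraMap R ↥(locAt (F := F) (𝔫'.comap e)) r) ↔
      Prime (algebraMap R' ↥(locAt (F := F') 𝔫') (e r)) := by
  rw [← locAtEquiv_algebraMap σ e hσ 𝔫' r]
  exact (MulEquiv.prime_iff (locAtEquiv σ e hσ 𝔫').toMulEquiv).symm

include hσ in
/-- The centre on `R` of the transported valuation ring. -/
theorem vCentre_comap (V' : ValuationSubring F') (hV' : ∀ r' : R', algebraMap R' F' r' ∈ V')
    (hV : ∀ r : R, algebraMap R F r ∈ V'.comap (σ : F →+* F')) :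
    vCentre (V'.comap (σ : F →+* F')) hV = (vCentre V' hV').comap e := by
  ext r
  rw [Ideal.mem_comap, mem_vCentre_iff, mem_vCentre_iff, mem_nonunits_comap_iff', ← hσ]
  rfl

include hσ in
theorem algebraMap_mem_comap (V' : ValuationSubring F') (hV' : ∀ r' : R', algebraMap R' F' r' ∈ V')
    (r : R) : algebraMap R F r ∈ V'.comap (σ : F →+* F') := by
  rw [ValuationSubring.mem_comap]
  show σ (algebraMap R F r) ∈ V'
  rw [hσ]
  exact hV' _

include hσ in
/-- `T(twin 𝔫') = T(𝔫')`: the transported component passes through the twin point iff the component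
passes through the point. -/
theorem vCentre_comap_le_iff (V' : ValuationSubring F') (hV' : ∀ r' : R', algebraMap R' F' r' ∈ V')
    (hV : ∀ r : R, algebraMap R F r ∈ V'.comap (σ : F →+* F')) (𝔫' : Ideal R') :
    vCentre (V'.comap (σ : F →+* F')) hV ≤ 𝔫'.comap e ↔ vCentre V' hV' ≤ 𝔫' := by
  rw [vCentre_comap σ e hσ V' hV' hV]
  constructor
  · intro h r' hr'
    have := h (show e.symm r' ∈ (vCentre V' hV').comap e by
      rw [Ideal.mem_comap, e.apply_symm_apply]; exact hr')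
    rw [Ideal.mem_comap, e.apply_symm_apply] at this
    exact this
  · intro h
    exact Ideal.comap_mono h

/-- The centre on the local ring of the twin point. -/
theorem centre_comap (𝔫' : Ideal R') [𝔫'.IsPrime] (V' : ValuationSubring F')
    (hV' : ∀ b : ↥(locAt (F := F') 𝔫'), algebraMap ↥(locAt (F := F') 𝔫') F' b ∈ V')
    (hV : ∀ b : ↥(locAt (F := F) (𝔫'.comap e)),
      algebraMap ↥(locAt (F := F) (𝔫'.comap e)) F b ∈ V'.comap (σ : F →+* F')) :
    LocalRoot.centre (V'.comap (σ : F →+* F')) hV =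
      (LocalRoot.centre V' hV').comap (locAtEquiv σ e hσ 𝔫') :=
  centre_comap_sub σ _ _ (mem_locAt_comap_iff σ e hσ 𝔫') V' hV' hV

include hσ in
theorem algebraMap_locAt_mem_comap (𝔫' : Ideal R') [𝔫'.IsPrime] (V' : ValuationSubring F')
    (hV' : ∀ b : ↥(locAt (F := F') 𝔫'), algebraMap ↥(locAt (F := F') 𝔫') F' b ∈ V')
    (b : ↥(locAt (F := F) (𝔫'.comap e))) :
    algebraMap ↥(locAt (F := F) (𝔫'.comap e)) F b ∈ V'.comap (σ : F →+* F') :=
  algebraMap_mem_comap_sub σ _ _ (mem_locAt_comap_iff σ e hσ 𝔫') V' hV' b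

include hσ in
/-- **`(I-R)(R-b)` at the twin point.** -/
theorem isPrincipalIdealRing_quotient_centre_comap_iff (𝔫' : Ideal R') [𝔫'.IsPrime]
    (V' : ValuationSubring F')
    (hV' : ∀ b : ↥(locAt (F := F') 𝔫'), algebraMap ↥(locAt (F := F') 𝔫') F' b ∈ V')
    (hV : ∀ b : ↥(locAt (F := F) (𝔫'.comap e)),
      algebraMap ↥(locAt (F := F) (𝔫'.comap e)) F b ∈ V'.comap (σ : F →+* F')) :
    IsPrincipalIdealRing
      (↥(locAt (F := F) (𝔫'.comap e)) ⧸ LocalRoot.centre (V'.comap (σ : F →+* F')) hV) ↔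
    IsPrincipalIdealRing (↥(locAt (F := F') 𝔫') ⧸ LocalRoot.centre V' hV') :=
  isPrincipalIdealRing_quotient_centre_sub_iff σ _ _ (mem_locAt_comap_iff σ e hσ 𝔫') V' hV' hV

end Abstract

/-! ### Part B: automorphisms of charts -/

section Chart

variable {O F : Type*} [CommRing O] [Field F] [Algebra O F] {S : Set F}

/-- An `O`-algebra endomorphism of `F` which maps the generators of a chart into the chart maps the
chart into itself. -/
theorem map_mem_chartAlg (σ : F →ₐ[O] F) (hσ : ∀ s ∈ S, σ s ∈ chartAlg O F S) {x : F}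
    (hx : x ∈ chartAlg O F S) : σ x ∈ chartAlg O F S := by
  rw [← isIntegral_chartAlg_iff]
  have hle : Algebra.adjoin O S ≤ (chartAlg O F S).comap σ := Algebra.adjoin_le hσ
  let φ : ↥(Algebra.adjoin O S) →+* ↥(chartAlg O F S) :=
    ((σ : F →+* F).comp (Algebra.adjoin O S).val.toRingHom).codRestrict (chartAlg O F S)
      (fun y => hle y.2)
  exact (mem_chartAlg_iff.1 hx).map_of_comp_eq φ (σ : F →+* F) (by ext; rfl)

/-- The automorphism of a chart induced by an automorphism of the function field. -/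
def chartEquiv (σ : F ≃ₐ[O] F) (h1 : ∀ s ∈ S, σ s ∈ chartAlg O F S)
    (h2 : ∀ s ∈ S, σ.symm s ∈ chartAlg O F S) : ↥(chartAlg O F S) ≃ₐ[O] ↥(chartAlg O F S) where
  toFun x := ⟨σ x, map_mem_chartAlg σ.toAlgHom h1 x.2⟩
  invFun x := ⟨σ.symm x, map_mem_chartAlg σ.symm.toAlgHom h2 x.2⟩
  left_inv _ := Subtype.ext (σ.symm_apply_apply _)
  right_inv _ := Subtype.ext (σ.apply_symm_apply _)
  map_mul' _ _ := Subtype.ext (map_mul σ _ _)
  map_add' _ _ := Subtype.ext (map_add σ _ _)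
  commutes' a := Subtype.ext (σ.commutes a)

@[simp] theorem coe_chartEquiv (σ : F ≃ₐ[O] F) (h1 : ∀ s ∈ S, σ s ∈ chartAlg O F S)
    (h2 : ∀ s ∈ S, σ.symm s ∈ chartAlg O F S) (x : ↥(chartAlg O F S)) :
    ((chartEquiv σ h1 h2 x : ↥(chartAlg O F S)) : F) = σ (x : F) := rfl

theorem map_mem_chartAlg_iff (σ : F ≃ₐ[O] F) (h1 : ∀ s ∈ S, σ s ∈ chartAlg O F S)
    (h2 : ∀ s ∈ S, σ.symm s ∈ chartAlg O F S) (x : F) :
    σ x ∈ chartAlg O F S ↔ x ∈ chartAlg O F S := by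
  constructor
  · intro h
    have h3 : σ.symm (σ x) ∈ chartAlg O F S := map_mem_chartAlg σ.symm.toAlgHom h2 h
    rwa [σ.symm_apply_apply] at h3
  · exact map_mem_chartAlg σ.toAlgHom h1

end Chart

/-! ### The Fricke involution on the finite chart -/

section Fricke

open Fermat.Agent.S36.V.FrickeK Fermat.Agent.N4F.C.ChartFibre

variable (K : Type) [Field K] [CharZero K] (ι : K →+* ℂ) (N : ℕ) [NeZero N] (O : Subring K)

/-- `wK` as an `O`-algebra automorphism. -/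
def wO : FF K N ≃ₐ[↥O] FF K N := (wK K ι N).restrictScalars ↥O

@[simp] theorem wO_apply (x : FF K N) : wO K ι N O x = wK K ι N x := rfl

theorem wO_symm_apply (x : FF K N) : (wO K ι N O).symm x = wK K ι N x := by
  rw [AlgEquiv.symm_apply_eq, wO_apply, wK_wK]

theorem wO_mem_gen : ∀ s ∈ ({jF K N} : Set (FF K N)), wO K ι N O s ∈ Rfin K N O := by
  intro s hs
  rw [Set.mem_singleton_iff] at hs
  rw [hs, wO_apply, wK_jF]
  exact jdF_mem_Rfin K N O (dvd_refl N)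

theorem wO_symm_mem_gen :
    ∀ s ∈ ({jF K N} : Set (FF K N)), (wO K ι N O).symm s ∈ Rfin K N O := by
  intro s hs
  rw [wO_symm_apply, ← wO_apply K ι N O]
  exact wO_mem_gen K ι N O s hs

/-- **(a1)** The Fricke involution preserves the finite chart. -/
theorem wK_mem_Rfin_iff (x : FF K N) : wK K ι N x ∈ Rfin K N O ↔ x ∈ Rfin K N O :=
  map_mem_chartAlg_iff (wO K ι N O) (wO_mem_gen K ι N O) (wO_symm_mem_gen K ι N O) x

theorem wK_mem_Rfin {x : FF K N} (hx : x ∈ Rfin K N O) : wK K ι N x ∈ Rfin K N O :=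
  (wK_mem_Rfin_iff K ι N O x).2 hx

/-- **(a1)** The Fricke involution of the finite chart. -/
def wRfin : ↥(Rfin K N O) ≃ₐ[↥O] ↥(Rfin K N O) :=
  chartEquiv (wO K ι N O) (wO_mem_gen K ι N O) (wO_symm_mem_gen K ι N O)

@[simp] theorem coe_wRfin (x : ↥(Rfin K N O)) :
    ((wRfin K ι N O x : ↥(Rfin K N O)) : FF K N) = wK K ι N (x : FF K N) := rfl

@[simp] theorem wRfin_wRfin (x : ↥(Rfin K N O)) : wRfin K ι N O (wRfin K ι N O x) = x :=
  Subtype.ext (by rw [coe_wRfin, coe_wRfin, wK_wK])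

theorem wRfin_symm : (wRfin K ι N O).symm = wRfin K ι N O := by
  apply AlgEquiv.ext
  intro x
  rw [AlgEquiv.symm_apply_eq, wRfin_wRfin]

theorem wRfin_algebraMap (a : ↥O) :
    wRfin K ι N O (algebraMap ↥O ↥(Rfin K N O) a) = algebraMap ↥O ↥(Rfin K N O) a :=
  (wRfin K ι N O).commutes a

theorem wRfin_jFin :
    ((wRfin K ι N O (jFin K N O) : ↥(Rfin K N O)) : FF K N) = jdF K N (dvd_refl N) := by
  rw [coe_wRfin, coe_jFin, wK_jF]

/-- compatibility of `wK` and `wRfin` (the hypothesis `hσ` of Part A). -/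
theorem wK_algebraMap_Rfin (r : ↥(Rfin K N O)) :
    (wK K ι N : FF K N ≃+* FF K N) (algebraMap ↥(Rfin K N O) (FF K N) r) =
      algebraMap ↥(Rfin K N O) (FF K N) ((wRfin K ι N O : ↥(Rfin K N O) ≃+* ↥(Rfin K N O)) r) := rfl

/-- The twin of a point of the finite chart. -/
def twinFin (𝔫 : Ideal ↥(Rfin K N O)) : Ideal ↥(Rfin K N O) :=
  𝔫.comap (wRfin K ι N O : ↥(Rfin K N O) ≃+* ↥(Rfin K N O))

theorem mem_twinFin_iff (𝔫 : Ideal ↥(Rfin K N O)) (r : ↥(Rfin K N O)) :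
    r ∈ twinFin K ι N O 𝔫 ↔ wRfin K ι N O r ∈ 𝔫 := Iff.rfl

instance twinFin_isPrime (𝔫 : Ideal ↥(Rfin K N O)) [𝔫.IsPrime] : (twinFin K ι N O 𝔫).IsPrime :=
  Ideal.comap_isPrime _ _

theorem twinFin_isMaximal (𝔫 : Ideal ↥(Rfin K N O)) [𝔫.IsMaximal] :
    (twinFin K ι N O 𝔫).IsMaximal :=
  isMaximal_comap_equiv _ 𝔫

theorem twinFin_twinFin (𝔫 : Ideal ↥(Rfin K N O)) :
    twinFin K ι N O (twinFin K ι N O 𝔫) = 𝔫 := by
  ext r
  rw [mem_twinFin_iff, mem_twinFin_iff, wRfin_wRfin]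

/-- constants: `ϖ ∈ twin 𝔫 ↔ ϖ ∈ 𝔫`. -/
theorem algebraMap_mem_twinFin_iff (𝔫 : Ideal ↥(Rfin K N O)) (a : ↥O) :
    algebraMap ↥O ↥(Rfin K N O) a ∈ twinFin K ι N O 𝔫 ↔ algebraMap ↥O ↥(Rfin K N O) a ∈ 𝔫 := by
  rw [mem_twinFin_iff, wRfin_algebraMap]

/-- **The local ring of the twin point of the finite chart.** -/
theorem mem_locAt_twinFin_iff [IsFractionRing ↥(Rfin K N O) (FF K N)]
    (𝔫 : Ideal ↥(Rfin K N O)) [𝔫.IsPrime] (x : FF K N) :
    x ∈ locAt (F := FF K N) (twinFin K ι N O 𝔫) ↔ wK K ι N x ∈ locAt (F := FF K N) 𝔫 :=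
  mem_locAt_comap_iff (wK K ι N : FF K N ≃+* FF K N)
    (wRfin K ι N O : ↥(Rfin K N O) ≃+* ↥(Rfin K N O)) (wK_algebraMap_Rfin K ι N O) 𝔫 x

end Fricke

/-! ### Part T: twin points without a chart automorphism -/

section Twin

variable {R F : Type*} [CommRing R] [IsDomain R] [Field F] [Algebra R F] [IsFractionRing R F]

/-- The maximal ideal `𝔫 R_𝔫` of the local ring `R_𝔫 ⊆ F`. -/
def maxLoc (𝔫 : Ideal R) [𝔫.IsPrime] : Ideal ↥(locAt (F := F) 𝔫) :=
  𝔫.map (algebraMap R ↥(locAt (F := F) 𝔫))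

theorem mem_maxLoc_iff (𝔫 : Ideal R) [𝔫.IsPrime] (x : ↥(locAt (F := F) 𝔫)) :
    x ∈ maxLoc (F := F) 𝔫 ↔
      ∃ a s : R, a ∈ 𝔫 ∧ s ∉ 𝔫 ∧ (x : F) * algebraMap R F s = algebraMap R F a := by
  unfold maxLoc
  rw [IsLocalization.mem_map_algebraMap_iff 𝔫.primeCompl]
  constructor
  · rintro ⟨⟨a, s⟩, h⟩
    exact ⟨a.1, s.1, a.2, s.2, congrArg Subtype.val h⟩
  · rintro ⟨a, s, ha, hs, h⟩
    exact ⟨(⟨a, ha⟩, ⟨s, hs⟩), Subtype.ext h⟩

theorem disjoint_primeCompl (𝔫 : Ideal R) [𝔫.IsPrime] :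
    Disjoint (𝔫.primeCompl : Set R) (𝔫 : Set R) :=
  Set.disjoint_left.2 fun _ hx hx' => hx hx'

instance maxLoc_isPrime (𝔫 : Ideal R) [h𝔫 : 𝔫.IsPrime] : (maxLoc (F := F) 𝔫).IsPrime :=
  IsLocalization.isPrime_of_isPrime_disjoint 𝔫.primeCompl _ 𝔫 h𝔫 (disjoint_primeCompl 𝔫)

theorem algebraMap_mem_maxLoc_iff (𝔫 : Ideal R) [h𝔫 : 𝔫.IsPrime] (r : R) :
    algebraMap R ↥(locAt (F := F) 𝔫) r ∈ maxLoc (F := F) 𝔫 ↔ r ∈ 𝔫 := by
  have h := IsLocalization.under_map_of_isPrime_disjoint 𝔫.primeCompl ↥(locAt (F := F) 𝔫) h𝔫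
    (disjoint_primeCompl 𝔫)
  constructor
  · intro hr
    rw [← h]
    exact hr
  · intro hr
    exact Ideal.mem_map_of_mem _ hr

/-- An element of `R_𝔫` outside the maximal ideal is invertible in `R_𝔫`. -/
theorem inv_mem_locAt_of_notMem_maxLoc (𝔫 : Ideal R) [𝔫.IsPrime] (x : ↥(locAt (F := F) 𝔫))
    (hx : x ∉ maxLoc (F := F) 𝔫) : (x : F)⁻¹ ∈ locAt (F := F) 𝔫 := by
  obtain ⟨a, s, hs, h⟩ := (mem_locAt_iff 𝔫 (x : F)).1 x.2
  have ha : a ∉ 𝔫 := fun ha => hx ((mem_maxLoc_iff 𝔫 x).2 ⟨a, s, ha, hs, h⟩)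
  have ha0 : algebraMap R F a ≠ 0 := by
    intro h0
    have : a = 0 := (IsFractionRing.injective R F) (by rw [h0, map_zero])
    exact ha (this ▸ 𝔫.zero_mem)
  have hx0 : (x : F) ≠ 0 := by
    intro h0
    rw [h0, zero_mul] at h
    exact ha0 h.symm
  rw [mem_locAt_iff]
  refine ⟨s, a, ha, ?_⟩
  rw [← h]
  field_simp

/-- A nonzero element of the maximal ideal is not invertible in `R_𝔫`. -/
theorem inv_notMem_locAt_of_mem_maxLoc (𝔫 : Ideal R) [𝔫.IsPrime] (x : ↥(locAt (F := F) 𝔫))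
    (hx : x ∈ maxLoc (F := F) 𝔫) (hx0 : (x : F) ≠ 0) : (x : F)⁻¹ ∉ locAt (F := F) 𝔫 := by
  intro hinv
  have h1 : x * ⟨(x : F)⁻¹, hinv⟩ ∈ maxLoc (F := F) 𝔫 := Ideal.mul_mem_right _ _ hx
  have h2 : x * ⟨(x : F)⁻¹, hinv⟩ = 1 := Subtype.ext (mul_inv_cancel₀ hx0)
  rw [h2] at h1
  exact (maxLoc_isPrime 𝔫).ne_top ((Ideal.eq_top_iff_one _).2 h1)

/-- `centre V ≤ 𝔫 ↔ R_𝔫 ⊆ V`. -/
theorem vCentre_le_iff_forall_mem (V : ValuationSubring F) (hV : ∀ r : R, algebraMap R F r ∈ V)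
    (𝔫 : Ideal R) [𝔫.IsPrime] :
    vCentre V hV ≤ 𝔫 ↔ ∀ x ∈ locAt (F := F) 𝔫, x ∈ V := by
  constructor
  · intro hle x hx
    obtain ⟨a, s, hs, h⟩ := (mem_locAt_iff 𝔫 x).1 hx
    have hs' : algebraMap R F s ∉ V.nonunits := fun h' => hs (hle ((mem_vCentre_iff V hV).2 h'))
    rw [mem_nonunits_iff_inv_notMem, not_or, not_not] at hs'
    have hx' : x = algebraMap R F a * (algebraMap R F s)⁻¹ := by
      rw [← h, mul_assoc, mul_inv_cancel₀ hs'.1, mul_one]
    rw [hx']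
    exact V.mul_mem _ _ (hV a) hs'.2
  · intro h r hr
    by_contra hr𝔫
    rw [mem_vCentre_iff, mem_nonunits_iff_inv_notMem] at hr
    rcases hr with hr | hr
    · have : r = 0 := (IsFractionRing.injective R F) (by rw [hr, map_zero])
      exact hr𝔫 (this ▸ 𝔫.zero_mem)
    · apply hr
      apply h
      rw [mem_locAt_iff]
      refine ⟨1, r, hr𝔫, ?_⟩
      have hr0 : algebraMap R F r ≠ 0 := by
        intro h0
        have : r = 0 := (IsFractionRing.injective R F) (by rw [h0, map_zero])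
        exact hr𝔫 (this ▸ 𝔫.zero_mem)
      rw [inv_mul_cancel₀ hr0, map_one]

variable (w : F ≃+* F) (𝔫 : Ideal R) [𝔫.IsPrime]
  (H : ∀ r : R, w (algebraMap R F r) ∈ locAt (F := F) 𝔫)

/-- `r ↦ w r`, as a homomorphism `R → R_𝔫` (under the hypothesis `w R ⊆ R_𝔫`). -/
def wHom : R →+* ↥(locAt (F := F) 𝔫) :=
  ((w : F →+* F).comp (algebraMap R F)).codRestrict (locAt (F := F) 𝔫) H

@[simp] theorem coe_wHom (r : R) : ((wHom w 𝔫 H r : ↥(locAt (F := F) 𝔫)) : F) =
    w (algebraMap R F r) := rfl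

/-- **The twin prime**: `{r | w r ∈ 𝔫 R_𝔫}`. -/
def twin : Ideal R := (maxLoc (F := F) 𝔫).comap (wHom w 𝔫 H)

instance twin_isPrime : (twin w 𝔫 H).IsPrime := Ideal.comap_isPrime _ _

theorem mem_twin_iff (r : R) : r ∈ twin w 𝔫 H ↔ wHom w 𝔫 H r ∈ maxLoc (F := F) 𝔫 := Iff.rfl

/-- `R_{twin 𝔫} ⊆ w⁻¹ R_𝔫`. -/
theorem map_mem_locAt_of_mem_locAt_twin {x : F} (hx : x ∈ locAt (F := F) (twin w 𝔫 H)) :
    w x ∈ locAt (F := F) 𝔫 := by
  obtain ⟨a, s, hs, h⟩ := (mem_locAt_iff _ x).1 hx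
  have hs' : wHom w 𝔫 H s ∉ maxLoc (F := F) 𝔫 := hs
  have hinv := inv_mem_locAt_of_notMem_maxLoc 𝔫 _ hs'
  rw [coe_wHom] at hinv
  have hs0 : w (algebraMap R F s) ≠ 0 := by
    intro h0
    apply hs'
    have : wHom w 𝔫 H s = 0 := Subtype.ext h0
    rw [this]
    exact Ideal.zero_mem _
  have hwx : w x = w (algebraMap R F a) * (w (algebraMap R F s))⁻¹ := by
    rw [← h, map_mul, mul_assoc, mul_inv_cancel₀ hs0, mul_one]
  rw [hwx]
  exact Subalgebra.mul_mem _ (H a) hinv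

variable (hww : ∀ x, w (w x) = x)
  (H' : ∀ r : R, w (algebraMap R F r) ∈ locAt (F := F) (twin w 𝔫 H))

include hww in
/-- The twin of the twin is the point itself. -/
theorem twin_twin : twin w (twin w 𝔫 H) H' = 𝔫 := by
  ext r
  constructor
  · intro hr
    rw [mem_twin_iff, mem_maxLoc_iff] at hr
    obtain ⟨a, s, ha, hs, h⟩ := hr
    rw [coe_wHom] at h
    -- apply `w`
    have h2 : algebraMap R F r * w (algebraMap R F s) = w (algebraMap R F a) := by
      rw [← h, map_mul, hww]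
    have hs' : wHom w 𝔫 H s ∉ maxLoc (F := F) 𝔫 := hs
    have hinv := inv_mem_locAt_of_notMem_maxLoc 𝔫 _ hs'
    rw [coe_wHom] at hinv
    have hs0 : w (algebraMap R F s) ≠ 0 := by
      intro h0
      apply hs'
      have : wHom w 𝔫 H s = 0 := Subtype.ext h0
      rw [this]
      exact Ideal.zero_mem _
    have ha' : wHom w 𝔫 H a ∈ maxLoc (F := F) 𝔫 := ha
    have hmem : wHom w 𝔫 H a * ⟨(w (algebraMap R F s))⁻¹, hinv⟩ ∈ maxLoc (F := F) 𝔫 :=
      Ideal.mul_mem_right _ _ ha'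
    have heq : wHom w 𝔫 H a * ⟨(w (algebraMap R F s))⁻¹, hinv⟩ =
        algebraMap R ↥(locAt (F := F) 𝔫) r := by
      apply Subtype.ext
      show w (algebraMap R F a) * (w (algebraMap R F s))⁻¹ = algebraMap R F r
      rw [← h2, mul_assoc, mul_inv_cancel₀ hs0, mul_one]
    rw [heq] at hmem
    exact (algebraMap_mem_maxLoc_iff 𝔫 r).1 hmem
  · intro hr
    rw [mem_twin_iff]
    by_contra hnot
    have hinv := inv_mem_locAt_of_notMem_maxLoc (twin w 𝔫 H) _ hnot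
    rw [coe_wHom] at hinv
    have h1 := map_mem_locAt_of_mem_locAt_twin w 𝔫 H hinv
    rw [map_inv₀, hww] at h1
    by_cases hr0 : algebraMap R F r = 0
    · apply hnot
      have : wHom w (twin w 𝔫 H) H' r = 0 := Subtype.ext (by rw [coe_wHom, hr0, map_zero]; rfl)
      rw [this]
      exact Ideal.zero_mem _
    · exact inv_notMem_locAt_of_mem_maxLoc 𝔫 (algebraMap R ↥(locAt (F := F) 𝔫) r)
        ((algebraMap_mem_maxLoc_iff 𝔫 r).2 hr) hr0 h1

include hww H' in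
/-- **The local ring of the twin point**: `x ∈ R_{twin 𝔫} ↔ w x ∈ R_𝔫`. -/
theorem mem_locAt_twin_iff (x : F) :
    x ∈ locAt (F := F) (twin w 𝔫 H) ↔ w x ∈ locAt (F := F) 𝔫 := by
  constructor
  · exact map_mem_locAt_of_mem_locAt_twin w 𝔫 H
  · intro hx
    have htt := twin_twin w 𝔫 H hww H'
    have hx' : w x ∈ locAt (F := F) (twin w (twin w 𝔫 H) H') := by
      rw [mem_locAt_iff] at hx ⊢
      obtain ⟨a, s, hs, h⟩ := hx
      exact ⟨a, s, by rw [htt]; exact hs, h⟩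
    have := map_mem_locAt_of_mem_locAt_twin w (twin w 𝔫 H) H' hx'
    rwa [hww] at this

include hww H' in
/-- `w` exchanges the maximal ideals. -/
theorem mem_maxLoc_twin_iff (x : ↥(locAt (F := F) (twin w 𝔫 H))) :
    x ∈ maxLoc (F := F) (twin w 𝔫 H) ↔
      (⟨w (x : F), (mem_locAt_twin_iff w 𝔫 H hww H' x).1 x.2⟩ : ↥(locAt (F := F) 𝔫)) ∈
        maxLoc (F := F) 𝔫 := by
  by_cases hx0 : (x : F) = 0
  · have h1 : x = 0 := Subtype.ext hx0
    have h2 : (⟨w (x : F), (mem_locAt_twin_iff w 𝔫 H hww H' x).1 x.2⟩ : ↥(locAt (F := F) 𝔫)) = 0 :=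
      Subtype.ext (by show w (x : F) = 0; rw [hx0, map_zero])
    rw [h2, h1]
    exact ⟨fun _ => Ideal.zero_mem _, fun _ => Ideal.zero_mem _⟩
  · have hwx0 : w (x : F) ≠ 0 := fun h0 => hx0 (by
      have := congrArg w h0; rwa [hww, map_zero] at this)
    constructor
    · intro hx
      by_contra hnot
      have hinv := inv_mem_locAt_of_notMem_maxLoc 𝔫 _ hnot
      have hinv' : w (x : F)⁻¹ ∈ locAt (F := F) 𝔫 := by rw [map_inv₀]; exact hinv
      exact inv_notMem_locAt_of_mem_maxLoc _ x hx hx0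
        ((mem_locAt_twin_iff w 𝔫 H hww H' _).2 hinv')
    · intro hx
      by_contra hnot
      have hinv := inv_mem_locAt_of_notMem_maxLoc (twin w 𝔫 H) _ hnot
      have h1 := (mem_locAt_twin_iff w 𝔫 H hww H' _).1 hinv
      rw [map_inv₀] at h1
      exact inv_notMem_locAt_of_mem_maxLoc 𝔫 _ hx hwx0 h1

include hww H' in
/-- `T(twin 𝔫) = w T(𝔫)`. -/
theorem vCentre_comap_le_twin_iff (V : ValuationSubring F) (hV : ∀ r : R, algebraMap R F r ∈ V)
    (hVw : ∀ r : R, algebraMap R F r ∈ V.comap (w : F →+* F)) :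
    vCentre (V.comap (w : F →+* F)) hVw ≤ twin w 𝔫 H ↔ vCentre V hV ≤ 𝔫 := by
  rw [vCentre_le_iff_forall_mem, vCentre_le_iff_forall_mem]
  constructor
  · intro h x hx
    have hx' : w x ∈ locAt (F := F) (twin w 𝔫 H) := by
      rw [mem_locAt_twin_iff w 𝔫 H hww H', hww]; exact hx
    have := h _ hx'
    rw [ValuationSubring.mem_comap] at this
    show x ∈ V
    have h3 : (w : F →+* F) (w x) = x := hww x
    rwa [h3] at this
  · intro h x hx
    rw [ValuationSubring.mem_comap]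
    exact h _ ((mem_locAt_twin_iff w 𝔫 H hww H' x).1 hx)

end Twin

/-! ### Part T, continued: cusps of a chart at infinity -/

section IntClosed

variable {O F : Type*} [CommRing O] [Field F] [Algebra O F]

/-- A subring of `F` integrally closed in `F` which contains `O` and `d` contains every element
integral over `O[d]`. -/
theorem mem_of_isIntegral_adjoin (T : Subring F) [IsIntegrallyClosedIn T F]
    (hO : ∀ o : O, algebraMap O F o ∈ T) {c d : F} (hd : d ∈ T)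
    (hint : IsIntegral (Algebra.adjoin O {d}) c) : c ∈ T := by
  let TA : Subalgebra O F := { T.toSubsemiring with algebraMap_mem' := hO }
  have hle : Algebra.adjoin O {d} ≤ TA := Algebra.adjoin_le (by
    intro x hx
    rw [Set.mem_singleton_iff] at hx
    rw [hx]
    exact hd)
  let φ : ↥(Algebra.adjoin O {d}) →+* ↥T :=
    (Algebra.adjoin O {d}).val.toRingHom.codRestrict T (fun y => hle y.2)
  have h1 : IsIntegral ↥T c := hint.map_of_comp_eq φ (RingHom.id F) (by ext; rfl)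
  exact Subring.isIntegrallyClosedIn_iff.mp inferInstance h1

/-- **Cusps go to cusps.**  `L` a local subring of `F`, integrally closed in `F`, containing `O`;
`c⁻¹` a nonunit of `L`, `c` integral over `O[d]`.  Then `d⁻¹` is a nonunit of `L`. -/
theorem inv_mem_and_notMem_of_isIntegral (L : LocalSubring F) [IsIntegrallyClosedIn L.toSubring F]
    (hO : ∀ o : O, algebraMap O F o ∈ L.toSubring) {c d : F}
    (hc : c⁻¹ ∈ L.toSubring) (hcn : c ∉ L.toSubring)
    (hint : IsIntegral (Algebra.adjoin O {d}) c) : d⁻¹ ∈ L.toSubring ∧ d ∉ L.toSubring := by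
  have hc0 : c ≠ 0 := fun h0 => hcn (h0 ▸ L.toSubring.zero_mem)
  constructor
  · by_contra hb
    obtain ⟨V, hLV, hbV⟩ := L.exists_le_valuationSubring_of_isIntegrallyClosedIn hb
    have hdV : d ∈ V := (V.mem_or_inv_mem d).resolve_right hbV
    obtain ⟨hle, hloc⟩ := hLV
    haveI : IsIntegrallyClosedIn V.toSubring F := inferInstanceAs (IsIntegrallyClosedIn V F)
    have hcV : c ∈ V.toSubring :=
      mem_of_isIntegral_adjoin V.toSubring (fun o => hle (hO o)) hdV hint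
    have hu : IsUnit (Subring.inclusion hle ⟨c⁻¹, hc⟩) := by
      refine isUnit_iff_exists_inv.2 ⟨⟨c, hcV⟩, Subtype.ext ?_⟩
      show c⁻¹ * c = 1
      exact inv_mul_cancel₀ hc0
    have hu' : IsUnit (⟨c⁻¹, hc⟩ : ↥L.toSubring) := hloc.map_nonunit _ hu
    obtain ⟨y, hy⟩ := isUnit_iff_exists_inv.1 hu'
    have hy' : c⁻¹ * (y : F) = 1 := congrArg Subtype.val hy
    have hyc : (y : F) = c := by
      have := congrArg (fun t => c * t) hy'
      simp only [mul_one] at this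
      rw [← mul_assoc, mul_inv_cancel₀ hc0, one_mul] at this
      exact this
    exact hcn (hyc ▸ y.2)
  · intro hd
    exact hcn (mem_of_isIntegral_adjoin L.toSubring hO hd hint)

end IntClosed

section LocSub

variable {R F : Type*} [CommRing R] [IsDomain R] [Field F] [Algebra R F] [IsFractionRing R F]

/-- `R_𝔫` as a local subring of `F`. -/
def locSub (𝔫 : Ideal R) [𝔫.IsPrime] : LocalSubring F :=
  { toSubring := (locAt (F := F) 𝔫).toSubring
    isLocalRing := IsLocalization.AtPrime.isLocalRing ↥(locAt (F := F) 𝔫) 𝔫 }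

theorem mem_locSub_iff (𝔫 : Ideal R) [𝔫.IsPrime] (x : F) :
    x ∈ (locSub (F := F) 𝔫).toSubring ↔ x ∈ locAt (F := F) 𝔫 := Iff.rfl

/-- `R_𝔫` is integrally closed in `F`. -/
theorem mem_locAt_of_isIntegral [IsIntegrallyClosed R] (𝔫 : Ideal R) [𝔫.IsPrime] {x : F}
    (hx : IsIntegral ↥(locAt (F := F) 𝔫) x) : x ∈ locAt (F := F) 𝔫 := by
  haveI : IsIntegrallyClosed ↥(locAt (F := F) 𝔫) :=
    isIntegrallyClosed_of_isLocalization _ 𝔫.primeCompl 𝔫.primeCompl_le_nonZeroDivisors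
  obtain ⟨y, hy⟩ := IsIntegrallyClosed.isIntegral_iff.1 hx
  rw [← hy]
  exact y.2

instance isIntegrallyClosedIn_locSub [IsIntegrallyClosed R] (𝔫 : Ideal R) [𝔫.IsPrime] :
    IsIntegrallyClosedIn (locSub (F := F) 𝔫).toSubring F :=
  Subring.isIntegrallyClosedIn_iff.mpr fun _ hx => mem_locAt_of_isIntegral 𝔫 hx

end LocSub

section Cusp

variable {O F : Type*} [CommRing O] [Field F] [Algebra O F] (c d : F)
  [IsFractionRing ↥(chartAlg O F {c⁻¹}) F]
  (w : F ≃ₐ[O] F) (hwc : w c = d) (hww : ∀ x, w (w x) = x)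
  (hint : IsIntegral (Algebra.adjoin O {d}) c)
  (𝔫 : Ideal ↥(chartAlg O F {c⁻¹})) [𝔫.IsPrime]
  (hc : (chartGen (Set.mem_singleton c⁻¹) : ↥(chartAlg O F {c⁻¹})) ∈ 𝔫)

include hc in
theorem cusp_gen_ne_zero (hc0 : c ≠ 0) : c ∉ locAt (F := F) 𝔫 := by
  intro hcL
  have h1 : algebraMap ↥(chartAlg O F {c⁻¹}) ↥(locAt (F := F) 𝔫)
      (chartGen (Set.mem_singleton c⁻¹)) ∈ maxLoc (F := F) 𝔫 :=
    (algebraMap_mem_maxLoc_iff 𝔫 _).2 hc
  have h2 := inv_notMem_locAt_of_mem_maxLoc 𝔫 _ h1 (by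
    show c⁻¹ ≠ 0
    exact inv_ne_zero hc0)
  apply h2
  show (c⁻¹)⁻¹ ∈ locAt (F := F) 𝔫
  rw [inv_inv]
  exact hcL

include hint hc in
/-- **Cusps go to cusps**: at a point with `c = ∞` also `d = ∞`. -/
theorem cusp_inv_mem (hc0 : c ≠ 0) : d⁻¹ ∈ locAt (F := F) 𝔫 ∧ d ∉ locAt (F := F) 𝔫 := by
  have h := inv_mem_and_notMem_of_isIntegral (O := O) (locSub (F := F) 𝔫)
    (fun o => by
      rw [mem_locSub_iff]
      have : algebraMap O F o = algebraMap ↥(chartAlg O F {c⁻¹}) F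
          (algebraMap O ↥(chartAlg O F {c⁻¹}) o) := rfl
      rw [this]
      exact Subalgebra.algebraMap_mem _ _)
    (c := c) (d := d)
    (by
      rw [mem_locSub_iff]
      exact Subalgebra.algebraMap_mem (locAt (F := F) 𝔫)
        (chartGen (Set.mem_singleton c⁻¹) : ↥(chartAlg O F {c⁻¹})))
    (cusp_gen_ne_zero c 𝔫 hc hc0) hint
  exact h

include hwc hint hc in
/-- `w R ⊆ R_𝔫` at a cusp `𝔫`. -/
theorem cusp_map_mem (hc0 : c ≠ 0) (r : ↥(chartAlg O F {c⁻¹})) :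
    (w : F ≃+* F) (algebraMap ↥(chartAlg O F {c⁻¹}) F r) ∈ locAt (F := F) 𝔫 := by
  apply mem_locAt_of_isIntegral
  have hd := (cusp_inv_mem c d hint 𝔫 hc hc0).1
  let LA : Subalgebra O F := ((locAt (F := F) 𝔫).restrictScalars O).comap w.toAlgHom
  have hle : Algebra.adjoin O {c⁻¹} ≤ LA := Algebra.adjoin_le (by
    intro x hx
    rw [Set.mem_singleton_iff] at hx
    rw [hx]
    show w c⁻¹ ∈ locAt (F := F) 𝔫
    rw [map_inv₀, hwc]
    exact hd)
  let φ : ↥(Algebra.adjoin O {c⁻¹}) →+* ↥(locAt (F := F) 𝔫) :=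
    ((w : F →+* F).comp (Algebra.adjoin O {c⁻¹}).val.toRingHom).codRestrict (locAt (F := F) 𝔫)
      (fun y => hle y.2)
  exact (mem_chartAlg_iff.1 r.2).map_of_comp_eq φ (w : F →+* F) (by ext; rfl)

/-- **The twin of a cusp point of the chart at infinity.** -/
def twinInf (hc0 : c ≠ 0) : Ideal ↥(chartAlg O F {c⁻¹}) :=
  twin (w : F ≃+* F) 𝔫 (cusp_map_mem c d w hwc hint 𝔫 hc hc0)

instance twinInf_isPrime (hc0 : c ≠ 0) : (twinInf c d w hwc hint 𝔫 hc hc0).IsPrime :=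
  twin_isPrime _ _ _

/-- The twin of a cusp point is a cusp point. -/
theorem gen_mem_twinInf (hc0 : c ≠ 0) :
    (chartGen (Set.mem_singleton c⁻¹) : ↥(chartAlg O F {c⁻¹})) ∈
      twinInf c d w hwc hint 𝔫 hc hc0 := by
  unfold twinInf
  rw [mem_twin_iff]
  by_contra hnot
  have hinv := inv_mem_locAt_of_notMem_maxLoc 𝔫 _ hnot
  rw [coe_wHom] at hinv
  apply (cusp_inv_mem c d hint 𝔫 hc hc0).2
  have h1 : (w : F ≃+* F) (algebraMap ↥(chartAlg O F {c⁻¹}) F
      (chartGen (Set.mem_singleton c⁻¹))) = d⁻¹ := by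
    show w c⁻¹ = d⁻¹
    rw [map_inv₀, hwc]
  rw [h1, inv_inv] at hinv
  exact hinv

include hww in
/-- **(a3)** The local ring of the twin cusp: `x ∈ R_{twin 𝔫} ↔ w x ∈ R_𝔫`. -/
theorem mem_locAt_twinInf_iff (hc0 : c ≠ 0) (x : F) :
    x ∈ locAt (F := F) (twinInf c d w hwc hint 𝔫 hc hc0) ↔ w x ∈ locAt (F := F) 𝔫 :=
  mem_locAt_twin_iff (w : F ≃+* F) 𝔫 (cusp_map_mem c d w hwc hint 𝔫 hc hc0) hww
    (cusp_map_mem c d w hwc hint (twinInf c d w hwc hint 𝔫 hc hc0)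
      (gen_mem_twinInf c d w hwc hint 𝔫 hc hc0) hc0) x

include hww in
/-- The twin of the twin cusp is the cusp. -/
theorem twinInf_twinInf (hc0 : c ≠ 0) :
    twinInf c d w hwc hint (twinInf c d w hwc hint 𝔫 hc hc0)
      (gen_mem_twinInf c d w hwc hint 𝔫 hc hc0) hc0 = 𝔫 :=
  twin_twin (w : F ≃+* F) 𝔫 (cusp_map_mem c d w hwc hint 𝔫 hc hc0) hww _

/-- constants: `ϖ ∈ twin 𝔫 ↔ ϖ ∈ 𝔫`. -/
theorem algebraMap_mem_twinInf_iff (hc0 : c ≠ 0) (o : O) :
    algebraMap O ↥(chartAlg O F {c⁻¹}) o ∈ twinInf c d w hwc hint 𝔫 hc hc0 ↔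
      algebraMap O ↥(chartAlg O F {c⁻¹}) o ∈ 𝔫 := by
  unfold twinInf
  rw [mem_twin_iff]
  have h1 : wHom (w : F ≃+* F) 𝔫 (cusp_map_mem c d w hwc hint 𝔫 hc hc0)
      (algebraMap O ↥(chartAlg O F {c⁻¹}) o) =
      algebraMap ↥(chartAlg O F {c⁻¹}) ↥(locAt (F := F) 𝔫)
        (algebraMap O ↥(chartAlg O F {c⁻¹}) o) := by
    apply Subtype.ext
    show w (algebraMap O F o) = algebraMap O F o
    exact w.commutes o
  rw [h1, algebraMap_mem_maxLoc_iff]

include hww in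
/-- `T(twin 𝔫) = w T(𝔫)` at the cusps. -/
theorem vCentre_comap_le_twinInf_iff (hc0 : c ≠ 0) (V : ValuationSubring F)
    (hV : ∀ r : ↥(chartAlg O F {c⁻¹}), algebraMap ↥(chartAlg O F {c⁻¹}) F r ∈ V)
    (hVw : ∀ r : ↥(chartAlg O F {c⁻¹}),
      algebraMap ↥(chartAlg O F {c⁻¹}) F r ∈ V.comap ((w : F ≃+* F) : F →+* F)) :
    vCentre (V.comap ((w : F ≃+* F) : F →+* F)) hVw ≤ twinInf c d w hwc hint 𝔫 hc hc0 ↔
      vCentre V hV ≤ 𝔫 :=
  vCentre_comap_le_twin_iff (w : F ≃+* F) 𝔫 (cusp_map_mem c d w hwc hint 𝔫 hc hc0) hww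
    (cusp_map_mem c d w hwc hint (twinInf c d w hwc hint 𝔫 hc hc0)
      (gen_mem_twinInf c d w hwc hint 𝔫 hc hc0) hc0) V hV hVw

end Cusp

/-! ### The Fricke involution at the cusps of the chart at infinity -/

section FrickeInf

open Fermat.Agent.S36.V.FrickeK Fermat.Agent.N4F.C.ChartFibre

variable (K : Type) [Field K] [CharZero K] (ι : K →+* ℂ) (N : ℕ) [NeZero N] (O : Subring K)

include ι in
/-- `j` is integral over `O[j_N]` (the `wK`-image of "`j_N` is integral over `O[j]`"). -/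
theorem isIntegral_jF_adjoin_jdF :
    IsIntegral (Algebra.adjoin ↥O {jdF K N (dvd_refl N)}) (jF K N) := by
  have h0 : IsIntegral (Algebra.adjoin ↥O {jF K N}) (jdF K N (dvd_refl N)) :=
    mem_chartAlg_iff.1 (jdF_mem_Rfin K N O (dvd_refl N))
  have hle : Algebra.adjoin ↥O {jF K N} ≤
      (Algebra.adjoin ↥O {jdF K N (dvd_refl N)}).comap (wO K ι N O).toAlgHom :=
    Algebra.adjoin_le (by
      intro x hx
      rw [Set.mem_singleton_iff] at hx
      rw [hx]
      show wK K ι N (jF K N) ∈ Algebra.adjoin ↥O {jdF K N (dvd_refl N)}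
      rw [wK_jF]
      exact Algebra.subset_adjoin (Set.mem_singleton _))
  let φ : ↥(Algebra.adjoin ↥O {jF K N}) →+* ↥(Algebra.adjoin ↥O {jdF K N (dvd_refl N)}) :=
    (((wO K ι N O : FF K N ≃ₐ[↥O] FF K N) : FF K N →+* FF K N).comp
      (Algebra.adjoin ↥O {jF K N}).val.toRingHom).codRestrict
        (Algebra.adjoin ↥O {jdF K N (dvd_refl N)}) (fun y => hle y.2)
  have h1 := h0.map_of_comp_eq φ ((wO K ι N O : FF K N ≃ₐ[↥O] FF K N) : FF K N →+* FF K N)
    (by ext; rfl)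
  have h2 : ((wO K ι N O : FF K N ≃ₐ[↥O] FF K N) : FF K N →+* FF K N) (jdF K N (dvd_refl N)) =
      jF K N := by
    show wK K ι N (jdF K N (dvd_refl N)) = jF K N
    rw [← wK_jF K ι N, wK_wK]
  rwa [h2] at h1

variable [IsFractionRing ↥(Rinf K N O) (FF K N)] (𝔫 : Ideal ↥(Rinf K N O)) [𝔫.IsPrime]
  (hc : jInvInf K N O ∈ 𝔫)

/-- **(a3)** The Fricke twin of a cusp point `𝔫 ∋ j⁻¹` of the chart at infinity. -/
def twinInfK : Ideal ↥(Rinf K N O) :=
  twinInf (jF K N) (jdF K N (dvd_refl N)) (wO K ι N O) (wK_jF K ι N)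
    (isIntegral_jF_adjoin_jdF K ι N O) 𝔫 hc (jF_ne_zero K N)

instance twinInfK_isPrime : (twinInfK K ι N O 𝔫 hc).IsPrime := twinInf_isPrime _ _ _ _ _ _ _ _

theorem jInvInf_mem_twinInfK : jInvInf K N O ∈ twinInfK K ι N O 𝔫 hc :=
  gen_mem_twinInf _ _ _ _ _ _ _ _

/-- **(a3)** `x ∈ R_{twin 𝔫} ↔ wK x ∈ R_𝔫` at the cusps of `Rinf`. -/
theorem mem_locAt_twinInfK_iff (x : FF K N) :
    x ∈ locAt (F := FF K N) (twinInfK K ι N O 𝔫 hc) ↔ wK K ι N x ∈ locAt (F := FF K N) 𝔫 :=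
  mem_locAt_twinInf_iff (jF K N) (jdF K N (dvd_refl N)) (wO K ι N O) (wK_jF K ι N)
    (fun x => wK_wK K ι N x) (isIntegral_jF_adjoin_jdF K ι N O) 𝔫 hc (jF_ne_zero K N) x

theorem twinInfK_twinInfK :
    twinInfK K ι N O (twinInfK K ι N O 𝔫 hc) (jInvInf_mem_twinInfK K ι N O 𝔫 hc) = 𝔫 :=
  twinInf_twinInf (jF K N) (jdF K N (dvd_refl N)) (wO K ι N O) (wK_jF K ι N)
    (fun x => wK_wK K ι N x) (isIntegral_jF_adjoin_jdF K ι N O) 𝔫 hc (jF_ne_zero K N)

theorem algebraMap_mem_twinInfK_iff (o : ↥O) :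
    algebraMap ↥O ↥(Rinf K N O) o ∈ twinInfK K ι N O 𝔫 hc ↔ algebraMap ↥O ↥(Rinf K N O) o ∈ 𝔫 :=
  algebraMap_mem_twinInf_iff _ _ _ _ _ _ _ _ o

end FrickeInf

end Fermat.Agent.S36.V.FrickeTransport
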