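/-
S36 / block [V], leaf (V-mid), part 3 (helper15): **the place of the middle valuation with values in
`κ((Q))`** (`κ` the residue field of `O`, NOT of the cyclotomic ring `O'`).

`MidVal.midEv h` takes values in `κ'((Q))`.  Given the residue-degree-one statement along `α₂`
(`hdeg`, produced by the counting argument), every value of `midEv h` comes from `κ((Q))`, and
`midEvK h hdeg : ↥(midVS h) →+* κ((Q))` is the unique ring homomorphism with
`ρ ∘ midEvK = midEv` (`ρ = coeffMap (resMap O O' h.dom)`).  All statements about `midEv`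
(`α₂`-side, `β₂`-side, Wilson residue) descend to `midEvK` — these are the `ThreeVal` fields
`ev11`, `ev11_eq_zero_iff`, `ev11_alpha`, `ev11_beta`, `wilson` verbatim.
-/
import Mathlib
import Fermat.Agent.S36.V.MidValBeta
import Fermat.Agent.S36.R3.WilsonMid

set_option autoImplicit false
set_option linter.unusedSectionVars false
set_option linter.style.haveILetI false

namespace Fermat.Agent.S36.V.MidPlace

open ModularCurve Fermat.Agent.S28.Gauss Fermat.Agent.N4.Setting Fermat.Agent.N4.FibreEmbedding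
open Fermat.Agent.N4F.E.DegreeLevelRaise Fermat.Agent.N4F.E.GaussDVR
open Fermat.Agent.N4.TwistSeries Fermat.Agent.S36.R3.PiSeries IsLocalRing
open Fermat.Agent.S36.V.MidVal Fermat.Agent.S36.V.MidValBeta Fermat.Agent.P3G.SecondValuation
open Fermat.Agent.S36.R3.WilsonMid

variable {K : Type} [Field K] [CharZero K] {M0 q : ℕ} [NeZero M0] [NeZero q]
  {O : Subring K} [IsDiscreteValuationRing ↥O] [IsFractionRing ↥O K]
  {K' : Type} [Field K'] [Algebra K K']
  {O' : Subring K'} [IsDiscreteValuationRing ↥O'] [IsFractionRing ↥O' K']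
  {s : FF K (M0 * q * q) →+* LaurentSeries K'} {u : K'ˣ}

/-- `ρ = coeffMap (κ → κ')` is injective. -/
theorem coeffMap_resMap_injective (h : MidEmb K M0 q O K' O' s u) :
    Function.Injective (coeffMap (resMap O O' h.dom)) := by
  rw [injective_iff_map_eq_zero]
  intro x hx
  by_contra hne
  exact coeffMap_resMap_ne_zero O O' h.dom hne hx

/-- **Residue degree one along `α₂`** (the hypothesis delivered by the counting argument). -/
def DegOne (h : MidEmb K M0 q O K' O' s u) : Prop :=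
  ∀ y ∈ midVS h, ∃ a : ↥(gaussSubalgebra K (M0 * q) O),
    y - alphaF K (M0 * q) q (a : FF K (M0 * q)) ∈ (midVS h).nonunits

theorem exists_midEv_eq (h : MidEmb K M0 q O K' O' s u) (hdeg : DegOne h) (y : ↥(midVS h)) :
    ∃ f : LaurentSeries (ResidueField ↥O), coeffMap (resMap O O' h.dom) f = midEv h y := by
  obtain ⟨a, ha⟩ := hdeg y y.2
  refine ⟨theta K (M0 * q) O a, ?_⟩
  have h1 : midEv h (y - ⟨alphaF K (M0 * q) q (a : FF K (M0 * q)), alphaF_mem_midVS h a.2⟩) = 0 :=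
    (midEv_eq_zero_iff h _).mpr ha
  rw [map_sub, sub_eq_zero] at h1
  rw [h1, midEv_alphaF h a.2]

/-- **The place of `V11` with values in `κ((Q))`.** -/
noncomputable def midEvK (h : MidEmb K M0 q O K' O' s u) (hdeg : DegOne h) :
    ↥(midVS h) →+* LaurentSeries (ResidueField ↥O) where
  toFun y := (exists_midEv_eq h hdeg y).choose
  map_one' := coeffMap_resMap_injective h (by
    rw [(exists_midEv_eq h hdeg 1).choose_spec, map_one, map_one])
  map_zero' := coeffMap_resMap_injective h (by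
    rw [(exists_midEv_eq h hdeg 0).choose_spec, map_zero, map_zero])
  map_mul' x y := coeffMap_resMap_injective h (by
    rw [(exists_midEv_eq h hdeg (x * y)).choose_spec, map_mul, map_mul,
      (exists_midEv_eq h hdeg x).choose_spec, (exists_midEv_eq h hdeg y).choose_spec])
  map_add' x y := coeffMap_resMap_injective h (by
    rw [(exists_midEv_eq h hdeg (x + y)).choose_spec, map_add, map_add,
      (exists_midEv_eq h hdeg x).choose_spec, (exists_midEv_eq h hdeg y).choose_spec])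

/-- `ρ ∘ midEvK = midEv`. -/
theorem coeffMap_midEvK (h : MidEmb K M0 q O K' O' s u) (hdeg : DegOne h) (y : ↥(midVS h)) :
    coeffMap (resMap O O' h.dom) (midEvK h hdeg y) = midEv h y :=
  (exists_midEv_eq h hdeg y).choose_spec

/-- Characterisation: `midEvK y = f ↔ midEv y = ρ f`. -/
theorem midEvK_eq_iff (h : MidEmb K M0 q O K' O' s u) (hdeg : DegOne h) (y : ↥(midVS h))
    (f : LaurentSeries (ResidueField ↥O)) :
    midEvK h hdeg y = f ↔ midEv h y = coeffMap (resMap O O' h.dom) f := by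
  rw [← coeffMap_midEvK h hdeg y]
  exact ⟨fun e => by rw [e], fun e => coeffMap_resMap_injective h e⟩

theorem midEvK_eq_zero_iff (h : MidEmb K M0 q O K' O' s u) (hdeg : DegOne h) (y : ↥(midVS h)) :
    midEvK h hdeg y = 0 ↔ (y : FF K (M0 * q * q)) ∈ (midVS h).nonunits := by
  rw [midEvK_eq_iff, map_zero, midEv_eq_zero_iff]

/-- `ev11 ∘ α₂ = θ₁`. -/
theorem midEvK_alphaF (h : MidEmb K M0 q O K' O' s u) (hdeg : DegOne h) {x : FF K (M0 * q)}
    (hx : x ∈ gaussSubalgebra K (M0 * q) O) :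
    midEvK h hdeg ⟨alphaF K (M0 * q) q x, alphaF_mem_midVS h hx⟩ =
      theta K (M0 * q) O ⟨x, hx⟩ := by
  rw [midEvK_eq_iff, midEv_alphaF h hx]

/-- `ev11 ∘ β₂ ∘ β₁ = θ₀`. -/
theorem midEvK_betaF_betaF (h : MidEmb K M0 q O K' O' s u) (hdeg : DegOne h) {φ : FF K M0}
    (hφ : φ ∈ gaussSubalgebra K M0 O) :
    midEvK h hdeg ⟨betaF K (M0 * q) q (betaF K M0 q φ), betaF_betaF_mem_midVS h hφ⟩ =
      theta K M0 O ⟨φ, hφ⟩ := by
  rw [midEvK_eq_iff, midEv_betaF_betaF h hφ]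

/-- `ev11 ∘ α₂ ∘ α₁ = θ₀`. -/
theorem midEvK_alphaF_alphaF (h : MidEmb K M0 q O K' O' s u) (hdeg : DegOne h) {φ : FF K M0}
    (hφ : φ ∈ gaussSubalgebra K M0 O) :
    midEvK h hdeg ⟨alphaF K (M0 * q) q (alphaF K M0 q φ),
        alphaF_mem_midVS h (alphaF_mem K O M0 q hφ)⟩ = theta K M0 O ⟨φ, hφ⟩ := by
  rw [midEvK_alphaF h hdeg (alphaF_mem K O M0 q hφ)]
  exact theta_alphaF K O M0 q ⟨φ, hφ⟩

section Beta

variable [hq : Fact q.Prime] [CharP (ResidueField ↥O) q]

/-- `ev11 ∘ β₂ = ev01`. -/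
theorem midEvK_betaF (h : MidEmb K M0 q O K' O' s u) (hdeg : DegOne h) (sv : SecondVal K M0 q O)
    {y : FF K (M0 * q)} (hy : y ∈ sv.V) :
    midEvK h hdeg ⟨betaF K (M0 * q) q y, betaF_mem_midVS h sv hy⟩ = sv.ev ⟨y, hy⟩ := by
  rw [midEvK_eq_iff, midEv_betaF h sv hy]

/-- **Residue degree one along `β₂`** (a consequence of residue degree one along `α₂`). -/
theorem degOne_betaF (h : MidEmb K M0 q O K' O' s u) (hdeg : DegOne h) (sv : SecondVal K M0 q O)
    (hsurj : ∀ a : ↥(gaussSubalgebra K (M0 * q) O), ∃ b : ↥(gaussSubalgebra K M0 O),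
      theta K M0 O b = theta K (M0 * q) O a) :
    ∀ y ∈ midVS h, ∃ b : ↥sv.V,
      y - betaF K (M0 * q) q (b : FF K (M0 * q)) ∈ (midVS h).nonunits := by
  intro y hy
  obtain ⟨a, ha⟩ := hdeg y hy
  obtain ⟨b, hb⟩ := hsurj a
  refine ⟨⟨betaF K M0 q (b : FF K M0), sv.beta_mem _ b.2⟩, ?_⟩
  have h1 : midEv h (⟨y, hy⟩ - ⟨alphaF K (M0 * q) q (a : FF K (M0 * q)),
      alphaF_mem_midVS h a.2⟩) = 0 := (midEv_eq_zero_iff h _).mpr ha
  rw [map_sub, sub_eq_zero, midEv_alphaF h a.2] at h1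
  have h2 : midEv h (⟨y, hy⟩ - ⟨betaF K (M0 * q) q (betaF K M0 q (b : FF K M0)),
      betaF_betaF_mem_midVS h b.2⟩) = 0 := by
    rw [map_sub, sub_eq_zero, h1, midEv_betaF_betaF h b.2, ← hb]
  exact (midEv_eq_zero_iff h _).mp h2

end Beta

/-! ### The Wilson residue, with values in `κ((Q))` -/

/-- **The `ThreeVal.wilson` field**: `ev11 (Π_g^(q-1) / q) = -(θ ḡ)^(q-1)`, `ḡ = θ₀ g ∈ κ((Q))`. -/
theorem wilson_midK (h : MidEmb K M0 q O K' O' s u) (hdeg : DegOne h)
    (hu : IsPrimitiveRoot (u : K') q) (g : FF K M0) (hg : g ∈ gaussSubalgebra K M0 O) :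
    ∃ hw : (betaF K (M0 * q) q (betaF K M0 q g) - alphaF K (M0 * q) q (alphaF K M0 q g)) ^ (q - 1) *
        ((q : ℕ) : FF K (M0 * q * q))⁻¹ ∈ midVS h,
      midEvK h hdeg ⟨_, hw⟩ = -(thetaL (theta K M0 O ⟨g, hg⟩)) ^ (q - 1) := by
  obtain ⟨hw, hred⟩ := wilson_mid h hu g hg
  refine ⟨hw, ?_⟩
  rw [midEvK_eq_iff, hred, map_neg, map_pow, coeffMap_thetaL]

/-- Unit version (cusps). -/
theorem wilson_midK_unit (h : MidEmb K M0 q O K' O' s u) (hdeg : DegOne h)
    (hu : IsPrimitiveRoot (u : K') q) (g : FF K M0) (hg : g ∈ gaussSubalgebra K M0 O)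
    (hg0 : theta K M0 O ⟨g, hg⟩ ≠ 0) :
    ∃ hw : (1 - alphaF K (M0 * q) q (alphaF K M0 q g) /
        betaF K (M0 * q) q (betaF K M0 q g)) ^ (q - 1) *
        ((q : ℕ) : FF K (M0 * q * q))⁻¹ ∈ midVS h,
      midEvK h hdeg ⟨_, hw⟩ * theta K M0 O ⟨g, hg⟩ ^ (q - 1) =
        -(thetaL (theta K M0 O ⟨g, hg⟩)) ^ (q - 1) := by
  obtain ⟨hw, hred⟩ := wilson_mid_unit h hu g hg hg0
  refine ⟨hw, ?_⟩
  apply coeffMap_resMap_injective h
  rw [map_mul, coeffMap_midEvK, map_pow, hred, map_neg, map_pow, coeffMap_thetaL]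

/-- The case `g = j`. -/
theorem wilson_midK_j (h : MidEmb K M0 q O K' O' s u) (hdeg : DegOne h)
    (hu : IsPrimitiveRoot (u : K') q) :
    ∃ hw : PiElt K M0 q ^ (q - 1) * ((q : ℕ) : FF K (M0 * q * q))⁻¹ ∈ midVS h,
      midEvK h hdeg ⟨_, hw⟩ = -(thetaL (jqModC (ResidueField ↥O))) ^ (q - 1) := by
  obtain ⟨hw, hred⟩ := wilson_midK h hdeg hu (jF K M0) (jF_mem_gaussSubalgebra K M0 O)
  refine ⟨hw, ?_⟩
  exact hred.trans (by rw [theta_jF])

/-- The Wilson unit `w = q / Π^(q-1)`: `ev11 w · (θ j̄)^(q-1) = −1`. -/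
theorem midEvK_wilsonElt (h : MidEmb K M0 q O K' O' s u) (hdeg : DegOne h) :
    midEvK h hdeg ⟨wilsonElt K M0 q, wilsonElt_mem_midVS h⟩ *
      thetaL (jqModC (ResidueField ↥O)) ^ (q - 1) = -1 := by
  apply coeffMap_resMap_injective h
  rw [map_mul, coeffMap_midEvK, map_pow, coeffMap_thetaL, coeffMap_jqModC, map_neg, map_one]
  exact midEv_wilsonElt h

end Fermat.Agent.S36.V.MidPlace
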