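/-
S36 / block [V], part (V-σ), analytic half (helper24): **the `q`-expansion of `Γ₀(M)`-modular
functions at the cusp `1/(q M₀)` of `Γ₀(M)`, `M = M₀ q²`**, as a `ℂ`-algebra homomorphism
`sigC : FC M →ₐ[ℂ] ℂ((Q))`.

`σ = [[1,0],[q M₀,1]] ∈ Γ₀(q M₀)`; the cusp `σ ∞ = 1/(q M₀)` of `Γ₀(M₀ q²)` has width one
(`T ∈ σ⁻¹ Γ₀(M) σ`), so `f ∘ σ` is `1`-periodic for `f ∈ WH (Γ₀(M))` and has a `q`-expansion
(helper12's `N4/QExpTranslate.qexpPM`).  Values on the generators (`b M₀ ≡ 1 mod q`):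
* `sigC (j(Q^d)) = j(Q^d)` for `d ∣ M₀ q`;
* `sigC (j(Q^{q² d₀})) = j(ζ^{b d₀} Q^{d₀})` for `d₀ ∣ M₀`, `ζ = e^{2πi/q}`.
-/
import Mathlib
import Fermat.Agent.N4.HeckeRoots
import Fermat.Agent.S16.Bridge.AtkinLehnerFF

set_option autoImplicit false
set_option linter.unusedSectionVars false
set_option linter.style.haveILetI false

namespace Fermat.Agent.S36.V.SigmaMidC

open UpperHalfPlane ModularForm MatrixGroups CongruenceSubgroup Filter Function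
open Fermat.Agent.M2 Fermat.Agent.M2.CuspVal Fermat.Agent.S24.QExpHom ModularCurve
open Fermat.Agent.N4.TwistSeries Fermat.Agent.N4.QExpTranslate Fermat.Agent.N4.HeckeRoots
open Fermat.Agent.S24.FieldIso Fermat.Agent.S16.Bridge
open scoped Manifold Topology

/-! ### Composition of weakly holomorphic functions with an element of `SL(2,ℤ)` -/

/-- The conjugate subgroup `σ⁻¹ Γ σ`. -/
def conjSubgroup (Γ : Subgroup SL(2, ℤ)) (σ : SL(2, ℤ)) : Subgroup SL(2, ℤ) :=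
  Γ.comap (MulAut.conj σ).toMonoidHom

theorem mem_conjSubgroup {Γ : Subgroup SL(2, ℤ)} {σ γ : SL(2, ℤ)} :
    γ ∈ conjSubgroup Γ σ ↔ σ * γ * σ⁻¹ ∈ Γ := Iff.rfl

theorem isWH_comp_smul {Γ : Subgroup SL(2, ℤ)} {f : ℍ → ℂ} (hf : IsWH Γ f) (σ : SL(2, ℤ)) :
    IsWH (conjSubgroup Γ σ) (fun z => f (σ • z)) := by
  refine ⟨mdiff_comp_smul hf.1 σ, fun γ hγ z => ?_, fun δ => ?_⟩
  · have h1 : σ • γ • z = (σ * γ * σ⁻¹) • σ • z := by
      rw [← mul_smul, ← mul_smul]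
      congr 1
      group
    show f (σ • γ • z) = f (σ • z)
    rw [h1]
    exact hf.2.1 _ (mem_conjSubgroup.mp hγ) _
  · obtain ⟨m, hm⟩ := hf.2.2 (σ * δ)
    refine ⟨m, ?_⟩
    simpa only [mul_smul] using hm

/-! ### The matrix `σ` -/

/-- `σ_c = [[1,0],[c,1]]`. -/
def sig (c : ℤ) : SL(2, ℤ) := ⟨!![1, 0; c, 1], by simp [Matrix.det_fin_two]⟩

theorem sig_apply_one_zero (c : ℤ) : (sig c) 1 0 = c := rfl

theorem Gamma0_mem_iff_dvd {M : ℕ} {g : SL(2, ℤ)} : g ∈ Gamma0 M ↔ (M : ℤ) ∣ g 1 0 := by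
  rw [Gamma0_mem, ZMod.intCast_zmod_eq_zero_iff_dvd]

theorem sig_mem_Gamma0 {M : ℕ} {c : ℤ} (h : (M : ℤ) ∣ c) : sig c ∈ Gamma0 M :=
  Gamma0_mem_iff_dvd.mpr h

theorem conj_T_apply_one_zero (c : ℤ) :
    ((sig c * ModularGroup.T * (sig c)⁻¹ : SL(2, ℤ)) 1 0 : ℤ) = -(c * c) := by
  have h : ((sig c * ModularGroup.T * (sig c)⁻¹ : SL(2, ℤ)) : Matrix (Fin 2) (Fin 2) ℤ) =
      !![1 - c, 1; -(c * c), 1 + c] := by
    rw [Matrix.SpecialLinearGroup.coe_mul, Matrix.SpecialLinearGroup.coe_mul,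
      Matrix.SpecialLinearGroup.coe_inv, ModularGroup.coe_T]
    show (!![1, 0; c, 1] * !![1, 1; 0, 1] * (!![1, 0; c, 1] : Matrix (Fin 2) (Fin 2) ℤ).adjugate) = _
    rw [Matrix.adjugate_fin_two_of]
    ext i j
    fin_cases i <;> fin_cases j <;> simp [Matrix.mul_apply, Fin.sum_univ_two] <;> ring
  have := congrFun (congrFun h 1) 0
  simpa using this

theorem T_mem_conjSubgroup {M : ℕ} {c : ℤ} (h : (M : ℤ) ∣ c * c) :
    ModularGroup.T ∈ conjSubgroup (Gamma0 M) (sig c) := by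
  rw [mem_conjSubgroup, Gamma0_mem_iff_dvd, conj_T_apply_one_zero]
  exact (dvd_neg).mpr h

/-! ### The expansion homomorphism -/

section Hom

variable (M : ℕ) [NeZero M] (c : ℤ) (hc : (M : ℤ) ∣ c * c)

theorem T_pow_one_mem {M : ℕ} {c : ℤ} (hc : (M : ℤ) ∣ c * c) :
    ModularGroup.T ^ 1 ∈ conjSubgroup (Gamma0 M) (sig c) := by
  rw [pow_one]
  exact T_mem_conjSubgroup hc

/-- `f ↦ f ∘ σ_c`, from `WH (Γ₀(M))` to the periodic meromorphic functions. -/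
noncomputable def compSig : WH (Gamma0 M) →ₐ[ℂ] PM where
  toFun f := ⟨fun z => (f : ℍ → ℂ) (sig c • z),
    IsPerMero.of_isWH (N := 1) (T_pow_one_mem hc) (isWH_comp_smul f.2 (sig c))⟩
  map_one' := rfl
  map_mul' _ _ := rfl
  map_zero' := rfl
  map_add' _ _ := rfl
  commutes' _ := rfl

theorem compSig_apply (f : WH (Gamma0 M)) (z : ℍ) :
    ((compSig M c hc f : PM) : ℍ → ℂ) z = (f : ℍ → ℂ) (sig c • z) := rfl

theorem compSig_injective : Function.Injective (compSig M c hc) := by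
  rw [injective_iff_map_eq_zero]
  intro f hf
  apply Subtype.ext
  funext z
  have h := congrFun (congrArg Subtype.val hf) ((sig c)⁻¹ • z)
  rw [compSig_apply, smul_inv_smul] at h
  exact h

/-- The `q`-expansion at the cusp `σ_c ∞` on `WH (Γ₀(M))`. -/
noncomputable def sigWH : WH (Gamma0 M) →ₐ[ℂ] LaurentSeries ℂ :=
  qexpPM.comp (compSig M c hc)

theorem sigWH_apply (f : WH (Gamma0 M)) :
    sigWH M c hc f = qexpFun (fun z => (f : ℍ → ℂ) (sig c • z)) := rfl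

theorem sigWH_injective : Function.Injective (sigWH M c hc) :=
  qexpPM_injective.comp (compSig_injective M c hc)

/-- The `q`-expansion at the cusp `σ_c ∞` on the field of modular functions. -/
noncomputable def sigField : WHField (Gamma0 M) →ₐ[ℂ] LaurentSeries ℂ :=
  qexpK M (sigWH M c hc) (sigWH_injective M c hc)

theorem sigField_algebraMap (f : WH (Gamma0 M)) :
    sigField M c hc (algebraMap (WH (Gamma0 M)) (WHField (Gamma0 M)) f) = sigWH M c hc f :=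
  qexpK_algebraMap M _ _ f

/-- **The `q`-expansion at the cusp `σ_c ∞` on `FC M = ℂ(j(Q^d) : d ∣ M)`.** -/
noncomputable def sigC : ↥(FC M) →ₐ[ℂ] LaurentSeries ℂ :=
  (sigField M c hc).comp (fieldEquiv M).symm.toAlgHom

theorem sigC_fieldEquiv (x : WHField (Gamma0 M)) :
    sigC M c hc (fieldEquiv M x) = sigField M c hc x := by
  simp [sigC]

theorem sigC_jdC {d : ℕ} [NeZero d] (hd : d ∣ M) :
    sigC M c hc (jdC M hd) = qexpFun (fun z => JN.jN d (sig c • z)) := by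
  rw [← fieldEquiv_jdWH, sigC_fieldEquiv, sigField_algebraMap, sigWH_apply]
  rfl

end Hom

/-! ### Values on the generators -/

section Values

lemma coe_SL_smul (g : SL(2, ℤ)) (z : ℍ) :
    ((g • z : ℍ) : ℂ) = ((g 0 0 : ℂ) * z + g 0 1) / ((g 1 0 : ℂ) * z + g 1 1) := by
  rw [coe_specialLinearGroup_apply]
  simp

lemma SL_denom_ne_zero (g : SL(2, ℤ)) (z : ℍ) : (g 1 0 : ℂ) * z + g 1 1 ≠ 0 := by
  have := denom_ne_zero (g : GL (Fin 2) ℝ) z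
  simpa [denom] using this

/-- `j(d ·)` is invariant under `σ_c` when `d ∣ c`. -/
theorem jN_sig_of_dvd (d : ℕ) [NeZero d] (c : ℤ) (h : (d : ℤ) ∣ c) (z : ℍ) :
    JN.jN d (sig c • z) = JN.jN d z :=
  (JN.jN_mem_WH d).2.1 _ (sig_mem_Gamma0 h) z

variable (M : ℕ) [NeZero M] (c : ℤ) (hc : (M : ℤ) ∣ c * c)

/-- **`sigC (j(Q^d)) = j(Q^d)`** for `d ∣ c`. -/
theorem sigC_jdC_of_dvd {d : ℕ} [NeZero d] (hd : d ∣ M) (h : (d : ℤ) ∣ c) :
    sigC M c hc (jdC M hd) = qExpand ℂ d (jqModC ℂ) := by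
  rw [sigC_jdC]
  have e : (fun z => JN.jN d (sig c • z)) = JN.jN d := funext fun z => jN_sig_of_dvd d c h z
  rw [e, qexpFun_jN, qexpFun_jInv_eq]

/-- The matrix `γ'' = [[q, -B],[c₀, t]]`, `q t + B c₀ = 1`. -/
def gam (q c₀ B t : ℤ) (h : q * t + B * c₀ = 1) : SL(2, ℤ) :=
  ⟨!![q, -B; c₀, t], by rw [Matrix.det_fin_two_of]; linarith⟩

/-- The key identity: `q² d₀ · σ_c z = γ'' • (d₀ z + B/q)` for `c = q d₀ c₀`, `q t + B c₀ = 1`. -/
theorem scaleH_sig_eq (q d₀ : ℕ) [NeZero q] [NeZero d₀] (c₀ B t : ℤ) (h : (q : ℤ) * t + B * c₀ = 1)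
    (z : ℍ) :
    JN.scaleH (q * q * d₀) (sig ((q : ℤ) * d₀ * c₀) • z) =
      gam q c₀ B t h • (((B : ℝ) / q) +ᵥ JN.scaleH d₀ z) := by
  apply UpperHalfPlane.ext
  rw [JN.coe_scaleH, coe_SL_smul, coe_SL_smul, UpperHalfPlane.coe_vadd, JN.coe_scaleH]
  have hq : (q : ℂ) ≠ 0 := Nat.cast_ne_zero.mpr (NeZero.ne q)
  have h1 := SL_denom_ne_zero (sig ((q : ℤ) * d₀ * c₀)) z
  have h2 := SL_denom_ne_zero (gam q c₀ B t h) (((B : ℝ) / q) +ᵥ JN.scaleH d₀ z)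
  rw [UpperHalfPlane.coe_vadd, JN.coe_scaleH] at h2
  have hC : ((q : ℂ) * t + B * c₀ : ℂ) = 1 := by exact_mod_cast h
  simp only [sig, gam, Matrix.SpecialLinearGroup.coe_mk, Matrix.of_apply, Matrix.cons_val',
    Matrix.cons_val_zero, Matrix.cons_val_one, Matrix.empty_val', Matrix.cons_val_fin_one,
    Int.cast_one, Int.cast_zero, Int.cast_mul, Int.cast_natCast, Int.cast_neg,
    Nat.cast_mul] at h1 h2 ⊢
  push_cast at h1 h2 ⊢
  rw [← mul_div_assoc, div_eq_div_iff h1 h2]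
  field_simp
  linear_combination ((q : ℂ) * d₀ * z) * hC

theorem jN_sig_eq (q d₀ : ℕ) [NeZero q] [NeZero d₀] [NeZero (q * q * d₀)] (c₀ B t : ℤ)
    (h : (q : ℤ) * t + B * c₀ = 1) (z : ℍ) :
    JN.jN (q * q * d₀) (sig ((q : ℤ) * d₀ * c₀) • z) = scl d₀ (trl ((B : ℝ) / q) jInv) z := by
  rw [JN.jN, scaleH_sig_eq q d₀ c₀ B t h, jInv_smul, scl_apply, trl_apply]

/-- **`sigC (j(Q^{q² d₀})) = j(e^{2πi B/q} Q^{d₀})`** for `c = q d₀ c₀`, `B c₀ ≡ 1 mod q`. -/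
theorem sigC_jdC_sq (q d₀ : ℕ) [NeZero q] [NeZero d₀] [NeZero (q * q * d₀)] (c₀ B t : ℤ)
    (h : (q : ℤ) * t + B * c₀ = 1) (hd : q * q * d₀ ∣ M)
    (hc : (M : ℤ) ∣ ((q : ℤ) * d₀ * c₀) * ((q : ℤ) * d₀ * c₀)) :
    sigC M ((q : ℤ) * d₀ * c₀) hc (jdC M hd) = rootSeries (expUnit ((B : ℝ) / q)) d₀ := by
  rw [sigC_jdC]
  have e : (fun z => JN.jN (q * q * d₀) (sig ((q : ℤ) * d₀ * c₀) • z)) =
      scl d₀ (trl ((B : ℝ) / q) jInv) := funext fun z => jN_sig_eq q d₀ c₀ B t h z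
  rw [e]
  exact qexpFun_scl_trl_jInv d₀ B q (NeZero.pos q)

end Values

end Fermat.Agent.S36.V.SigmaMidC
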