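/-
S36 / block [V], part (V-σ), descent (helper24): **the middle embedding**
`sigma11 : FF K (M₀ q q) →+* K'((Q))` (the `q`-expansion at the cusp `1/(q M₀)` of `Γ₀(M₀ q²)`,
which has width one), for a base field `K ⊆ ℂ` and an extension `K' ⊇ K` containing
`ζ = e^{2πi/q}`.

With `b M₀ ≡ 1 mod q` (precisely `q t + b M₀ = 1`):
* `sigma11 (j(Q^d)) = j(Q^d)` for `d ∣ M₀ q`, i.e. `sigma11 ∘ α₂ = (base change K → K')` on
  `FF K (M₀ q)`;
* `sigma11 (j(Q^{q² d₀})) = j(ζ^{b d₀} Q^{d₀})`, i.e. `sigma11 (β₂ (β₁ φ)) = φ(ζ^b Q)` for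
  `φ ∈ FF K M₀`.
-/
import Mathlib
import Fermat.Agent.S36.V.SigmaMidC
import Fermat.Agent.S36.V.FrickeK

set_option autoImplicit false
set_option linter.unusedSectionVars false
set_option linter.style.haveILetI false

namespace Fermat.Agent.S36.V.SigmaMid

open ModularCurve Fermat.Agent.N4.Setting Fermat.Agent.S24.FieldIso Fermat.Agent.S16.Bridge
open Fermat.Agent.N4F.E.DegreeLevelRaise Fermat.Agent.N4.TwistSeries
open Fermat.Agent.N4.QExpTranslate Fermat.Agent.S36.V.FrickeK Fermat.Agent.S36.V.SigmaMidC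

local notation "𝕢" => Function.Periodic.qParam

/-! ### Formal preliminaries -/

section Formal

variable {R : Type*} [CommRing R]

/-- `twist v (f(Q^e)) = (twist (v^e) f)(Q^e)`. -/
theorem twist_qExpand (v : Rˣ) (e : ℕ) [NeZero e] (f : LaurentSeries R) :
    twist v (qExpand R e f) = qExpand R e (twist (v ^ e) f) := by
  ext n
  by_cases hn : (e : ℤ) ∣ n
  · obtain ⟨k, rfl⟩ := hn
    rw [twist_coeff, qExpand_coeff_mul, qExpand_coeff_mul, twist_coeff, ← zpow_natCast v e,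
      ← zpow_mul]
  · rw [twist_coeff, qExpand_coeff_of_not_dvd e _ hn, qExpand_coeff_of_not_dvd e _ hn, mul_zero]

theorem twist_C (v : Rˣ) (a : R) : twist v (HahnSeries.C a) = HahnSeries.C a := by
  ext n
  rw [twist_coeff, HahnSeries.C_apply]
  by_cases h : n = 0
  · subst h
    simp
  · rw [HahnSeries.coeff_single_of_ne h, mul_zero]

theorem twist_rootSeries_one (v : Rˣ) (e : ℕ) [NeZero e] :
    twist v (qExpand R e (jqModC R)) = rootSeries (v ^ e) e := by
  rw [twist_qExpand, rootSeries]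

end Formal

/-- `e^{2πi B/q} = (e^{2πi/q})^B`. -/
theorem expUnit_div (B : ℤ) (q : ℕ) [NeZero q] :
    expUnit ((B : ℝ) / q) = expUnit ((1 : ℝ) / q) ^ B := by
  apply Units.ext
  rw [Units.val_zpow_eq_zpow_val, coe_expUnit, coe_expUnit]
  simp only [Function.Periodic.qParam]
  rw [← Complex.exp_int_mul]
  congr 1
  push_cast
  ring

theorem dvd_cases {M0 q d : ℕ} (hq : q.Prime) (hd : d ∣ M0 * q * q) :
    d ∣ M0 * q ∨ ∃ d0, d0 ∣ M0 ∧ d = q * q * d0 := by
  rw [mul_assoc] at hd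
  obtain ⟨d1, d2, h1, h2, rfl⟩ := (Nat.dvd_mul).mp hd
  rw [← pow_two] at h2
  obtain ⟨i, hi, rfl⟩ := (Nat.dvd_prime_pow hq).mp h2
  interval_cases i
  · left
    rw [pow_zero, mul_one]
    exact h1.trans (dvd_mul_right _ _)
  · left
    rw [pow_one]
    exact mul_dvd_mul_right h1 q
  · right
    exact ⟨d1, h1, by ring⟩

/-! ### The descent -/

section Descent

variable (K : Type) [Field K] [CharZero K] (ι : K →+* ℂ)
  (K' : Type) [Field K'] [Algebra K K'] (ι' : K' →+* ℂ) (hι : ι'.comp (algebraMap K K') = ι)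
  (M0 q : ℕ) [NeZero M0] [hq : Fact q.Prime]
  (ζ : K'ˣ) (hζ : Units.map ι'.toMonoidHom ζ = expUnit ((1 : ℝ) / q))
  (b t : ℤ) (hb : (q : ℤ) * t + b * M0 = 1)

instance neZero_q : NeZero q := ⟨hq.out.ne_zero⟩

/-- The constant `c = q M₀`. -/
abbrev cc : ℤ := (q : ℤ) * M0

theorem hcc : ((M0 * q * q : ℕ) : ℤ) ∣ cc M0 q * cc M0 q := by
  refine ⟨(M0 : ℤ), ?_⟩
  push_cast
  ring

/-- The expansion at the cusp `1/(q M₀)` on `FC (M₀ q²)`. -/
noncomputable abbrev sigCM : ↥(FC (M0 * q * q)) →ₐ[ℂ] LaurentSeries ℂ :=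
  sigC (M0 * q * q) (cc M0 q) (hcc M0 q)

theorem sigCM_jdC_of_dvd {d : ℕ} [NeZero d] (hd : d ∣ M0 * q * q) (h : d ∣ M0 * q) :
    sigCM M0 q (jdC (M0 * q * q) hd) = qExpand ℂ d (jqModC ℂ) := by
  apply sigC_jdC_of_dvd
  obtain ⟨e, he⟩ := h
  refine ⟨(e : ℤ), ?_⟩
  show (q : ℤ) * M0 = d * e
  have : ((M0 * q : ℕ) : ℤ) = ((d * e : ℕ) : ℤ) := by rw [he]
  push_cast at this
  linarith

include hb in
theorem sigCM_jdC_sq {d0 : ℕ} [NeZero d0] [NeZero (q * q * d0)] (hd0 : d0 ∣ M0)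
    (hd : q * q * d0 ∣ M0 * q * q) :
    sigCM M0 q (jdC (M0 * q * q) hd) = rootSeries (expUnit ((1 : ℝ) / q) ^ (b * d0)) d0 := by
  obtain ⟨c0, hc0⟩ := hd0
  have h1 : (q : ℤ) * t + (b * d0) * (c0 : ℤ) = 1 := by
    rw [← hb, hc0]
    push_cast
    ring
  have hc' : cc M0 q = (q : ℤ) * d0 * (c0 : ℤ) := by
    show (q : ℤ) * M0 = _
    rw [hc0]
    push_cast
    ring
  have key : ∀ (c : ℤ) (hc : ((M0 * q * q : ℕ) : ℤ) ∣ c * c), c = (q : ℤ) * d0 * (c0 : ℤ) →
      sigC (M0 * q * q) c hc (jdC (M0 * q * q) hd) =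
        rootSeries (expUnit (((b * d0 : ℤ) : ℝ) / q)) d0 := by
    intro c hc hceq
    subst hceq
    exact sigC_jdC_sq (M0 * q * q) q d0 (c0 : ℤ) (b * d0) t h1 hd hc
  rw [← expUnit_div]
  exact key _ _ hc'

include hb in
theorem not_dvd_M0 : ¬ q ∣ M0 := by
  intro h
  have h1 : (q : ℤ) ∣ 1 := by
    rw [← hb]
    exact dvd_add (dvd_mul_right _ _) (dvd_mul_of_dvd_right (Int.natCast_dvd_natCast.mpr h) _)
  have h2 : q ∣ 1 := by exact_mod_cast h1
  exact hq.out.one_lt.ne' (Nat.dvd_one.mp h2)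

include hb in
theorem not_both {d0 : ℕ} (h : q * q * d0 ∣ M0 * q) : False := by
  apply not_dvd_M0 M0 q b t hb
  have hq0 : 0 < q := hq.out.pos
  have h1 : q * (q * d0) ∣ q * M0 := by
    rw [← mul_assoc, mul_comm q M0]
    exact h
  have h2 := Nat.dvd_of_mul_dvd_mul_left hq0 h1
  exact (dvd_mul_right q d0).trans h2

include hζ in
theorem coeffMap_rootSeries_zeta (n : ℤ) (e : ℕ) [NeZero e] :
    coeffMap ι' (rootSeries (ζ ^ n) e) = rootSeries (expUnit ((1 : ℝ) / q) ^ n) e := by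
  rw [coeffMap_rootSeries, map_zpow, hζ]

include hζ hb in
/-- The target value of `sigma11` on the generator `j(Q^d)`. -/
theorem exists_value {d : ℕ} [NeZero d] (hd : d ∣ M0 * q * q) :
    ∃ y : LaurentSeries K', coeffMap ι' y = sigCM M0 q (jdC (M0 * q * q) hd) ∧
      ((d ∣ M0 * q → y = qExpand K' d (jqModC K')) ∧
        ∀ (d0 : ℕ) [NeZero d0], d0 ∣ M0 → d = q * q * d0 → y = rootSeries (ζ ^ (b * d0)) d0) := by
  rcases dvd_cases hq.out hd with h | ⟨d0, hd0, rfl⟩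
  · refine ⟨qExpand K' d (jqModC K'), ?_, fun _ => rfl, ?_⟩
    · rw [sigCM_jdC_of_dvd M0 q hd h, coeffMap_qExpand, coeffMap_jqModC]
    · intro d0 _ _ hdd
      subst hdd
      exact (not_both M0 q b t hb h).elim
  · haveI : NeZero d0 := ⟨fun h0 => NeZero.ne (q * q * d0) (by rw [h0, mul_zero])⟩
    refine ⟨rootSeries (ζ ^ (b * d0)) d0, ?_, ?_, ?_⟩
    · rw [sigCM_jdC_sq M0 q b t hb hd0 hd, coeffMap_rootSeries_zeta K' ι' q ζ hζ]
    · intro h
      exact (not_both M0 q b t hb h).elim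
    · intro d0' _ _ hdd
      have hqq : 0 < q * q := Nat.mul_pos hq.out.pos hq.out.pos
      have : d0 = d0' := Nat.eq_of_mul_eq_mul_left hqq hdd
      subst this
      rfl

theorem coeffMap_iota'_injective : Function.Injective (coeffMap ι') :=
  Fermat.Agent.N4.ModPolyDescent.coeffMap_injective ι' ι'.injective

include hι in
theorem coeffMap_iota'_C (a : K) :
    coeffMap ι' (HahnSeries.C (algebraMap K K' a)) = HahnSeries.C (ι a) := by
  rw [HahnSeries.C_apply, coeffMap_single, HahnSeries.C_apply]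
  congr 1
  exact congrArg (fun f : K →+* ℂ => f a) hι

include hι hζ hb in
/-- **The image of `FF K (M₀ q²)` under the expansion at the middle cusp is defined over `K'`.** -/
theorem exists_preimage (x : FF K (M0 * q * q)) :
    ∃ y : LaurentSeries K', coeffMap ι' y = sigCM M0 q (toFCK K ι (M0 * q * q) x) := by
  obtain ⟨x, hx⟩ := x
  induction hx using IntermediateField.adjoin_induction with
  | mem y hy =>
    obtain ⟨d, hd0, hd, rfl⟩ := hy
    haveI := hd0
    have e : (⟨qExpand K d (jqModC K), IntermediateField.subset_adjoin _ _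
        (mem_divisorExpansionsC K (M0 * q * q) hd)⟩ : FF K (M0 * q * q)) =
          jdF K (M0 * q * q) hd := rfl
    rw [e, toFCK_jdF]
    obtain ⟨y, hy, -⟩ := exists_value K' ι' M0 q ζ hζ b t hb hd
    exact ⟨y, hy⟩
  | algebraMap c =>
    refine ⟨HahnSeries.C (algebraMap K K' c), ?_⟩
    have h : (⟨algebraMap K (LaurentSeries K) c, IntermediateField.algebraMap_mem _ c⟩ :
        FF K (M0 * q * q)) = algebraMap K (FF K (M0 * q * q)) c := rfl
    rw [h, toFCK_algebraMap, AlgHom.commutes, coeffMap_iota'_C K ι K' ι' hι,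
      algebraMap_laurentSeries_eq_single, HahnSeries.C_apply]
  | add y z hy hz ihy ihz =>
    have e : (⟨y + z, add_mem hy hz⟩ : FF K (M0 * q * q)) = ⟨y, hy⟩ + ⟨z, hz⟩ := rfl
    obtain ⟨u, hu⟩ := ihy
    obtain ⟨v, hv⟩ := ihz
    exact ⟨u + v, by rw [e, map_add, map_add, map_add, hu, hv]⟩
  | inv y hy ihy =>
    have e : (⟨y⁻¹, inv_mem hy⟩ : FF K (M0 * q * q)) = (⟨y, hy⟩ : FF K (M0 * q * q))⁻¹ := rfl
    obtain ⟨u, hu⟩ := ihy
    exact ⟨u⁻¹, by rw [e, map_inv₀, map_inv₀, map_inv₀, hu]⟩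
  | mul y z hy hz ihy ihz =>
    have e : (⟨y * z, mul_mem hy hz⟩ : FF K (M0 * q * q)) = ⟨y, hy⟩ * ⟨z, hz⟩ := rfl
    obtain ⟨u, hu⟩ := ihy
    obtain ⟨v, hv⟩ := ihz
    exact ⟨u * v, by rw [e, map_mul, map_mul, map_mul, hu, hv]⟩

/-- **The middle embedding** `FF K (M₀ q²) → K'((Q))`, as a function. -/
noncomputable def sigma11Fun (x : FF K (M0 * q * q)) : LaurentSeries K' :=
  Classical.choose (exists_preimage K ι K' ι' hι M0 q ζ hζ b t hb x)

theorem coeffMap_sigma11Fun (x : FF K (M0 * q * q)) :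
    coeffMap ι' (sigma11Fun K ι K' ι' hι M0 q ζ hζ b t hb x) =
      sigCM M0 q (toFCK K ι (M0 * q * q) x) :=
  Classical.choose_spec (exists_preimage K ι K' ι' hι M0 q ζ hζ b t hb x)

/-- **The middle embedding** `sigma11 : FF K (M₀ q²) →+* K'((Q))`: the `q`-expansion at the cusp
`1/(q M₀)` of `Γ₀(M₀ q²)`. -/
noncomputable def sigma11 : FF K (M0 * q * q) →+* LaurentSeries K' where
  toFun := sigma11Fun K ι K' ι' hι M0 q ζ hζ b t hb
  map_one' := by
    apply coeffMap_iota'_injective K' ι'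
    rw [coeffMap_sigma11Fun, map_one, map_one, map_one]
  map_mul' x y := by
    apply coeffMap_iota'_injective K' ι'
    rw [coeffMap_sigma11Fun, map_mul, map_mul, map_mul, coeffMap_sigma11Fun, coeffMap_sigma11Fun]
  map_zero' := by
    apply coeffMap_iota'_injective K' ι'
    rw [coeffMap_sigma11Fun, map_zero, map_zero, map_zero]
  map_add' x y := by
    apply coeffMap_iota'_injective K' ι'
    rw [coeffMap_sigma11Fun, map_add, map_add, map_add, coeffMap_sigma11Fun, coeffMap_sigma11Fun]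

/-- The defining property: `ι' ∘ sigma11 = sigC ∘ ι`. -/
theorem coeffMap_sigma11 (x : FF K (M0 * q * q)) :
    coeffMap ι' (sigma11 K ι K' ι' hι M0 q ζ hζ b t hb x) =
      sigCM M0 q (toFCK K ι (M0 * q * q) x) :=
  coeffMap_sigma11Fun K ι K' ι' hι M0 q ζ hζ b t hb x

theorem sigma11_injective : Function.Injective (sigma11 K ι K' ι' hι M0 q ζ hζ b t hb) :=
  (sigma11 K ι K' ι' hι M0 q ζ hζ b t hb).injective

/-- `sigma11` on constants. -/
theorem sigma11_algebraMap (a : K) :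
    sigma11 K ι K' ι' hι M0 q ζ hζ b t hb (algebraMap K (FF K (M0 * q * q)) a) =
      HahnSeries.C (algebraMap K K' a) := by
  apply coeffMap_iota'_injective K' ι'
  rw [coeffMap_sigma11, toFCK_algebraMap, AlgHom.commutes, coeffMap_iota'_C K ι K' ι' hι,
    algebraMap_laurentSeries_eq_single, HahnSeries.C_apply]

/-- **`sigma11 (j(Q^d)) = j(Q^d)`** for `d ∣ M₀ q`. -/
theorem sigma11_jdF_of_dvd {d : ℕ} [NeZero d] (hd : d ∣ M0 * q * q) (h : d ∣ M0 * q) :
    sigma11 K ι K' ι' hι M0 q ζ hζ b t hb (jdF K (M0 * q * q) hd) = qExpand K' d (jqModC K') := by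
  apply coeffMap_iota'_injective K' ι'
  rw [coeffMap_sigma11, toFCK_jdF]
  obtain ⟨y, hy, h1, -⟩ := exists_value K' ι' M0 q ζ hζ b t hb hd
  rw [← hy, h1 h]

/-- **`sigma11 (j(Q^{q² d₀})) = j(ζ^{b d₀} Q^{d₀})`** for `d₀ ∣ M₀`. -/
theorem sigma11_jdF_sq {d0 : ℕ} [NeZero d0] [NeZero (q * q * d0)] (hd0 : d0 ∣ M0)
    (hd : q * q * d0 ∣ M0 * q * q) :
    sigma11 K ι K' ι' hι M0 q ζ hζ b t hb (jdF K (M0 * q * q) hd) =
      rootSeries (ζ ^ (b * d0)) d0 := by
  apply coeffMap_iota'_injective K' ι'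
  rw [coeffMap_sigma11, toFCK_jdF]
  obtain ⟨y, hy, -, h2⟩ := exists_value K' ι' M0 q ζ hζ b t hb hd
  rw [← hy, h2 d0 hd0 rfl]

/-- **`sigma11 ∘ α₂` is the base change `K → K'`** on `FF K (M₀ q)`. -/
theorem sigma11_alphaF (x : FF K (M0 * q)) :
    sigma11 K ι K' ι' hι M0 q ζ hζ b t hb (alphaF K (M0 * q) q x) =
      coeffMap (algebraMap K K') (x : LaurentSeries K) := by
  have h : (sigma11 K ι K' ι' hι M0 q ζ hζ b t hb).comp (alphaF K (M0 * q) q).toRingHom =
      (coeffMap (algebraMap K K')).comp (algebraMap (FF K (M0 * q)) (LaurentSeries K)) := by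
    apply ringHom_ext_jdF K (M0 * q)
    · intro a
      show sigma11 K ι K' ι' hι M0 q ζ hζ b t hb (alphaF K (M0 * q) q (algebraMap K _ a)) =
        coeffMap (algebraMap K K') (algebraMap K (LaurentSeries K) a)
      rw [AlgHom.commutes, sigma11_algebraMap, algebraMap_laurentSeries_eq_single,
        coeffMap_single, HahnSeries.C_apply]
    · intro d _ hd
      show sigma11 K ι K' ι' hι M0 q ζ hζ b t hb (alphaF K (M0 * q) q (jdF K (M0 * q) hd)) =
        coeffMap (algebraMap K K') (jdF K (M0 * q) hd : LaurentSeries K)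
      rw [alphaF_jdF, sigma11_jdF_of_dvd K ι K' ι' hι M0 q ζ hζ b t hb _ hd, coe_jdF,
        coeffMap_qExpand, coeffMap_jqModC]
  exact congrArg (fun f : FF K (M0 * q) →+* LaurentSeries K' => f x) h

/-- **`sigma11 (β₂ (β₁ φ)) = φ(ζ^b Q)`** for `φ ∈ FF K M₀`. -/
theorem sigma11_betaF_betaF (x : FF K M0) :
    sigma11 K ι K' ι' hι M0 q ζ hζ b t hb (betaF K (M0 * q) q (betaF K M0 q x)) =
      twist (ζ ^ b) (coeffMap (algebraMap K K') (x : LaurentSeries K)) := by
  have h : (sigma11 K ι K' ι' hι M0 q ζ hζ b t hb).comp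
        ((betaF K (M0 * q) q).toRingHom.comp (betaF K M0 q).toRingHom) =
      (twist (ζ ^ b)).comp ((coeffMap (algebraMap K K')).comp
        (algebraMap (FF K M0) (LaurentSeries K))) := by
    apply ringHom_ext_jdF K M0
    · intro a
      show sigma11 K ι K' ι' hι M0 q ζ hζ b t hb
          (betaF K (M0 * q) q (betaF K M0 q (algebraMap K _ a))) =
        twist (ζ ^ b) (coeffMap (algebraMap K K') (algebraMap K (LaurentSeries K) a))
      rw [AlgHom.commutes, AlgHom.commutes, sigma11_algebraMap, algebraMap_laurentSeries_eq_single,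
        coeffMap_single, ← HahnSeries.C_apply, twist_C]
    · intro d0 _ hd0
      show sigma11 K ι K' ι' hι M0 q ζ hζ b t hb
          (betaF K (M0 * q) q (betaF K M0 q (jdF K M0 hd0))) =
        twist (ζ ^ b) (coeffMap (algebraMap K K') (jdF K M0 hd0 : LaurentSeries K))
      haveI : NeZero (q * d0) := ⟨Nat.mul_ne_zero (NeZero.ne q) (NeZero.ne d0)⟩
      haveI : NeZero (q * (q * d0)) := ⟨Nat.mul_ne_zero (NeZero.ne q) (NeZero.ne (q * d0))⟩
      haveI : NeZero (q * q * d0) := ⟨by rw [mul_assoc]; exact NeZero.ne (q * (q * d0))⟩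
      have hd : q * q * d0 ∣ M0 * q * q := by
        rw [mul_comm (q * q) d0, mul_assoc M0]
        exact mul_dvd_mul_right hd0 _
      rw [betaF_jdF, betaF_jdF, jdF_congr K (M0 * q * q) _ hd (mul_assoc q q d0).symm,
        sigma11_jdF_sq K ι K' ι' hι M0 q ζ hζ b t hb hd0 hd, coe_jdF, coeffMap_qExpand,
        coeffMap_jqModC, twist_rootSeries_one, ← zpow_natCast (ζ ^ b) d0, ← zpow_mul]
  exact congrArg (fun f : FF K M0 →+* LaurentSeries K' => f x) h

end Descent

end Fermat.Agent.S36.V.SigmaMid
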