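/-
S36 / block [V], part (V-top) (helper24): **existence of the three valuations** (`nonempty_threeVal`).

Plumbing of:
* `V/MidVal`, `V/MidValBeta`, `V/MidEvK`, `V/CycloExt` (the middle valuation `V11`, helper15/helper26);
* `V/Transport` (the Fricke transport, `V02 = w⁻¹ V20`);
* `V/CountAlong` (the counting argument `Σ e f = q` along `α₂` and `β₂` over `V10`, helper28).
-/
import Mathlib
import Fermat.Agent.S36.V.ThreeVal
import Fermat.Agent.S36.V.MidEvK
import Fermat.Agent.S36.V.CycloExt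
import Fermat.Agent.S36.V.CountMid

set_option autoImplicit false
set_option linter.unusedSectionVars false
set_option linter.style.haveILetI false

open ModularCurve Fermat.Agent.S28.Gauss Fermat.Agent.N4.Chart Fermat.Agent.N4.Setting
  Fermat.Agent.N4.FibreEmbedding Fermat.Agent.N4F.E.GaussDVR Fermat.Agent.N4F.E.DegreeLevelRaise
  Fermat.Agent.P3G.SecondValuation Fermat.Agent.S36.V.MidVal Fermat.Agent.S36.R3.PiSeries
  Fermat.Agent.S36.V.FrickeK Fermat.Agent.S36.V.Transport Fermat.Agent.S36.V.MidValBeta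
  Fermat.Agent.S36.V.MidEvK Fermat.Agent.S36.V.ThreeVal

noncomputable section

namespace Fermat.Agent.S36.V.ThreeValExists

variable (K : Type) [Field K] [CharZero K] (ι : K →+* ℂ) (M0 q : ℕ) [NeZero M0]
  [hq : Fact q.Prime] (O : Subring K) [IsDiscreteValuationRing ↥O] [IsFractionRing ↥O K]
  [CharP (IsLocalRing.ResidueField ↥O) q]
  (hprime : (fibreIdeal K M0 O (Rfin K M0 O)).IsPrime) (sv : SecondVal K M0 q O)

local notation "F1" => FF K (M0 * q)
local notation "F2" => FF K (M0 * q * q)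
local notation "V10" => gaussVS K (M0 * q) O
local notation "V20" => gaussVS K (M0 * q * q) O
local notation "w1" => wKhom K ι (M0 * q)
local notation "w2" => wKhom K ι (M0 * q * q)

/-! ### The base: `V10 = w₁⁻¹ V01` -/

include hprime in
theorem gauss_eq_comap : V10 = sv.V.comap w1 := by
  rw [secondVal_eq_comap K ι O M0 q hprime sv, comap_wKhom_comap_wKhom]

include hprime in
theorem wKhom_mem_secondVal_iff (x : F1) : w1 x ∈ sv.V ↔ x ∈ V10 := by
  rw [gauss_eq_comap K ι M0 q O hprime sv, ValuationSubring.mem_comap]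

include hprime in
theorem wKhom_mem_gauss_iff (x : F1) : w1 x ∈ V10 ↔ x ∈ sv.V := by
  rw [secondVal_eq_comap K ι O M0 q hprime sv, ValuationSubring.mem_comap]

include hprime in
/-- `w₁` restricted to `V10 → V01`. -/
def w1Res : ↥V10 →+* ↥sv.V :=
  ((w1).comp (V10).subtype).codRestrict sv.V
    (fun a => (wKhom_mem_secondVal_iff K ι M0 q O hprime sv _).mpr a.2)

theorem coe_w1Res (a : ↥V10) :
    ((w1Res K ι M0 q O hprime sv a : ↥sv.V) : F1) = w1 (a : F1) := rfl

/-! ### The outputs of the counting argument, as propositions -/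

/-- "Only `V20` and `V11` lie over `V10` along `α₂`." -/
def OnlyAlpha (V11 : ValuationSubring (FF K (M0 * q * q))) : Prop :=
  ∀ B : ValuationSubring (FF K (M0 * q * q)),
    (∀ g ∈ gaussSubalgebra K (M0 * q) O, alphaF K (M0 * q) q g ∈ B) →
    (∀ ϖ : ↥O, Irreducible ϖ → algebraMap K (FF K (M0 * q * q)) (ϖ : K) ∈ B.nonunits) →
    B = gaussVS K (M0 * q * q) O ∨ B = V11

/-- "Only `V20` lies over `V10` along `β₂`." -/
def OnlyBeta : Prop :=
  ∀ B : ValuationSubring (FF K (M0 * q * q)),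
    (∀ g ∈ gaussSubalgebra K (M0 * q) O, betaF K (M0 * q) q g ∈ B) →
    (∀ ϖ : ↥O, Irreducible ϖ → algebraMap K (FF K (M0 * q * q)) (ϖ : K) ∈ B.nonunits) →
    B = gaussVS K (M0 * q * q) O

/-- Residue degree one of `V20` over `V10` along `α₂`. -/
def DegOne20 : Prop :=
  ∀ y ∈ gaussVS K (M0 * q * q) O, ∃ a : ↥(gaussSubalgebra K (M0 * q) O),
    y - alphaF K (M0 * q) q (a : FF K (M0 * q)) ∈ (gaussVS K (M0 * q * q) O).nonunits

/-! ### The middle valuation is Fricke-stable -/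

section Mid

variable {K' : Type} [Field K'] [Algebra K K']
  {O' : Subring K'} [IsDiscreteValuationRing ↥O'] [IsFractionRing ↥O' K']
  {s : FF K (M0 * q * q) →+* LaurentSeries K'} {u : K'ˣ}
  (h : MidEmb K M0 q O K' O' s u)

theorem unif_mem_nonunits_midVS {ϖ : ↥O} (hϖ : Irreducible ϖ) :
    algebraMap K F2 (ϖ : K) ∈ (midVS h).nonunits :=
  MidValBeta.algebraMap_mem_nonunits h hϖ.not_isUnit

include hprime sv in
/-- **`V11` is stable under the Fricke involution.** -/
theorem comap_wKhom_midVS (honlyA : OnlyAlpha K M0 q O (midVS h)) :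
    (midVS h).comap w2 = midVS h := by
  have h1 : ∀ g ∈ gaussSubalgebra K (M0 * q) O, alphaF K (M0 * q) q g ∈ (midVS h).comap w2 := by
    intro g hg
    rw [ValuationSubring.mem_comap, wKhom_alphaF, betaF_mem_midVS_iff h sv,
      wKhom_mem_secondVal_iff K ι M0 q O hprime sv]
    exact hg
  have h2 : ∀ ϖ : ↥O, Irreducible ϖ →
      algebraMap K F2 (ϖ : K) ∈ ((midVS h).comap w2).nonunits := by
    intro ϖ hϖ
    rw [unif_mem_nonunits_comap_wKhom_iff]
    exact unif_mem_nonunits_midVS K M0 q O h hϖ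
  rcases honlyA _ h1 h2 with h3 | h3
  · exfalso
    have h4 : midVS h = V02 K ι O M0 q := by
      rw [V02, ← h3, comap_wKhom_comap_wKhom]
    have h5 := midVS_comap_alphaF h
    rw [h4, Transport.comap_alpha_V02 K ι O M0 q hprime sv] at h5
    exact sv.ne_gauss h5
  · exact h3

include hprime sv in
theorem wKhom_mem_midVS_iff (honlyA : OnlyAlpha K M0 q O (midVS h)) (y : F2) :
    w2 y ∈ midVS h ↔ y ∈ midVS h := by
  conv_rhs => rw [← comap_wKhom_midVS K ι M0 q O hprime sv h honlyA]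
  rfl

include hprime sv in
theorem wKhom_mem_nonunits_midVS_iff (honlyA : OnlyAlpha K M0 q O (midVS h)) (y : F2) :
    w2 y ∈ (midVS h).nonunits ↔ y ∈ (midVS h).nonunits := by
  conv_rhs => rw [← comap_wKhom_midVS K ι M0 q O hprime sv h honlyA]
  rw [mem_nonunits_comap]

end Mid

/-! ### `V02`: the transported tables -/

section V02

local notation "W02" => V02 K ι O M0 q

include hprime in
/-- residue degree one of `V02` over `V01` along `β₂`. -/
theorem deg_one_V02 (hdeg20 : DegOne20 K M0 q O) :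
    ∀ y ∈ W02, ∃ a : ↥sv.V, y - betaF K (M0 * q) q (a : F1) ∈ (W02).nonunits := by
  intro y hy
  have h1 := deg_one_alpha_to_beta K ι (M0 * q) q V10 V20
    (fun y hy => by
      obtain ⟨a, ha⟩ := hdeg20 y hy
      exact ⟨⟨a, a.2⟩, ha⟩) y hy
  obtain ⟨⟨a, ha⟩, h2⟩ := h1
  refine ⟨⟨a, ?_⟩, h2⟩
  rw [secondVal_eq_comap K ι O M0 q hprime sv]
  exact ha

include hprime in
/-- purely inseparable residue extension of `V02` over `V01` along `α₂`. -/
theorem insep_V02
    (hinsep : ∀ y ∈ V20, ∃ a : ↥(gaussSubalgebra K (M0 * q) O),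
      y ^ q - betaF K (M0 * q) q (a : F1) ∈ (V20).nonunits) :
    ∀ y ∈ W02, ∃ a : ↥sv.V, y ^ q - alphaF K (M0 * q) q (a : F1) ∈ (W02).nonunits := by
  intro y hy
  have h1 := insep_beta_to_alpha K ι (M0 * q) q q V10 V20
    (fun y hy => by
      obtain ⟨a, ha⟩ := hinsep y hy
      exact ⟨⟨a, a.2⟩, ha⟩) y hy
  obtain ⟨⟨a, ha⟩, h2⟩ := h1
  refine ⟨⟨a, ?_⟩, h2⟩
  rw [secondVal_eq_comap K ι O M0 q hprime sv]
  exact ha

theorem ram_one_V02 (ϖ : ↥O) (hϖ : Irreducible ϖ) :
    ∀ y ∈ (W02).nonunits, y * (algebraMap K F2 (ϖ : K))⁻¹ ∈ W02 :=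
  ram_one_comap_wKhom K ι (M0 * q * q) V20 (ϖ : K) (ram_one_gaussVS K O (M0 * q * q) hϖ)

include hprime in
/-- "Only `V02` lies over `V01` along `α₂`." -/
theorem only_alpha_V01 (honlyB : OnlyBeta K M0 q O) :
    ∀ B : ValuationSubring F2, (∀ g ∈ sv.V, alphaF K (M0 * q) q g ∈ B) →
      (∀ ϖ : ↥O, Irreducible ϖ → algebraMap K F2 (ϖ : K) ∈ B.nonunits) → B = W02 := by
  intro B h1 h2
  have h3 := only_beta_to_alpha K ι O (M0 * q) q V10 (fun B' => B' = V20)
    (fun B' hB' hB'' => honlyB B' hB' hB'') B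
    (fun g hg => h1 g (by
      rw [secondVal_eq_comap K ι O M0 q hprime sv]
      exact hg)) h2
  exact (comap_wKhom_eq_iff K ι (M0 * q * q) B V20).mp h3

end V02

/-! ### The `β₂`-table over `V01` by transport -/

section MidBeta

variable {K' : Type} [Field K'] [Algebra K K']
  {O' : Subring K'} [IsDiscreteValuationRing ↥O'] [IsFractionRing ↥O' K']
  {s : FF K (M0 * q * q) →+* LaurentSeries K'} {u : K'ˣ}
  (h : MidEmb K M0 q O K' O' s u)

local notation "W02" => V02 K ι O M0 q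

include hprime in
/-- "Only `V11` and `V02` lie over `V01` along `β₂`." -/
theorem only_beta_V01 (honlyA : OnlyAlpha K M0 q O (midVS h)) :
    ∀ B : ValuationSubring F2, (∀ g ∈ sv.V, betaF K (M0 * q) q g ∈ B) →
      (∀ ϖ : ↥O, Irreducible ϖ → algebraMap K F2 (ϖ : K) ∈ B.nonunits) →
      B = midVS h ∨ B = W02 := by
  intro B h1 h2
  have h3 := only_alpha_to_beta K ι O (M0 * q) q V10 (fun B' => B' = V20 ∨ B' = midVS h)
    (fun B' hB' hB'' => honlyA B' hB' hB'') B
    (fun g hg => h1 g (by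
      rw [secondVal_eq_comap K ι O M0 q hprime sv]
      exact hg)) h2
  rcases h3 with h3 | h3
  · right
    exact (comap_wKhom_eq_iff K ι (M0 * q * q) B V20).mp h3
  · left
    rw [(comap_wKhom_eq_iff K ι (M0 * q * q) B (midVS h)).mp h3,
      comap_wKhom_midVS K ι M0 q O hprime sv h honlyA]

include ι hprime in
/-- residue degree one of `V11` over `V01` along `β₂`. -/
theorem deg_one_V11_beta (honlyA : OnlyAlpha K M0 q O (midVS h)) (hdeg11 : DegOne h) :
    ∀ y ∈ midVS h, ∃ a : ↥sv.V, y - betaF K (M0 * q) q (a : F1) ∈ (midVS h).nonunits := by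
  intro y hy
  have hy' : y ∈ (midVS h).comap w2 := by
    rw [comap_wKhom_midVS K ι M0 q O hprime sv h honlyA]
    exact hy
  have h1 := deg_one_alpha_to_beta K ι (M0 * q) q V10 (midVS h)
    (fun y hy => by
      obtain ⟨a, ha⟩ := hdeg11 y hy
      exact ⟨⟨a, a.2⟩, ha⟩) y hy'
  obtain ⟨⟨a, ha⟩, h2⟩ := h1
  rw [comap_wKhom_midVS K ι M0 q O hprime sv h honlyA] at h2
  refine ⟨⟨a, ?_⟩, h2⟩
  rw [secondVal_eq_comap K ι O M0 q hprime sv]
  exact ha

end MidBeta

/-! ### Integrality over `V01` by transport -/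

section Integral

variable {K' : Type} [Field K'] [Algebra K K']
  {O' : Subring K'} [IsDiscreteValuationRing ↥O'] [IsFractionRing ↥O' K']
  {s : FF K (M0 * q * q) →+* LaurentSeries K'} {u : K'ˣ}
  (h : MidEmb K M0 q O K' O' s u)

local notation "W02" => V02 K ι O M0 q

include hprime in
theorem isIntegral_alpha_V01
    (hintB : ∀ y : F2, y ∈ V20 → ((b2 K M0 q).comp (V10).subtype).IsIntegralElem y) :
    ∀ y : F2, y ∈ W02 → ((a2 K M0 q).comp sv.V.subtype).IsIntegralElem y := by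
  intro y hy
  have h1 := hintB (w2 y) hy
  have h2 := isIntegralElem_transport ((b2 K M0 q).comp (V10).subtype)
    ((a2 K M0 q).comp sv.V.subtype) w2 (w1Res K ι M0 q O hprime sv)
    (fun a => by
      show w2 (betaF K (M0 * q) q (a : F1)) = alphaF K (M0 * q) q (w1 (a : F1))
      exact wKhom_betaF K ι (M0 * q) q _) h1
  rwa [wKhom_wKhom] at h2

include hprime in
theorem isIntegral_beta_V01 (honlyA : OnlyAlpha K M0 q O (midVS h))
    (hintA : ∀ y : F2, y ∈ V20 → y ∈ midVS h →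
      ((a2 K M0 q).comp (V10).subtype).IsIntegralElem y) :
    ∀ y : F2, y ∈ midVS h → y ∈ W02 → ((b2 K M0 q).comp sv.V.subtype).IsIntegralElem y := by
  intro y hy11 hy02
  have h1 := hintA (w2 y) hy02
    ((wKhom_mem_midVS_iff K ι M0 q O hprime sv h honlyA y).mpr hy11)
  have h2 := isIntegralElem_transport ((a2 K M0 q).comp (V10).subtype)
    ((b2 K M0 q).comp sv.V.subtype) w2 (w1Res K ι M0 q O hprime sv)
    (fun a => by
      show w2 (alphaF K (M0 * q) q (a : F1)) = betaF K (M0 * q) q (w1 (a : F1))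
      exact wKhom_alphaF K ι (M0 * q) q _) h1
  rwa [wKhom_wKhom] at h2

end Integral

/-! ### `Π` is a unit of `V02` -/

section PiUnit

local notation "W02" => V02 K ι O M0 q
set_option quotPrecheck false in
local notation "κ" => IsLocalRing.ResidueField ↥O

/-- `w₀ j = j_{M₀}`. -/
def gW : FF K M0 := wK K ι M0 (jF K M0)

theorem gW_mem : gW K ι M0 ∈ gaussSubalgebra K M0 O := wK_jF_mem K ι O M0

theorem theta_gW : theta K M0 O ⟨gW K ι M0, gW_mem K ι M0 O⟩ = qExpand κ M0 (jqModC κ) :=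
  theta_wK_jF K ι O M0

theorem wK_PiElt :
    wK K ι (M0 * q * q) (PiElt K M0 q) =
      alphaF K (M0 * q) q (alphaF K M0 q (gW K ι M0)) -
        betaF K (M0 * q) q (betaF K M0 q (gW K ι M0)) := by
  rw [PiElt, map_sub, wK_betaF, wK_betaF, wK_alphaF, wK_alphaF, gW]

theorem wK_PiElt_mem : wK K ι (M0 * q * q) (PiElt K M0 q) ∈ gaussSubalgebra K (M0 * q * q) O := by
  rw [wK_PiElt]
  exact Subalgebra.sub_mem _
    (alphaF_mem K O (M0 * q) q (alphaF_mem K O M0 q (gW_mem K ι M0 O)))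
    (betaF_mem K O (M0 * q) q (betaF_mem K O M0 q (gW_mem K ι M0 O)))

theorem theta_wK_PiElt_ne :
    theta K (M0 * q * q) O ⟨wK K ι (M0 * q * q) (PiElt K M0 q), wK_PiElt_mem K ι M0 q O⟩ ≠ 0 := by
  have e : (⟨wK K ι (M0 * q * q) (PiElt K M0 q), wK_PiElt_mem K ι M0 q O⟩ :
      gaussSubalgebra K (M0 * q * q) O) =
      ⟨alphaF K (M0 * q) q (alphaF K M0 q (gW K ι M0)),
        alphaF_mem K O (M0 * q) q (alphaF_mem K O M0 q (gW_mem K ι M0 O))⟩ -
      ⟨betaF K (M0 * q) q (betaF K M0 q (gW K ι M0)),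
        betaF_mem K O (M0 * q) q (betaF_mem K O M0 q (gW_mem K ι M0 O))⟩ :=
    Subtype.ext (wK_PiElt K ι M0 q)
  rw [e, map_sub]
  have h1 := theta_betaF K O (M0 * q) q
    ⟨betaF K M0 q (gW K ι M0), betaF_mem K O M0 q (gW_mem K ι M0 O)⟩
  have h2 := theta_betaF K O M0 q ⟨gW K ι M0, gW_mem K ι M0 O⟩
  have h3 := theta_alphaF K O (M0 * q) q
    ⟨alphaF K M0 q (gW K ι M0), alphaF_mem K O M0 q (gW_mem K ι M0 O)⟩
  have h4 := theta_alphaF K O M0 q ⟨gW K ι M0, gW_mem K ι M0 O⟩
  rw [h1, h2, h3, h4, theta_gW, qExpand_qExpand, qExpand_qExpand]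
  intro h0
  have h5 := congrArg (fun f : LaurentSeries κ => f.coeff ((M0 : ℤ) * (-1))) h0
  simp only [HahnSeries.coeff_sub, HahnSeries.coeff_zero] at h5
  rw [qExpand_coeff_mul, coeff_jqModC_neg_one, qExpand_coeff_of_not_dvd, sub_zero] at h5
  · exact one_ne_zero h5
  · intro hdvd
    have hM0 : 0 < M0 := NeZero.pos M0
    have hq2 : 2 ≤ q := hq.out.two_le
    have h6 : ((q * q * M0 : ℕ) : ℤ) ∣ (M0 : ℤ) := by
      rw [mul_neg_one] at hdvd
      exact (dvd_neg).mp hdvd
    have h7 : q * q * M0 ∣ M0 := by exact_mod_cast h6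
    have h8 := Nat.le_of_dvd hM0 h7
    have h9 : 2 * 2 * M0 ≤ q * q * M0 :=
      Nat.mul_le_mul (Nat.mul_le_mul hq2 hq2) le_rfl
    omega

theorem Pi_unit_V02 : PiElt K M0 q ∈ W02 ∧ PiElt K M0 q ∉ (W02).nonunits := by
  refine ⟨wK_PiElt_mem K ι M0 q O, ?_⟩
  intro hmem
  rw [mem_nonunits_V02_iff, mem_nonunits_gaussVS_iff K (M0 * q * q) O
    (wK_PiElt_mem K ι M0 q O)] at hmem
  exact theta_wK_PiElt_ne K ι M0 q O hmem

end PiUnit

/-! ### The place of `V02` -/

section Ev02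

local notation "W02" => V02 K ι O M0 q
set_option quotPrecheck false in
local notation "κ" => IsLocalRing.ResidueField ↥O

variable (hdeg20 : DegOne20 K M0 q O)

include hprime sv hdeg20

/-- **The place of `V02`**, normalised by `ev02 ∘ β₂ = ev01`. -/
def ev02 : ↥(W02) →+* LaurentSeries κ :=
  placeOver sv.V (W02) (b2 K M0 q) (Transport.comap_beta_V02 K ι O M0 q hprime sv)
    (deg_one_V02 K ι M0 q O hprime sv hdeg20) sv.ev
    (fun a ha => (sv.ev_eq_zero_iff a).mpr ha)

theorem ev02_eq_zero_iff (y : ↥(W02)) :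
    ev02 K ι M0 q O hprime sv hdeg20 y = 0 ↔ (y : F2) ∈ (W02).nonunits :=
  placeOver_eq_zero_iff sv.V (W02) (b2 K M0 q) _ _ sv.ev _
    (fun a ha => (sv.ev_eq_zero_iff a).mp ha) y

theorem ev02_eq (y : ↥(W02)) (a : ↥sv.V)
    (hya : (y : F2) - betaF K (M0 * q) q (a : F1) ∈ (W02).nonunits) :
    ev02 K ι M0 q O hprime sv hdeg20 y = sv.ev a :=
  placeOver_eq sv.V (W02) (b2 K M0 q) _ _ sv.ev _ y a hya

theorem ev02_beta (x : F1) (hx : x ∈ sv.V) (hx' : betaF K (M0 * q) q x ∈ W02) :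
    ev02 K ι M0 q O hprime sv hdeg20 ⟨betaF K (M0 * q) q x, hx'⟩ = sv.ev ⟨x, hx⟩ :=
  placeOver_map sv.V (W02) (b2 K M0 q) _ _ sv.ev _ ⟨x, hx⟩ hx'

theorem ev02_alpha (x : F1) (hx : x ∈ sv.V) (hx' : alphaF K (M0 * q) q x ∈ W02) :
    ev02 K ι M0 q O hprime sv hdeg20 ⟨alphaF K (M0 * q) q x, hx'⟩ =
      qExpand κ q (sv.ev ⟨x, hx⟩) := by
  obtain ⟨g, hg⟩ := sv.deg_one x hx
  have hβg : betaF K M0 q (g : FF K M0) ∈ sv.V := sv.beta_mem _ g.2
  have hαg : alphaF K M0 q (g : FF K M0) ∈ sv.V := sv.alpha_mem _ g.2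
  -- `ev01 x = θ₀ g`
  have h1 : sv.ev ⟨x, hx⟩ = theta K M0 O g := by
    have h2 : sv.ev (⟨x, hx⟩ - ⟨betaF K M0 q (g : FF K M0), hβg⟩) = 0 :=
      (sv.ev_eq_zero_iff _).mpr hg
    rw [map_sub, sub_eq_zero] at h2
    rw [h2]
    exact sv.ev_beta _ g.2
  -- `α₂ x ≡ α₂ β₁ g = β₂ α₁ g` modulo the maximal ideal of `V02`
  have h3 : alphaF K (M0 * q) q x - betaF K (M0 * q) q (alphaF K M0 q (g : FF K M0)) ∈
      (W02).nonunits := by
    rw [betaF_alphaF, ← map_sub]
    have h4 : x - betaF K M0 q (g : FF K M0) ∈ ((W02).comap (a2 K M0 q)).nonunits := by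
      rw [Transport.comap_alpha_V02 K ι O M0 q hprime sv]
      exact hg
    exact (mem_nonunits_comap _ _ _).mp h4
  rw [ev02_eq K ι M0 q O hprime sv hdeg20 ⟨alphaF K (M0 * q) q x, hx'⟩
    ⟨alphaF K M0 q (g : FF K M0), hαg⟩ h3, h1]
  exact sv.ev_alpha _ g.2

end Ev02

/-! ### "Only three" -/

section OnlyThree

variable {K' : Type} [Field K'] [Algebra K K']
  {O' : Subring K'} [IsDiscreteValuationRing ↥O'] [IsFractionRing ↥O' K']
  {s : FF K (M0 * q * q) →+* LaurentSeries K'} {u : K'ˣ}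
  (h : MidEmb K M0 q O K' O' s u)

local notation "W02" => V02 K ι O M0 q

include ι hprime in
/-- "Only `V10` and `V01` lie over `V00` along `α₁`" (the Fricke transform of `sv.only_two`). -/
theorem only_two_alpha (B1 : ValuationSubring F1)
    (h1 : ∀ g ∈ gaussSubalgebra K M0 O, alphaF K M0 q g ∈ B1)
    (h2 : ∀ ϖ : ↥O, Irreducible ϖ → algebraMap K F1 (ϖ : K) ∈ B1.nonunits) :
    B1 = V10 ∨ B1 = sv.V := by
  have h3 := only_beta_to_alpha K ι O M0 q (gaussVS K M0 O) (fun B' => B' = V10 ∨ B' = sv.V)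
    (fun B' hB' hB'' => sv.only_two B' hB' hB'') B1
    (fun g hg => h1 g (by
      rw [comap_wK_gaussVS K ι O M0 hprime] at hg
      exact hg)) h2
  rcases h3 with h3 | h3
  · right
    rw [(comap_wKhom_eq_iff K ι (M0 * q) B1 V10).mp h3]
    exact (secondVal_eq_comap K ι O M0 q hprime sv).symm
  · left
    rw [(comap_wKhom_eq_iff K ι (M0 * q) B1 sv.V).mp h3]
    exact (gauss_eq_comap K ι M0 q O hprime sv).symm

include hprime sv in
/-- **Only three valuations of `F₂` lie above `q`.** -/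
theorem only_three (honlyA : OnlyAlpha K M0 q O (midVS h)) (honlyB : OnlyBeta K M0 q O) :
    ∀ B : ValuationSubring F2,
      (∀ g ∈ gaussSubalgebra K M0 O, alphaF K (M0 * q) q (alphaF K M0 q g) ∈ B) →
      (∀ ϖ : ↥O, Irreducible ϖ → algebraMap K F2 (ϖ : K) ∈ B.nonunits) →
      B = V20 ∨ B = midVS h ∨ B = W02 := by
  intro B h1 h2
  have h3 : ∀ ϖ : ↥O, Irreducible ϖ →
      algebraMap K F1 (ϖ : K) ∈ (B.comap (a2 K M0 q)).nonunits := by
    intro ϖ hϖ
    rw [mem_nonunits_comap]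
    have e : (a2 K M0 q) (algebraMap K F1 (ϖ : K)) = algebraMap K F2 (ϖ : K) :=
      (alphaF K (M0 * q) q).commutes _
    rw [e]
    exact h2 ϖ hϖ
  rcases only_two_alpha K ι M0 q O hprime sv (B.comap (a2 K M0 q)) (fun g hg => h1 g hg) h3
    with h4 | h4
  · have h5 : ∀ g ∈ gaussSubalgebra K (M0 * q) O, alphaF K (M0 * q) q g ∈ B := by
      intro g hg
      have : g ∈ B.comap (a2 K M0 q) := by rw [h4]; exact hg
      exact this
    rcases honlyA B h5 h2 with h6 | h6
    · exact Or.inl h6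
    · exact Or.inr (Or.inl h6)
  · have h5 : ∀ g ∈ sv.V, alphaF K (M0 * q) q g ∈ B := by
      intro g hg
      have : g ∈ B.comap (a2 K M0 q) := by rw [h4]; exact hg
      exact this
    exact Or.inr (Or.inr (only_alpha_V01 K ι M0 q O hprime sv honlyB B h5 h2))

end OnlyThree

/-! ### Existence -/

section Exists

variable {K' : Type} [Field K'] [Algebra K K']
  {O' : Subring K'} [IsDiscreteValuationRing ↥O'] [IsFractionRing ↥O' K']
  {s : FF K (M0 * q * q) →+* LaurentSeries K'} {u : K'ˣ}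

include ι hprime in
/-- The three valuations from the middle embedding and the outputs of the counting argument. -/
theorem nonempty_threeVal_of_midEmb (h : MidEmb K M0 q O K' O' s u)
    (hu : IsPrimitiveRoot (u : K') q) (hirr : Irreducible ((q : ℕ) : ↥O)) :
    Nonempty (ThreeVal K M0 q O sv) := by
  have honlyA : OnlyAlpha K M0 q O (midVS h) := fun B hB hϖB =>
    CountMid.only_alpha_mid ι h hirr B hB hϖB
  have honlyB : OnlyBeta K M0 q O := fun B hB hϖB =>
    CountAlong.only_beta K (M0 * q) q O ι (dvd_mul_left q M0) B hB hϖB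
  have hdeg20 : DegOne20 K M0 q O := fun y hy => CountMid.deg_one_gauss_mid ι h hirr hy
  have hdeg11 : DegOne h := fun y hy => CountMid.deg_one_mid ι h hirr hy
  haveI := CountAlong.isDiscreteValuationRing_gaussVS K (M0 * q) O
  have hintA : ∀ y : F2, y ∈ V20 → y ∈ midVS h →
      ((a2 K M0 q).comp (V10).subtype).IsIntegralElem y := fun y hy hyb =>
    (CountMid.twoAlong_alpha_mid ι h hirr).isIntegralElem hy hyb
  have hintB : ∀ y : F2, y ∈ V20 → ((b2 K M0 q).comp (V10).subtype).IsIntegralElem y := by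
    intro y hy
    obtain ⟨ϖ, hϖ⟩ := IsDiscreteValuationRing.exists_irreducible ↥O
    exact (CountAlong.oneAlong_beta K (M0 * q) q O ι (dvd_mul_left q M0) hϖ).isIntegralElem hy
  exact ⟨{
    V11 := midVS h
    V02 := V02 K ι O M0 q
    ev11 := ev11K h hdeg11
    ev02 := ev02 K ι M0 q O hprime sv hdeg20
    ev11_eq_zero_iff := ev11K_eq_zero_iff h hdeg11
    ev02_eq_zero_iff := ev02_eq_zero_iff K ι M0 q O hprime sv hdeg20
    comap_alpha_V11 := midVS_comap_alphaF h
    comap_beta_V11 := midVS_comap_betaF h sv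
    comap_alpha_V02 := Transport.comap_alpha_V02 K ι O M0 q hprime sv
    comap_beta_V02 := Transport.comap_beta_V02 K ι O M0 q hprime sv
    ev11_alpha := fun x hx _ => ev11K_alphaF h hdeg11 hx
    ev11_beta := fun x hx _ => ev11K_betaF h hdeg11 sv hx
    ev02_beta := ev02_beta K ι M0 q O hprime sv hdeg20
    ev02_alpha := ev02_alpha K ι M0 q O hprime sv hdeg20
    deg_one_V20 := hdeg20
    deg_one_V11_alpha := hdeg11
    deg_one_V11_beta := deg_one_V11_beta K ι M0 q O hprime sv h honlyA hdeg11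
    deg_one_V02 := deg_one_V02 K ι M0 q O hprime sv hdeg20
    insep_V20 := fun y hy => CountAlong.insep_beta K (M0 * q) q O ι (dvd_mul_left q M0) hy
    insep_V02 := insep_V02 K ι M0 q O hprime sv
      (fun y hy => CountAlong.insep_beta K (M0 * q) q O ι (dvd_mul_left q M0) hy)
    ram_one_V02 := ram_one_V02 K ι M0 q O
    Pi_mem_nonunits := PiElt_mem_nonunits h
    unif_V11 := CountMid.unif_mid ι h hirr
    ram_V11 := ⟨wilsonElt K M0 q, wilsonElt_mem_midVS h, wilsonElt_inv_mem_midVS h,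
      natCast_eq_wilsonElt_mul h⟩
    Pi_unit_V02 := Pi_unit_V02 K ι M0 q O
    V11_ne_V20 := midVS_ne_gaussVS h
    V02_ne_V20 := Transport.V02_ne_V20 K ι O M0 q hprime sv
    V11_ne_V02 := by
      intro h1
      have h2 := midVS_comap_alphaF h
      rw [h1, Transport.comap_alpha_V02 K ι O M0 q hprime sv] at h2
      exact sv.ne_gauss h2
    only_alpha_V10 := honlyA
    only_beta_V10 := honlyB
    only_alpha_V01 := only_alpha_V01 K ι M0 q O hprime sv honlyB
    only_beta_V01 := only_beta_V01 K ι M0 q O hprime sv h honlyA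
    only_three := only_three K ι M0 q O hprime sv h honlyA honlyB
    isIntegral_alpha_V10 := hintA
    isIntegral_beta_V10 := hintB
    isIntegral_alpha_V01 := isIntegral_alpha_V01 K ι M0 q O hprime sv hintB
    isIntegral_beta_V01 := isIntegral_beta_V01 K ι M0 q O hprime sv h honlyA hintA
    wilson := wilson_K h hdeg11 hu }⟩

include ι hprime in
/-- **Existence of the three valuations of `FF K (M₀ q²)` above `q`.** -/
theorem nonempty_threeVal (hqM0 : ¬ q ∣ M0) (hirr : Irreducible ((q : ℕ) : ↥O)) :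
    Nonempty (ThreeVal K M0 q O sv) := by
  have hqO : ((q : ℕ) : ↥O) ∈ IsLocalRing.maximalIdeal ↥O :=
    (IsLocalRing.mem_maximalIdeal _).mpr hirr.not_isUnit
  obtain ⟨K', hF, hA, O', hdvr, hfr, s, u, h, hu⟩ :=
    CycloExt.exists_midEmb_closed K ι M0 q hq.out hqM0 O hqO
  exact nonempty_threeVal_of_midEmb K ι M0 q O hprime sv h hu hirr

end Exists

end Fermat.Agent.S36.V.ThreeValExists
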