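/-
S36, block [V] (helper28): the place `ev02` of `V02 := Transport.V02 K ι O M0 q` and its four
fields of `ThreeVal` (`ev02_eq_zero_iff`, `ev02_beta`, `ev02_alpha`, `Pi_unit_V02`).

`ev02 := Transport.placeOver sv.V V02 β₂ …` is the place of `V02` induced by `sv.ev` along `β₂`
(residue degree one: `ThreeValF2.deg_one_V02`); `ev02_alpha` is helper9's
`ThreeValF3.ev02_alpha_of_beta'`.
-/
import Mathlib
import Fermat.Agent.S36.V.ThreeValF2
import Fermat.Agent.S36.V.ThreeValF3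

set_option autoImplicit false
set_option linter.unusedSectionVars false
set_option linter.style.haveILetI false

open ModularCurve Fermat.Agent.S28.Gauss Fermat.Agent.N4.Chart Fermat.Agent.N4.Setting
  Fermat.Agent.N4.FibreEmbedding Fermat.Agent.N4F.E.GaussDVR Fermat.Agent.N4F.E.DegreeLevelRaise
  Fermat.Agent.P3G.SecondValuation Fermat.Agent.S36.V.MidVal Fermat.Agent.S36.V.Transport
  Fermat.Agent.S36.V.ThreeVal

noncomputable section

namespace Fermat.Agent.S36.V.ThreeValF4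

variable {K : Type} [Field K] [CharZero K] {M0 q : ℕ} [NeZero M0] [hq : Fact q.Prime]
  {O : Subring K} [IsDiscreteValuationRing ↥O] [IsFractionRing ↥O K]
  [CharP (IsLocalRing.ResidueField ↥O) q]
  (ι : K →+* ℂ) (hprime : (fibreIdeal K M0 O (Rfin K M0 O)).IsPrime) (sv : SecondVal K M0 q O)
  (hdeg : ∀ y ∈ V02 K ι O M0 q, ∃ a : ↥sv.V,
    y - betaF K (M0 * q) q (a : FF K (M0 * q)) ∈ (V02 K ι O M0 q).nonunits)

/-- **The place of `V02`**, normalised by `ev02 ∘ β₂ = sv.ev`. -/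
def ev02 : ↥(V02 K ι O M0 q) →+* LaurentSeries (IsLocalRing.ResidueField ↥O) :=
  placeOver sv.V (V02 K ι O M0 q) (b2 K M0 q) (comap_beta_V02 K ι O M0 q hprime sv) hdeg sv.ev
    (fun a ha => (sv.ev_eq_zero_iff a).2 ha)

/-- **`ev02_eq_zero_iff`.** -/
theorem ev02_eq_zero_iff : ∀ y : ↥(V02 K ι O M0 q),
    ev02 ι hprime sv hdeg y = 0 ↔ (y : FF K (M0 * q * q)) ∈ (V02 K ι O M0 q).nonunits :=
  fun y => placeOver_eq_zero_iff sv.V (V02 K ι O M0 q) (b2 K M0 q)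
    (comap_beta_V02 K ι O M0 q hprime sv) hdeg sv.ev (fun a ha => (sv.ev_eq_zero_iff a).2 ha)
    (fun a h0 => (sv.ev_eq_zero_iff a).1 h0) y

/-- **`ev02_beta`.** -/
theorem ev02_beta : ∀ (x : FF K (M0 * q)) (hx : x ∈ sv.V)
    (hx' : betaF K (M0 * q) q x ∈ V02 K ι O M0 q),
    ev02 ι hprime sv hdeg ⟨betaF K (M0 * q) q x, hx'⟩ = sv.ev ⟨x, hx⟩ :=
  fun x hx hx' => placeOver_map sv.V (V02 K ι O M0 q) (b2 K M0 q)
    (comap_beta_V02 K ι O M0 q hprime sv) hdeg sv.ev (fun a ha => (sv.ev_eq_zero_iff a).2 ha)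
    ⟨x, hx⟩ hx'

/-- **`ev02_alpha`.** -/
theorem ev02_alpha : ∀ (x : FF K (M0 * q)) (hx : x ∈ sv.V)
    (hx' : alphaF K (M0 * q) q x ∈ V02 K ι O M0 q),
    ev02 ι hprime sv hdeg ⟨alphaF K (M0 * q) q x, hx'⟩ =
      qExpand (IsLocalRing.ResidueField ↥O) q (sv.ev ⟨x, hx⟩) :=
  Fermat.Agent.S36.V.ThreeValF3.ev02_alpha_of_beta' K M0 q O sv (V02 K ι O M0 q)
    (ev02 ι hprime sv hdeg) (ev02_eq_zero_iff ι hprime sv hdeg)
    (comap_alpha_V02 K ι O M0 q hprime sv) (ev02_beta ι hprime sv hdeg)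

include hprime sv hdeg in
/-- **`Pi_unit_V02`.** -/
theorem Pi_unit_V02 :
    PiElt K M0 q ∈ V02 K ι O M0 q ∧ PiElt K M0 q ∉ (V02 K ι O M0 q).nonunits :=
  Fermat.Agent.S36.V.OnlyThree.Pi_unit_V02 K O M0 q sv (V02 K ι O M0 q) (ev02 ι hprime sv hdeg)
    (ev02_eq_zero_iff ι hprime sv hdeg) (comap_alpha_V02 K ι O M0 q hprime sv)
    (comap_beta_V02 K ι O M0 q hprime sv) (ev02_beta ι hprime sv hdeg)
    (ev02_alpha ι hprime sv hdeg)

end Fermat.Agent.S36.V.ThreeValF4
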