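/-
S36, block [V] (helper28): **`nonempty_threeVal`** — the three valuations of `FF K (M₀ q²)` above
`q` exist, for `O` unramified at `q` (`Irreducible (q : O)`), assembled from the landed producers:
`CycloExt` (existence of the middle embedding), `MidVal/MidValBeta/MidEvK` (V11 and its place),
`Transport` (V02), `CountAlong/CountMid` (tables over V10), `ThreeValF2/F3/F4` (tables over V01,
the place of V02), `OnlyThree`.
-/
import Mathlib
import Fermat.Agent.S36.V.ThreeValF4
import Fermat.Agent.S36.V.MidEvK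
import Fermat.Agent.S36.V.CycloExt

set_option autoImplicit false
set_option linter.unusedSectionVars false
set_option linter.style.haveILetI false

open ModularCurve Fermat.Agent.S28.Gauss Fermat.Agent.N4.Chart Fermat.Agent.N4.Setting
  Fermat.Agent.N4.FibreEmbedding Fermat.Agent.N4F.E.GaussDVR Fermat.Agent.N4F.E.DegreeLevelRaise
  Fermat.Agent.P3G.SecondValuation Fermat.Agent.S36.V.MidVal Fermat.Agent.S36.V.Transport
  Fermat.Agent.S36.V.ThreeVal Fermat.Agent.S36.V.CountAlong Fermat.Agent.S36.V.CountMid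
  Fermat.Agent.S36.V.MidValBeta

noncomputable section

namespace Fermat.Agent.S36.V.ThreeValExistsC

variable {K : Type} [Field K] [CharZero K] {M0 q : ℕ} [NeZero M0] [hq : Fact q.Prime]
  {O : Subring K} [IsDiscreteValuationRing ↥O] [IsFractionRing ↥O K]
  [CharP (IsLocalRing.ResidueField ↥O) q]

/-- **The `ThreeVal` of a middle embedding.** -/
def threeValOfMidEmb {K' : Type} [Field K'] [Algebra K K']
    {O' : Subring K'} [IsDiscreteValuationRing ↥O'] [IsFractionRing ↥O' K']
    {s : FF K (M0 * q * q) →+* LaurentSeries K'} {u : K'ˣ}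
    (ι : K →+* ℂ) (h : MidEmb K M0 q O K' O' s u) (hu : IsPrimitiveRoot (u : K') q)
    (hirr : Irreducible ((q : ℕ) : ↥O))
    (hprime : (fibreIdeal K M0 O (Rfin K M0 O)).IsPrime) (sv : SecondVal K M0 q O) :
    ThreeVal K M0 q O sv :=
  have hdeg11 : MidEvK.DegOne h := fun _ hy => deg_one_mid ι h hirr hy
  have hdeg02 := ThreeValF2.deg_one_V02 ι h hirr hprime sv
  { V11 := midVS h
    V02 := V02 K ι O M0 q
    ev11 := MidEvK.ev11K h hdeg11
    ev02 := ThreeValF4.ev02 ι hprime sv hdeg02
    ev11_eq_zero_iff := MidEvK.ev11K_eq_zero_iff h hdeg11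
    ev02_eq_zero_iff := ThreeValF4.ev02_eq_zero_iff ι hprime sv hdeg02
    comap_alpha_V11 := midVS_comap_alphaF h
    comap_beta_V11 := midVS_comap_betaF h sv
    comap_alpha_V02 := comap_alpha_V02 K ι O M0 q hprime sv
    comap_beta_V02 := comap_beta_V02 K ι O M0 q hprime sv
    ev11_alpha := fun _ hx _ => MidEvK.ev11K_alphaF h hdeg11 hx
    ev11_beta := fun _ hx _ => MidEvK.ev11K_betaF h hdeg11 sv hx
    ev02_beta := ThreeValF4.ev02_beta ι hprime sv hdeg02
    ev02_alpha := ThreeValF4.ev02_alpha ι hprime sv hdeg02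
    deg_one_V20 := fun _ hy => deg_one_gauss_mid ι h hirr hy
    deg_one_V11_alpha := fun _ hy => deg_one_mid ι h hirr hy
    deg_one_V11_beta := ThreeValF2.deg_one_V11_beta ι h hirr hprime sv
    deg_one_V02 := hdeg02
    insep_V20 := fun _ hy => insep_beta K (M0 * q) q O ι (dvd_mul_left q M0) hy
    insep_V02 := ThreeValF2.insep_V02 ι hprime sv
    ram_one_V02 := ThreeValF2.ram_one_V02 ι
    Pi_mem_nonunits := PiElt_mem_nonunits h
    unif_V11 := unif_mid ι h hirr
    ram_V11 := ⟨wilsonElt K M0 q, wilsonElt_mem_midVS h, wilsonElt_inv_mem_midVS h,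
      natCast_eq_wilsonElt_mul h⟩
    Pi_unit_V02 := ThreeValF4.Pi_unit_V02 ι hprime sv hdeg02
    V11_ne_V20 := midVS_ne_gaussVS h
    V02_ne_V20 := V02_ne_V20 K ι O M0 q hprime sv
    V11_ne_V02 := OnlyThree.V11_ne_V02 K O M0 q sv _ _ (midVS_comap_alphaF h)
      (comap_alpha_V02 K ι O M0 q hprime sv)
    only_alpha_V10 := only_alpha_mid ι h hirr
    only_beta_V10 := fun B hB hϖB => only_beta K (M0 * q) q O ι (dvd_mul_left q M0) B hB hϖB
    only_alpha_V01 := ThreeValF2.only_alpha_V01 ι hprime sv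
    only_beta_V01 := ThreeValF2.only_beta_V01 ι h hirr hprime sv
    only_three := OnlyThree.only_three K O M0 q sv _ _
      (OnlyThree.only_two_alpha K ι O M0 q hprime sv) (only_alpha_mid ι h hirr)
      (ThreeValF2.only_alpha_V01 ι hprime sv)
    isIntegral_alpha_V10 := fun _ hy hyb =>
      haveI := isDiscreteValuationRing_gaussVS K (M0 * q) O
      (twoAlong_alpha_mid ι h hirr).isIntegralElem hy hyb
    isIntegral_beta_V10 := fun _ hy =>
      haveI := isDiscreteValuationRing_gaussVS K (M0 * q) O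
      (oneAlong_beta K (M0 * q) q O ι (dvd_mul_left q M0) hirr).isIntegralElem hy
    isIntegral_alpha_V01 := ThreeValF2.isIntegral_alpha_V01 ι hprime sv
    isIntegral_beta_V01 := ThreeValF2.isIntegral_beta_V01 ι h hirr hprime sv
    wilson := MidEvK.wilson_K h hdeg11 hu }

/-- **The three valuations of `FF K (M₀ q²)` above `q` exist.** -/
theorem nonempty_threeVal (ι : K →+* ℂ) (hqM0 : ¬ q ∣ M0) (hirr : Irreducible ((q : ℕ) : ↥O))
    (hprime : (fibreIdeal K M0 O (Rfin K M0 O)).IsPrime) (sv : SecondVal K M0 q O) :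
    Nonempty (ThreeVal K M0 q O sv) := by
  have hqO : ((q : ℕ) : ↥O) ∈ IsLocalRing.maximalIdeal ↥O :=
    (IsLocalRing.mem_maximalIdeal _).2 hirr.not_isUnit
  obtain ⟨K', hF, hA, O', hdvr, hfr, s, u, h, hu⟩ :=
    CycloExt.exists_midEmb_closed K ι M0 q hq.out hqM0 O hqO
  exact ⟨threeValOfMidEmb ι h hu hirr hprime sv⟩

end Fermat.Agent.S36.V.ThreeValExistsC
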